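import Fermat.Agent.Carayol.Euler

/-!
# Polynomials in two variables
-/

set_option autoImplicit false

noncomputable section

open Polynomial ModularCurve

namespace FLTAgent.Carayol

variable {W A B : Type*} [CommRing W] [CommRing A] [CommRing B]

/-- Evaluation of a polynomial in two variables, the inner one first. -/
def bv (f : W →+* A) (Y X : A) : Polynomial (Polynomial W) →+* A :=
  eval₂RingHom (eval₂RingHom f Y) X

theorem map_bv (g : A →+* B) (f : W →+* A) (Y X : A) (P : Polynomial (Polynomial W)) :
    g (bv f Y X P) = bv (g.comp f) (g Y) (g X) P := by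
  simp only [bv, coe_eval₂RingHom, hom_eval₂]
  congr 1
  ext w <;> simp

theorem bv_C (f : W →+* A) (Y X : A) (p : Polynomial W) : bv f Y X (C p) = p.eval₂ f Y := by
  simp [bv]

theorem bv_X (f : W →+* A) (Y X : A) : bv f Y X Polynomial.X = X := by simp [bv]

theorem bv_eq_eval_map (f : W →+* A) (Y X : A) (P : Polynomial (Polynomial W)) :
    bv f Y X P = (P.map (eval₂RingHom f Y)).eval X := by
  rw [eval_map]; rfl

theorem bv_monomial (f : W →+* A) (Y X : A) (i : ℕ) (a : Polynomial W) :
    bv f Y X (monomial i a) = a.eval₂ f Y * X ^ i := by simp [bv]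

theorem bv_map {W' : Type*} [CommRing W'] (j : W →+* W') (f : W' →+* A) (Y X : A)
    (P : Polynomial (Polynomial W)) :
    bv f Y X (P.map (mapRingHom j)) = bv (f.comp j) Y X P := by
  simp only [bv, coe_eval₂RingHom, eval₂_map]
  congr 1
  ext w <;> simp

/-- The derivative in the inner variable. -/
def dInner (P : Polynomial (Polynomial W)) : Polynomial (Polynomial W) :=
  P.sum fun i a => monomial i (derivative a)

theorem dInner_add (P Q : Polynomial (Polynomial W)) : dInner (P + Q) = dInner P + dInner Q :=
  Polynomial.sum_add_index P Q _ (fun i => by simp) fun i a b => by simp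

theorem dInner_monomial (i : ℕ) (a : Polynomial W) :
    dInner (monomial i a) = monomial i (derivative a) :=
  Polynomial.sum_monomial_index a _ (by simp)

theorem dInner_C_mul (a : Polynomial W) (P : Polynomial (Polynomial W)) :
    dInner (C a * P) = C (derivative a) * P + C a * dInner P := by
  induction P using Polynomial.induction_on' with
  | add p q hp hq => rw [mul_add, dInner_add, hp, hq, dInner_add]; ring
  | monomial i b =>
    rw [C_mul_monomial, dInner_monomial, dInner_monomial, C_mul_monomial, C_mul_monomial,
      derivative_mul, map_add]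

theorem eul_pow {R : Type*} [CommRing R] (X : LaurentSeries R) (i : ℕ) :
    eul (X ^ i) = (i : LaurentSeries R) * X ^ (i - 1) * eul X := by
  induction i with
  | zero =>
    rw [pow_zero, ← map_one (HahnSeries.C : R →+* LaurentSeries R), eul_C]
    simp
  | succ i ih =>
    rw [pow_succ, eul_mul, ih, Nat.add_sub_cancel]
    rcases Nat.eq_zero_or_pos i with rfl | hi
    · simp
    · conv_rhs => rw [← Nat.sub_add_cancel hi, pow_succ]
      rw [Nat.sub_add_cancel hi]
      push_cast
      conv_lhs => rw [← Nat.sub_add_cancel hi, pow_succ, Nat.sub_add_cancel hi]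
      ring

theorem eul_eval₂ {R : Type*} [CommRing R] (f : W →+* R) (Y : LaurentSeries R) (p : Polynomial W) :
    eul (p.eval₂ ((HahnSeries.C).comp f) Y) =
      (derivative p).eval₂ ((HahnSeries.C).comp f) Y * eul Y := by
  induction p using Polynomial.induction_on' with
  | add p q hp hq => rw [eval₂_add, eul_add, hp, hq, derivative_add, eval₂_add, add_mul]
  | monomial i a =>
    rw [eval₂_monomial, RingHom.comp_apply, eul_mul, eul_C, zero_mul, zero_add, eul_pow,
      derivative_monomial, eval₂_monomial, map_mul, map_natCast]
    simp only [RingHom.comp_apply]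
    ring

/-- The chain rule for the Euler operator. -/
theorem eul_bv {R : Type*} [CommRing R] (f : W →+* R) (Y X : LaurentSeries R)
    (P : Polynomial (Polynomial W)) :
    eul (bv ((HahnSeries.C).comp f) Y X P) =
      bv ((HahnSeries.C).comp f) Y X (derivative P) * eul X +
        bv ((HahnSeries.C).comp f) Y X (dInner P) * eul Y := by
  induction P using Polynomial.induction_on' with
  | add p q hp hq =>
    rw [map_add, eul_add, hp, hq, derivative_add, map_add, dInner_add, map_add]
    ring
  | monomial i a =>
    rw [bv_monomial, eul_mul, eul_eval₂, eul_pow, derivative_monomial, dInner_monomial, bv_monomial,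
      bv_monomial, eval₂_mul, eval₂_natCast]
    ring

/-- Divided differences. -/
theorem exists_divided (f : W →+* A) (x z a c : A) (P : Polynomial (Polynomial W)) :
    ∃ P₁ P₂ : A, bv f x a P - bv f z c P = (a - c) * P₁ + (x - z) * P₂ ∧
      P₁ - bv f x a (derivative P) ∈ Ideal.span {a - c, x - z} ∧
      P₂ - bv f x a (dInner P) ∈ Ideal.span {a - c, x - z} := by
  induction P using Polynomial.induction_on' with
  | add p q hp hq =>
    obtain ⟨a1, b1, h1, h2, h3⟩ := hp
    obtain ⟨a2, b2, g1, g2, g3⟩ := hq
    refine ⟨a1 + a2, b1 + b2, ?_, ?_, ?_⟩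
    · rw [map_add, map_add]; linear_combination h1 + g1
    · rw [derivative_add, map_add]
      convert add_mem h2 g2 using 1; ring
    · rw [dInner_add, map_add]
      convert add_mem h3 g3 using 1; ring
  | monomial i p =>
    set I : Ideal A := Ideal.span {a - c, x - z}
    have hx : x - z ∈ I := Ideal.subset_span (by simp)
    have ha : a - c ∈ I := Ideal.subset_span (by simp)
    obtain ⟨k, hk⟩ := Polynomial.binomExpansion (Polynomial.X ^ i : Polynomial A) a (c - a)
    obtain ⟨l, hl⟩ := Polynomial.binomExpansion (p.map f) x (z - x)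
    simp only [add_sub_cancel, eval_pow, eval_X, derivative_X_pow, eval_mul, eval_C,
      eval_map, derivative_map] at hk hl
    refine ⟨p.eval₂ f x * ((i : A) * a ^ (i - 1) - k * (a - c)),
      ((derivative p).eval₂ f x - l * (x - z)) * c ^ i, ?_, ?_, ?_⟩
    · rw [bv_monomial, bv_monomial, hl]
      linear_combination (-(p.eval₂ f x)) * hk
    · rw [derivative_monomial, bv_monomial, eval₂_mul, eval₂_natCast]
      rw [show p.eval₂ f x * ((i : A) * a ^ (i - 1) - k * (a - c)) -
        p.eval₂ f x * (i : A) * a ^ (i - 1) = -(p.eval₂ f x * k) * (a - c) by ring]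
      exact I.mul_mem_left _ ha
    · rw [dInner_monomial, bv_monomial]
      rw [show ((derivative p).eval₂ f x - l * (x - z)) * c ^ i - (derivative p).eval₂ f x * a ^ i =
        -(derivative p).eval₂ f x * (a ^ i - c ^ i) - l * c ^ i * (x - z) by ring]
      exact sub_mem (I.mul_mem_left _ (Ideal.mem_of_dvd _ (sub_dvd_pow_sub_pow _ _ i) ha))
        (I.mul_mem_left _ hx)

end FLTAgent.Carayol
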