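import Fermat.Agent.Mazur.Value
import Fermat.Agent.FrobTrace.Global

/-!
# Constants: the inertia field at a place and its tame cyclotomic extension
-/

set_option autoImplicit false
set_option linter.style.haveILetI false

noncomputable section

namespace FLTAgent.Carayol

open IsLocalRing

local notation "QA" => AlgebraicClosure ℚ
local notation "GG" => (AlgebraicClosure ℚ ≃ₐ[ℚ] AlgebraicClosure ℚ)

variable (A : ValuationSubring QA)

/-- The field fixed by inertia. -/
def K0 : IntermediateField ℚ QA := IntermediateField.fixedField (A.inertiaSubgroupIn ℚ)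

variable {A}

theorem mem_K0 {x : QA} : x ∈ K0 A ↔ ∀ σ ∈ A.inertiaSubgroupIn ℚ, σ x = x :=
  IntermediateField.mem_fixedField_iff _ _

theorem valuation_eq_one_of_pow_eq_one {z : QA} {m : ℕ} (hm : m ≠ 0) (hz : z ^ m = 1) :
    A.valuation z = 1 :=
  (pow_eq_one_iff_of_nonneg zero_le hm).1 (by rw [← map_pow, hz, map_one])

variable (A)

/-- The integers at the place of a subfield. -/
def intAt (K : IntermediateField ℚ QA) : Subring QA := A.toSubring ⊓ K.toSubfield.toSubring

/-- The integers of a subfield as integers of the place. -/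
def toA (K : IntermediateField ℚ QA) : intAt A K →+* A :=
  (intAt A K).subtype.codRestrict A.toSubring fun x => x.2.1

theorem toA_injective (K : IntermediateField ℚ QA) : Function.Injective (toA A K) := fun x y h =>
  Subtype.ext (congrArg (fun z : A => (z : QA)) h)

variable {A}

/-- A root of unity of order prime to `q` is fixed by inertia. -/
theorem mem_K0_of_pow_eq_one {q : ℕ} [Fact q.Prime] (hA : A.LiesOverPrime q) {z : QA} {m : ℕ}
    (hm : ¬ q ∣ m) (hz : z ^ m = 1) : z ∈ K0 A := by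
  rw [mem_K0]
  intro σ hσ
  have hm0 : m ≠ 0 := fun h => hm (h ▸ dvd_zero q)
  have hz0 : z ≠ 0 := fun h => by simp [h, zero_pow hm0] at hz
  have hval : A.valuation z = 1 := valuation_eq_one_of_pow_eq_one hm0 hz
  have hzA : z ∈ A := (A.valuation_le_one_iff z).1 hval.le
  have hd := ((Places.mem_inertia_iff A).1 hσ).2 z hzA
  have hσA : σ z ∈ A := Places.smul_mem_of_decomposition A (Places.inertia_le_decomposition A hσ) hzA
  haveI := FrobTrace.charP_residueField hA
  by_contra hne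
  -- distinct roots of `X ^ m - 1` stay distinct
  set w : QA := σ z / z
  have hw : w ^ m = 1 := by rw [div_pow, ← map_pow, hz, map_one, one_div_one]
  have hw1 : w ≠ 1 := fun h => hne (by rwa [div_eq_one_iff_eq hz0] at h)
  have hsum : ∑ i ∈ Finset.range m, w ^ i = 0 := by
    have := geom_sum_mul w m
    rw [hw, sub_self, mul_eq_zero] at this
    exact this.resolve_right (sub_ne_zero.2 hw1)
  have hwval : A.valuation w = 1 := valuation_eq_one_of_pow_eq_one hm0 hw
  have hwA : w ∈ A := (A.valuation_le_one_iff w).1 hwval.le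
  have hres : residue A ⟨w, hwA⟩ = 1 := by
    rw [← map_one (residue A), ← sub_eq_zero, ← map_sub, residue_eq_zero_iff,
      ← ValuationSubring.coe_mem_nonunits_iff, ValuationSubring.mem_nonunits_iff]
    show A.valuation (w - 1) < 1
    rw [show w - 1 = (σ z - z) / z by rw [sub_div, div_self hz0], map_div₀, hval, div_one]
    exact A.mem_nonunits_iff.1 hd
  have h0 : (m : ResidueField A) = 0 := by
    have h1 : residue A (∑ i ∈ Finset.range m, (⟨w, hwA⟩ : A) ^ i) = 0 := by
      rw [show (∑ i ∈ Finset.range m, (⟨w, hwA⟩ : A) ^ i) = 0 from Subtype.ext (by push_cast; exact hsum),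
        map_zero]
    rw [map_sum, Finset.sum_congr rfl fun i _ => by rw [map_pow, hres, one_pow]] at h1
    simpa using h1
  exact hm ((CharP.cast_eq_zero_iff (ResidueField A) q m).1 h0)

theorem exists_pow_eq_one_residue {q : ℕ} [Fact q.Prime] (hA : A.LiesOverPrime q)
    {x : ResidueField A} (hx : x ≠ 0) : ∃ m, ¬ q ∣ m ∧ x ^ m = 1 := by
  haveI := FrobTrace.charP_residueField hA
  letI := ZMod.algebra (ResidueField A) q
  haveI := FrobTrace.isAlgebraic_residueField hA
  let E := IntermediateField.adjoin (ZMod q) {x}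
  haveI : FiniteDimensional (ZMod q) E :=
    IntermediateField.adjoin.finiteDimensional (Algebra.IsAlgebraic.isAlgebraic x).isIntegral
  haveI : Finite E := Module.finite_of_finite (ZMod q)
  haveI := Fintype.ofFinite E
  let e : E := ⟨x, IntermediateField.mem_adjoin_simple_self _ x⟩
  have he : e ≠ 0 := fun h => hx (congrArg Subtype.val h)
  refine ⟨Fintype.card E - 1, fun hdvd => ?_, ?_⟩
  · haveI : CharP E q := charP_of_injective_algebraMap (algebraMap (ZMod q) E).injective q
    obtain ⟨n, -, hcard⟩ := FiniteField.card E q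
    have h1 : 1 ≤ Fintype.card E := Fintype.card_pos
    have h2 : (q : ℤ) ∣ (Fintype.card E : ℤ) := by
      rw [hcard]; push_cast; exact dvd_pow_self _ n.2.ne'
    have h3 : (q : ℤ) ∣ (Fintype.card E : ℤ) - 1 := by
      rw [← Nat.cast_one (R := ℤ), ← Nat.cast_sub h1]; exact Int.natCast_dvd_natCast.2 hdvd
    have h4 : (q : ℤ) ∣ 1 := by simpa using dvd_sub h2 h3
    exact (Fact.out : q.Prime).not_dvd_one (Int.natCast_dvd_natCast.1 h4)
  · exact congrArg Subtype.val (FiniteField.pow_card_sub_one_eq_one e he)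

/-- Residues lift to the inertia field. -/
theorem exists_residue_eq {q : ℕ} [Fact q.Prime] (hA : A.LiesOverPrime q) (x : ResidueField A) :
    ∃ z : A, (z : QA) ∈ K0 A ∧ residue A z = x := by
  rcases eq_or_ne x 0 with rfl | hx
  · exact ⟨0, (K0 A).zero_mem, map_zero _⟩
  obtain ⟨m, hm, hxm⟩ := exists_pow_eq_one_residue hA hx
  haveI := FrobTrace.charP_residueField hA
  have hm0 : m ≠ 0 := fun h => hm (h ▸ dvd_zero q)
  haveI : NeZero m := ⟨hm0⟩
  obtain ⟨ζ, hζ⟩ := HasEnoughRootsOfUnity.exists_primitiveRoot QA m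
  have hζA : ζ ∈ A :=
    (A.valuation_le_one_iff ζ).1 (valuation_eq_one_of_pow_eq_one hm0 hζ.pow_eq_one).le
  have hres : IsPrimitiveRoot (residue A ⟨ζ, hζA⟩) m := by
    refine IsPrimitiveRoot.mk_of_lt _ (Nat.pos_of_ne_zero hm0) ?_ fun l hl0 hlm h => ?_
    · rw [← map_pow, show (⟨ζ, hζA⟩ : A) ^ m = 1 from Subtype.ext (by simpa using hζ.pow_eq_one), map_one]
    · have hw : ζ ^ l ≠ 1 := fun h1 => by
        have := Nat.le_of_dvd hl0 (hζ.dvd_of_pow_eq_one l h1); omega
      have hsum : ∑ i ∈ Finset.range m, (ζ ^ l) ^ i = 0 := by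
        have := geom_sum_mul (ζ ^ l) m
        rw [show (ζ ^ l) ^ m = 1 by rw [← pow_mul, mul_comm, pow_mul, hζ.pow_eq_one, one_pow],
          sub_self, mul_eq_zero] at this
        exact this.resolve_right (sub_ne_zero.2 hw)
      have h1 : residue A (∑ i ∈ Finset.range m, ((⟨ζ, hζA⟩ : A) ^ l) ^ i) = 0 := by
        rw [show (∑ i ∈ Finset.range m, ((⟨ζ, hζA⟩ : A) ^ l) ^ i) = 0 from
          Subtype.ext (by push_cast; exact hsum), map_zero]
      have h0 : (m : ResidueField A) = 0 := by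
        rw [map_sum, Finset.sum_congr rfl fun i _ => by rw [map_pow, map_pow, h, one_pow]] at h1
        simpa using h1
      exact hm ((CharP.cast_eq_zero_iff (ResidueField A) q m).1 h0)
  obtain ⟨i, -, hi⟩ := hres.eq_pow_of_pow_eq_one hxm
  refine ⟨(⟨ζ, hζA⟩ : A) ^ i, ?_, by rw [map_pow, hi]⟩
  push_cast
  exact mem_K0_of_pow_eq_one hA hm (by rw [← pow_mul, mul_comm, pow_mul, hζ.pow_eq_one, one_pow])

variable (A) in
/-- The integers of a subfield form a discrete valuation ring once their values are powers of the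
value of a uniformiser. -/
theorem isDiscreteValuationRing_intAt {K : IntermediateField ℚ QA} {p : QA} (hpK : p ∈ K)
    (hp0 : p ≠ 0) (hp : A.valuation p < 1)
    (hval : ∀ x ∈ K, x ≠ 0 → ∃ i : ℤ, A.valuation x = A.valuation p ^ i) :
    IsDiscreteValuationRing (intAt A K) ∧
      ∃ ϖ : intAt A K, Irreducible ϖ ∧ (ϖ : QA) = p := by
  set ϖ : intAt A K := ⟨p, (A.valuation_le_one_iff p).1 hp.le, hpK⟩
  have hunit : ∀ u : intAt A K, A.valuation (u : QA) = 1 → IsUnit u := fun u hu => by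
    have hu0 : (u : QA) ≠ 0 := fun h => by simp [h] at hu
    refine IsUnit.of_mul_eq_one ⟨(u : QA)⁻¹, (A.valuation_le_one_iff _).1 (by rw [map_inv₀, hu, inv_one]),
      K.inv_mem u.2.2⟩ (Subtype.ext (mul_inv_cancel₀ hu0))
  have hunit' : ∀ u : intAt A K, IsUnit u → A.valuation (u : QA) = 1 := fun u hu => by
    obtain ⟨v, hv⟩ := hu.exists_right_inv
    have h1 := congrArg (fun z : intAt A K => A.valuation (z : QA)) hv
    simp only [Subring.coe_mul, map_mul, Subring.coe_one, map_one] at h1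
    refine le_antisymm ((A.valuation_le_one_iff _).2 u.2.1) ?_
    calc (1 : A.ValueGroup) = A.valuation (u : QA) * A.valuation (v : QA) := h1.symm
      _ ≤ A.valuation (u : QA) * 1 := mul_le_mul_right ((A.valuation_le_one_iff _).2 v.2.1) _
      _ = _ := mul_one _
  have hp0' : A.valuation p ≠ 0 := (Valuation.ne_zero_iff _).2 hp0
  have hlt : ∀ i : ℤ, A.valuation p ^ i ≤ 1 → 0 ≤ i := fun i hi => by
    by_contra hneg
    exact absurd hi (not_le.2 (one_lt_zpow_of_neg₀ (zero_lt_iff.2 hp0') hp (not_le.1 hneg)))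
  have hfac : ∀ {x : intAt A K}, x ≠ 0 → ∃ n : ℕ, Associated (ϖ ^ n) x := by
    intro x hx
    have hx0 : (x : QA) ≠ 0 := fun h => hx (Subtype.ext h)
    obtain ⟨i, hi⟩ := hval x x.2.2 hx0
    obtain ⟨n, rfl⟩ := Int.eq_ofNat_of_zero_le (hlt i (hi ▸ (A.valuation_le_one_iff _).2 x.2.1))
    rw [zpow_natCast] at hi
    set u : QA := (x : QA) / p ^ n
    have hu : A.valuation u = 1 := by rw [map_div₀, map_pow, hi, div_self (pow_ne_zero _ hp0')]
    refine ⟨n, (hunit ⟨u, (A.valuation_le_one_iff _).1 hu.le, K.div_mem x.2.2 (pow_mem hpK n)⟩ hu).unit,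
      Subtype.ext ?_⟩
    show p ^ n * u = x
    rw [mul_div_cancel₀ _ (pow_ne_zero _ hp0)]
  have hirr : Irreducible ϖ := by
    refine ⟨fun h => hp.ne (hunit' ϖ h), fun a b hab => ?_⟩
    have ha0 : (a : QA) ≠ 0 := fun h => hp0 (by rw [show p = (ϖ : QA) from rfl, hab]; simp [h])
    have hb0 : (b : QA) ≠ 0 := fun h => hp0 (by rw [show p = (ϖ : QA) from rfl, hab]; simp [h])
    obtain ⟨i, hi⟩ := hval a a.2.2 ha0
    obtain ⟨j, hj⟩ := hval b b.2.2 hb0
    have h1 : A.valuation p ^ (1 : ℤ) = A.valuation p ^ (i + j) := by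
      rw [zpow_one, zpow_add₀ hp0', ← hi, ← hj, ← map_mul]
      exact congrArg (fun z : intAt A K => A.valuation (z : QA)) hab
    have h2 : (1 : ℤ) = i + j :=
      (zpow_right_strictAnti₀ (zero_lt_iff.2 hp0') hp).injective h1
    have hi0 := hlt i (hi ▸ (A.valuation_le_one_iff _).2 a.2.1)
    have hj0 := hlt j (hj ▸ (A.valuation_le_one_iff _).2 b.2.1)
    rcases (show i = 0 ∨ j = 0 by omega) with h | h
    · exact Or.inl (hunit a (by rw [hi, h, zpow_zero]))
    · exact Or.inr (hunit b (by rw [hj, h, zpow_zero]))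
  exact ⟨IsDiscreteValuationRing.ofHasUnitMulPowIrreducibleFactorization ⟨ϖ, hirr, hfac⟩, ϖ, hirr, rfl⟩

/-- The inertia field with the `q`th roots of unity. -/
def K1 (A : ValuationSubring QA) (ζ : QA) : IntermediateField ℚ QA := K0 A ⊔ IntermediateField.adjoin ℚ {ζ}

theorem K0_le_K1 (ζ : QA) : K0 A ≤ K1 A ζ := le_sup_left

theorem self_mem_K1 (ζ : QA) : ζ ∈ K1 A ζ :=
  (le_sup_right : IntermediateField.adjoin ℚ {ζ} ≤ K1 A ζ) (IntermediateField.mem_adjoin_simple_self ℚ ζ)

theorem inertia_congr_K1 {ζ : QA} {σ τ : GG} (hσ : σ ∈ A.inertiaSubgroupIn ℚ)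
    (hτ : τ ∈ A.inertiaSubgroupIn ℚ) (h : σ ζ = τ ζ) {x : QA} (hx : x ∈ K1 A ζ) : σ x = τ x := by
  let E : IntermediateField ℚ QA :=
    { carrier := {x | σ x = τ x}
      mul_mem' := fun {a b} ha hb => by simp only [Set.mem_setOf_eq, map_mul] at *; rw [ha, hb]
      add_mem' := fun {a b} ha hb => by simp only [Set.mem_setOf_eq, map_add] at *; rw [ha, hb]
      algebraMap_mem' := fun r => by simp
      inv_mem' := fun a ha => by simp only [Set.mem_setOf_eq, map_inv₀] at *; rw [ha] }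
  have h1 : K1 A ζ ≤ E := sup_le
    (fun y hy => show σ y = τ y by rw [(mem_K0).1 hy σ hσ, (mem_K0).1 hy τ hτ])
    (IntermediateField.adjoin_le_iff.2 (Set.singleton_subset_iff.2 h))
  exact h1 hx

theorem valuation_apply {σ : GG} (hσ : σ ∈ A.decompositionSubgroup ℚ) (z : QA) :
    A.valuation (σ z) = A.valuation z := by
  have hle : ∀ x y : QA, A.valuation x ≤ A.valuation y → A.valuation (σ x) ≤ A.valuation (σ y) := by
    intro x y hxy
    rcases eq_or_ne y 0 with rfl | hy
    · simp only [map_zero, le_zero_iff, Valuation.zero_iff] at hxy ⊢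
      simp [hxy]
    have h1 : x / y ∈ A := (A.valuation_le_one_iff _).1 (by
      rw [map_div₀]; exact (div_le_one₀ (zero_lt_iff.2 ((Valuation.ne_zero_iff _).2 hy))).2 hxy)
    have h2 := (A.valuation_le_one_iff _).2 (Places.smul_mem_of_decomposition A hσ h1)
    rw [map_div₀, map_div₀] at h2
    exact (div_le_one₀ (zero_lt_iff.2 ((Valuation.ne_zero_iff _).2 (by simpa using hy)))).1 h2
  -- the orbit is finite
  have halg : IsAlgebraic ℚ z := (AlgebraicClosure.isAlgebraic ℚ).isAlgebraic z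
  have hroot : ∀ i : ℕ, (σ : QA → QA)^[i] z ∈ (minpoly ℚ z).rootSet QA := by
    intro i
    induction i with
    | zero =>
      simp only [Function.iterate_zero, id, Polynomial.mem_rootSet, ne_eq]
      exact ⟨minpoly.ne_zero halg.isIntegral, minpoly.aeval ℚ z⟩
    | succ i ih =>
      rw [Function.iterate_succ', Function.comp, Polynomial.mem_rootSet] at *
      exact ⟨ih.1, by rw [← AlgEquiv.coe_algHom, Polynomial.aeval_algHom_apply, AlgEquiv.coe_algHom, ih.2, map_zero]⟩
  obtain ⟨a, -, b, -, hab, he⟩ := Set.infinite_univ.exists_ne_map_eq_of_mapsTo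
    (f := fun i : ℕ => (σ : QA → QA)^[i] z) (fun i _ => hroot i) (Polynomial.rootSet_finite _ _)
  obtain ⟨k, hk, hfix⟩ : ∃ k, 0 < k ∧ (σ : QA → QA)^[k] z = z := by
    rcases lt_or_gt_of_ne hab with h | h
    · refine ⟨b - a, by omega, (σ.injective.iterate a) ?_⟩
      rw [← Function.iterate_add_apply, Nat.add_sub_cancel' h.le]; exact he.symm
    · refine ⟨a - b, by omega, (σ.injective.iterate b) ?_⟩
      rw [← Function.iterate_add_apply, Nat.add_sub_cancel' h.le]; exact he
  rcases le_total (A.valuation (σ z)) (A.valuation z) with h | h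
  · refine le_antisymm h ?_
    have : ∀ i : ℕ, A.valuation ((σ : QA → QA)^[i + 1] z) ≤ A.valuation (σ z) := by
      intro i
      induction i with
      | zero => exact le_rfl
      | succ i ih =>
        rw [Function.iterate_succ', Function.comp]
        exact le_trans (hle _ _ (ih.trans h)) le_rfl
    have h2 := this (k - 1)
    rwa [Nat.sub_add_cancel hk, hfix] at h2
  · refine le_antisymm ?_ h
    have : ∀ i : ℕ, A.valuation (σ z) ≤ A.valuation ((σ : QA → QA)^[i + 1] z) := by
      intro i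
      induction i with
      | zero => exact le_rfl
      | succ i ih =>
        rw [Function.iterate_succ', Function.comp]
        exact hle _ _ (h.trans ih)
    have h2 := this (k - 1)
    rwa [Nat.sub_add_cancel hk, hfix] at h2

theorem valuation_sub_one_le {q : ℕ} [Fact q.Prime] {ζ μ : QA} (hζ : IsPrimitiveRoot ζ q)
    (hμ : μ ^ q = 1) : A.valuation (μ - 1) ≤ A.valuation (ζ - 1) := by
  haveI : NeZero q := ⟨(Fact.out : q.Prime).ne_zero⟩
  obtain ⟨j, -, rfl⟩ := hζ.eq_pow_of_pow_eq_one hμ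
  have hζA : ζ ∈ A := (A.valuation_le_one_iff ζ).1
    (valuation_eq_one_of_pow_eq_one (NeZero.ne q) hζ.pow_eq_one).le
  rw [← geom_sum_mul, map_mul]
  refine mul_le_of_le_one_left' ?_
  exact (A.valuation_le_one_iff _).2 (sum_mem fun i _ => pow_mem hζA i)

theorem valuation_natCast_eq {q : ℕ} [Fact q.Prime] (hA : A.LiesOverPrime q) {ζ : QA}
    (hζ : IsPrimitiveRoot ζ q) : A.valuation (q : QA) = A.valuation (ζ - 1) ^ (q - 1) := by
  have hq : q.Prime := Fact.out
  haveI : NeZero q := ⟨hq.ne_zero⟩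
  have h1 : (Polynomial.cyclotomic q QA).eval 1 = (q : QA) :=
    Polynomial.eval_one_cyclotomic_prime
  rw [Polynomial.cyclotomic_eq_prod_X_sub_primitiveRoots hζ, Polynomial.eval_prod] at h1
  rw [← h1, map_prod, Finset.prod_congr rfl fun μ hμ => ?_, Finset.prod_const, hζ.card_primitiveRoots,
    Nat.totient_prime hq]
  have hμ' := (mem_primitiveRoots hq.pos).1 hμ
  rw [Polynomial.eval_sub, Polynomial.eval_X, Polynomial.eval_C, ← Valuation.map_neg, neg_sub]
  exact le_antisymm (valuation_sub_one_le hζ hμ'.pow_eq_one) (valuation_sub_one_le hμ' hζ.pow_eq_one)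

theorem valuation_sub_one_lt {q : ℕ} [Fact q.Prime] (hA : A.LiesOverPrime q) {ζ : QA}
    (hζ : IsPrimitiveRoot ζ q) : A.valuation (ζ - 1) < 1 := by
  by_contra h
  have h2 := one_le_pow₀ (not_lt.1 h) (n := q - 1)
  rw [← valuation_natCast_eq hA hζ] at h2
  exact absurd (A.mem_nonunits_iff.mp hA) (not_lt.2 h2)

theorem exists_zpow_K1 {q : ℕ} [Fact q.Prime] (hA : A.LiesOverPrime q) {ζ : QA}
    (hζ : IsPrimitiveRoot ζ q) {x : QA} (hx : x ∈ K1 A ζ) (hx0 : x ≠ 0) :
    ∃ i : ℤ, A.valuation x = A.valuation (ζ - 1) ^ i := by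
  classical
  have hq : q.Prime := Fact.out
  set T : Finset QA := (primitiveRoots q QA).filter fun w => ∃ σ ∈ A.inertiaSubgroupIn ℚ, σ ζ = w
  have hT : ∀ w ∈ T, ∃ σ ∈ A.inertiaSubgroupIn ℚ, σ ζ = w := fun w hw => (Finset.mem_filter.1 hw).2
  choose! s hsI hsw using hT
  have hmemT : ∀ σ ∈ A.inertiaSubgroupIn ℚ, σ ζ ∈ T := fun σ hσ =>
    Finset.mem_filter.2 ⟨(mem_primitiveRoots hq.pos).2 (hζ.map_of_injective σ.injective), σ, hσ, rfl⟩
  -- the norm to the inertia field
  have hnorm : ∀ {y : QA}, y ∈ K1 A ζ → ∏ w ∈ T, s w y ∈ K0 A := by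
    intro y hy
    rw [mem_K0]
    intro τ hτ
    rw [map_prod]
    refine Finset.prod_bij' (fun w _ => τ w) (fun w _ => τ.symm w) ?_ ?_ ?_ ?_ ?_
    · intro w hw
      rw [← hsw w hw]
      exact hmemT (τ * s w) (mul_mem hτ (hsI w hw))
    · intro w hw
      rw [← hsw w hw]
      exact hmemT (τ⁻¹ * s w) (mul_mem (inv_mem hτ) (hsI w hw))
    · intro w _; simp
    · intro w _; simp
    · intro w hw
      have hw' : τ w ∈ T := by rw [← hsw w hw]; exact hmemT (τ * s w) (mul_mem hτ (hsI w hw))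
      exact inertia_congr_K1 (σ := τ * s w) (mul_mem hτ (hsI w hw)) (hsI _ hw')
        (by rw [hsw _ hw']; show τ (s w ζ) = τ w; rw [hsw w hw]) hy
  have hval : ∀ {y : QA}, y ∈ K1 A ζ → y ≠ 0 →
      ∃ i : ℤ, A.valuation y ^ T.card = A.valuation (q : QA) ^ i := by
    intro y hy hy0
    have hne : ∏ w ∈ T, s w y ≠ 0 := Finset.prod_ne_zero_iff.2 fun w _ => by simpa using hy0
    obtain ⟨i, hi⟩ := Mazur.exists_zpow_valuation A hq hA hne ((mem_K0).1 (hnorm hy))
    refine ⟨i, ?_⟩
    rw [← hi, map_prod, Finset.prod_congr rfl fun w hw => ?_, Finset.prod_const]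
    exact valuation_apply (Places.inertia_le_decomposition A (hsI w hw)) y
  have hqv := valuation_natCast_eq (A := A) hA hζ
  obtain ⟨i, hi⟩ := hval hx hx0
  have h1 : ζ - 1 ∈ K1 A ζ := sub_mem (self_mem_K1 ζ) (one_mem _)
  have h1' : ζ - 1 ≠ 0 := sub_ne_zero.2 (hζ.ne_one hq.one_lt)
  obtain ⟨j, hj⟩ := hval h1 h1'
  have hc : A.valuation (ζ - 1) ≠ 0 := (Valuation.ne_zero_iff _).2 h1'
  have hlt : A.valuation (ζ - 1) < 1 := valuation_sub_one_lt hA hζ
  have hinj := (zpow_right_strictAnti₀ (zero_lt_iff.2 hc) hlt).injective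
  -- the degree of the extension
  have hcard : T.card = q - 1 := by
    have hle : T.card ≤ q - 1 := by
      refine (Finset.card_le_card (Finset.filter_subset _ _)).trans (le_of_eq ?_)
      rw [hζ.card_primitiveRoots, Nat.totient_prime hq]
    have he : A.valuation (ζ - 1) ^ (T.card : ℤ) = A.valuation (ζ - 1) ^ (((q - 1 : ℕ) : ℤ) * j) := by
      rw [zpow_natCast, hj, hqv, zpow_mul, zpow_natCast]
    have he' : (T.card : ℤ) = ((q - 1 : ℕ) : ℤ) * j := hinj he
    have hpos : 0 < T.card := Finset.card_pos.2 ⟨ζ, hmemT 1 (one_mem _)⟩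
    have hdvd : (q - 1 : ℕ) ∣ T.card := Int.natCast_dvd_natCast.1 ⟨j, he'⟩
    exact le_antisymm hle (Nat.le_of_dvd hpos hdvd)
  refine ⟨i, ?_⟩
  have hq1 : q - 1 ≠ 0 := by have := hq.two_le; omega
  refine (pow_left_inj₀ zero_le zero_le hq1).1 ?_
  rw [← hcard, hi, hqv, hcard, ← zpow_natCast, ← zpow_mul, ← zpow_natCast, ← zpow_mul, mul_comm]

theorem isDiscreteValuationRing_K0 {q : ℕ} [Fact q.Prime] (hA : A.LiesOverPrime q) :
    IsDiscreteValuationRing (intAt A (K0 A)) ∧
      ∃ ϖ : intAt A (K0 A), Irreducible ϖ ∧ (ϖ : QA) = q :=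
  isDiscreteValuationRing_intAt A (natCast_mem (K0 A) q)
    (Nat.cast_ne_zero.2 (Fact.out : q.Prime).ne_zero) (A.mem_nonunits_iff.mp hA)
    fun _ hx hx0 => Mazur.exists_zpow_valuation A Fact.out hA hx0 ((mem_K0).1 hx)

theorem isDiscreteValuationRing_K1 {q : ℕ} [Fact q.Prime] (hA : A.LiesOverPrime q) {ζ : QA}
    (hζ : IsPrimitiveRoot ζ q) :
    IsDiscreteValuationRing (intAt A (K1 A ζ)) ∧
      ∃ ϖ : intAt A (K1 A ζ), Irreducible ϖ ∧ (ϖ : QA) = ζ - 1 :=
  isDiscreteValuationRing_intAt A (sub_mem (self_mem_K1 ζ) (one_mem _))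
    (sub_ne_zero.2 (hζ.ne_one (Fact.out : q.Prime).one_lt)) (valuation_sub_one_lt hA hζ)
    fun _ hx hx0 => exists_zpow_K1 hA hζ hx hx0

theorem residue_toA_surjective {q : ℕ} [Fact q.Prime] (hA : A.LiesOverPrime q)
    {K : IntermediateField ℚ QA} (hK : K0 A ≤ K) :
    Function.Surjective fun x => residue A (toA A K x) := fun x => by
  obtain ⟨z, hz, hzx⟩ := exists_residue_eq hA x
  exact ⟨⟨z, z.2, hK hz⟩, hzx⟩

theorem dvd_of_residue_eq_zero {K : IntermediateField ℚ QA} [IsDiscreteValuationRing (intAt A K)]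
    {ϖ : intAt A K} (hϖ : Irreducible ϖ) {x : intAt A K} (h : residue A (toA A K x) = 0) :
    ϖ ∣ x := by
  rw [← Ideal.mem_span_singleton, ← hϖ.maximalIdeal_eq, IsLocalRing.mem_maximalIdeal, mem_nonunits_iff]
  exact fun hu => (hu.map ((residue A).comp (toA A K))).ne_zero h

end FLTAgent.Carayol
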