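import Fermat.Agent.Carayol.Descend
import Fermat.Agent.Carayol.Orders
import Fermat.Agent.Carayol.Const
import Fermat.Agent.Specialization.Valuation

/-!
# The constants of the auxiliary cover at a place over `q`
-/

set_option autoImplicit false
set_option linter.unusedSectionVars false
set_option linter.style.haveILetI false
set_option linter.unreachableTactic false
set_option linter.unusedTactic false

noncomputable section

open Function IsLocalRing FLTAgent.GoodModel
open scoped Classical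

namespace FLTAgent.Carayol

local notation "QA" => AlgebraicClosure ℚ
local notation "GG" => (AlgebraicClosure ℚ ≃ₐ[ℚ] AlgebraicClosure ℚ)
local notation "κA" => Kronecker.complexEmb

variable {A : ValuationSubring QA} {q : ℕ} [Fact q.Prime]

theorem valuation_natCast_eq_one (hA : A.LiesOverPrime q) {m : ℕ} (hm : ¬ q ∣ m) :
    A.valuation (m : QA) = 1 := by
  haveI := FrobTrace.charP_residueField hA
  have h0 : residue A (m : A) ≠ 0 := by
    rw [map_natCast]
    exact fun h => hm ((CharP.cast_eq_zero_iff (ResidueField A) q m).1 h)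
  rw [Ne, residue_eq_zero_iff, IsLocalRing.mem_maximalIdeal, mem_nonunits_iff, not_not] at h0
  have h1 := (A.valuation_eq_one_iff _).1 h0
  simpa using h1

theorem isUnit_natCast_intAt (hA : A.LiesOverPrime q) (K : IntermediateField ℚ QA) {m : ℕ}
    (hm : ¬ q ∣ m) : IsUnit (m : intAt A K) := by
  have hm0 : (m : QA) ≠ 0 := Nat.cast_ne_zero.2 fun h => hm (h ▸ dvd_zero q)
  refine IsUnit.of_mul_eq_one (⟨(m : QA)⁻¹, ?_, K.inv_mem (natCast_mem K m)⟩ : intAt A K) ?_
  · exact (A.valuation_le_one_iff _).1 (by rw [map_inv₀, valuation_natCast_eq_one hA hm, inv_one])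
  · exact Subtype.ext (by push_cast; exact mul_inv_cancel₀ hm0)

/-- The integers of a subfield as complex numbers. -/
def cInt (A : ValuationSubring QA) (K : IntermediateField ℚ QA) : Subring ℂ := (intAt A K).map κA

/-- The integers of a subfield and their images. -/
def eInt (A : ValuationSubring QA) (K : IntermediateField ℚ QA) : intAt A K ≃+* cInt A K :=
  Subring.equivMapOfInjective _ κA (κA).injective

@[simp] theorem coe_eInt (K : IntermediateField ℚ QA) (x : intAt A K) :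
    ((eInt A K x : cInt A K) : ℂ) = κA (x : QA) := rfl

theorem eInt_symm (K : IntermediateField ℚ QA) (x : cInt A K) :
    κA (((eInt A K).symm x : intAt A K) : QA) = (x : ℂ) := by
  rw [← coe_eInt, RingEquiv.apply_symm_apply]

theorem cInt_mono {K L : IntermediateField ℚ QA} (h : K ≤ L) : cInt A K ≤ cInt A L := by
  rintro _ ⟨x, hx, rfl⟩
  exact ⟨x, ⟨hx.1, h hx.2⟩, rfl⟩

theorem cInt_le_range (K : IntermediateField ℚ QA) : cInt A K ≤ (κA).range := by
  rintro _ ⟨x, -, rfl⟩
  exact ⟨x, rfl⟩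

theorem zetaN_pow {a b : ℕ} [NeZero a] [NeZero b] [NeZero (a * b)] :
    ((zetaN (a * b) : ℂˣ) : ℂ) ^ b = zetaN a := by
  have : (a : ℂ) ≠ 0 := Nat.cast_ne_zero.mpr (NeZero.ne a)
  have : (b : ℂ) ≠ 0 := Nat.cast_ne_zero.mpr (NeZero.ne b)
  simp only [zetaN, Units.val_mk0]
  rw [← Complex.exp_nat_mul]
  congr 1
  push_cast
  field_simp

theorem exists_preimage_zetaN (n : ℕ) [NeZero n] :
    ∃ z : QA, IsPrimitiveRoot z n ∧ κA z = zetaN n := by
  obtain ⟨z0, hz0⟩ := HasEnoughRootsOfUnity.exists_primitiveRoot QA n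
  have h0 := hz0.map_of_injective (f := κA) (κA).injective
  have h1 : IsPrimitiveRoot ((zetaN n : ℂˣ) : ℂ) n :=
    zetaN_primitive.map_of_injective (f := Units.coeHom ℂ) Units.val_injective
  obtain ⟨i, -, hi⟩ := h0.eq_pow_of_pow_eq_one h1.pow_eq_one
  rw [← map_pow] at hi
  exact ⟨z0 ^ i, IsPrimitiveRoot.of_map_of_injective (f := κA) (by rw [hi]; exact h1) (κA).injective, hi⟩

theorem inertia_maps_K1 {ζ : QA} (hζ : IsPrimitiveRoot ζ q) {σ : GG}
    (hσ : σ ∈ A.inertiaSubgroupIn ℚ) {x : QA} (hx : x ∈ K1 A ζ) : σ x ∈ K1 A ζ := by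
  haveI : NeZero q := ⟨(Fact.out : q.Prime).ne_zero⟩
  have h1 : K1 A ζ ≤ (K1 A ζ).comap (σ : QA →ₐ[ℚ] QA) := by
    refine sup_le (fun y hy => ?_) (IntermediateField.adjoin_le_iff.2 (Set.singleton_subset_iff.2 ?_))
    · show σ y ∈ K1 A ζ
      rw [(mem_K0).1 hy σ hσ]
      exact K0_le_K1 ζ hy
    · show σ ζ ∈ K1 A ζ
      obtain ⟨i, -, hi⟩ := hζ.eq_pow_of_pow_eq_one
        (show σ ζ ^ q = 1 by rw [← map_pow, hζ.pow_eq_one, map_one])
      rw [← hi]
      exact pow_mem (self_mem_K1 ζ) i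
  exact h1 hx

/-- An element of inertia on the integers of the tame cyclotomic field. -/
def inertiaAut {ζ : QA} (hζ : IsPrimitiveRoot ζ q) (σ : GG) (hσ : σ ∈ A.inertiaSubgroupIn ℚ) :
    intAt A (K1 A ζ) ≃+* intAt A (K1 A ζ) where
  toFun x := ⟨σ x, Places.smul_mem_of_decomposition A (Places.inertia_le_decomposition A hσ) x.2.1,
    inertia_maps_K1 hζ hσ x.2.2⟩
  invFun x := ⟨σ⁻¹ x, Places.smul_mem_of_decomposition A
    (Places.inertia_le_decomposition A (inv_mem hσ)) x.2.1,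
    inertia_maps_K1 hζ (inv_mem hσ) x.2.2⟩
  left_inv x := Subtype.ext (by simp [AlgEquiv.aut_inv])
  right_inv x := Subtype.ext (by simp [AlgEquiv.aut_inv])
  map_mul' x y := Subtype.ext (by simp)
  map_add' x y := Subtype.ext (by simp)

/-- The cover, its constants and their reduction at a place. -/
structure Model (A : ValuationSubring QA) (q M0 N' M' : ℕ) [Fact q.Prime] [NeZero q] [NeZero M0]
    [NeZero N'] [NeZero M'] where
  C : Ctx q M0 N'
  P : Pull C M'
  hκ : P.κ = κA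
  small : P.Small (K0 A)
  dvr : IsDiscreteValuationRing C.S
  noeth : IsNoetherianRing C.W
  Ω : Res C (ResidueField A)
  jO : C.S →+* A
  hjO : Injective jO
  hjκ : ∀ x : C.S, κA ((jO x : A) : QA) = (x : ℂ)
  hjφ : (residue A).comp jO = Ω.φ
  ρ : Ram Ω
  unitW : ∀ n : ℕ, ¬ q ∣ n → IsUnit (n : C.W)

/-- The model exists at every place over `q`, for every auxiliary level divisible enough. -/
theorem nonempty_model_of_dvd [NeZero q] (hA : A.LiesOverPrime q) {M0 N' M' : ℕ} [NeZero M0]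
    [NeZero M'] [NeZero N'] (hM : M0 = 2 ∨ M0 = 3) (hq0 : ¬ q ∣ M0) (hqN : ¬ q ∣ N')
    (hdvd : M' ∣ M0 * N') : Nonempty (Model A q M0 N' M') := by
  have hq : q.Prime := Fact.out
  set m := M0 * N' with hm
  haveI : NeZero m := ⟨mul_ne_zero (NeZero.ne _) (NeZero.ne _)⟩
  haveI : NeZero (M0 * (N' * q)) := ⟨mul_ne_zero (NeZero.ne _) (mul_ne_zero (NeZero.ne _) (NeZero.ne _))⟩
  haveI : NeZero (m * q) := ⟨mul_ne_zero (NeZero.ne _) (NeZero.ne _)⟩
  have hqm : ¬ q ∣ m := fun h => (hq.dvd_mul.1 h).elim hq0 hqN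
  obtain ⟨z, hz, hzκ⟩ := exists_preimage_zetaN (m * q)
  have hzq : IsPrimitiveRoot (z ^ q) m := hz.pow (Nat.pos_of_ne_zero (NeZero.ne _)) (mul_comm m q)
  have hζq : IsPrimitiveRoot (z ^ m) q := hz.pow (Nat.pos_of_ne_zero (NeZero.ne _)) rfl
  set ζ := z ^ m with hζdef
  have hzq0 : z ^ q ∈ K0 A := mem_K0_of_pow_eq_one hA hqm hzq.pow_eq_one
  have hzA : z ∈ A := (A.valuation_le_one_iff z).1
    (valuation_eq_one_of_pow_eq_one (NeZero.ne (m * q)) hz.pow_eq_one).le
  have hzK1 : z ∈ K1 A ζ := by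
    have hcop : Nat.Coprime q m := hq.coprime_iff_not_dvd.2 hqm
    have hb := Nat.gcd_eq_gcd_ab q m
    rw [hcop] at hb
    have hz0 : z ≠ 0 := hz.ne_zero (NeZero.ne _)
    have : z = (z ^ q) ^ Nat.gcdA q m * (z ^ m) ^ Nat.gcdB q m := by
      rw [← zpow_natCast z q, ← zpow_natCast z m, ← zpow_mul, ← zpow_mul, ← zpow_add₀ hz0, ← hb,
        Nat.cast_one, zpow_one]
    rw [this]
    exact mul_mem (zpow_mem (K0_le_K1 ζ hzq0) _) (zpow_mem (self_mem_K1 ζ) _)
  have hS1 := isDiscreteValuationRing_K1 hA hζq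
  have hW1 := isDiscreteValuationRing_K0 hA
  haveI := hS1.1
  haveI := hW1.1
  set eS := eInt A (K1 A ζ)
  set eW := eInt A (K0 A)
  -- the roots of unity
  set ζS : (cInt A (K1 A ζ))ˣ := Units.map eS.toRingHom.toMonoidHom
    (Units.ofPowEqOne (⟨z, hzA, hzK1⟩ : intAt A (K1 A ζ)) (m * q)
      (Subtype.ext (by push_cast; exact hz.pow_eq_one)) (NeZero.ne _))
  set ζW : (cInt A (K0 A))ˣ := Units.map eW.toRingHom.toMonoidHom
    (Units.ofPowEqOne (⟨z ^ q, pow_mem hzA q, hzq0⟩ : intAt A (K0 A)) m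
      (Subtype.ext (by push_cast; exact hzq.pow_eq_one)) (NeZero.ne _))
  have hζS : ((ζS : cInt A (K1 A ζ)) : ℂ) = zetaN (M0 * (N' * q)) := by
    show κA z = _
    rw [hzκ]
    congr 2
    rw [hm, mul_assoc]
  have hζW : ((ζW : cInt A (K0 A)) : ℂ) = zetaN (M0 * N') := by
    show κA (z ^ q) = _
    rw [map_pow, hzκ, zetaN_pow]
  have hunit : ∀ n : ℕ, ¬ q ∣ n → IsUnit (n : cInt A (K0 A)) := fun n hn => by
    simpa using (isUnit_natCast_intAt hA (K0 A) hn).map eW
  have hζ0 : ((((ζW ^ N') : (cInt A (K0 A))ˣ) : cInt A (K0 A)) : ℂ) = zetaN M0 := by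
    rw [Units.val_pow_eq_pow_val, SubmonoidClass.coe_pow, hζW, zetaN_pow]
  obtain ⟨co⟩ := nonempty_coord (cInt A (K0 A)) M0 hM (ζW ^ N') hζ0 (hunit M0 hq0)
  let C : Ctx q M0 N' :=
    { hq := hq, hM := hM, hqm := hqm, W := cInt A (K0 A), S := cInt A (K1 A ζ)
      hWS := cInt_mono (K0_le_K1 ζ), ζ := ζS, hζ := hζS, ζm := ζW, hζm := hζW
      hu := hunit m hqm, co := co }
  let P : Pull C M' := { κ := κA, hS := cInt_le_range _, hN := hdvd }
  haveI hdvr : IsDiscreteValuationRing C.S := IsDiscreteValuationRing.RingEquivClass.isDiscreteValuationRing eS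
  have hnoeth : IsNoetherianRing C.W := isNoetherianRing_of_ringEquiv _ eW
  haveI := FrobTrace.charP_residueField hA
  let jO : C.S →+* A := (toA A (K1 A ζ)).comp eS.symm.toRingHom
  have hjκ : ∀ x : C.S, κA ((jO x : A) : QA) = (x : ℂ) := fun x => eInt_symm _ x
  -- inertia gives enough automorphisms
  have hfixed : C.FixedPart := by
    intro x hx
    set y := eS.symm x with hy
    have hy0 : (y : QA) ∈ K0 A := by
      rw [mem_K0]
      intro σ hσ
      have h := hx ((eS.symm.trans (inertiaAut hζq σ hσ)).trans eS) fun w => by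
        refine Subtype.ext ?_
        show κA (σ ((eS.symm (C.inc w) : intAt A (K1 A ζ)) : QA)) = _
        obtain ⟨v, hv, hvw⟩ := w.2
        have : ((eS.symm (C.inc w) : intAt A (K1 A ζ)) : QA) = v :=
          (κA).injective ((eInt_symm _ _).trans hvw.symm)
        rw [this, (mem_K0).1 hv.2 σ hσ]
        exact hvw
      have h2 := congrArg eS.symm h
      simp only [RingEquiv.trans_apply, RingEquiv.symm_apply_apply] at h2
      exact congrArg Subtype.val h2
    exact ⟨eW ⟨y, y.2.1, hy0⟩, Subtype.ext (eInt_symm _ x)⟩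
  have hjW : ∀ w : C.W, ((eS.symm (C.inc w) : intAt A (K1 A ζ)) : QA) = (eW.symm w : intAt A (K0 A)) :=
    fun w => (κA).injective ((eInt_symm _ _).trans (eInt_symm _ w).symm)
  obtain ⟨ϖ0, hϖ0, hϖ0q⟩ := hW1.2
  let Ω : Res C (ResidueField A) :=
    { φ := (residue A).comp jO
      surjW := fun x => by
        obtain ⟨y, hy, hyx⟩ := exists_residue_eq hA x
        refine ⟨eW ⟨y, y.2, hy⟩, ?_⟩
        rw [← hyx]
        show residue A (jO (C.inc _)) = _
        congr 1
        refine Subtype.ext ((hjW _).trans ?_)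
        rw [RingEquiv.symm_apply_apply]
      kerW := fun w hw => by
        have h0 : residue A (toA A (K0 A) (eW.symm w)) = 0 := by
          rw [← hw]
          exact congrArg (residue A) (Subtype.ext (hjW w).symm)
        have h1 := map_dvd eW (dvd_of_residue_eq_zero hϖ0 h0)
        rw [RingEquiv.apply_symm_apply] at h1
        have h2 : ϖ0 = (q : intAt A (K0 A)) := Subtype.ext (hϖ0q.trans (by simp))
        rwa [h2, map_natCast] at h1
      q0 := by simp
      fixed := hfixed }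
  obtain ⟨ϖ1, hϖ1, hϖ1q⟩ := hS1.2
  have hval : A.valuation ((q : QA) / (ζ - 1) ^ (q - 1)) = 1 := by
    rw [map_div₀, map_pow, valuation_natCast_eq hA hζq, div_self]
    exact pow_ne_zero _ ((Valuation.ne_zero_iff _).2 (sub_ne_zero.2 (hζq.ne_one hq.one_lt)))
  set u1 : intAt A (K1 A ζ) := ⟨(q : QA) / (ζ - 1) ^ (q - 1), (A.valuation_le_one_iff _).1 hval.le,
    (K1 A ζ).div_mem (natCast_mem _ q) (pow_mem (sub_mem (self_mem_K1 ζ) (one_mem _)) _)⟩
  have hu1 : IsUnit u1 := by
    have hne : ((u1 : intAt A (K1 A ζ)) : QA) ≠ 0 := fun h => by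
      rw [show ((q : QA) / (ζ - 1) ^ (q - 1)) = 0 from h, map_zero] at hval
      exact zero_ne_one hval
    refine IsUnit.of_mul_eq_one (⟨((u1 : intAt A (K1 A ζ)) : QA)⁻¹, ?_, (K1 A ζ).inv_mem u1.2.2⟩ :
      intAt A (K1 A ζ)) (Subtype.ext (mul_inv_cancel₀ hne))
    exact (A.valuation_le_one_iff _).1 (by rw [map_inv₀, hval, inv_one])
  let ρ : Ram Ω :=
    { ϖ := eS ϖ1
      irr := (MulEquiv.irreducible_iff eS).2 hϖ1
      φϖ := by
        show residue A (toA A (K1 A ζ) (eS.symm (eS ϖ1))) = 0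
        rw [RingEquiv.symm_apply_apply, residue_eq_zero_iff, ← ValuationSubring.coe_mem_nonunits_iff,
          ValuationSubring.mem_nonunits_iff]
        show A.valuation (ϖ1 : QA) < 1
        rw [hϖ1q]
        exact valuation_sub_one_lt hA hζq
      u := eS u1
      hu := hu1.map eS
      hq := by
        rw [← map_natCast eS, ← map_pow, ← map_mul]
        congr 1
        refine Subtype.ext ?_
        push_cast
        rw [hϖ1q]
        exact (div_mul_cancel₀ _ (pow_ne_zero _ (sub_ne_zero.2 (hζq.ne_one hq.one_lt)))).symm }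
  refine ⟨{ C := C, P := P, hκ := rfl, small := ⟨?_, ?_, ?_, hfixed⟩, dvr := hdvr, noeth := hnoeth,
            Ω := Ω, jO := jO, hjO := (toA_injective A _).comp eS.symm.injective, hjκ := hjκ,
            hjφ := rfl, ρ := ρ, unitW := hunit }⟩
  · intro x hx
    rw [mem_K0]
    exact fun σ hσ => hx σ fun y hy => (mem_K0).1 hy σ hσ
  · intro c hc
    rcases le_total (A.valuation c) 1 with h | h
    · refine ⟨eW ⟨c, (A.valuation_le_one_iff c).1 h, hc⟩, 1, one_ne_zero, ?_⟩
      simp [P, eW]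
    · have hc0 : c ≠ 0 := fun h0 => by simp [h0] at h
      refine ⟨1, eW ⟨c⁻¹, (A.valuation_le_one_iff _).1 (by rw [map_inv₀]; exact inv_le_one_of_one_le₀ h),
        (K0 A).inv_mem hc⟩, fun h0 => ?_, ?_⟩
      · have h1 := congrArg Subtype.val ((map_eq_zero_iff _ eW.injective).1 h0)
        exact inv_ne_zero hc0 h1
      · show κA c * κA c⁻¹ = ((1 : C.W) : ℂ)
        rw [← map_mul, mul_inv_cancel₀ hc0, map_one, Subring.coe_one]
  · intro w
    exact ⟨(eW.symm w : intAt A (K0 A)), (eW.symm w).2.2, eInt_symm _ w⟩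

/-- The model exists at every place over `q`. -/
theorem nonempty_model [NeZero q] (hA : A.LiesOverPrime q) {M0 M' : ℕ} [NeZero M0] [NeZero M']
    [NeZero (M0 * M')] (hM : M0 = 2 ∨ M0 = 3) (hq0 : ¬ q ∣ M0) (hqM : ¬ q ∣ M') :
    Nonempty (Model A q M0 (M0 * M') M') :=
  nonempty_model_of_dvd hA hM hq0
    (fun h => ((Fact.out : q.Prime).dvd_mul.1 h).elim hq0 hqM)
    ⟨M0 * M0, by ring⟩

end FLTAgent.Carayol
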