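import Fermat.Agent.Carayol.Glue

/-!
# Functions with divisible norms have roots in the function field
-/

set_option autoImplicit false
set_option linter.unusedSectionVars false
set_option linter.style.haveILetI false

noncomputable section

open UpperHalfPlane hiding I I_re I_im
open Filter Topology Complex Function FLTAgent.ModEq FLTAgent.GoodModel ModularCurve
open scoped MatrixGroups Manifold Classical

namespace FLTAgent.Carayol

variable {q M0 N' : ℕ} [NeZero M0] [NeZero N'] [NeZero q] [Fact q.Prime] (C : Ctx q M0 N')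

theorem root_change {F : Type*} [Field F] {f t r x c g z : F} {n E1 E2 : ℕ} (ht : t ≠ 0)
    (hg : g ^ n = x ^ E2) (hz : z ^ n = c ^ E2) (he : t ^ n * f ^ E1 = x * c * r ^ n) :
    (g * z * r ^ E2 / t ^ E2) ^ n = f ^ (E1 * E2) := by
  have h1 : (t ^ n * f ^ E1) ^ E2 = (x * c * r ^ n) ^ E2 := by rw [he]
  rw [mul_pow, mul_pow, mul_pow, ← pow_mul t, ← pow_mul f, ← pow_mul r] at h1
  rw [div_pow, mul_pow, mul_pow, hg, hz, ← pow_mul r, ← pow_mul t, mul_comm E2 n,
    div_eq_iff (pow_ne_zero _ ht), ← h1, mul_comm]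

namespace Ctx

/-- The representatives of the cusps of the line. -/
def cr (_C : Ctx q M0 N') : Option (Fin M0) → SL(2, ℤ)
  | none => 1
  | some i => cuspRep0 M0 i

/-- The coordinate at a cusp of the line. -/
def Tc (c : Option (Fin M0)) : LaurentSeries C.S := ser (trComp (C.cr c) ⟨C.T, C.T_mem⟩)

theorem Tc_none : C.Tc none = C.Ys := by
  rw [Tc, ← C.ser_T]
  exact congrArg ser (Subtype.ext (compg_one _))

theorem leadAt_lift {G : LaurentSeries C.W} {a : ℤ} (hG : LeadAt G a) :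
    LeadAt (qExpand C.S (N' * q) (coeffMap C.inc G)) (((N' * q : ℕ) : ℤ) * a) := by
  refine ⟨fun i hi => geOrd_qExpand (a := a) (fun l hl => by
    rw [coeffMap_coeff, hG.1 l hl, map_zero]) (N' * q) i hi, ?_⟩
  rw [qExpand_coeff_mul, coeffMap_coeff]
  exact hG.2.map C.inc

theorem leadAt_Tc_none : LeadAt (C.Tc none) (-((N' * q : ℕ) : ℤ)) := by
  rw [C.Tc_none, show -((N' * q : ℕ) : ℤ) = ((N' * q : ℕ) : ℤ) * (-1) by ring]
  exact C.leadAt_lift C.co.leadH

theorem atPuncture_Tc (i : Fin M0) : AtPuncture (C.Tc (some i)) (C.inc (C.co.c i)) (N' * q) := by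
  obtain ⟨G, hG, hl⟩ := C.co.cusp.2 i
  have h := (sPairs C.W M0).add_mem hG (sPairs_const (n := M0) (C.co.c i))
  have h2 : C.Tc (some i) = qExpand C.S (N' * q) (coeffMap C.inc (G + HahnSeries.C (C.co.c i))) := by
    refine sPairs_unique (ser_spec _) ?_
    convert sPairs_refine (k := N' * q) rfl (sPairs_mono C.hWS h) using 2
    funext τ
    show C.T (cuspRep0 M0 i • τ) = _
    simp
  rw [AtPuncture, h2, map_add, map_add, HahnSeries.C_apply, coeffMap_single, qExpand_single, mul_zero,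
    ← HahnSeries.C_apply, add_sub_cancel_right]
  simpa using C.leadAt_lift hl

theorem embAt_mul (γ δ : SL(2, ℤ)) (a : C.R) :
    C.embAt (γ * δ) a = ser (trComp δ (trComp γ (Subring.inclusion C.R_le a))) := by
  rw [C.embAt_apply]
  exact congrArg ser (Subtype.ext (compg_compg _ _ _).symm)

theorem ser_trComp_evT (σ : SL(2, ℤ)) (P : Polynomial C.S) :
    ser (trComp σ (C.evT P)) = P.eval₂ HahnSeries.C (ser (trComp σ ⟨C.T, C.T_mem⟩)) := by
  rw [evT, Polynomial.coe_eval₂RingHom, Polynomial.hom_eval₂, Polynomial.hom_eval₂]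
  congr 1
  ext x : 1
  exact (congrArg ser (Subtype.ext rfl)).trans (C.ser_const x)

theorem exists_trace_cusp (hF : C.FixedPart) (a : C.R) : ∃ (P : Polynomial C.S) (s : ℕ),
    ∀ c, (∑ l, C.embAt (C.rep l * C.cr c) a) *
      (punct fun i => C.inc (C.co.c i)).eval₂ HahnSeries.C (C.Tc c) ^ s =
        P.eval₂ HahnSeries.C (C.Tc c) := by
  obtain ⟨P, s, hP⟩ := C.exists_trace hF a
  refine ⟨P.map C.inc, s, fun c => ?_⟩
  have hd : (punct fun i => C.inc (C.co.c i)) = C.dltS := rfl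
  have hl : ∀ l, C.embAt (C.rep l * C.cr c) a =
      ser (trComp (C.cr c) (trComp (C.rep l) (Subring.inclusion C.R_le a))) := fun l => C.embAt_mul _ _ _
  rw [hd, Finset.sum_congr rfl fun l _ => hl l, ← map_sum, ← map_sum]
  show ser (trComp (C.cr c) _) * (C.dltS.eval₂ HahnSeries.C (ser (trComp (C.cr c) ⟨C.T, C.T_mem⟩))) ^ s =
    (P.map C.inc).eval₂ HahnSeries.C (ser (trComp (C.cr c) ⟨C.T, C.T_mem⟩))
  rw [← C.ser_trComp_evT, ← C.ser_trComp_evT, ← map_pow, ← map_pow, ← map_mul, ← map_mul, hP]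

end Ctx

variable {C} {k : Type} [Field k] {Ω : Res C k}
variable [IsDiscreteValuationRing C.S] [IsAlgClosed k] [IsNoetherianRing C.W]

namespace Ram

variable (ρ : Ram Ω) {L : Type*} [Field L] [IsAlgClosed L] {A : ValuationSubring L} {π : A →+* k}

include ρ in
set_option maxHeartbeats 400000 in
/-- A function with both norms powers, up to constants, and with divisible divisor, is a power up to
an exponent independent of the reduction. -/
theorem exists_root_of_norms (hπ : Surjective π) (hA : Specialization.RankOne π) (jO : C.S →+* A)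
    (hjO : Injective jO) (hjφ : π.comp jO = Ω.φ) {n : ℕ} (hn : (n : k) ≠ 0)
    (hnW : IsUnit (n : C.W)) (hcop : Nat.Coprime q n) {f : C.R} (hf : f ≠ 0)
    (hα : C.RelB n false f) (hβ : C.RelB n true f) (hv : C.VDvd n f)
    (K : Subfield (LaurentSeries L)) (hC : ∀ x : L, HahnSeries.C x ∈ K)
    (hR : ∀ a : C.R, toL jO (C.emb C.one' a) ∈ K) :
    ∃ g ∈ K, g ^ n =
      toL jO (C.emb C.one' f) ^ ((q + 1) * (q - 1) * (q - 1) * (q - 1) * ((q + 1) * (q - 1))) := by
  have hn0 : n ≠ 0 := fun h => hn (by simp [h])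
  haveI : NeZero n := ⟨hn0⟩
  obtain ⟨F, t, r, c, hc, ht, hr, hF, he, hvF, ⟨NA⟩, ⟨NB⟩⟩ := ρ.exists_normalised hcop hf hα hβ hv
  obtain ⟨a, j, e, ha, hj⟩ := ρ.exists_root hn hcop hF hvF NA NB
  set E2 := (q + 1) * (q - 1) with hE2
  have hF0 : F ≠ 0 := fun h => by
    obtain ⟨l⟩ : Nonempty C.Idx := ⟨C.one'⟩
    exact hF (C.sheet l) (C.kind l) (by rw [h, map_zero])
  obtain ⟨rb, hrb⟩ := C.exists_basis
  set eq' := Fintype.equivFin C.Idx
  set σ : Option (Fin M0) → Fin (Fintype.card C.Idx) → C.R →+* LaurentSeries C.S :=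
    fun c l => C.embAt (C.rep (eq'.symm l) * C.cr c) with hσ
  have hσn : ∀ l, σ none l = C.emb (eq'.symm l) := fun l => by
    simp only [hσ, Ctx.cr, mul_one, Ctx.emb]
  have hjφ' : ∀ x, π (jO x) = Ω.φ x := fun x => RingHom.congr_fun hjφ x
  obtain ⟨u, hu⟩ := hnW.exists_right_inv
  have hϖdvd : ∀ (c : Option (Fin M0)) (l : Fin (Fintype.card C.Idx)),
      HahnSeries.C ρ.ϖ ∣ σ c l (q : C.R) := fun c l => by
    rw [map_natCast, ← map_natCast (HahnSeries.C : C.S →+* LaurentSeries C.S), ρ.hq, map_mul, map_pow]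
    exact dvd_mul_of_dvd_right (dvd_pow_self _ (by have := C.hq.two_le; omega)) _
  obtain ⟨g, hgK, hg⟩ := exists_nth_root (F := FractionRing C.R) hπ hA jO hjO ρ.irr
    (by rw [hjφ', ρ.φϖ]) (fun x hx => ρ.ker_φ (by rwa [← hjφ']))
    (fun y => by obtain ⟨w, hw⟩ := Ω.surjW y; exact ⟨C.inc w, (hjφ' _).trans hw⟩)
    C.cW C.inc (fun i => C.inc (C.co.c i)) (fun i i' hne => by
      rw [← map_sub]; exact (C.co.cusp.1 i i' hne).map C.inc)
    C.Tc (Nat.pos_of_ne_zero (NeZero.ne (N' * q))) C.atPuncture_Tc C.leadAt_Tc_none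
    σ (fun c l => C.embAt_injective _) (fun c l w => C.embAt_cW _ w)
    (fun a => by
      obtain ⟨P, s, hP⟩ := C.exists_trace_cusp Ω.fixed a
      refine ⟨P, s, fun c => ?_⟩
      rw [← hP c]
      congr 1
      exact Fintype.sum_equiv eq'.symm _ _ fun l => rfl)
    rb (by simpa only [hσn] using hrb) hn (f := F ^ E2) (pow_ne_zero _ hF0)
    (C.vDvd_pow hF0 hvF E2)
    (fun c l => by
      rw [hjφ]
      show Ω.red (C.rep (eq'.symm l) * C.cr c) (F ^ E2) ≠ 0
      obtain ⟨l', hl'⟩ := Ω.exists_ker_eq (C.rep (eq'.symm l) * C.cr c)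
      rw [map_pow]
      refine pow_ne_zero _ fun h0 => hF (C.sheet l') (C.kind l') ?_
      have h1 : F ∈ Ω.ker (C.rep l') := by rw [← hl']; exact h0
      rw [← Ω.red_rep]
      exact h1)
    (u := C.cW u) (by rw [← map_natCast C.cW, ← map_mul, hu, map_one])
    (ϖR := (q : C.R)) hϖdvd ha hj (eq' C.one') K hC
    (by
      have h1 := hR C.yR
      rwa [show C.emb C.one' C.yR = C.Tc none from by
        rw [C.emb_one', C.embAt_apply, Ctx.Tc]; exact congrArg ser (Subtype.ext rfl)] at h1)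
    (fun a => by rw [hσn, Equiv.symm_apply_apply]; exact hR a)
  rw [hσn, Equiv.symm_apply_apply] at hg
  -- absorb the constant and the change by powers
  set ψ : C.R →+* LaurentSeries L := (toL jO).comp (C.emb C.one') with hψ
  have hψinj : Injective ψ := by
    refine (coeffMap_injective (A.subtype.comp jO) (Subtype.val_injective.comp hjO)).comp ?_
    exact C.embAt_injective _
  have hψc : ψ (C.cW c) = HahnSeries.C ((jO (C.inc c) : A) : L) := by
    show toL jO (C.emb C.one' (C.cW c)) = _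
    rw [C.emb_cW, toL, HahnSeries.C_apply, coeffMap_single]
    rfl
  have hcL : ((jO (C.inc c) : A) : L) ≠ 0 := fun h =>
    Ctx.inc_ne hc (hjO ((Subtype.ext h).trans (map_zero jO).symm))
  obtain ⟨z, hz⟩ := IsAlgClosed.exists_pow_nat_eq (((jO (C.inc c) : A) : L) ^ E2) (Nat.pos_of_ne_zero hn0)
  have ht' : ψ t ≠ 0 := fun h => ht (hψinj (h.trans (map_zero ψ).symm))
  refine ⟨g * HahnSeries.C z * ψ r ^ E2 / ψ t ^ E2, div_mem (mul_mem (mul_mem hgK (hC z))
    (pow_mem (hR r) _)) (pow_mem (hR t) _), ?_⟩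
  have h2 := congrArg ψ he
  simp only [map_mul, map_pow, hψc] at h2
  have h3 : g ^ n = ψ F ^ E2 := hg.trans (map_pow ψ F E2)
  have h4 : (HahnSeries.C z : LaurentSeries L) ^ n =
      HahnSeries.C ((jO (C.inc c) : A) : L) ^ E2 := by rw [← map_pow, ← map_pow, hz]
  exact root_change ht' h3 h4 h2

end Ram

end FLTAgent.Carayol
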