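import Fermat.Agent.Carayol.Finite
import Fermat.Agent.Carayol.Series
import Fermat.Agent.Carayol.Constants
import Fermat.Agent.EigenLattice.Dictionary
import Fermat.Agent.EigenLattice.ConstVal
import Fermat.Agent.Curves.Existence

/-!
# The geometric bound at `q` for classes fixed by inertia
-/

set_option autoImplicit false
set_option linter.unusedSectionVars false
set_option linter.style.haveILetI false
set_option synthInstance.maxHeartbeats 400000
set_option maxHeartbeats 1000000

noncomputable section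

open Function AlgebraicCurve IsLocalRing ModularCurve FLTAgent.ModEq FLTAgent.GoodModel
open scoped Classical

namespace FLTAgent.Carayol

local notation "QA" => AlgebraicClosure ℚ
local notation "GG" => (AlgebraicClosure ℚ ≃ₐ[ℚ] AlgebraicClosure ℚ)

/-- The exponent lost by the root extraction. -/
def expE (q : ℕ) : ℕ := (q + 1) * (q - 1) * (q - 1) * (q - 1) * ((q + 1) * (q - 1))

theorem expE_pos {q : ℕ} (hq : q.Prime) : 0 < expE q := by
  have := hq.two_le
  have h1 : 0 < q - 1 := by omega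
  unfold expE
  positivity

theorem card_idx_eq {q M0 N' : ℕ} [NeZero M0] [NeZero N'] [NeZero q] [Fact q.Prime] (C C' : Ctx q M0 N') :
    Fintype.card C.Idx = Fintype.card C'.Idx := by
  rw [← Nat.card_eq_fintype_card, ← Nat.card_eq_fintype_card]
  rfl

/-- At a place, a divisible divisor gives an `n`th power in the value group of any valuation above. -/
theorem exists_valuation_eq_pow {N : ℕ} [NeZero N] {E : Type*} [Field E]
    (θ : modularFunctionFieldBar N →+* E) (V : ValuationSubring E)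
    (hV : ∀ c : QA, θ (algebraMap QA (modularFunctionFieldBar N) c) ∈ V)
    {f : modularFunctionFieldBar N} (hf : f ≠ 0) {n : ℕ}
    (D : Divisor QA (modularFunctionFieldBar N)) (hD : ∀ v, (n : ℤ) * D v = v.ord f) :
    ∃ g : E, V.valuation (θ f) = V.valuation g ^ n := by
  set O := V.comap θ with hO
  have hmem : ∀ x, x ∈ O ↔ θ x ∈ V := fun x => ValuationSubring.mem_comap
  by_cases htop : O = ⊤
  · refine ⟨1, ?_⟩
    rw [map_one, one_pow]
    refine le_antisymm ((V.valuation_le_one_iff _).2 ((hmem f).1 (htop ▸ ValuationSubring.mem_top f))) ?_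
    have h1 := (V.valuation_le_one_iff _).2
      ((hmem f⁻¹).1 (htop ▸ ValuationSubring.mem_top f⁻¹))
    rw [map_inv₀, map_inv₀] at h1
    exact (inv_le_one₀ (zero_lt_iff.2 ((Valuation.ne_zero_iff _).2 ((map_ne_zero θ).2 hf)))).1 h1
  set v : Place QA (modularFunctionFieldBar N) :=
    Curves.placeOfValuationSubring O (fun c => (hmem _).2 (hV c)) htop
  obtain ⟨π, hπ⟩ := IsDiscreteValuationRing.exists_irreducible v.toValuationSubring
  obtain ⟨u, hu⟩ := v.exists_unit_mul_zpow hf hπ
  rw [← hD v, mul_comm (n : ℤ), zpow_mul, zpow_natCast] at hu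
  refine ⟨θ ((π : modularFunctionFieldBar N) ^ D v), ?_⟩
  have h1 : V.valuation (θ ((u : v.toValuationSubring) : modularFunctionFieldBar N)) = 1 := by
    refine le_antisymm ((V.valuation_le_one_iff _).2 ((hmem _).1 (u : v.toValuationSubring).2)) ?_
    have h2 := (V.valuation_le_one_iff _).2 ((hmem _).1 ((u⁻¹ : v.toValuationSubringˣ) : v.toValuationSubring).2)
    have h3 : V.valuation (θ ((u : v.toValuationSubring) : modularFunctionFieldBar N)) *
        V.valuation (θ (((u⁻¹ : v.toValuationSubringˣ) : v.toValuationSubring) :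
          modularFunctionFieldBar N)) = 1 := by
      rw [← map_mul, ← map_mul, ← MulMemClass.coe_mul, Units.mul_inv, OneMemClass.coe_one, map_one,
        map_one]
    calc (1 : V.ValueGroup) = _ := h3.symm
      _ ≤ _ := mul_le_of_le_one_right' h2
  rw [hu, map_mul, map_pow, map_mul, h1, one_mul, map_pow]

namespace Pull

variable {q M0 N' : ℕ} [NeZero M0] [NeZero N'] [NeZero q] [Fact q.Prime]
variable {C : Ctx q M0 N'} {M' : ℕ} [NeZero M'] (P : Pull C M') {K : IntermediateField ℚ QA}

/-- The constants in the field of the cover. -/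
def cstK : QA →+* P.Kc :=
  ((HahnSeries.C : ℂ →+* LaurentSeries ℂ).comp P.κ).codRestrict P.Kc fun c => P.C_mem_Kc c

theorem eps_cW (w : C.W) : P.eps 1 (C.cW w) = HahnSeries.C (w : ℂ) := by
  rw [P.eps_eq, C.embAt_cW, sIncl, HahnSeries.C_apply, coeffMap_single]
  rfl

/-- The divisor condition gives the valuation condition on the cover. -/
theorem vDvd (hK : P.Small K) {f : modularFunctionFieldBar (q * M' * q)} (hf : f ≠ 0) {n : ℕ}
    (hn : n ≠ 0) (D : Divisor QA (modularFunctionFieldBar (q * M' * q)))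
    (hD : ∀ v, (n : ℤ) * D v = v.ord f) {a d : C.R} (hd : d ≠ 0)
    (had : P.eps 1 d * P.Theta 1 f = P.eps 1 a) :
    C.VDvd n (a * d ^ (n - 1)) := by
  intro v hv
  have hinjE : Injective P.epsK := fun x y h => P.eps_injective 1 (congrArg Subtype.val h)
  set j : FractionRing C.R →+* P.Kc := IsFractionRing.lift hinjE
  have hj : ∀ x, j (algebraMap C.R (FractionRing C.R) x) = P.epsK x := fun x =>
    IsFractionRing.lift_algebraMap hinjE x
  letI : Algebra QA P.Kc := P.cstK.toAlgebra
  have hfrac : ∀ c : K, ∃ w w' : C.W, w' ≠ 0 ∧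
      P.cstK c * P.epsK (C.cW w') = P.epsK (C.cW w) := fun c => by
    obtain ⟨w, w', hw', h⟩ := hK.frac c c.2
    refine ⟨w, w', hw', Subtype.ext ?_⟩
    show HahnSeries.C (P.κ c) * P.eps 1 (C.cW w') = P.eps 1 (C.cW w)
    rw [P.eps_cW, P.eps_cW, ← map_mul, h]
  have hne : ∀ w : C.W, w ≠ 0 → algebraMap C.R (FractionRing C.R) (C.cW w) ≠ 0 := fun w hw h =>
    Ctx.cW_ne hw (IsFractionRing.injective C.R (FractionRing C.R) (h.trans (map_zero _).symm))
  have hmemj : ∀ c : K, P.cstK c ∈ j.fieldRange := fun c => by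
    obtain ⟨w, w', hw', h⟩ := hfrac c
    refine ⟨algebraMap _ _ (C.cW w) / algebraMap _ _ (C.cW w'), ?_⟩
    rw [map_div₀, hj, hj, ← h, mul_div_cancel_right₀]
    exact (map_ne_zero_iff _ hinjE).2 (Ctx.cW_ne hw')
  set jK : K →+* FractionRing C.R := (RingHom.rangeRestrictFieldEquiv j).symm.toRingHom.comp
    ((P.cstK.comp K.val.toRingHom).codRestrict j.fieldRange hmemj) with hjK
  have hcomm : ∀ c, j (jK c) = algebraMap QA P.Kc (algebraMap K QA c) := fun c =>
    congrArg Subtype.val ((RingHom.rangeRestrictFieldEquiv j).apply_symm_apply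
      ⟨P.cstK c, hmemj c⟩)
  have hv' : IsIntVal jK v := by
    refine ⟨hv.map_mul, hv.map_add, fun c hc => ?_⟩
    obtain ⟨w, w', hw', h⟩ := hfrac c
    have h1 : jK c * algebraMap C.R (FractionRing C.R) (C.cW w') =
        algebraMap C.R (FractionRing C.R) (C.cW w) := j.injective (by
      rw [map_mul, hcomm, hj, hj]; exact h)
    have hw : w ≠ 0 := fun h0 => mul_ne_zero hc (hne w' hw') (by rw [h1, h0, map_zero, map_zero])
    have h2 := hv.map_mul _ _ hc (hne w' hw')
    have h3 := hv.map_const w (hne w hw)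
    have h4 := hv.map_const w' (hne w' hw')
    simp only [RingHom.comp_apply] at h3 h4
    rw [h1, h3, h4, add_zero] at h2
    exact h2.symm
  have hgen : Subfield.closure (Set.range (algebraMap QA P.Kc) ∪ Set.range j) = ⊤ := by
    set L := Subfield.closure (Set.range (algebraMap QA P.Kc) ∪ Set.range j)
    have hmap : P.Kc ≤ L.map P.Kc.subtype := by
      refine Subfield.closure_le.2 ?_
      rintro _ (⟨c, rfl⟩ | ⟨b, rfl⟩)
      · exact ⟨P.cstK c, Subfield.subset_closure (Or.inl ⟨c, rfl⟩), rfl⟩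
      · exact ⟨P.epsK b, Subfield.subset_closure (Or.inr ⟨_, hj b⟩), rfl⟩
    refine eq_top_iff.2 fun x _ => ?_
    obtain ⟨y, hy, hyx⟩ := hmap x.2
    rwa [← Subtype.ext (hyx : (y : LaurentSeries ℂ) = x)]
  have ha : a ≠ 0 := fun h0 => by
    rw [h0, map_zero, mul_eq_zero] at had
    rcases had with h | h
    · exact hd (P.eps_injective 1 (h.trans (map_zero _).symm))
    · exact hf ((P.Theta 1).injective (h.trans (map_zero _).symm))
  haveI : Algebra.IsAlgebraic ℚ QA := AlgebraicClosure.isAlgebraic ℚ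
  haveI : Algebra.IsAlgebraic K QA := Algebra.IsAlgebraic.tower_top (K := ℚ) K
  refine EigenLattice.dvd_intVal_of_forall jK j hcomm hgen hv'
    ((map_ne_zero_iff _ (IsFractionRing.injective C.R (FractionRing C.R))).2
      (mul_ne_zero ha (pow_ne_zero _ hd))) fun V hV => ?_
  obtain ⟨g, hg⟩ := exists_valuation_eq_pow (P.ThetaK hK) V (fun c => by
    have : P.ThetaK hK (algebraMap QA _ c) = P.cstK c := Subtype.ext (P.Theta_algebraMap 1 c)
    rw [this]
    exact hV c) hf D hD
  refine ⟨P.epsK d * g, ?_⟩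
  have hkey : P.epsK (a * d ^ (n - 1)) = P.epsK d ^ n * P.ThetaK hK f := by
    refine Subtype.ext ?_
    show P.eps 1 (a * d ^ (n - 1)) = P.eps 1 d ^ n * P.Theta 1 f
    obtain ⟨m, rfl⟩ := Nat.exists_eq_succ_of_ne_zero hn
    rw [map_mul, map_pow, ← had, Nat.succ_sub_one, pow_succ]
    ring
  rw [hj, hkey, map_mul, map_pow, hg, map_mul, mul_pow]

end Pull

namespace Model

variable {A : ValuationSubring QA} {q M0 N' M' : ℕ} [Fact q.Prime] [NeZero q] [NeZero M0]
  [NeZero N'] [NeZero M'] (m : Model A q M0 N' M')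

/-- At a place, a fixed class killed by both push forwards has bounded exponent. -/
theorem smul_eq_zero_of_fixed (hA : A.LiesOverPrime q) {d : ℕ}
    (hrel : HhRel Kronecker.complexEmb M0 d) {n : ℕ} (hn : ¬ q ∣ n)
    (D : Divisor.degZero (K := QA) (F := modularFunctionFieldBar (q * M' * q)))
    (hnD : n • Pic0.mk D = 0)
    (hfix : ∀ σ ∈ A.inertiaSubgroupIn ℚ, σ • Pic0.mk D = Pic0.mk D)
    (hpush : ∀ b, (Divisor.pushforwardAlong (Pull.deg q M' b) (Kronecker.isIntegralAlong _)
      (D : Divisor QA _)).IsPrincipal) :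
    (expE q * (d * Fintype.card m.C.Idx).factorial) • Pic0.mk D = 0 := by
  haveI := m.dvr
  haveI := m.noeth
  haveI : IsAlgClosed (ResidueField A) := FrobTrace.isAlgClosed_residueField A
  have hq : q.Prime := Fact.out
  have hn0 : n ≠ 0 := fun h => hn (h ▸ dvd_zero q)
  obtain ⟨D', f, hf, hDD, hdiv, hgal⟩ := EigenLattice.exists_rational_function hn0 hnD
  have hord : ∀ v : Place QA (modularFunctionFieldBar (q * M' * q)),
      (n : ℤ) * (D' : Divisor QA _) v = v.ord f := fun v => by
    rw [← Curves.divOf_apply (K := QA) f v, ← hdiv]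
    simp
  have hpush' : ∀ b, (Divisor.pushforwardAlong (Pull.deg q M' b) (Kronecker.isIntegralAlong _)
      (D' : Divisor QA _)).IsPrincipal := fun b => by
    have h1 : (-(D : Divisor QA (modularFunctionFieldBar (q * M' * q))) +
        (D' : Divisor QA (modularFunctionFieldBar (q * M' * q)))).IsPrincipal :=
      QuotientAddGroup.eq.1 hDD.symm
    have h2 := Divisor.isPrincipal_pushforwardAlong (Pull.deg q M' b) (Kronecker.isIntegralAlong _)
      (Kronecker.finiteAlong _) (Kronecker.normFormulaAlong _ (Kronecker.finiteAlong _)) h1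
    have h3 := (Divisor.principal (K := QA) (F := modularFunctionFieldBar (q * M'))).add_mem
      (Divisor.mem_principal.2 (hpush b)) (Divisor.mem_principal.2 h2)
    rw [← map_add, add_neg_cancel_left] at h3
    exact h3
  set P := m.P
  have hK := m.small
  have hfK : ∀ k, (f : LaurentSeries QA).coeff k ∈ K0 A := fun k => by
    rw [mem_K0]
    intro σ hσ
    have h := congrArg (fun z : LaurentSeries QA => z.coeff k) (hgal σ (hfix σ hσ))
    simp only [coeffMap_coeff] at h
    exact h
  obtain ⟨a, e, he, hae⟩ := P.exists_frac_Theta hK f hfK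
  have hrelB : ∀ b, m.C.RelB n b (a * e ^ (n - 1)) := fun b => by
    obtain ⟨g, hg, c, hc, hnorm⟩ := EigenLattice.exists_norm_eq (Pull.deg q M' b)
      (Kronecker.isIntegralAlong _) hf hord (hpush' b)
    exact P.relB_of_norm hK hn0 b hfK hf he hae hg hc hnorm
  have hv : m.C.VDvd n (a * e ^ (n - 1)) := P.vDvd hK hf hn0 _ hord he (hae 1)
  have ha : a ≠ 0 := fun h0 => by
    have h1 := hae 1
    rw [h0, map_zero, mul_eq_zero] at h1
    rcases h1 with h | h
    · exact he (P.eps_injective 1 (h.trans (map_zero _).symm))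
    · exact hf ((P.Theta 1).injective (h.trans (map_zero _).symm))
  haveI := FrobTrace.charP_residueField hA
  have hnk : (n : ResidueField A) ≠ 0 := fun h => hn ((CharP.cast_eq_zero_iff _ q n).1 h)
  have hcoe : (Kronecker.complexEmb.comp (A.subtype.comp m.jO)) = m.C.S.subtype :=
    RingHom.ext m.hjκ
  have hemb : ∀ x : m.C.R, coeffMap Kronecker.complexEmb (toL m.jO (m.C.emb m.C.one' x)) =
      P.eps 1 x := fun x => by
    rw [toL, coeffMap_coeffMap, hcoe, m.C.emb_one', P.eps_eq]
  obtain ⟨G, hG, hGn⟩ := m.ρ.exists_root_of_norms IsLocalRing.residue_surjective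
    (Specialization.rankOne_residue hA) m.jO m.hjO m.hjφ hnk (m.unitW n hn)
    (hq.coprime_iff_not_dvd.2 hn) (mul_ne_zero ha (pow_ne_zero _ he)) (hrelB false) (hrelB true) hv
    (P.Kc.comap (coeffMap Kronecker.complexEmb))
    (fun x => by
      show coeffMap Kronecker.complexEmb (HahnSeries.C x) ∈ P.Kc
      rw [HahnSeries.C_apply, coeffMap_single, ← HahnSeries.C_apply, ← m.hκ]
      exact P.C_mem_Kc x)
    (fun x => by
      show coeffMap Kronecker.complexEmb _ ∈ P.Kc
      rw [hemb]
      exact P.eps_mem_Kc x)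
  -- the root in the field of the cover
  letI := (P.ThetaK hK).toAlgebra
  obtain ⟨hfin, hle⟩ := P.finrank_le hK (d := d) (m.hκ ▸ hrel)
  haveI := hfin
  have hedne : P.epsK e ≠ 0 := fun h => he (P.eps_injective 1
    ((congrArg Subtype.val h).trans (map_zero _).symm))
  set g : P.Kc := ⟨coeffMap Kronecker.complexEmb G, hG⟩ / P.epsK e ^ expE q with hg
  have hgn : g ^ n = algebraMap (modularFunctionFieldBar (q * M' * q)) P.Kc (f ^ expE q) := by
    rw [hg, div_pow, div_eq_iff (pow_ne_zero _ (pow_ne_zero _ hedne)), map_pow]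
    refine Subtype.ext ?_
    show coeffMap Kronecker.complexEmb G ^ n =
      P.Theta 1 f ^ expE q * (P.eps 1 e ^ expE q) ^ n
    rw [← map_pow, hGn, map_pow, hemb]
    show P.eps 1 (a * e ^ (n - 1)) ^ expE q = _
    obtain ⟨k, rfl⟩ := Nat.exists_eq_succ_of_ne_zero hn0
    rw [map_mul, map_pow, ← hae 1, Nat.succ_sub_one, ← pow_mul (P.eps 1 e) (expE q),
      mul_comm (expE q) (k + 1), pow_mul (P.eps 1 e) (k + 1), ← mul_pow, pow_succ (P.eps 1 e) k]
    ring
  set r := Module.finrank (modularFunctionFieldBar (q * M' * q)) P.Kc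
  have hnorm := congrArg (Algebra.norm (modularFunctionFieldBar (q * M' * q))) hgn
  rw [map_pow, Algebra.norm_algebraMap, ← pow_mul] at hnorm
  set z := Algebra.norm (modularFunctionFieldBar (q * M' * q)) g
  have hz : z ≠ 0 := fun h0 => by
    rw [h0, zero_pow hn0] at hnorm
    exact pow_ne_zero _ hf hnorm.symm
  have hkill : (expE q * r) • Pic0.mk D' = 0 := by
    rw [← Kronecker.pic0_mk_nsmul]
    refine (QuotientAddGroup.eq_zero_iff _).2 ⟨z, hz, fun v => ?_⟩
    have h1 := congrArg v.ord hnorm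
    rw [Curves.ord_pow, Curves.ord_pow, ← hord v] at h1
    have h2 : v.ord z = ((expE q * r : ℕ) : ℤ) * (D' : Divisor QA _) v :=
      mul_left_cancel₀ (Int.natCast_ne_zero.2 hn0) (by rw [h1]; ring)
    rw [h2]
    simp [nsmul_eq_mul]
  obtain ⟨s, hs⟩ := Nat.dvd_factorial (Module.finrank_pos : 0 < r) hle
  rw [← hDD, hs, ← mul_assoc, mul_comm _ s, mul_smul, hkill, smul_zero]

end Model

/-- The geometric bound at `q`. -/
theorem carayol_bound (q M' : ℕ) [Fact q.Prime] [NeZero M'] (hq : ¬ q ∣ M') :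
    ∃ B : ℕ, 0 < B ∧ ∀ (A : ValuationSubring QA), A.LiesOverPrime q → ∀ (n : ℕ), ¬ q ∣ n →
      haveI : NeZero (q * M') := ⟨Nat.mul_ne_zero (Nat.Prime.ne_zero Fact.out) (NeZero.ne M')⟩
      haveI : NeZero q := ⟨Nat.Prime.ne_zero Fact.out⟩
      ∀ D : Divisor.degZero (K := QA) (F := modularFunctionFieldBar (q * M' * q)),
        n • Pic0.mk D = 0 →
        (∀ σ ∈ A.inertiaSubgroupIn ℚ, σ • Pic0.mk D = Pic0.mk D) →
        (Divisor.pushforwardAlong (heckeAlphaBar QA (q * M') q)
          (FLTAgent.Kronecker.isIntegralAlong _) (D : Divisor QA _)).IsPrincipal →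
        (Divisor.pushforwardAlong (heckeBetaBar QA (q * M') q)
          (FLTAgent.Kronecker.isIntegralAlong _) (D : Divisor QA _)).IsPrincipal →
        B • Pic0.mk D = 0 := by
  have hqp : q.Prime := Fact.out
  haveI : NeZero q := ⟨hqp.ne_zero⟩
  by_cases hex : ∃ A : ValuationSubring QA, A.LiesOverPrime q
  swap
  · exact ⟨1, one_pos, fun A hA => absurd ⟨A, hA⟩ hex⟩
  obtain ⟨A₀, hA₀⟩ := hex
  obtain ⟨M0, hM, hq0⟩ : ∃ M0, (M0 = 2 ∨ M0 = 3) ∧ ¬ q ∣ M0 := by
    rcases eq_or_ne q 2 with rfl | h2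
    · exact ⟨3, Or.inr rfl, by norm_num⟩
    · exact ⟨2, Or.inl rfl, fun h => h2 ((Nat.prime_dvd_prime_iff_eq hqp Nat.prime_two).1 h)⟩
  haveI : NeZero M0 := ⟨by omega⟩
  haveI : NeZero (M0 * M') := ⟨Nat.mul_ne_zero (NeZero.ne M0) (NeZero.ne M')⟩
  obtain ⟨m₀⟩ := nonempty_model hA₀ hM hq0 hq
  obtain ⟨d, hrel⟩ := m₀.P.exists_hhRel m₀.small
  rw [m₀.hκ] at hrel
  refine ⟨expE q * (d * Fintype.card m₀.C.Idx).factorial,
    Nat.mul_pos (expE_pos hqp) (Nat.factorial_pos _), fun A hA n hn => ?_⟩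
  intro D hnD hfix hα hβ
  obtain ⟨m⟩ := nonempty_model hA hM hq0 hq
  rw [card_idx_eq m₀.C m.C]
  exact m.smul_eq_zero_of_fixed hA hrel hn D hnD hfix (fun b => by cases b <;> assumption)

end FLTAgent.Carayol
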