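import Fermat.Agent.Carayol.Normalise

/-!
# Roots on the branches and their gluing
-/

set_option autoImplicit false
set_option linter.unusedSectionVars false
set_option linter.style.haveILetI false

noncomputable section

open UpperHalfPlane hiding I I_re I_im
open Filter Topology Complex Function FLTAgent.ModEq FLTAgent.GoodModel ModularCurve
open scoped MatrixGroups Manifold Classical

namespace FLTAgent.Carayol

open IsLocalRing (maximalIdeal)

variable {q M0 N' : ℕ} [NeZero M0] [NeZero N'] [NeZero q] [Fact q.Prime]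
variable {C : Ctx q M0 N'} {k : Type} [Field k] {Ω : Res C k}

/-- The three expressions of the residue of a root agree. -/
theorem residue_eq {K : Type*} [Field K] {uα uβ V : K} {n a b e : ℕ} (hq : 0 < e) (hα0 : uα ≠ 0)
    (hβ0 : uβ ≠ 0) (hV : V ≠ 0) (hab : a * e = 1 + b * n) (hα : uα ^ n = V ^ e) (hβ : uβ ^ n = V ^ e) :
    (uα ^ a / V ^ b) ^ ((e + 1) * (e - 1)) = uα ^ e * V ^ b / uα ^ a ∧
    (uα / (uβ ^ a / V ^ b)) ^ e * (uβ / (uα ^ a / V ^ b)) = uα ^ e * V ^ b / uα ^ a ∧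
    (uα ^ a / V ^ b * uα / uβ) ^ (e - 1) * (uβ ^ a / V ^ b) ^ (e * (e - 1)) =
      uα ^ e * V ^ b / uα ^ a := by
  have hβe : uβ ^ (a * e) = uβ * V ^ (b * e) := by
    rw [hab, pow_add, pow_one, mul_comm b n, pow_mul, hβ, ← pow_mul, mul_comm e b]
  have hαe : uα ^ (a * e) = uα * V ^ (b * e) := by
    rw [hab, pow_add, pow_one, mul_comm b n, pow_mul, hα, ← pow_mul, mul_comm e b]
  obtain ⟨d, rfl⟩ := Nat.exists_eq_add_of_le hq
  simp only [Nat.succ_eq_add_one, zero_add] at *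
  refine ⟨?_, ?_, ?_⟩
  · rw [div_pow, div_eq_div_iff (pow_ne_zero _ (pow_ne_zero _ hV)) (pow_ne_zero _ hα0)]
    simp only [← pow_mul, Nat.add_sub_cancel_left]
    calc uα ^ (a * ((1 + d + 1) * d)) * uα ^ a = (uα ^ (a * (1 + d))) ^ (1 + d) := by
          rw [← pow_add, ← pow_mul]; congr 1; ring
      _ = uα ^ (1 + d) * V ^ (b * (1 + d) * (1 + d)) := by rw [hαe, mul_pow, ← pow_mul]
      _ = _ := by
          rw [mul_assoc (uα ^ (1 + d)), ← pow_add]
          congr 2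
          ring
  · rw [div_pow, div_pow, div_div_eq_mul_div, div_div_eq_mul_div, ← pow_mul uβ, hβe]
    field_simp
    rw [← pow_mul]
  · simp only [Nat.add_sub_cancel_left]
    rw [pow_mul (uβ ^ a / V ^ b), ← mul_pow, div_pow, ← pow_mul uβ, hβe]
    have e1 : uα ^ a / V ^ b * uα / uβ * (uβ * V ^ (b * (1 + d)) / (V ^ b) ^ (1 + d)) =
        uα ^ (a + 1) / V ^ b := by
      rw [← pow_mul, pow_succ]
      field_simp
    rw [e1, div_pow, div_eq_div_iff (pow_ne_zero _ (pow_ne_zero _ hV)) (pow_ne_zero _ hα0)]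
    simp only [← pow_mul]
    calc uα ^ ((a + 1) * d) * uα ^ a = uα ^ (a * (1 + d)) * uα ^ d := by
          rw [← pow_add, ← pow_add]; congr 1; ring
      _ = uα ^ (1 + d) * V ^ (b * (1 + d)) := by rw [hαe, pow_add uα 1 d, pow_one]; ring
      _ = _ := by
          rw [mul_assoc (uα ^ (1 + d)), ← pow_add]
          congr 2
          ring

/-- In a discrete valuation ring roots of regular elements are regular. -/
theorem dvd_of_pow_rel {Q : Type*} [CommRing Q] [IsDomain Q] [IsLocalRing Q] [IsNoetherianRing Q]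
    {y : Q} (hmax : maximalIdeal Q = Ideal.span {y}) {A D u v : Q} {n : ℕ} (hn : n ≠ 0) (hD : D ≠ 0)
    (hu : IsUnit u) (h : A ^ n * u = D ^ n * v) : D ∣ A := by
  rcases eq_or_ne A 0 with rfl | hA
  · exact dvd_zero D
  obtain ⟨uA, i, huA, rfl⟩ := exists_unit_mul_pow hmax hA
  obtain ⟨uD, l, huD, rfl⟩ := exists_unit_mul_pow hmax hD
  have hy : ¬ IsUnit y := by
    rw [← mem_nonunits_iff, ← IsLocalRing.mem_maximalIdeal, hmax]
    exact Ideal.subset_span rfl
  refine mul_dvd_mul (huD.dvd) (pow_dvd_pow _ ?_)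
  by_contra hlt
  push Not at hlt
  obtain ⟨d, rfl⟩ := Nat.exists_eq_add_of_lt hlt
  have hy0 : y ≠ 0 := fun h0 => hD (by rw [h0, zero_pow (by omega : i + d + 1 ≠ 0), mul_zero])
  rw [mul_pow, mul_pow, ← pow_mul, ← pow_mul, show (i + d + 1) * n = i * n + (d + 1) * n by ring,
    pow_add] at h
  have e : uA ^ n * u = y ^ ((d + 1) * n) * (uD ^ n * v) := by
    refine mul_left_cancel₀ (pow_ne_zero (i * n) hy0) ?_
    linear_combination h
  have hu2 := (huA.pow n).mul hu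
  rw [e] at hu2
  exact hy ((isUnit_pow_iff (mul_ne_zero (Nat.succ_ne_zero d) hn)).1 (isUnit_of_mul_isUnit_left hu2))

namespace Pt

variable (p : Pt Ω)

theorem kernels_le {g : C.Sheet} {j : Fin 3} (h : RingHom.ker (Ω.rs g j) ≤ p.ideal) {z z' : C.R}
    (he : Ω.rs g j z = Ω.rs g j z') : p.π z = p.π z' := by
  rw [← sub_eq_zero, ← map_sub, ← p.mem_ideal]
  exact h (by rw [RingHom.mem_ker, map_sub, he, sub_self])

theorem kind_unique (E : Eqs Ω) (hord : p.π E.OmR ≠ 0) {g g' : C.Sheet} {j j' : Fin 3}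
    (h : RingHom.ker (Ω.rs g j) ≤ p.ideal) (h' : RingHom.ker (Ω.rs g' j') ≤ p.ideal) : j = j' := by
  have key : ∀ (g : C.Sheet) (j : Fin 3), RingHom.ker (Ω.rs g j) ≤ p.ideal → ∀ b,
      (C.kroot j b = none ↔ p.π (C.wR b) ≠ 0) := by
    intro g j h b
    have hOm : Ω.rs g j E.OmR = Ω.om := E.red_OmR (C.gm_mem g j)
    constructor
    · intro hr
      rw [p.kernels_le h (z' := E.OmR) (((Ω.rs_side g j b).1 hr).2.2.trans hOm.symm)]
      exact hord
    · intro hw
      by_contra hr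
      exact hw (by rw [p.kernels_le h (z' := 0) (((Ω.rs_side g j b).2 hr).2.1.trans (map_zero _).symm),
        map_zero])
  have h0 := (key g j h false).trans (key g' j' h' false).symm
  have h1 := (key g j h true).trans (key g' j' h' true).symm
  fin_cases j <;> fin_cases j' <;> simp_all [Ctx.kroot]

theorem exists_branch_gen (E : Eqs Ω) [IsNoetherianRing p.Loc] {g g' : C.Sheet} {j : Fin 3}
    (h : RingHom.ker (Ω.rs g j) ≤ p.ideal) :
    ∃ b : C.R, p.π b = 0 ∧ maximalIdeal p.Loc ≤ Ideal.span {algebraMap C.R p.Loc b} ⊔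
      (RingHom.ker (Ω.rs g j) ⊓ RingHom.ker (Ω.rs g' j)).map (algebraMap C.R p.Loc) := by
  set s := Ω.sd j
  set K := RingHom.ker (Ω.rs g j) ⊓ RingHom.ker (Ω.rs g' j)
  have hK : ∀ z z' : C.R, (∀ g : C.Sheet, Ω.rs g j z = Ω.rs g j z') → z - z' ∈ K := fun z z' he =>
    ⟨RingHom.mem_ker.2 (by rw [map_sub, he, sub_self]), RingHom.mem_ker.2 (by rw [map_sub, he, sub_self])⟩
  obtain ⟨c, hc⟩ := p.exists_lift (C.xR s)
  refine ⟨_, p.mem_ideal.1 hc, p.maximal_le _ (Ideal.mem_sup_left (Ideal.mem_sup_right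
    (Ideal.mem_map_of_mem _ ⟨Ω.red_natCast _, Ω.red_natCast _⟩))) fun B _ J hJ => ?_⟩
  have hx : J.Agree (C.xR s) := J.agree_of_sub
    (hJ _ (Ideal.mem_sup_left (Ideal.subset_span rfl))) hc
  have hkill : ∀ z z' : C.R, (∀ g : C.Sheet, Ω.rs g j z = Ω.rs g j z') → J.Agree z' → J.Agree z := by
    intro z z' he hz'
    refine J.agree_congr hz' (hJ _ (Ideal.mem_sup_right (Ideal.mem_map_of_mem _ (hK z z' he)))) ?_
    rw [map_sub, p.kernels_le h (he g), sub_self]
  have hy : J.Agree C.yR := by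
    refine hkill _ (C.xR s ^ q) (fun g => ?_) (J.agree_pow hx q)
    rw [map_pow, ((Ω.rs_side g j s).2 (Ω.kroot_sd j)).1]
    exact Ω.red_yR (C.gm_mem g j)
  have hxb : ∀ b, J.Agree (C.xR b) := by
    intro b
    by_cases hr : C.kroot j b = none
    · refine hkill _ (C.yR ^ q) (fun g => ?_) (J.agree_pow hy q)
      rw [map_pow, ((Ω.rs_side g j b).1 hr).1,
        show Ω.rs g j C.yR = Ω.bb ^ q from Ω.red_yR (C.gm_mem g j), ← pow_mul, pow_two]
    · refine hkill _ (C.xR s) (fun g => ?_) hx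
      rw [((Ω.rs_side g j b).2 hr).1, ((Ω.rs_side g j s).2 (Ω.kroot_sd j)).1]
  refine J.agree_all E hy fun b => ⟨hxb b, ?_⟩
  by_cases hss : p.π E.OmR = 0
  · exact J.agree_super E hss hy (hxb b)
  · rcases p.side_ne E hss b with ⟨hw, -⟩ | ⟨hv, -, -, -⟩
    · exact (J.agree_side_F E hy hw).2
    · exact (J.agree_side_V E (hxb b) hv).2

theorem ker_lt' {g : C.Sheet} {j : Fin 3} (h : RingHom.ker (Ω.rs g j) ≤ p.ideal) :
    RingHom.ker (Ω.rs g j) ≠ p.ideal := by
  have e : Ω.ker (C.rep (C.lg g j)) = RingHom.ker (Ω.rs g j) := by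
    ext a; exact iff_of_eq (congrArg (· = 0) (Ω.rs_lg g j a))
  rw [← e] at h ⊢
  exact p.ker_lt h

theorem map_ker_data [IsNoetherianRing p.Loc] {g : C.Sheet} {j : Fin 3}
    (h : RingHom.ker (Ω.rs g j) ≤ p.ideal) :
    ((RingHom.ker (Ω.rs g j)).map (algebraMap C.R p.Loc)).IsPrime ∧
      ((RingHom.ker (Ω.rs g j)).map (algebraMap C.R p.Loc)).comap (algebraMap C.R p.Loc) =
        RingHom.ker (Ω.rs g j) ∧
      (RingHom.ker (Ω.rs g j)).map (algebraMap C.R p.Loc) ≠ maximalIdeal p.Loc := by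
  haveI : (RingHom.ker (Ω.rs g j)).IsPrime := RingHom.ker_isPrime _
  have hdisj : Disjoint (p.ideal.primeCompl : Set C.R) (RingHom.ker (Ω.rs g j) : Set C.R) :=
    Set.disjoint_left.2 fun z hz hz' => hz (h hz')
  have hcomap := IsLocalization.under_map_of_isPrime_disjoint p.ideal.primeCompl p.Loc
    (I := RingHom.ker (Ω.rs g j)) inferInstance hdisj
  refine ⟨IsLocalization.isPrime_of_isPrime_disjoint p.ideal.primeCompl p.Loc _ inferInstance hdisj,
    hcomap, fun hm => p.ker_lt' h ?_⟩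
  rw [← hcomap, hm]
  exact IsLocalization.AtPrime.under_maximalIdeal p.Loc p.ideal

/-- At an ordinary point only one branch passes. -/
theorem ker_unique (E : Eqs Ω) [IsNoetherianRing p.Loc] {g g' : C.Sheet} {j : Fin 3}
    (h : RingHom.ker (Ω.rs g j) ≤ p.ideal) (h' : RingHom.ker (Ω.rs g' j) ≤ p.ideal) :
    RingHom.ker (Ω.rs g j) ≤ RingHom.ker (Ω.rs g' j) := by
  obtain ⟨b, hb, hgen⟩ := p.exists_branch_gen E (g' := g') h
  obtain ⟨hP1, hc1, hne1⟩ := p.map_ker_data h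
  obtain ⟨-, hc2, -⟩ := p.map_ker_data h'
  set φ := algebraMap C.R p.Loc
  set P1 := (RingHom.ker (Ω.rs g j)).map φ
  set K' := (RingHom.ker (Ω.rs g j) ⊓ RingHom.ker (Ω.rs g' j)).map φ
  haveI := hP1
  have hK1 : K' ≤ P1 := Ideal.map_mono inf_le_left
  have hle : P1 ≤ K' := by
    refine Submodule.le_of_le_smul_of_le_jacobson_bot (I := maximalIdeal p.Loc)
      (IsNoetherian.noetherian P1)
      (le_of_eq (IsLocalRing.jacobson_eq_maximalIdeal ⊥ bot_ne_top).symm) fun z hz => ?_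
    have hzm := hgen (IsLocalRing.le_maximalIdeal hP1.ne_top hz)
    obtain ⟨x, hx, y, hy, rfl⟩ := Submodule.mem_sup.1 hzm
    obtain ⟨c, rfl⟩ := Ideal.mem_span_singleton'.1 hx
    have hcb : c * φ b ∈ P1 := (P1.add_mem_iff_left (hK1 hy)).1 hz
    have hbP : φ b ∉ P1 := fun hbP => hne1 (le_antisymm (IsLocalRing.le_maximalIdeal hP1.ne_top)
      (hgen.trans (sup_le ((Ideal.span_singleton_le_iff_mem _).2 hbP) hK1)))
    have hc : c ∈ P1 := (hP1.mem_or_mem hcb).resolve_right hbP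
    rw [add_comm]
    refine Submodule.add_mem_sup hy ?_
    rw [smul_eq_mul, mul_comm c]
    exact Ideal.mul_mem_mul (p.algebraMap_mem_max.2 hb) hc
  intro z hz
  rw [← hc2, Ideal.mem_comap]
  exact (hle.trans (Ideal.map_mono inf_le_right)) (Ideal.mem_map_of_mem _ hz)

/-- Roots of regular functions on a branch are regular. -/
theorem ev_root (E : Eqs Ω) [IsNoetherianRing p.Loc] {g : C.Sheet} {j : Fin 3}
    (h : RingHom.ker (Ω.rs g j) ≤ p.ideal) {n : ℕ} (hn : n ≠ 0) {X : LaurentSeries k} {A D : C.R}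
    (hD : Ω.rs g j D ≠ 0) (hX : Ω.rs g j D * X = Ω.rs g j A) {a0 d0 : C.R} (hd0 : p.π d0 ≠ 0)
    (hpow : Ω.rs g j d0 * X ^ n = Ω.rs g j a0) : ∃ e, (X, e) ∈ p.EV g j := by
  obtain ⟨b, hb, hgen⟩ := p.exists_branch_gen E (g' := g) h
  rw [inf_idem] at hgen
  obtain ⟨hP1, hcomap, -⟩ := p.map_ker_data h
  set φ := algebraMap C.R p.Loc
  set P1 := (RingHom.ker (Ω.rs g j)).map φ
  haveI := hP1
  set Q := p.Loc ⧸ P1
  haveI : IsLocalRing Q := IsLocalRing.of_surjective' (Ideal.Quotient.mk P1) Ideal.Quotient.mk_surjective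
  set ψ : C.R →+* Q := (Ideal.Quotient.mk P1).comp φ
  have hmax : maximalIdeal Q = Ideal.span {ψ b} := by
    have h2 : Ideal.map (Ideal.Quotient.mk P1) (maximalIdeal p.Loc) = maximalIdeal Q :=
      IsLocalRing.map_maximalIdeal_of_surjective _ Ideal.Quotient.mk_surjective
    rw [← h2]
    refine le_antisymm ?_ ((Ideal.span_singleton_le_iff_mem _).2
      (Ideal.mem_map_of_mem _ (p.algebraMap_mem_max.2 hb)))
    refine (Ideal.map_mono hgen).trans ?_
    rw [Ideal.map_sup, Ideal.map_span, Set.image_singleton, Ideal.map_quotient_self, sup_bot_eq]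
    exact le_rfl
  have hzero : ∀ z, ψ z = 0 ↔ Ω.rs g j z = 0 := fun z => by
    show Ideal.Quotient.mk P1 (φ z) = 0 ↔ _
    rw [Ideal.Quotient.eq_zero_iff_mem, ← Ideal.mem_comap, hcomap, RingHom.mem_ker]
  have hrel : ψ (A ^ n * d0) = ψ (D ^ n * a0) := by
    rw [← sub_eq_zero, ← map_sub, hzero, map_sub, map_mul, map_mul, map_pow, map_pow, ← hX, ← hpow]
    ring
  rw [map_mul, map_mul, map_pow, map_pow] at hrel
  obtain ⟨w, hw⟩ : ψ D ∣ ψ A := dvd_of_pow_rel hmax hn (fun h0 => hD ((hzero D).1 h0))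
    ((p.isUnit_algebraMap hd0).map (Ideal.Quotient.mk P1)) hrel
  obtain ⟨z, hz⟩ := Ideal.Quotient.mk_surjective w
  obtain ⟨⟨c, s⟩, hc⟩ := IsLocalization.surj p.ideal.primeCompl z
  change z * φ s.1 = φ c at hc
  have hsπ : p.π s.1 ≠ 0 := fun h0 => s.2 (p.mem_ideal.2 h0)
  refine ⟨p.π c / p.π s.1, c, s.1, hsπ, ?_, by field_simp⟩
  have h2 : ψ (s.1 * A) = ψ (D * c) := by
    rw [map_mul, map_mul, show ψ c = Ideal.Quotient.mk P1 z * ψ s.1 by
      show Ideal.Quotient.mk P1 (φ c) = _; rw [← hc, map_mul]; rfl, hz, hw]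
    ring
  have h3 := (hzero _).1 (show ψ (s.1 * A - D * c) = 0 by rw [map_sub, h2, sub_self])
  rw [map_sub, map_mul, map_mul, ← hX] at h3
  refine mul_left_cancel₀ hD ?_
  linear_combination h3

end Pt

namespace Ram

variable (ρ : Ram Ω) [IsDiscreteValuationRing C.S] [IsAlgClosed k] [IsNoetherianRing C.W]

include ρ in
/-- The local factorisation of a function with divisible valuations. -/
theorem exists_local_factor {n : ℕ} {F : C.R} (hF : ∀ g j, Ω.rs g j F ≠ 0) (hv : C.VDvd n F)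
    (p : Pt Ω) : ∃ s v h : C.R, p.π s ≠ 0 ∧ p.π v ≠ 0 ∧ s * F = v * h ^ n := by
  haveI := p.isNoetherian_loc
  haveI := p.ufd_loc
  set φ := algebraMap C.R p.Loc
  have hinj : Injective φ :=
    IsLocalization.injective p.Loc (Ideal.primeCompl_le_nonZeroDivisors p.ideal)
  have hFne : F ≠ 0 := fun h0 => hF ⟨C.eta, C.eta_mem_nodes⟩ 0 (by rw [h0, map_zero])
  obtain ⟨u, γ, hu⟩ := exists_eq_unit_mul_pow_of_val (F := FractionRing C.R) C.cW φ hinj (n := n) hFne hv
    fun π hπ hπF w hw hπw => by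
    have hw0 : w ≠ 0 := fun h => hw (by rw [h, map_zero])
    obtain ⟨v, w', rfl, hw'⟩ := ρ.exists_q_pow hw0
    rw [map_mul, map_mul, map_pow, map_natCast] at hπw
    rcases hπ.dvd_mul.1 hπw with h | h
    · haveI : (Ideal.span {π}).IsPrime := (Ideal.span_singleton_prime hπ.ne_zero).2 hπ
      rw [map_pow] at h
      obtain ⟨l, hl⟩ := Ω.exists_ker_le ((Ideal.span {π}).comap φ)
        (Ideal.mem_span_singleton.2 (hπ.dvd_of_dvd_pow h))
      have hlP : Ω.ker (C.rep l) ≤ p.ideal := hl.trans (fun z hz => by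
        rw [p.mem_ideal, ← p.algebraMap_mem_max]
        exact IsLocalRing.le_maximalIdeal (J := Ideal.span {π}) (Ideal.IsPrime.ne_top inferInstance) hz)
      have hdisj : Disjoint (p.ideal.primeCompl : Set C.R) (Ω.ker (C.rep l) : Set C.R) :=
        Set.disjoint_left.2 fun z hz hz' => hz (hlP hz')
      set P0 := (Ω.ker (C.rep l)).map φ
      haveI : P0.IsPrime :=
        IsLocalization.isPrime_of_isPrime_disjoint p.ideal.primeCompl p.Loc _ inferInstance hdisj
      have hcomap : P0.comap φ = Ω.ker (C.rep l) :=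
        IsLocalization.under_map_of_isPrime_disjoint p.ideal.primeCompl p.Loc inferInstance hdisj
      have hP0 : P0 ≠ ⊥ := fun h0 => by
        have h1 : φ (q : C.R) ∈ P0 := Ideal.mem_map_of_mem _ (Ω.red_natCast _)
        rw [h0, Ideal.mem_bot] at h1
        exact (map_ne_zero_iff _ hinj).2 (Eqs.natCast_q_ne (C := C)) h1
      obtain ⟨π', hπ'P, hπ'⟩ :=
        UniqueFactorizationMonoid.iff_exists_prime_mem_of_isPrime.mp inferInstance P0 hP0 inferInstance
      have hass : π ∣ π' := Ideal.mem_span_singleton.1 (Ideal.map_le_iff_le_comap.2 hl hπ'P)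
      obtain ⟨c, hc⟩ := (hπ.associated_of_dvd hπ' hass).symm.dvd
      obtain ⟨d, hd⟩ := hπF
      have hFmem : F ∈ P0.comap φ := by
        rw [Ideal.mem_comap, hd, hc]
        exact P0.mul_mem_right _ (P0.mul_mem_right _ hπ'P)
      rw [hcomap] at hFmem
      have h1 : Ω.red (C.rep l) F ≠ 0 := by rw [Ω.red_rep]; exact hF _ _
      exact h1 hFmem
    · exact hπ.not_isUnit (isUnit_of_dvd_unit h (p.isUnit_algebraMap (by rwa [p.π_cW])))
  obtain ⟨⟨a, s1⟩, ha⟩ := IsLocalization.surj p.ideal.primeCompl (u : p.Loc)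
  obtain ⟨⟨h, s2⟩, hh⟩ := IsLocalization.surj p.ideal.primeCompl γ
  change (u : p.Loc) * φ s1.1 = φ a at ha
  change γ * φ s2.1 = φ h at hh
  refine ⟨s1.1 * s2.1 ^ n, a, h, ?_, fun h0 => ?_, hinj ?_⟩
  · rw [map_mul, map_pow]
    exact mul_ne_zero (fun h0 => s1.2 (p.mem_ideal.2 h0)) (pow_ne_zero _ fun h0 => s2.2 (p.mem_ideal.2 h0))
  · have h1 : IsUnit (φ a) := ha ▸ u.isUnit.mul (IsLocalization.map_units p.Loc s1)
    exact (p.algebraMap_mem_max.2 h0) h1
  · rw [map_mul, map_mul, map_mul, map_pow, map_pow, ← ha, ← hh, hu]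
    ring

end Ram

end FLTAgent.Carayol
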