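import Fermat.Agent.GoodModel.Level

/-!
# A coordinate of level `2` or `3` with rational expansion
-/

set_option autoImplicit false
set_option linter.unusedSectionVars false
set_option linter.unnecessarySimpa false
set_option linter.unusedSimpArgs false
set_option linter.unreachableTactic false
set_option linter.unusedTactic false

noncomputable section

open UpperHalfPlane hiding I I_re I_im
open Filter Topology Complex Function FLTAgent.ModEq FLTAgent.GoodModel ModularCurve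
open scoped MatrixGroups Manifold

namespace FLTAgent.Carayol

/-- A quotient of differences at level `M₀`. -/
def ratio (M0 : ℕ) [NeZero M0] (a b c d : Vec) (τ : ℍ) : ℂ := wdiff M0 a b τ / wdiff M0 c d τ

/-- The coordinate: `h` at level `2` and a symmetrisation of it at level `3`. -/
def coordT (M0 : ℕ) [NeZero M0] : ℍ → ℂ :=
  if M0 = 2 then hh M0 else hh M0 + ratio M0 (0, 1) (1, -1) (1, 0) (1, -1)

/-- The localisation of `ℤ` at `M₀`. -/
def ratLoc (M0 : ℕ) : Subring ℂ := Subring.closure {((M0 : ℂ))⁻¹}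

theorem ratLoc_le {M0 : ℕ} {S : Subring ℂ} (hu : IsUnit ((M0 : ℕ) : S)) : ratLoc M0 ≤ S := by
  rw [ratLoc, Subring.closure_le, Set.singleton_subset_iff]
  obtain ⟨v, hv⟩ := hu.exists_right_inv
  have h : (M0 : ℂ) * (v : ℂ) = 1 := by
    have := congrArg (fun z : S => (z : ℂ)) hv
    simpa using this
  rw [inv_eq_of_mul_eq_one_right h]
  exact v.2

theorem conj_mem_ratLoc {M0 : ℕ} {x : ℂ} (hx : x ∈ ratLoc M0) : (starRingEnd ℂ) x = x := by
  induction hx using Subring.closure_induction with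
  | mem y hy => rw [Set.mem_singleton_iff.1 hy]; simp
  | zero => simp
  | one => simp
  | add a b _ _ ha hb => rw [map_add, ha, hb]
  | neg a _ ha => rw [map_neg, ha]
  | mul a b _ _ ha hb => rw [map_mul, ha, hb]

section

variable {M0 : ℕ} [NeZero M0] (hM : M0 = 2 ∨ M0 = 3)

theorem ratio_smul (a b c d : Vec) (σ : SL(2, ℤ)) (τ : ℍ) :
    ratio M0 a b c d (σ • τ) =
      ratio M0 (vmul a σ) (vmul b σ) (vmul c σ) (vmul d σ) τ := by
  simp only [ratio, wdiff_smul]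
  exact mul_div_mul_left _ _ (pow_ne_zero 2 (den_ne_zero σ τ))

theorem ratio_invariant (a b c d : Vec) {γ : SL(2, ℤ)} (hγ : γ ∈ CongruenceSubgroup.Gamma M0)
    (τ : ℍ) : ratio M0 a b c d (γ • τ) = ratio M0 a b c d τ := by
  rw [ratio_smul, ratio, ratio,
    wdiff_congr (Or.inl (mem_Gamma_vEq hγ a)) (Or.inl (mem_Gamma_vEq hγ b)),
    wdiff_congr (Or.inl (mem_Gamma_vEq hγ c)) (Or.inl (mem_Gamma_vEq hγ d))]

theorem coordT_invariant {γ : SL(2, ℤ)} (hγ : γ ∈ CongruenceSubgroup.Gamma M0) (τ : ℍ) :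
    coordT M0 (γ • τ) = coordT M0 τ := by
  rw [coordT]
  split_ifs
  · exact hh_invariant hγ τ
  · simp only [Pi.add_apply]
    rw [hh_invariant hγ, ratio_invariant _ _ _ _ hγ]

theorem hh_eq_ratio : hh M0 = ratio M0 (0, 1) (1, 1) (1, 0) (1, 1) := rfl

variable {S : Subring ℂ} (ζ : Sˣ) (hζ : ((ζ : S) : ℂ) = zetaN M0) (hu : IsUnit ((M0 : ℕ) : S))

include hζ hu in
/-- A quotient of differences at vectors with given canonical translates. -/
theorem exists_ratio_at {a b c d : Vec} (σ : SL(2, ℤ)) {a₁ a₂ a₃ a₄ : ℕ} {b₁ b₂ b₃ b₄ : ℤ}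
    (h₁ : Canon M0 a₁ b₁) (h₂ : Canon M0 a₂ b₂) (h₃ : Canon M0 a₃ b₃) (h₄ : Canon M0 a₄ b₄)
    (e₁ : PMEq M0 (vmul a σ) ((a₁ : ℤ), b₁)) (e₂ : PMEq M0 (vmul b σ) ((a₂ : ℤ), b₂))
    (e₃ : PMEq M0 (vmul c σ) ((a₃ : ℤ), b₃)) (e₄ : PMEq M0 (vmul d σ) ((a₄ : ℤ), b₄))
    (hne : ¬ PMEq M0 ((a₁ : ℤ), b₁) ((a₂ : ℤ), b₂)) (hne' : ¬ PMEq M0 ((a₃ : ℤ), b₃) ((a₄ : ℤ), b₄)) :
    ∃ G : LaurentSeries S, ((fun τ ↦ ratio M0 a b c d (σ • τ)), G) ∈ sPairs S M0 ∧
      LeadAt G ((min a₁ a₂ : ℕ) - (min a₃ a₄ : ℕ) : ℤ) := by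
  obtain ⟨G, hG, hG'⟩ := exists_ratio ζ hζ hu h₁ h₂ h₃ h₄ hne hne'
  refine ⟨G, ?_, hG'⟩
  convert hG using 2
  funext τ
  rw [ratio_smul, ratio, wdiff_congr e₁ e₂, wdiff_congr e₃ e₄]

/-- The order of a difference at infinity. -/
def ordVec (M0 : ℕ) (v w : Vec) : ℕ :=
  if (v.1 : ZMod M0) = 0 ∨ (w.1 : ZMod M0) = 0 then 0 else 1

include hζ hu hM in
/-- Quotients of differences have series with unit leading coefficient at a computable order. -/
theorem exists_ratio_auto {a b c d : Vec} (σ : SL(2, ℤ)) (ha : Nz M0 a) (hb : Nz M0 b) (hc : Nz M0 c)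
    (hd : Nz M0 d) (hab : ¬ PMEq M0 a b) (hcd : ¬ PMEq M0 c d) :
    ∃ G : LaurentSeries S, ((fun τ ↦ ratio M0 a b c d (σ • τ)), G) ∈ sPairs S M0 ∧
      LeadAt G ((ordVec M0 (vmul a σ) (vmul b σ) : ℤ) - ordVec M0 (vmul c σ) (vmul d σ)) := by
  have hval : ∀ {v : Vec} {x : ℕ} {y : ℤ}, Canon M0 x y → PMEq M0 v ((x : ℤ), y) →
      (x = 0 ∧ (v.1 : ZMod M0) = 0) ∨ (x = 1 ∧ (v.1 : ZMod M0) ≠ 0) := by
    intro v x y hxy h
    have hx : x ≤ 1 := by
      have := hxy.1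
      rcases hM with rfl | rfl <;> omega
    interval_cases x
    · left
      rcases h with h | h <;> exact ⟨rfl, by simpa using h.1⟩
    · right
      refine ⟨rfl, ?_⟩
      have h1 : (1 : ZMod M0) ≠ 0 := by rcases hM with rfl | rfl <;> decide
      rcases h with h | h <;> simp [h.1, h1]
  obtain ⟨x₁, y₁, hc₁, e₁⟩ := exists_canon (ha.vmul σ)
  obtain ⟨x₂, y₂, hc₂, e₂⟩ := exists_canon (hb.vmul σ)
  obtain ⟨x₃, y₃, hc₃, e₃⟩ := exists_canon (hc.vmul σ)
  obtain ⟨x₄, y₄, hc₄, e₄⟩ := exists_canon (hd.vmul σ)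
  have hne : ∀ {v w : Vec} {x x' : ℕ} {y y' : ℤ}, PMEq M0 (vmul v σ) ((x : ℤ), y) →
      PMEq M0 (vmul w σ) ((x' : ℤ), y') → Nz M0 v → Nz M0 w → ¬ PMEq M0 v w →
      ¬ PMEq M0 ((x : ℤ), y) ((x' : ℤ), y') := by
    intro v w x x' y y' hv hw hv0 hw0 hvw h
    refine hvw ((PMEq.vmul_iff σ).1 ?_)
    rw [← wdiff_eq_zero_iff (hv0.vmul σ) (hw0.vmul σ) UpperHalfPlane.I, wdiff_congr hv hw,
      wdiff, wv_pmEq h, sub_self, zero_div]
  obtain ⟨G, hG, hG'⟩ := exists_ratio_at ζ hζ hu σ hc₁ hc₂ hc₃ hc₄ e₁ e₂ e₃ e₄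
    (hne e₁ e₂ ha hb hab) (hne e₃ e₄ hc hd hcd)
  refine ⟨G, hG, ?_⟩
  have hmin : ∀ {v w : Vec} {x x' : ℕ} {y y' : ℤ}, Canon M0 x y → PMEq M0 v ((x : ℤ), y) →
      Canon M0 x' y' → PMEq M0 w ((x' : ℤ), y') → min x x' = ordVec M0 v w := by
    intro v w x x' y y' h1 h2 h3 h4
    rcases hval h1 h2 with ⟨rfl, hv⟩ | ⟨rfl, hv⟩ <;> rcases hval h3 h4 with ⟨rfl, hw⟩ | ⟨rfl, hw⟩ <;>
      simp [ordVec, hv, hw]
  rwa [hmin hc₁ e₁ hc₂ e₂, hmin hc₃ e₃ hc₄ e₄] at hG'

/-- The cusp values data of a function. -/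
def CuspData (S : Subring ℂ) (M0 : ℕ) [NeZero M0] (T : ℍ → ℂ) (c : Fin M0 → S) : Prop :=
  (∀ i j, i ≠ j → IsUnit (c i - c j)) ∧ ∀ i, ∃ G : LaurentSeries S,
    ((fun τ ↦ T (cuspRep0 M0 i • τ) - (c i : ℂ)), G) ∈ sPairs S M0 ∧ LeadAt G 1

include hζ hu hM in
/-- The exact vanishing of `h` at the other cusps, and the absence of zeros of `h - cᵢ`. -/
theorem exists_hh_cuspData : ∃ c : Fin M0 → S, CuspData S M0 (hh M0) c ∧
    ∀ i τ, hh M0 τ ≠ (c i : ℂ) := by
  obtain ⟨c, hc, hval⟩ := exists_cuspValues ζ hM hζ hu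
  have hhb : ∀ i, IsBoundedAtImInfty fun τ ↦ hh M0 (cuspRep0 M0 i • τ) := fun i ↦ by
    obtain ⟨G, hG, hG1⟩ := hval i
    have h1 : IsBoundedAtImInfty fun τ ↦ hh M0 (cuspRep0 M0 i • τ) - (c i : ℂ) :=
      (mem_sPairs.mp hG).2.isBoundedAtImInfty fun k hk ↦ by
        rw [coeffMap_coeff, hG1 k (by omega), map_zero]
    exact (h1.add (Filter.const_boundedAtFilter atImInfty (c i : ℂ))).congr_left fun τ ↦ by simp
  obtain ⟨H, hH, hlead⟩ := exists_hh_series ζ hM hζ hu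
  have hne0 : ∀ {a b : Vec}, Nz M0 a → Nz M0 b → ¬ PMEq M0 a b → ∀ τ, wdiff M0 a b τ ≠ 0 :=
    fun ha hb hab τ h => hab ((wdiff_eq_zero_iff ha hb τ).1 h)
  -- a function with a simple pole at infinity which never vanishes
  have key : ∀ (a b c' d : Vec) (i : Fin M0), Nz M0 a → Nz M0 b → ¬ PMEq M0 a b → Nz M0 c' → Nz M0 d →
      ¬ PMEq M0 c' d →
      (∃ G : LaurentSeries S, ((fun τ ↦ ratio M0 a b c' d ((1 : SL(2, ℤ)) • τ)), G) ∈ sPairs S M0 ∧
        LeadAt G (-1)) →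
      (∀ j, ∃ G : LaurentSeries S, ((fun τ ↦ ratio M0 a b c' d (cuspRep0 M0 j • τ)), G) ∈ sPairs S M0 ∧
        ∃ r : ℕ, LeadAt G r ∧ (j = i → r = 1)) →
      (∀ τ, hh M0 τ ≠ (c i : ℂ)) ∧
        ∃ G : LaurentSeries S, ((fun τ ↦ hh M0 (cuspRep0 M0 i • τ) - (c i : ℂ)), G) ∈ sPairs S M0 ∧
          LeadAt G 1 := by
    intro a b c' d i ha hb hab hc' hd hcd hinf hcusp
    obtain ⟨G0, hG0, hG0'⟩ := hinf
    simp only [one_smul] at hG0
    have hbd : ∀ j, IsBoundedAtImInfty fun τ ↦ ratio M0 a b c' d (cuspRep0 M0 j • τ) := fun j => by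
      obtain ⟨G, hG, r, hr, -⟩ := hcusp j
      exact (mem_sPairs.mp hG).2.isBoundedAtImInfty fun k hk ↦ by
        rw [coeffMap_coeff, hr.1 k (by omega), map_zero]
    have hG1 : GeOrd G0 (-((1 * 1 : ℕ) : ℤ)) := by simpa using hG0'.1
    obtain ⟨P, hdeg, hP⟩ := exists_poly_of_bounded (N' := 1) (n := M0) hM (mul_one M0) hH hlead 1 hG0
      (fun γ hγ τ => ratio_invariant a b c' d hγ τ) hbd hhb hG1
    obtain ⟨κ, μ, rfl⟩ : ∃ κ μ, P = Polynomial.C κ * Polynomial.X + Polynomial.C μ :=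
      ⟨_, _, Polynomial.eq_X_add_C_of_natDegree_le_one hdeg⟩
    have hfun : ∀ τ, ratio M0 a b c' d τ = (κ : ℂ) * hh M0 τ + (μ : ℂ) := fun τ => by
      have := congrFun (congrArg Prod.fst hP) τ
      rw [evalP_fst] at this
      simpa using this.symm
    have hser : G0 = HahnSeries.C κ * H + HahnSeries.C μ := by
      have := congrArg Prod.snd hP
      rw [evalP_snd] at this
      simpa [qExpand_one_apply] using this.symm
    have hκ : IsUnit κ := by
      have h1 := hG0'.2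
      rw [hser, HahnSeries.coeff_add, geOrd_C μ (-1) (by norm_num), add_zero,
        HahnSeries.C_mul_eq_smul, HahnSeries.coeff_smul, smul_eq_mul] at h1
      exact (IsUnit.mul_iff.1 h1).1
    obtain ⟨Gi, hGi, r, hr, hr1⟩ := hcusp i
    obtain ⟨G, hG, hG1'⟩ := hval i
    have hsum : Gi = HahnSeries.C κ * G + HahnSeries.C (κ * c i + μ) := by
      refine sPairs_unique hGi ?_
      have h2 := (sPairs S M0).add_mem ((sPairs S M0).mul_mem (sPairs_const κ) hG)
        (sPairs_const (n := M0) (κ * c i + μ))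
      convert h2 using 1
      refine Prod.ext (funext fun τ => ?_) rfl
      simp only [Prod.fst_add, Prod.fst_mul, Pi.add_apply, Pi.mul_apply, hfun]
      push_cast
      ring
    rw [hr1 rfl] at hr
    have hzero : κ * c i + μ = 0 := by
      have h3 := congrArg (fun z : LaurentSeries S => z.coeff 0) hsum
      simp only [HahnSeries.coeff_add, HahnSeries.C_mul_eq_smul, HahnSeries.coeff_smul, hG1' 0 (by norm_num),
        hr.1 0 (by norm_num), smul_zero, zero_add] at h3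
      simpa [HahnSeries.C_apply] using h3.symm
    rw [hzero, map_zero, add_zero] at hsum
    refine ⟨fun τ hτ => hne0 ha hb hab τ ?_, G, hG, hG1', ?_⟩
    · have h4 : ratio M0 a b c' d τ = 0 := by
        rw [hfun, hτ]
        have := congrArg (fun z : S => (z : ℂ)) hzero
        simpa using this
      rcases div_eq_zero_iff.1 h4 with h | h
      · exact h
      · exact absurd h (hne0 hc' hd hcd τ)
    · have h5 := hr.2
      rw [hsum, HahnSeries.C_mul_eq_smul, HahnSeries.coeff_smul, smul_eq_mul] at h5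
      exact (IsUnit.mul_iff.1 h5).2
  have auto : ∀ (a b c' d : Vec) (i : Fin M0), Nz M0 a → Nz M0 b → ¬ PMEq M0 a b → Nz M0 c' →
      Nz M0 d → ¬ PMEq M0 c' d →
      ordVec M0 (vmul a 1) (vmul b 1) = 0 ∧ ordVec M0 (vmul c' 1) (vmul d 1) = 1 →
      (∀ j, ordVec M0 (vmul c' (cuspRep0 M0 j)) (vmul d (cuspRep0 M0 j)) = 0 ∨
        ordVec M0 (vmul a (cuspRep0 M0 j)) (vmul b (cuspRep0 M0 j)) = 1) →
      ordVec M0 (vmul a (cuspRep0 M0 i)) (vmul b (cuspRep0 M0 i)) = 1 ∧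
        ordVec M0 (vmul c' (cuspRep0 M0 i)) (vmul d (cuspRep0 M0 i)) = 0 →
      (∀ τ, hh M0 τ ≠ (c i : ℂ)) ∧
        ∃ G : LaurentSeries S, ((fun τ ↦ hh M0 (cuspRep0 M0 i • τ) - (c i : ℂ)), G) ∈ sPairs S M0 ∧
          LeadAt G 1 := by
    intro a b c' d i ha hb hab hc' hd hcd hinf hall hi
    refine key a b c' d i ha hb hab hc' hd hcd ?_ fun j => ?_
    · obtain ⟨G, hG, hG'⟩ := exists_ratio_auto hM ζ hζ hu 1 ha hb hc' hd hab hcd
      exact ⟨G, hG, by simpa [hinf.1, hinf.2] using hG'⟩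
    · obtain ⟨G, hG, hG'⟩ := exists_ratio_auto hM ζ hζ hu (cuspRep0 M0 j) ha hb hc' hd hab hcd
      have hle : ∀ v w : Vec, ordVec M0 v w ≤ 1 := fun v w => by
        unfold ordVec; split_ifs <;> omega
      refine ⟨G, hG, ordVec M0 (vmul a (cuspRep0 M0 j)) (vmul b (cuspRep0 M0 j)) -
        ordVec M0 (vmul c' (cuspRep0 M0 j)) (vmul d (cuspRep0 M0 j)), ?_, ?_⟩
      · rw [Nat.cast_sub]
        · exact hG'
        · rcases hall j with h | h
          · rw [h]; exact Nat.zero_le _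
          · rw [h]; exact hle _ _
      · rintro rfl
        rw [hi.1, hi.2]
  have all : ∀ i, (∀ τ, hh M0 τ ≠ (c i : ℂ)) ∧
      ∃ G : LaurentSeries S, ((fun τ ↦ hh M0 (cuspRep0 M0 i • τ) - (c i : ℂ)), G) ∈ sPairs S M0 ∧
        LeadAt G 1 := by
    have hnz : ∀ v : Vec, ((v.1 : ZMod M0) ≠ 0 ∨ (v.2 : ZMod M0) ≠ 0) → Nz M0 v := fun v h => h
    have hpm : ∀ v w : Vec, ¬ (((v.1 : ZMod M0) = w.1 ∧ (v.2 : ZMod M0) = w.2) ∨
        ((v.1 : ZMod M0) = (-w).1 ∧ (v.2 : ZMod M0) = (-w).2)) → ¬ PMEq M0 v w := fun v w h => h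
    rcases hM with rfl | rfl <;> intro i <;> fin_cases i
    · exact auto (0, 1) (1, 1) (1, 0) (1, 1) _ (hnz _ (by decide)) (hnz _ (by decide))
        (hpm _ _ (by decide)) (hnz _ (by decide)) (hnz _ (by decide)) (hpm _ _ (by decide))
        (by decide) (by decide) (by decide)
    · exact auto (0, 1) (1, 0) (1, 0) (1, 1) _ (hnz _ (by decide)) (hnz _ (by decide))
        (hpm _ _ (by decide)) (hnz _ (by decide)) (hnz _ (by decide)) (hpm _ _ (by decide))
        (by decide) (by decide) (by decide)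
    · exact auto (0, 1) (1, 1) (1, 0) (1, 1) _ (hnz _ (by decide)) (hnz _ (by decide))
        (hpm _ _ (by decide)) (hnz _ (by decide)) (hnz _ (by decide)) (hpm _ _ (by decide))
        (by decide) (by decide) (by decide)
    · exact auto (0, 1) (1, 1) (1, -1) (1, 1) _ (hnz _ (by decide)) (hnz _ (by decide))
        (hpm _ _ (by decide)) (hnz _ (by decide)) (hnz _ (by decide)) (hpm _ _ (by decide))
        (by decide) (by decide) (by decide)
    · exact auto (0, 1) (1, 0) (1, 0) (1, 1) _ (hnz _ (by decide)) (hnz _ (by decide))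
        (hpm _ _ (by decide)) (hnz _ (by decide)) (hnz _ (by decide)) (hpm _ _ (by decide))
        (by decide) (by decide) (by decide)
  exact ⟨c, ⟨hc, fun i => (all i).2⟩, fun i => (all i).1⟩

include hM in
theorem conj_wdiff_series {a b a' b' : ℤ} (h : Nz M0 (a, b)) (h' : Nz M0 (a', b'))
    {F : LaurentSeries ℂ} (hF : HasExp M0 (wdiff M0 (a, b) (a', b')) F) :
    HasExp M0 (wdiff M0 (a, -b) (a', -b')) (coeffMap (starRingEnd ℂ) F) := by
  have hn : ∀ {a b : ℤ}, Nz M0 (a, b) → Nz M0 (a, -b) := fun h => by simpa [Nz] using h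
  have h1 : HasExp M0 (wdiff M0 (a, b) (a', b')) _ := hasExp_wv_sub h h'
  have h2 : HasExp M0 (wdiff M0 (a, -b) (a', -b')) _ := hasExp_wv_sub (hn h) (hn h')
  rw [hF.unique h1]
  convert h2 using 1
  have hd : ∀ {a b : ℤ}, Nz M0 (a, b) → (M0 : ℤ) ∣ a →
      IsUnit (1 - ((zetaN M0 ^ b : ℂˣ) : ℂ)) := by
    intro a b hab ha
    refine IsUnit.mk0 _ (sub_ne_zero.2 fun hone => ?_)
    have h3 : zetaN M0 ^ b = 1 := Units.ext hone.symm
    rw [(zetaN_primitive (N := M0)).zpow_eq_one_iff_dvd] at h3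
    rcases hab with hab | hab
    · exact hab ((ZMod.intCast_zmod_eq_zero_iff_dvd _ _).2 ha)
    · exact hab ((ZMod.intCast_zmod_eq_zero_iff_dvd _ _).2 h3)
  have hconj : ∀ b : ℤ, Units.map (starRingEnd ℂ : ℂ →* ℂ) (zetaN M0 ^ b) = zetaN M0 ^ (-b) := by
    intro b
    rw [map_zpow, zpow_neg, ← inv_zpow]
    congr 1
    refine Units.ext ?_
    rw [Units.val_inv_eq_inv_val, zetaN, Units.coe_map, Units.val_mk0, ← Complex.exp_neg]
    show (starRingEnd ℂ) (Complex.exp _) = _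
    rw [← Complex.exp_conj]
    congr 1
    rw [map_div₀, map_mul, map_mul, Complex.conj_I, Complex.conj_ofReal, map_ofNat, map_natCast]
    ring
  have hser : ∀ P : PowerSeries ℂ, coeffMap (starRingEnd ℂ) (HahnSeries.ofPowerSeries ℤ ℂ P) =
      HahnSeries.ofPowerSeries ℤ ℂ (P.map (starRingEnd ℂ)) := fun P => by
    ext i
    rw [coeffMap_coeff]
    rcases lt_or_ge i 0 with hi | hi
    · rw [ofPowerSeries_coeff_of_neg _ hi, ofPowerSeries_coeff_of_neg _ hi, map_zero]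
    · lift i to ℕ using hi
      rw [HahnSeries.ofPowerSeries_apply_coeff, HahnSeries.ofPowerSeries_apply_coeff,
        PowerSeries.coeff_map]
  rw [hser, map_sub (PowerSeries.map (starRingEnd ℂ)), map_wser _ _ _ (hd h), map_wser _ _ _ (hd h'),
    hconj, hconj]

theorem coordT_two : coordT 2 = hh 2 := if_pos rfl

include hζ hu hM in
/-- The coordinate, its expansion and its cusp values. -/
theorem exists_coordT_data : ∃ (H : LaurentSeries S) (c : Fin M0 → S) (α β : S),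
    (coordT M0, H) ∈ sPairs S M0 ∧ LeadAt H (-1) ∧ CuspData S M0 (coordT M0) c ∧
    (∀ i τ, coordT M0 τ ≠ (c i : ℂ)) ∧ (∀ k, ((H.coeff k : S) : ℂ) ∈ ratLoc M0) ∧
    IsUnit α ∧ ∀ τ, coordT M0 τ = (α : ℂ) * hh M0 τ + (β : ℂ) := by
  obtain ⟨c, hc, hne⟩ := exists_hh_cuspData hM ζ hζ hu
  obtain ⟨H, hH, hlead⟩ := exists_hh_series ζ hM hζ hu
  -- the affine relation and the rationality
  obtain ⟨G, α, β, hG, hGlead, hα, hT, hrat⟩ : ∃ (G : LaurentSeries S) (α β : S),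
      (coordT M0, G) ∈ sPairs S M0 ∧ LeadAt G (-1) ∧ IsUnit α ∧
        (∀ τ, coordT M0 τ = (α : ℂ) * hh M0 τ + (β : ℂ)) ∧ ∀ k, ((G.coeff k : S) : ℂ) ∈ ratLoc M0 := by
    rcases hM with rfl | rfl
    · refine ⟨H, 1, 0, by rw [coordT_two]; exact hH, hlead, isUnit_one,
        fun τ => by simp [coordT_two], fun k => ?_⟩
      let S' := ratLoc 2
      have hu2 : IsUnit ((2 : ℕ) : S') := IsUnit.of_mul_eq_one
        ⟨((2 : ℕ) : ℂ)⁻¹, Subring.subset_closure rfl⟩ (Subtype.ext (by show ((2 : ℕ) : ℂ) * ((2 : ℕ) : ℂ)⁻¹ = 1; norm_num))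
      let ζ' : S'ˣ := -1
      have hζ' : ((ζ' : S') : ℂ) = zetaN 2 := by
        simp only [ζ', Units.val_neg, Units.val_one, zetaN, Units.val_mk0]
        push_cast
        rw [show (2 : ℂ) * Real.pi * Complex.I / 2 = Real.pi * Complex.I by ring, Complex.exp_pi_mul_I]
      obtain ⟨H', hH', -⟩ := exists_hh_series ζ' (Or.inl rfl) hζ' hu2
      have h := (mem_sPairs.mp hH).2.unique (mem_sPairs.mp hH').2
      have h2 := congrArg (fun z : LaurentSeries ℂ => z.coeff k) h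
      simp only [sIncl, coeffMap_coeff] at h2
      show S.subtype (H.coeff k) ∈ ratLoc 2
      rw [h2]
      exact (H'.coeff k).2
    · have hcd : ¬ PMEq 3 ((1 : ℤ), (0 : ℤ)) ((1 : ℤ), -(1 : ℤ)) := fun h =>
        absurd (show ((1 : ZMod 3) = 1 ∧ (0 : ZMod 3) = -1) ∨ ((1 : ZMod 3) = -1 ∧ (0 : ZMod 3) = 1) by
          simpa [PMEq, VEq] using h) (by decide)
      have hab : ¬ PMEq 3 ((0 : ℤ), (1 : ℤ)) ((1 : ℤ), -(1 : ℤ)) := fun h =>
        absurd (show ((0 : ZMod 3) = 1 ∧ (1 : ZMod 3) = -1) ∨ ((0 : ZMod 3) = -1 ∧ (1 : ZMod 3) = 1) by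
          simpa [PMEq, VEq] using h) (by decide)
      obtain ⟨n1, n2, n3, hcb⟩ := base_nz (M0 := 3) (Or.inr rfl)
      have n4 : Nz 3 ((1 : ℤ), -(1 : ℤ)) := Or.inl (by decide)
      obtain ⟨G2, hG2, hG2'⟩ := exists_ratio_auto (Or.inr rfl) ζ hζ hu 1 n1 n4 n3 n4 hab hcd
      simp only [one_smul] at hG2
      have ho : ∀ v : Vec, vmul v 1 = v := vmul_one
      rw [ho, ho, ho, show (ordVec 3 ((0 : ℤ), (1 : ℤ)) ((1 : ℤ), -(1 : ℤ)) : ℤ) = 0 by decide,
        show (ordVec 3 ((1 : ℤ), (0 : ℤ)) ((1 : ℤ), -(1 : ℤ)) : ℤ) = 1 by decide, zero_sub] at hG2'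
      set T := coordT 3 with hTdef
      have hTe : T = hh 3 + ratio 3 (0, 1) (1, -1) (1, 0) (1, -1) := if_neg (by norm_num)
      have hTG : (T, H + G2) ∈ sPairs S 3 := hTe ▸ (sPairs S 3).add_mem hH hG2
      -- the complex conjugate of the expansion of `h`
      set Hc := sIncl S H
      set Gc := sIncl S G2
      have hconj : Gc = coeffMap (starRingEnd ℂ) Hc := by
        have hne : ∀ {a b : Vec}, Nz 3 a → Nz 3 b → ¬ PMEq 3 a b → ∀ τ, wdiff 3 a b τ ≠ 0 :=
          fun ha hb hab τ h => hab ((wdiff_eq_zero_iff ha hb τ).1 h)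
        obtain ⟨Fn, hFn⟩ : ∃ F, HasExp 3 (wdiff 3 (0, 1) (1, 1)) F := ⟨_, hasExp_wv_sub n1 n2⟩
        obtain ⟨Fd, hFd⟩ : ∃ F, HasExp 3 (wdiff 3 (1, 0) (1, 1)) F := ⟨_, hasExp_wv_sub n3 n2⟩
        have e1 : Hc * Fd = Fn := by
          refine ((mem_sPairs.mp hH).2.mul hFd).unique (hFn.congr (Eventually.of_forall fun τ => ?_))
          show wdiff 3 (0, 1) (1, 1) τ = hh 3 τ * wdiff 3 (1, 0) (1, 1) τ
          rw [hh, div_mul_cancel₀ _ (hne n3 n2 hcb τ)]
        have hFn' := conj_wdiff_series (Or.inr rfl) n1 n2 hFn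
        have hFd' := conj_wdiff_series (Or.inr rfl) n3 n2 hFd
        have hw : wdiff 3 ((0 : ℤ), -(1 : ℤ)) ((1 : ℤ), -(1 : ℤ)) = wdiff 3 ((0 : ℤ), (1 : ℤ)) ((1 : ℤ), -(1 : ℤ)) :=
          wdiff_congr (Or.inr ⟨by simp, by simp⟩) (Or.inl ⟨rfl, rfl⟩)
        have hd' : wdiff 3 ((1 : ℤ), -(0 : ℤ)) ((1 : ℤ), -(1 : ℤ)) = wdiff 3 ((1 : ℤ), (0 : ℤ)) ((1 : ℤ), -(1 : ℤ)) := by
          rw [neg_zero]
        rw [hw] at hFn'
        rw [hd'] at hFd'
        have e2 : Gc * coeffMap (starRingEnd ℂ) Fd = coeffMap (starRingEnd ℂ) Fn := by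
          refine ((mem_sPairs.mp hG2).2.mul hFd').unique (hFn'.congr (Eventually.of_forall fun τ => ?_))
          show _ = ratio 3 (0, 1) (1, -1) (1, 0) (1, -1) τ * wdiff 3 (1, 0) (1, -1) τ
          rw [ratio, div_mul_cancel₀ _ (hne n3 n4 hcd τ)]
        rw [← e1, map_mul] at e2
        refine mul_right_cancel₀ (fun h0 => ?_) e2
        have h1 : coeffMap (starRingEnd ℂ) Fd = coeffMap (starRingEnd ℂ) 0 := h0.trans (map_zero _).symm
        have h2 : Fd = 0 := coeffMap_injective _ (starRingEnd ℂ).injective h1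
        rw [h2, mul_zero] at e1
        obtain ⟨τ, hτ⟩ := (hFn.congr (Eventually.of_forall fun _ => rfl)).exists
        rw [← e1] at hτ
        exact hne n1 n2 (by simpa [PMEq, VEq] using (show ¬ (((0 : ZMod 3) = 1 ∧ (1 : ZMod 3) = 1) ∨
          ((0 : ZMod 3) = -1 ∧ (1 : ZMod 3) = -1)) by decide)) τ (by simpa using hτ.unique (by simp [hasSum_zero]))
      -- the rationality
      have hζ3 : ((ζ : S) : ℂ) ^ 2 + ((ζ : S) : ℂ) + 1 = 0 := by
        have h3 : IsPrimitiveRoot ((zetaN 3 : ℂˣ) : ℂ) 3 := zetaN_primitive.map_of_injective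
          (f := Units.coeHom ℂ) Units.val_injective
        have := h3.geom_sum_eq_zero (by norm_num)
        rw [hζ]
        simp only [Finset.sum_range_succ, Finset.range_zero, Finset.sum_empty] at this
        linear_combination this
      let R3 : Subring ℂ :=
        { carrier := {x | ∃ a b, a ∈ ratLoc 3 ∧ b ∈ ratLoc 3 ∧ x = a + b * ((ζ : S) : ℂ)}
          mul_mem' := by
            rintro _ _ ⟨a, b, ha, hb, rfl⟩ ⟨c, d, hc, hd, rfl⟩
            exact ⟨a * c - b * d, a * d + b * c - b * d, sub_mem (mul_mem ha hc) (mul_mem hb hd),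
              sub_mem (add_mem (mul_mem ha hd) (mul_mem hb hc)) (mul_mem hb hd),
              by linear_combination (b * d) * hζ3⟩
          one_mem' := ⟨1, 0, one_mem _, zero_mem _, by simp⟩
          add_mem' := by
            rintro _ _ ⟨a, b, ha, hb, rfl⟩ ⟨c, d, hc, hd, rfl⟩
            exact ⟨a + c, b + d, add_mem ha hc, add_mem hb hd, by ring⟩
          zero_mem' := ⟨0, 0, zero_mem _, zero_mem _, by simp⟩
          neg_mem' := by
            rintro _ ⟨a, b, ha, hb, rfl⟩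
            exact ⟨-a, -b, neg_mem ha, neg_mem hb, by ring⟩ }
      have h3R : IsUnit ((3 : ℕ) : R3) := IsUnit.of_mul_eq_one
        ⟨((3 : ℕ) : ℂ)⁻¹, _, 0, Subring.subset_closure rfl, zero_mem _, by simp⟩ (Subtype.ext (by show ((3 : ℕ) : ℂ) * ((3 : ℕ) : ℂ)⁻¹ = 1; norm_num))
      have hzmem : ((ζ : S) : ℂ) ∈ R3 := ⟨0, 1, zero_mem _, one_mem _, by simp⟩
      let ζR : R3ˣ :=
        { val := ⟨_, hzmem⟩
          inv := ⟨_, pow_mem hzmem 2⟩
          val_inv := Subtype.ext (by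
            show ((ζ : S) : ℂ) * ((ζ : S) : ℂ) ^ 2 = 1
            linear_combination (((ζ : S) : ℂ) - 1) * hζ3)
          inv_val := Subtype.ext (by
            show ((ζ : S) : ℂ) ^ 2 * ((ζ : S) : ℂ) = 1
            linear_combination (((ζ : S) : ℂ) - 1) * hζ3) }
      obtain ⟨H', hH', -⟩ := exists_hh_series (S := R3) ζR (Or.inr rfl) hζ h3R
      have hHk : ∀ k, ∃ a b, a ∈ ratLoc 3 ∧ b ∈ ratLoc 3 ∧ Hc.coeff k = a + b * ((ζ : S) : ℂ) := fun k => by
        rw [show Hc = sIncl R3 H' from (mem_sPairs.mp hH).2.unique (mem_sPairs.mp hH').2]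
        exact (H'.coeff k).2
      have hzconj : (starRingEnd ℂ) ((ζ : S) : ℂ) = -1 - ((ζ : S) : ℂ) := by
        have hz : ((zetaN 3 : ℂˣ) : ℂ) ^ 3 = 1 := by
          rw [← Units.val_pow_eq_pow_val, zetaN_primitive.pow_eq_one, Units.val_one]
        rw [hζ, ← Complex.inv_eq_conj (Complex.norm_eq_one_of_pow_eq_one hz (by norm_num))]
        rw [inv_eq_of_mul_eq_one_right (b := -1 - ((zetaN 3 : ℂˣ) : ℂ))]
        rw [← hζ]
        linear_combination (-1 : ℂ) * hζ3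
      have hrat : ∀ k, (((H + G2).coeff k : S) : ℂ) ∈ ratLoc 3 := fun k => by
        obtain ⟨a, b, ha, hb, hab'⟩ := hHk k
        have h1 : (((H + G2).coeff k : S) : ℂ) = Hc.coeff k + Gc.coeff k := by
          simp [Hc, Gc, sIncl]
        rw [h1, hconj, coeffMap_coeff (starRingEnd ℂ), hab', map_add, map_mul, hzconj, conj_mem_ratLoc ha,
          conj_mem_ratLoc hb, show a + b * ((ζ : S) : ℂ) + (a + b * (-1 - ((ζ : S) : ℂ))) = a + a - b by ring]
        exact sub_mem (add_mem ha ha) hb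
      -- the leading coefficient
      have hlc : (((H + G2).coeff (-1) : S) : ℂ) = -1 / 3 := by
        have hd1 := hasExp_wv_sub (N := 3) n3 n2
        have hn1 := hasExp_wv_sub (N := 3) n1 n2
        set Fd := HahnSeries.ofPowerSeries ℤ ℂ
          (wser 3 ((1 : ℤ), (0 : ℤ)).1 (zetaN 3 ^ ((1 : ℤ), (0 : ℤ)).2) - wser 3 ((1 : ℤ), (1 : ℤ)).1 (zetaN 3 ^ ((1 : ℤ), (1 : ℤ)).2)) with hFd
        set Fn := HahnSeries.ofPowerSeries ℤ ℂ
          (wser 3 ((0 : ℤ), (1 : ℤ)).1 (zetaN 3 ^ ((0 : ℤ), (1 : ℤ)).2) - wser 3 ((1 : ℤ), (1 : ℤ)).1 (zetaN 3 ^ ((1 : ℤ), (1 : ℤ)).2)) with hFn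
        have e1 : Hc * Fd = Fn := by
          refine ((mem_sPairs.mp hH).2.mul hd1).unique (hn1.congr (Eventually.of_forall fun τ => ?_))
          show wdiff 3 (0, 1) (1, 1) τ = hh 3 τ * wdiff 3 (1, 0) (1, 1) τ
          rw [hh, div_mul_cancel₀ _ (fun h => hcb ((wdiff_eq_zero_iff n3 n2 τ).1 h))]
        have hd0 : Fd.coeff 0 = 0 := by
          rw [hFd, show (0 : ℤ) = ((0 : ℕ) : ℤ) from rfl, HahnSeries.ofPowerSeries_apply_coeff,
            map_sub (PowerSeries.coeff 0), wser_coeff_zero, wser_coeff_zero]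
          norm_num
        have hd1' : Fd.coeff 1 = 1 - ((zetaN 3 : ℂˣ) : ℂ) := by
          rw [hFd, show (1 : ℤ) = ((1 : ℕ) : ℤ) from rfl, HahnSeries.ofPowerSeries_apply_coeff,
            map_sub (PowerSeries.coeff 1), wser_coeff_pos _ _ _ one_ne_zero, wser_coeff_pos _ _ _ one_ne_zero]
          simp only [show (1 : ℤ) = ((1 : ℕ) : ℤ) from rfl]
          rw [wcoef_self (a := 1) _ one_pos (by norm_num), wcoef_self (a := 1) _ one_pos (by norm_num)]
          norm_num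
        have hn0 : Fn.coeff 0 = ((zetaN 3 : ℂˣ) : ℂ) / (1 - ((zetaN 3 : ℂˣ) : ℂ)) ^ 2 := by
          rw [hFn, show (0 : ℤ) = ((0 : ℕ) : ℤ) from rfl, HahnSeries.ofPowerSeries_apply_coeff,
            map_sub (PowerSeries.coeff 0), wser_coeff_zero, wser_coeff_zero]
          norm_num [Ring.inverse_eq_inv', div_eq_mul_inv]
        have hHo : GeOrd Hc (-1) := fun i hi => by simp [Hc, sIncl, hlead.1 i hi]
        have hFo : GeOrd Fd 1 := fun i hi => by
          rcases eq_or_lt_of_le (show i ≤ 0 by omega) with rfl | h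
          · exact hd0
          · rw [hFd]; exact ofPowerSeries_coeff_of_neg _ h
        have hmul := hHo.coeff_mul_add hFo
        rw [e1, show (-1 : ℤ) + 1 = 0 by norm_num, hn0, hd1'] at hmul
        rw [← hζ] at hmul
        set z := ((ζ : S) : ℂ)
        have hz1 : (1 - z) ≠ 0 := fun h => by
          rw [show z = 1 by linear_combination -h] at hζ3
          norm_num at hζ3
        have hh1 : Hc.coeff (-1) = -(2 + z) / 9 := by
          rw [div_eq_iff (pow_ne_zero 2 hz1)] at hmul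
          refine mul_right_cancel₀ (pow_ne_zero 3 hz1) ?_
          rw [show Hc.coeff (-1) * (1 - z) ^ 3 = z by linear_combination -hmul]
          field_simp
          linear_combination (-(z ^ 2 - 2 * z - 2)) * hζ3
        have h1 : (((H + G2).coeff (-1) : S) : ℂ) = Hc.coeff (-1) + Gc.coeff (-1) := by simp [Hc, Gc, sIncl]
        rw [h1, hconj, coeffMap_coeff (starRingEnd ℂ), hh1, map_div₀, map_neg, map_add, hzconj]
        simp only [map_ofNat]
        ring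
      have hTlead : LeadAt (H + G2) (-1) := by
        refine ⟨hlead.1.add hG2'.1, IsUnit.of_mul_eq_one (-(⟨(3 : ℂ), ofNat_mem S 3⟩ : S)) (Subtype.ext ?_)⟩
        push_cast
        rw [hlc]
        ring
      -- the affine relation
      have hhb : ∀ i, IsBoundedAtImInfty fun τ ↦ hh 3 (cuspRep0 3 i • τ) := fun i ↦ by
        obtain ⟨G, hG, hG1⟩ := hc.2 i
        have h1 : IsBoundedAtImInfty fun τ ↦ hh 3 (cuspRep0 3 i • τ) - (c i : ℂ) :=
          (mem_sPairs.mp hG).2.isBoundedAtImInfty fun k hk ↦ by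
            rw [coeffMap_coeff, hG1.1 k (by omega), map_zero]
        exact (h1.add (Filter.const_boundedAtFilter atImInfty (c i : ℂ))).congr_left fun τ ↦ by simp
      have hbd : ∀ i, IsBoundedAtImInfty fun τ ↦ T (cuspRep0 3 i • τ) := fun i => by
        obtain ⟨G, hG, hG'⟩ := exists_ratio_auto (Or.inr rfl) ζ hζ hu (cuspRep0 3 i) n1 n4 n3 n4 hab hcd
        have h0 : IsBoundedAtImInfty fun τ ↦ ratio 3 (0, 1) (1, -1) (1, 0) (1, -1) (cuspRep0 3 i • τ) :=
          (mem_sPairs.mp hG).2.isBoundedAtImInfty fun k hk ↦ by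
            have : ∀ j : Fin 3, (ordVec 3 (vmul ((1 : ℤ), (0 : ℤ)) (cuspRep0 3 j)) (vmul ((1 : ℤ), -(1 : ℤ)) (cuspRep0 3 j))) ≤
              ordVec 3 (vmul ((0 : ℤ), (1 : ℤ)) (cuspRep0 3 j)) (vmul ((1 : ℤ), -(1 : ℤ)) (cuspRep0 3 j)) := by decide
            rw [coeffMap_coeff, hG'.1 k (by have := this i; omega), map_zero]
        exact ((hhb i).add h0).congr_left fun τ ↦ by simp [hTe]
      have hG1 : GeOrd (H + G2) (-((1 * 1 : ℕ) : ℤ)) := by simpa using hTlead.1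
      obtain ⟨P, hdeg, hP⟩ := exists_poly_of_bounded (N' := 1) (n := 3) (Or.inr rfl) (mul_one 3) hH hlead 1 hTG
        (fun γ hγ τ => coordT_invariant hγ τ) hbd hhb hG1
      obtain ⟨α, β, rfl⟩ : ∃ α β, P = Polynomial.C α * Polynomial.X + Polynomial.C β :=
        ⟨_, _, Polynomial.eq_X_add_C_of_natDegree_le_one hdeg⟩
      refine ⟨H + G2, α, β, hTG, hTlead, ?_, fun τ => ?_, hrat⟩
      · have h2 := congrArg Prod.snd hP
        rw [evalP_snd] at h2
        have h3 := hTlead.2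
        rw [← show _ = H + G2 from h2] at h3
        simp only [qExpand_one_apply, Polynomial.eval₂_add, Polynomial.eval₂_mul, Polynomial.eval₂_C,
          Polynomial.eval₂_X, HahnSeries.coeff_add, geOrd_C β (-1) (by norm_num), add_zero,
          HahnSeries.C_mul_eq_smul, HahnSeries.coeff_smul, smul_eq_mul] at h3
        exact (IsUnit.mul_iff.1 h3).1
      · have := congrFun (congrArg Prod.fst hP) τ
        rw [evalP_fst] at this
        simpa using this.symm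
  refine ⟨G, fun i => α * c i + β, α, β, hG, hGlead, ⟨fun i j hij => ?_, fun i => ?_⟩, fun i τ h => ?_,
    hrat, hα, hT⟩
  · rw [add_sub_add_right_eq_sub, ← mul_sub]
    exact hα.mul (hc.1 i j hij)
  · obtain ⟨Gi, hGi, hGi'⟩ := hc.2 i
    refine ⟨HahnSeries.C α * Gi, ?_, ?_⟩
    · have h2 := (sPairs S M0).mul_mem (sPairs_const (n := M0) α) hGi
      convert h2 using 1
      refine Prod.ext (funext fun τ => ?_) rfl
      simp only [Prod.fst_mul, Pi.mul_apply, hT]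
      push_cast
      ring
    · exact ⟨by simpa using (geOrd_C α).mul hGi'.1, by
        rw [HahnSeries.C_mul_eq_smul, HahnSeries.coeff_smul, smul_eq_mul]
        exact hα.mul hGi'.2⟩
  · rw [hT] at h
    push_cast at h
    have hα0 : (α : ℂ) ≠ 0 := (hα.map S.subtype).ne_zero
    exact hne i τ (mul_left_cancel₀ hα0 (add_right_cancel h))

end

end FLTAgent.Carayol
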