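import Fermat.Agent.Carayol.Frac

/-!
# Stable functions with expansions over the small ring
-/

set_option autoImplicit false
set_option linter.unusedSectionVars false
set_option linter.style.haveILetI false

noncomputable section

open UpperHalfPlane hiding I I_re I_im
open Filter Topology Complex Function FLTAgent.ModEq FLTAgent.GoodModel ModularCurve
open scoped MatrixGroups Manifold Classical

namespace FLTAgent.Carayol

namespace Ctx

variable {q M0 N' : ℕ} [NeZero M0] [NeZero N'] [NeZero q] [Fact q.Prime] (C : Ctx q M0 N')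

theorem eq_zero_of_eval_Ys {P : Polynomial C.S} (h : P.eval₂ HahnSeries.C C.Ys = 0) : P = 0 := by
  have h1 : (P.map C.S.subtype).eval₂ HahnSeries.C (sIncl C.S C.Ys) = 0 := by
    have h0 := congrArg (sIncl C.S) h
    rw [map_zero, Polynomial.hom_eval₂] at h0
    rw [Polynomial.eval₂_map]
    refine Eq.trans ?_ h0
    congr 1
    ext x : 1
    simp [sIncl, HahnSeries.C_apply, coeffMap_single]
  have hl : LeadAt (sIncl C.S C.Ys - HahnSeries.C (0 : ℂ)) (-((N' * q : ℕ) : ℤ)) := by
    rw [map_zero, sub_zero, C.Ys_eq]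
    refine ⟨fun i hi => ?_, ?_⟩
    · rw [sIncl, coeffMap_coeff, coeffMap_coeff, C.leadAt_Ys_W.1 i hi, map_zero, map_zero]
    · rw [sIncl, coeffMap_coeff, coeffMap_coeff]
      exact (C.leadAt_Ys_W.2.map C.inc).map C.S.subtype
  have hne : -((N' * q : ℕ) : ℤ) ≠ 0 := neg_ne_zero.2 (by exact_mod_cast NeZero.ne (N' * q))
  exact (Polynomial.map_eq_zero_iff Subtype.val_injective).1 (not_eval₂_eq_zero hne hl h1)

/-- Fixed expansions of elements of the cover. -/
theorem coeffMap_embAt_one (hF : C.FixedPart) {σ : C.S ≃+* C.S} (hσ : ∀ w, σ (C.inc w) = C.inc w)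
    (a : C.R) : coeffMap σ.toRingHom (C.embAt 1 a) = C.embAt 1 a := by
  ext k
  obtain ⟨w, hw⟩ := C.coeff_embAt_one hF a k
  rw [coeffMap_coeff, ← hw]
  exact congrArg Subtype.val (hσ w)

theorem ser_incl (a : C.R) : ser (Subring.inclusion C.R_le a) = C.embAt 1 a := by
  rw [C.embAt_apply]
  exact congrArg ser (Subtype.ext (compg_one _).symm)

theorem trComp_evT {γ : SL(2, ℤ)} (hγ : γ ∈ CongruenceSubgroup.Gamma M0) (P : Polynomial C.S) :
    trComp γ (C.evT P) = C.evT P := by
  refine Subtype.ext (funext fun τ => ?_)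
  show (C.evT P : ℍ → ℂ) (γ • τ) = _
  rw [C.evT_apply, C.evT_apply, C.T_pm (Or.inl hγ)]

theorem trComp_dR {γ : SL(2, ℤ)} (hγ : γ ∈ CongruenceSubgroup.Gamma M0) :
    trComp γ (Subring.inclusion C.R_le C.dR) = Subring.inclusion C.R_le C.dR := by
  refine Subtype.ext (funext fun τ => ?_)
  show (C.dlt (γ • τ))⁻¹ = (C.dlt τ)⁻¹
  simp only [dlt, C.T_pm (Or.inl hγ)]

/-- A stable function with expansion over the small ring is a quotient of two elements. -/
theorem exists_frac_of_ser (hF : C.FixedPart) (φ : trRing C.S (M0 * (N' * q)))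
    (hstab : C.Stab (φ : ℍ → ℂ)) (hser : ∀ k : ℤ, (ser φ).coeff k ∈ C.inc.range) :
    ∃ a d : C.R, d ≠ 0 ∧ Subring.inclusion C.R_le d * φ = Subring.inclusion C.R_le a := by
  haveI := C.isDomain_trRing
  obtain ⟨r, hr⟩ := C.exists_basis
  set e := Fintype.equivFin C.Idx
  set i0 := e C.one'
  set V : Matrix (Fin (Fintype.card C.Idx)) (Fin (Fintype.card C.Idx)) (trRing C.S (M0 * (N' * q))) :=
    Matrix.of fun i j => C.trEl (e.symm i) (r j) with hVdef
  have hV : V.det ≠ 0 := fun h => hr (by
    have h2 := congrArg ser h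
    rw [RingHom.map_det, map_zero] at h2
    exact h2)
  have hd : C.evT C.dltS * Subring.inclusion C.R_le C.dR = 1 := by
    rw [← C.map_dltW, ← C.incl_evR, ← map_mul, C.evR_dltW_mul_dR, map_one]
  have hTm : ∀ i j, ∃ u : C.R, Subring.inclusion C.R_le u = (V.transpose * V) i j ∧
      ∀ γ ∈ CongruenceSubgroup.Gamma M0, trComp γ ((V.transpose * V) i j) = (V.transpose * V) i j := by
    intro i j
    have hs : (V.transpose * V) i j = ∑ l, trComp (C.rep l) (Subring.inclusion C.R_le (r i * r j)) := by
      rw [Matrix.mul_apply]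
      refine Fintype.sum_equiv e.symm _ _ fun x => ?_
      simp [hVdef, trEl]
    obtain ⟨P, s, hP⟩ := C.exists_trace hF (r i * r j)
    have he : Subring.inclusion C.R_le (C.evR P * C.dR ^ s) = (V.transpose * V) i j := by
      rw [hs, map_mul, map_pow, C.incl_evR, ← hP, mul_assoc, ← mul_pow, hd, one_pow, mul_one]
    refine ⟨C.evR P * C.dR ^ s, he, fun γ hγ => ?_⟩
    rw [← he, map_mul, map_pow, C.incl_evR, map_mul, map_pow, C.trComp_evT hγ, C.trComp_dR hγ]
  have ht : ∀ j, ∃ (P : Polynomial C.S) (s : ℕ),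
      (∑ m, trComp (C.rep (e.symm m)) φ * V m j) =
        C.evT P * Subring.inclusion C.R_le C.dR ^ s := by
    intro j
    have hs : ∑ m, trComp (C.rep (e.symm m)) φ * V m j =
        ∑ l, trComp (C.rep l) (φ * Subring.inclusion C.R_le (r j)) := by
      refine Fintype.sum_equiv e.symm _ _ fun x => ?_
      simp [hVdef, trEl]
    obtain ⟨P, s, hP⟩ := C.exists_poly_el (∑ l, trComp (C.rep l) (φ * Subring.inclusion C.R_le (r j)))
      (fun γ hγ => by
        rw [AddSubmonoidClass.coe_finsetSum]
        refine C.sum_invariant (φ := ((φ * Subring.inclusion C.R_le (r j) :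
          trRing C.S (M0 * (N' * q))) : ℍ → ℂ)) ?_ hγ
        intro γ1 γ2 h1 h2 htr
        show compg γ1 ((φ : ℍ → ℂ) * (r j : ℍ → ℂ)) = compg γ2 ((φ : ℍ → ℂ) * (r j : ℍ → ℂ))
        rw [map_mul, map_mul, hstab γ1 γ2 h1 h2 htr, C.stab_R (r j) γ1 γ2 h1 h2 htr])
    exact ⟨P, s, by rw [hs, ← hP, mul_assoc, ← mul_pow, hd, one_pow, mul_one]⟩
  choose Tm hTm hinv' using hTm
  have hinv : ∀ γ ∈ CongruenceSubgroup.Gamma M0, ∀ i j,
      trComp γ ((V.transpose * V) i j) = (V.transpose * V) i j := fun γ hγ i j => hinv' i j γ hγ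
  choose P s ht using ht
  have hmap : (Subring.inclusion C.R_le).mapMatrix (Matrix.of Tm) = V.transpose * V :=
    Matrix.ext fun i j => hTm i j
  have hdet : Subring.inclusion C.R_le (Matrix.of Tm).det = (V.transpose * V).det := by
    rw [RingHom.map_det, hmap]
  have hadj : ∀ i j, Subring.inclusion C.R_le ((Matrix.of Tm).adjugate i j) =
      (V.transpose * V).adjugate i j := fun i j => by
    have h := congrFun (congrFun ((Subring.inclusion C.R_le).map_adjugate (Matrix.of Tm)) i) j
    rw [hmap] at h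
    exact h
  have hφ0 : trComp (C.rep (e.symm i0)) φ = φ := by
    refine Subtype.ext ?_
    show compg (C.rep (e.symm i0)) (φ : ℍ → ℂ) = φ
    rw [Equiv.symm_apply_apply]
    refine (hstab _ 1 (C.rep_mem _) (one_mem _) ?_).trans (compg_one _)
    exact C.triple_rep C.one'
  have hr0 : ∀ l, V i0 l = Subring.inclusion C.R_le (r l) := fun l => by
    show C.trEl (e.symm i0) (r l) = _
    rw [Equiv.symm_apply_apply, C.trEl_one]
  have h1 := det_mul_eq_sum V hV (fun m => trComp (C.rep (e.symm m)) φ) i0
  simp only [hφ0, hr0, ← hadj, ← hdet, ht] at h1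
  -- the polynomials have small coefficients
  have hP : ∀ j i, (P j).coeff i ∈ C.inc.range := by
    intro j i
    refine hF _ fun σ hσ => ?_
    have hfix : coeffMap σ.toRingHom (ser φ) = ser φ := by
      ext k
      obtain ⟨w, hw⟩ := hser k
      rw [coeffMap_coeff, ← hw]
      exact congrArg Subtype.val (hσ w)
    have hY : coeffMap σ.toRingHom C.Ys = C.Ys := by rw [C.Ys_eq, C.fix_inc hσ]
    set u : Fin (Fintype.card C.Idx) → Polynomial C.S := fun j => (P j).map σ.toRingHom - P j with hu
    have hev : ∀ j, coeffMap σ.toRingHom (ser (C.evT (P j))) - ser (C.evT (P j)) = ser (C.evT (u j)) := by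
      intro j
      rw [map_sub C.evT, map_sub ser, C.ser_evT, C.ser_evT, Polynomial.hom_eval₂, hY,
        Polynomial.eval₂_map]
      congr 2
      ext x : 1
      simp [HahnSeries.C_apply, coeffMap_single]
    set w : Fin (Fintype.card C.Idx) → trRing C.S (M0 * (N' * q)) := fun j =>
      C.evT (u j) * Subring.inclusion C.R_le C.dR ^ s j with hw
    set z : Fin (Fintype.card C.Idx) → trRing C.S (M0 * (N' * q)) := fun l =>
      ∑ j, Subring.inclusion C.R_le ((Matrix.of Tm).adjugate l j) * w j with hz
    have hzero : ∑ l, z l * Subring.inclusion C.R_le (r l) = 0 := by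
      refine ser_injective ?_
      have h2 := congrArg ser h1
      have h3 := congrArg (coeffMap σ.toRingHom) h2
      simp only [map_mul, map_sum, map_pow, C.ser_incl, C.coeffMap_embAt_one hF hσ, hfix] at h2 h3
      rw [map_zero]
      simp only [hz, hw, map_sum, map_mul, map_pow, C.ser_incl, Finset.sum_mul, ← hev]
      rw [← sub_eq_zero_of_eq (h3.symm.trans h2), ← Finset.sum_sub_distrib]
      refine Finset.sum_congr rfl fun l _ => ?_
      rw [Finset.sum_mul, Finset.sum_mul, ← Finset.sum_sub_distrib]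
      exact Finset.sum_congr rfl fun j _ => by ring
    have hwinv : ∀ m j, trComp (C.rep (e.symm m)) (w j) = w j := fun m j => by
      rw [hw, map_mul, map_pow, C.trComp_evT (C.rep_mem _), C.trComp_dR (C.rep_mem _)]
    have hainv : ∀ m l j, trComp (C.rep (e.symm m)) (Subring.inclusion C.R_le
        ((Matrix.of Tm).adjugate l j)) = Subring.inclusion C.R_le ((Matrix.of Tm).adjugate l j) := by
      intro m l j
      have hT : (trComp (C.rep (e.symm m))).mapMatrix (V.transpose * V) = V.transpose * V :=
        Matrix.ext fun i j => hinv _ (C.rep_mem _) i j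
      have h := congrFun (congrFun ((trComp (C.rep (e.symm m))).map_adjugate (V.transpose * V)) l) j
      rw [hT] at h
      rw [hadj]
      exact h
    have hzv : V.mulVec z = 0 := funext fun m => by
      have h2 := congrArg (trComp (C.rep (e.symm m))) hzero
      simp only [hz, map_sum, map_mul, map_zero, hwinv, hainv] at h2
      refine Eq.trans ?_ h2
      simp only [Matrix.mulVec, dotProduct, hz]
      refine Finset.sum_congr rfl fun l _ => ?_
      exact (mul_comm _ _).trans (congrArg _ rfl)
    have hz0 := Matrix.eq_zero_of_mulVec_eq_zero hV hzv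
    have hw0 : (V.transpose * V).det • w = 0 := by
      have hzA : z = (V.transpose * V).adjugate.mulVec w := funext fun l => by
        simp only [hz, Matrix.mulVec, dotProduct, hadj]
      have h2 : (V.transpose * V).mulVec ((V.transpose * V).adjugate.mulVec w) = 0 := by
        rw [← hzA, hz0, Matrix.mulVec_zero]
      rwa [Matrix.mulVec_mulVec, Matrix.mul_adjugate, Matrix.smul_mulVec, Matrix.one_mulVec] at h2
    have hdet0 : (V.transpose * V).det ≠ 0 := by
      rw [Matrix.det_mul, Matrix.det_transpose]; exact mul_ne_zero hV hV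
    have hwj : C.evT (u j) * Subring.inclusion C.R_le C.dR ^ s j = 0 :=
      congrFun ((smul_eq_zero.1 hw0).resolve_left hdet0) j
    have hu0 : C.evT (u j) = 0 := by
      have h2 := congrArg (· * C.evT C.dltS ^ s j) hwj
      simp only [zero_mul] at h2
      rwa [mul_assoc, ← mul_pow, mul_comm (Subring.inclusion C.R_le C.dR), hd, one_pow, mul_one] at h2
    have hu1 : u j = 0 := C.eq_zero_of_eval_Ys (by rw [← C.ser_evT, hu0, map_zero])
    have h2 := congrArg (fun p : Polynomial C.S => p.coeff i) hu1
    simp only [hu, Polynomial.coeff_sub, Polynomial.coeff_map, Polynomial.coeff_zero, sub_eq_zero] at h2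
    exact h2
  have hP' : ∀ j, ∃ Q : Polynomial C.W, Q.map C.inc = P j := fun j =>
    (Polynomial.mem_map_range C.inc).2 (hP j)
  choose Q hQ using hP'
  refine ⟨∑ l, (∑ j, (Matrix.of Tm).adjugate l j * (C.evR (Q j) * C.dR ^ s j)) * r l,
    (Matrix.of Tm).det, fun h => ?_, ?_⟩
  · have := congrArg (Subring.inclusion C.R_le) h
    rw [hdet, map_zero, Matrix.det_mul, Matrix.det_transpose] at this
    exact mul_ne_zero hV hV this
  rw [h1, map_sum]
  refine Finset.sum_congr rfl fun l _ => ?_
  rw [map_mul, map_sum]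
  congr 1
  exact Finset.sum_congr rfl fun j _ => by rw [map_mul, map_mul, map_pow, C.incl_evR, hQ]

end Ctx

end FLTAgent.Carayol
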