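import Fermat.Agent.Carayol.FibNorm
import Fermat.Agent.Carayol.StableFrac

/-!
# Functions with coefficients in the small field of constants
-/

set_option autoImplicit false
set_option linter.unusedSectionVars false
set_option linter.style.haveILetI false
set_option synthInstance.maxHeartbeats 400000
set_option maxHeartbeats 1000000

noncomputable section

open UpperHalfPlane hiding I I_re I_im
open Filter Topology Complex Function FLTAgent.ModEq FLTAgent.GoodModel ModularCurve
open AlgebraicCurve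
open scoped MatrixGroups Manifold Classical

namespace FLTAgent.Carayol

local notation "QA" => AlgebraicClosure ℚ

/-- A series in the image of a coefficientwise functional. -/
theorem map_mul_of_coeff {K : IntermediateField ℚ QA} (l : QA →ₗ[K] K) {f b : LaurentSeries QA}
    (hf : ∀ k, f.coeff k ∈ K) :
    (f * b).map ((K.val.toLinearMap.toAddMonoidHom.comp l.toAddMonoidHom) : QA →+ QA) =
      f * b.map ((K.val.toLinearMap.toAddMonoidHom.comp l.toAddMonoidHom) : QA →+ QA) := by
  set φ : QA →+ QA := K.val.toLinearMap.toAddMonoidHom.comp l.toAddMonoidHom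
  ext k
  rw [HahnSeries.map_coeff, HahnSeries.coeff_mul, map_sum,
    HahnSeries.coeff_mul_right' (s := b.support) b.isPWO_support
      (show (b.map φ).support ⊆ b.support from Function.support_comp_subset (map_zero φ) _)]
  refine Finset.sum_congr rfl fun ij _ => ?_
  show ((l (f.coeff ij.1 * b.coeff ij.2) : K) : QA) = f.coeff ij.1 * ((l (b.coeff ij.2) : K) : QA)
  rw [show f.coeff ij.1 * b.coeff ij.2 = (⟨_, hf ij.1⟩ : K) • b.coeff ij.2 from rfl, l.map_smul]
  rfl

namespace Pull

variable {q M0 N' : ℕ} [NeZero M0] [NeZero N'] [NeZero q] [Fact q.Prime]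
variable {C : Ctx q M0 N'} {M' : ℕ} [NeZero M'] (P : Pull C M')

/-- The small field of constants. -/
structure Small (K : IntermediateField ℚ QA) : Prop where
  fix : ∀ x : QA, (∀ σ : QA ≃ₐ[ℚ] QA, (∀ y ∈ K, σ y = y) → σ x = x) → x ∈ K
  frac : ∀ c ∈ K, ∃ w w' : C.W, w' ≠ 0 ∧ P.κ c * (w' : ℂ) = w
  mem : ∀ w : C.W, ∃ c ∈ K, P.κ c = w
  fixed : C.FixedPart

theorem eps_injective (γ : SL(2, ℤ)) : Injective (P.eps γ) := fun a b h => by
  have h1 := congrArg (fun z : P.Fn => (z : ℍ → ℂ)) (P.big_injective γ h)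
  simp only [coe_ι] at h1
  exact Subtype.ext h1

/-- The quotients of functions of the cover. -/
def Kf : Subfield (LaurentSeries ℂ) := Subfield.closure (Set.range (P.eps 1))

theorem mem_Kf_iff {x : LaurentSeries ℂ} :
    x ∈ P.Kf ↔ ∃ a d : C.R, d ≠ 0 ∧ P.eps 1 d * x = P.eps 1 a := by
  have hinj : Injective (P.eps 1) := P.eps_injective 1
  constructor
  · intro hx
    rw [Kf, Subfield.mem_closure_iff] at hx
    have hcl : Subring.closure (Set.range (P.eps 1)) = (P.eps 1).range := Subring.closure_eq (P.eps 1).range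
    simp only [hcl, RingHom.mem_range] at hx
    obtain ⟨_, ⟨a, rfl⟩, _, ⟨d, rfl⟩, rfl⟩ := hx
    rcases eq_or_ne d 0 with rfl | hd
    · exact ⟨0, 1, fun h => by simpa using congrArg (fun z : C.R => (z : ℍ → ℂ) UpperHalfPlane.I) h,
        by simp⟩
    · exact ⟨a, d, hd, mul_div_cancel₀ _ fun h => hd (hinj (h.trans (map_zero _).symm))⟩
  · rintro ⟨a, d, hd, h⟩
    have : x = P.eps 1 a / P.eps 1 d := by
      rw [eq_div_iff fun h0 => hd (hinj (h0.trans (map_zero _).symm)), mul_comm]; exact h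
    rw [this]
    exact div_mem (Subfield.subset_closure ⟨a, rfl⟩) (Subfield.subset_closure ⟨d, rfl⟩)

variable {K : IntermediateField ℚ QA}

theorem theta_C_mem (hK : P.Small K) {c : QA} (hc : c ∈ K) : P.theta (HahnSeries.C c) ∈ P.Kf := by
  obtain ⟨w, w', hw', h⟩ := hK.frac c hc
  refine P.mem_Kf_iff.2 ⟨C.cW w, C.cW w', Ctx.cW_ne hw', ?_⟩
  rw [P.eps_eq, P.eps_eq, C.embAt_cW, C.embAt_cW, P.theta_C, sIncl, HahnSeries.C_apply,
    HahnSeries.C_apply, HahnSeries.C_apply, coeffMap_single, coeffMap_single,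
    HahnSeries.single_mul_single, add_zero]
  congr 1
  rw [mul_comm]
  exact h

theorem theta_gen_mem (hK : P.Small K) (d : ℕ) [NeZero d] (hd : d ∣ q * q * M') :
    P.theta (qExpand QA d (jqModC QA)) ∈ P.Kf := by
  haveI : NeZero (d * (M0 * N')) := ⟨mul_ne_zero (NeZero.ne _) (NeZero.ne _)⟩
  obtain ⟨a, x, hx, h⟩ := C.exists_frac_of_ser hK.fixed ⟨jd q d, C.jd_mem P.hN hd⟩ (C.stab_jd P.hN hd)
    fun k => by
      rw [C.ser_jd P.hN hd, show jAt (1 : C.Sˣ) (d * (M0 * N')) = coeffMap C.inc (jAt 1 (d * (M0 * N'))) by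
        rw [coeffMap_jAt, map_one], coeffMap_coeff]
      exact ⟨_, rfl⟩
  refine P.mem_Kf_iff.2 ⟨a, x, hx, ?_⟩
  have h2 := congrArg (fun z => P.big 1 (Subring.inclusion (sPairs_le_of_le P.hS) z)) h
  simp only [map_mul] at h2
  rw [P.theta_gen, ← P.big_jf d hd]
  exact h2

/-- A function with coefficients in the small field is a quotient of functions of the cover. -/
theorem theta_mem (hK : P.Small K) (f : modularFunctionFieldBar (q * M' * q))
    (hf : ∀ k, (f : LaurentSeries QA).coeff k ∈ K) : P.theta (f : LaurentSeries QA) ∈ P.Kf := by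
  obtain ⟨a, ha, b, hb, e⟩ := X0Fn.exists_div QA (q * M' * q) f.2
  rcases eq_or_ne b 0 with rfl | hb0
  · rw [e, div_zero, map_zero]; exact zero_mem _
  obtain ⟨k0, hk0⟩ : ∃ k, b.coeff k ≠ 0 := by
    by_contra h
    push Not at h
    exact hb0 (HahnSeries.ext (funext fun j => (h j).trans HahnSeries.coeff_zero.symm))
  obtain ⟨l, hl⟩ := LinearMap.exists_leftInverse_of_injective
    (LinearMap.toSpanSingleton K QA (b.coeff k0))
    (LinearMap.ker_toSpanSingleton K hk0)
  set φ : QA →+ QA := K.val.toLinearMap.toAddMonoidHom.comp l.toAddMonoidHom with hφ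
  -- the image of the functional
  have hmono : ∀ y ∈ Submonoid.closure (X0Fn.xGens QA (q * M' * q)), ∀ c : QA,
      P.theta ((c • y).map φ) ∈ P.Kf := by
    intro y hy c
    have hle : Submonoid.closure (X0Fn.xGens QA (q * M' * q)) ≤
        MonoidHom.mrange (coeffEmb QA).toMonoidHom := by
      rw [Submonoid.closure_le]
      rintro _ ⟨z, -, rfl⟩
      exact ⟨z, rfl⟩
    have hle' : Submonoid.closure (X0Fn.xGens QA (q * M' * q)) ≤
        (P.Kf.comap P.theta).toSubmonoid := by
      rw [Submonoid.closure_le]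
      rintro _ ⟨_, ⟨d, hne, hd, rfl⟩, rfl⟩
      show P.theta _ ∈ P.Kf
      rw [coeffEmb, coeffMap_qExpand, ← jqModC_rat, coeffMap_jqModC]
      exact P.theta_gen_mem hK d (hd.trans (dvd_of_eq (by ring)))
    have hmem : P.theta y ∈ P.Kf := hle' hy
    obtain ⟨y0, hy0⟩ := hle hy
    change coeffEmb QA y0 = y at hy0
    subst hy0
    have e1 : (c • coeffEmb QA y0).map φ = HahnSeries.C ((l c : K) : QA) * coeffEmb QA y0 := by
      ext k
      rw [HahnSeries.map_coeff, HahnSeries.C_mul_eq_smul, HahnSeries.coeff_smul,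
        HahnSeries.coeff_smul, smul_eq_mul, smul_eq_mul, coeffEmb, coeffMap_coeff, eq_ratCast]
      show ((l (c * ((y0.coeff k : ℚ) : QA)) : K) : QA) = _
      rw [show c * ((y0.coeff k : ℚ) : QA) = ((y0.coeff k : ℚ) : K) • c from by
        rw [IntermediateField.smul_def, smul_eq_mul, mul_comm]; norm_cast, l.map_smul]
      simp [mul_comm]
    rw [e1, map_mul]
    exact mul_mem (P.theta_C_mem hK (l c).2) hmem
  have himg : ∀ x ∈ X0Fn.XA QA (q * M' * q), P.theta (x.map φ) ∈ P.Kf := by
    intro x hx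
    rw [← Subalgebra.mem_toSubmodule, Algebra.adjoin_eq_span] at hx
    suffices h : ∀ c : QA, P.theta ((c • x).map φ) ∈ P.Kf by simpa using h 1
    induction hx using Submodule.span_induction with
    | mem y hy => exact hmono y hy
    | zero =>
      intro c
      rw [smul_zero, show (0 : LaurentSeries QA).map φ = 0 by ext k; simp, map_zero]
      exact zero_mem _
    | add x y _ _ hx hy =>
      intro c
      rw [smul_add, show (c • x + c • y).map φ = (c • x).map φ + (c • y).map φ by
        ext k; simp [map_add], map_add]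
      exact add_mem (hx c) (hy c)
    | smul c' x _ hx =>
      intro c
      convert hx (c * c') using 3
      first
        | exact (smul_smul _ _ _)
        | (simp only [Algebra.smul_def, map_mul, mul_assoc]; done)
        | (ext k; simp [Algebra.smul_def, algebraMap_eq_C, HahnSeries.C_mul_eq_smul, mul_assoc])
  have hrel : (a : LaurentSeries QA).map φ = (f : LaurentSeries QA) * b.map φ := by
    rw [← map_mul_of_coeff l hf, e, div_mul_cancel₀ _ hb0]
  have hb' : b.map φ ≠ 0 := fun h => by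
    have h1 := congrArg (fun z : LaurentSeries QA => z.coeff k0) h
    simp only [HahnSeries.map_coeff, HahnSeries.coeff_zero] at h1
    have h2 : l (b.coeff k0) = 1 := by
      simpa using LinearMap.congr_fun hl (1 : K)
    have h3 : ((l (b.coeff k0) : K) : QA) = 0 := h1
    rw [h2] at h3
    exact one_ne_zero h3
  have hfe : P.theta (f : LaurentSeries QA) = P.theta (a.map φ) / P.theta (b.map φ) := by
    rw [← map_div₀, hrel, mul_div_cancel_right₀ _ hb']
  rw [hfe]
  exact div_mem (himg a ha) (himg b hb)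

/-- The quotient presentation at all translates. -/
theorem exists_frac_Theta (hK : P.Small K) (f : modularFunctionFieldBar (q * M' * q))
    (hf : ∀ k, (f : LaurentSeries QA).coeff k ∈ K) :
    ∃ a d : C.R, d ≠ 0 ∧ ∀ γ, P.eps γ d * P.Theta γ f = P.eps γ a := by
  obtain ⟨a, d, hd, h⟩ := P.mem_Kf_iff.1 (P.theta_mem hK f hf)
  exact ⟨a, d, hd, fun γ => P.Theta_eps (by rw [P.Theta_one]; exact h) γ⟩

theorem coeff_eps_one (hK : P.Small K) (a : C.R) (k : ℤ) :
    ∃ c ∈ K, (P.eps 1 a).coeff k = P.κ c := by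
  obtain ⟨w, hw⟩ := C.coeff_embAt_one hK.fixed a k
  obtain ⟨c, hc, hcw⟩ := hK.mem w
  refine ⟨c, hc, ?_⟩
  rw [P.eps_eq, sIncl, coeffMap_coeff, ← hw, hcw]
  rfl

/-- Quotients of functions of the cover have coefficients in the small field. -/
theorem coeff_of_mem_Kf (hK : P.Small K) {x : LaurentSeries ℂ} (hx : x ∈ P.Kf) (k : ℤ) :
    ∃ c ∈ K, x.coeff k = P.κ c := by
  set ι : K →+* ℂ := P.κ.comp K.val.toRingHom
  have hle : P.Kf ≤ (coeffMap ι).fieldRange := by
    rw [Kf, Subfield.closure_le]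
    rintro _ ⟨a, rfl⟩
    obtain ⟨G, hG⟩ := coeffMap_range ι ι.injective (G := P.eps 1 a) fun k => by
      obtain ⟨c, hc, h⟩ := P.coeff_eps_one hK a k
      exact ⟨⟨c, hc⟩, h.symm⟩
    exact ⟨G, hG⟩
  obtain ⟨G, rfl⟩ := hle hx
  exact ⟨(G.coeff k : K), (G.coeff k).2, coeffMap_coeff _ _ _⟩

theorem coeff_deg (b : Bool) (g : modularFunctionFieldBar (q * M')) :
    (∀ k, ∃ i, ((deg q M' b g : modularFunctionFieldBar (q * M' * q)) : LaurentSeries QA).coeff i =
      (g : LaurentSeries QA).coeff k) ∧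
    ∀ i, ((deg q M' b g : modularFunctionFieldBar (q * M' * q)) : LaurentSeries QA).coeff i = 0 ∨
      ∃ k, ((deg q M' b g : modularFunctionFieldBar (q * M' * q)) : LaurentSeries QA).coeff i =
        (g : LaurentSeries QA).coeff k := by
  cases b
  · have e : ((deg q M' false g : modularFunctionFieldBar (q * M' * q)) : LaurentSeries QA) =
        qExpand QA q (g : LaurentSeries QA) := by
      simp only [deg, Bool.false_eq_true, if_false, coe_heckeBetaBar]
    rw [e]
    refine ⟨fun k => ⟨_, qExpand_coeff_mul q _ k⟩, fun i => ?_⟩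
    by_cases hd : (q : ℤ) ∣ i
    · obtain ⟨j, rfl⟩ := hd
      exact Or.inr ⟨j, qExpand_coeff_mul q _ j⟩
    · exact Or.inl (qExpand_coeff_of_not_dvd q _ hd)
  · have e : ((deg q M' true g : modularFunctionFieldBar (q * M' * q)) : LaurentSeries QA) =
        (g : LaurentSeries QA) := by
      simp only [deg, if_true, coe_heckeAlphaBar]
    rw [e]
    exact ⟨fun k => ⟨k, rfl⟩, fun i => Or.inr ⟨i, rfl⟩⟩

/-- A divisible norm gives the norm condition on the cover. -/
theorem relB_of_norm (hK : P.Small K) {n : ℕ} (hn : n ≠ 0) (b : Bool)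
    {f : modularFunctionFieldBar (q * M' * q)} (hfK : ∀ k, (f : LaurentSeries QA).coeff k ∈ K)
    (hf0 : f ≠ 0) {a d : C.R} (hd : d ≠ 0) (had : ∀ γ, P.eps γ d * P.Theta γ f = P.eps γ a)
    {g : modularFunctionFieldBar (q * M')} (hg : g ≠ 0) {c : QA} (hc : c ≠ 0)
    (hnorm : (letI := algebraAlong (deg q M' b); Algebra.norm (modularFunctionFieldBar (q * M')) f) =
      algebraMap QA (modularFunctionFieldBar (q * M')) c * g ^ n) :
    C.RelB n b (a * d ^ (n - 1)) := by
  letI := algebraAlong (deg q M' b)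
  have hepsinj : ∀ γ, Injective (P.eps γ) := P.eps_injective
  have heps : ∀ {γ} {x : C.R}, x ≠ 0 → P.eps γ x ≠ 0 := fun hx h =>
    hx (hepsinj _ (h.trans (map_zero _).symm))
  set Nf := Algebra.norm (modularFunctionFieldBar (q * M')) f
  have hN := P.Theta_norm b f
  -- the norm has small coefficients
  obtain ⟨A1, D1, hD1, hAD1⟩ := C.exists_fib_frac hK.fixed b a
  obtain ⟨A2, D2, hD2, hAD2⟩ := C.exists_fib_frac hK.fixed b d
  have hfib : ∀ (x X Y : C.R), (∀ l, C.emb l Y * ∏ l' ∈ C.fib b l, C.emb l' x = C.emb l X) →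
      P.eps 1 Y * ∏ l ∈ C.fib b C.one', P.eps (C.rep l) x = P.eps 1 X := by
    intro x X Y h
    have h1 := congrArg (sIncl C.S) (h C.one')
    rw [map_mul, map_prod, C.emb_one', C.emb_one'] at h1
    rw [P.eps_eq, P.eps_eq]
    simp only [P.eps_eq]
    exact h1
  have hf1 := hfib a A1 D1 hAD1
  have hd1 := hfib d A2 D2 hAD2
  have hprod : (∏ l ∈ C.fib b C.one', P.eps (C.rep l) d) *
      P.Theta 1 (deg q M' b Nf) = ∏ l ∈ C.fib b C.one', P.eps (C.rep l) a := by
    rw [hN, ← Finset.prod_mul_distrib]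
    exact Finset.prod_congr rfl fun l _ => had _
  have hA2 : A2 ≠ 0 := fun h0 => by
    rw [h0, map_zero] at hd1
    exact mul_ne_zero (heps hD2) (Finset.prod_ne_zero_iff.2 fun l _ => heps hd) hd1
  have hNK : ∀ k, (Nf : LaurentSeries QA).coeff k ∈ K := by
    intro k
    have hmem : P.theta ((deg q M' b Nf : modularFunctionFieldBar (q * M' * q)) : LaurentSeries QA) ∈
        P.Kf := by
      rw [← P.Theta_one]
      refine P.mem_Kf_iff.2 ⟨A1 * D2, A2 * D1, mul_ne_zero hA2 hD1, ?_⟩
      rw [map_mul, map_mul, ← hd1, ← hf1, ← hprod]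
      ring
    obtain ⟨i, hi⟩ := (coeff_deg b Nf).1 k
    obtain ⟨x, hx, hxi⟩ := P.coeff_of_mem_Kf hK hmem (((M0 * N' : ℕ) : ℤ) * i)
    rw [theta, RingHom.comp_apply, qExpand_coeff_mul, coeffMap_coeff, hi] at hxi
    rwa [← P.κ.injective hxi.symm]
  -- normalise the root
  set G : LaurentSeries QA := (g : LaurentSeries QA) with hG
  have hG0 : G ≠ 0 := fun h => hg (Subtype.ext h)
  set lc := G.coeff G.order
  have hlc : lc ≠ 0 := HahnSeries.coeff_order_eq_zero.not.2 hG0
  set g' : modularFunctionFieldBar (q * M') := algebraMap QA _ lc⁻¹ * g with hg'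
  set G' : LaurentSeries QA := (g' : LaurentSeries QA) with hG'
  have hGG : G' = HahnSeries.C lc⁻¹ * G := by
    rw [hG', hg', IntermediateField.coe_mul, HahnSeries.C_apply, ← algebraMap_laurentSeries_eq_single]
    rfl
  set c' := c * lc ^ n
  have hc' : c' ≠ 0 := mul_ne_zero hc (pow_ne_zero _ hlc)
  have hnorm' : Nf = algebraMap QA _ c' * g' ^ n := by
    rw [hnorm, hg', mul_pow, ← map_pow, ← mul_assoc, ← map_mul]
    congr 2
    rw [mul_assoc, ← mul_pow, mul_inv_cancel₀ hlc, one_pow, mul_one]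
  have hser : (Nf : LaurentSeries QA) = HahnSeries.C c' * G' ^ n := by
    rw [hnorm', IntermediateField.coe_mul, SubmonoidClass.coe_pow, HahnSeries.C_apply,
      ← algebraMap_laurentSeries_eq_single]
    rfl
  have hord : GeOrd G' G.order ∧ G'.coeff G.order = 1 := by
    rw [hGG]
    refine ⟨fun i hi => ?_, ?_⟩
    · rw [HahnSeries.C_mul_eq_smul, HahnSeries.coeff_smul, HahnSeries.coeff_eq_zero_of_lt_order hi,
        smul_zero]
    · rw [HahnSeries.C_mul_eq_smul, HahnSeries.coeff_smul, smul_eq_mul, inv_mul_cancel₀ hlc]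
  have hc'K : c' ∈ K := by
    have h1 := hNK ((n : ℤ) * G.order)
    rw [hser, HahnSeries.C_mul_eq_smul, HahnSeries.coeff_smul, smul_eq_mul, hord.1.coeff_pow, hord.2,
      one_pow, mul_one] at h1
    exact h1
  have hG'K : ∀ k, G'.coeff k ∈ K := fun k => hK.fix _ fun σ hσ => by
    set S := coeffMap (σ : QA →+* QA) G'
    have hpow : S ^ n = G' ^ n := by
      have h1 : coeffMap (σ : QA →+* QA) (Nf : LaurentSeries QA) = (Nf : LaurentSeries QA) := by
        ext i
        rw [coeffMap_coeff]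
        exact hσ _ (hNK i)
      rw [hser, map_mul, map_pow, HahnSeries.C_apply, coeffMap_single] at h1
      rw [show (σ : QA →+* QA) c' = c' from hσ _ hc'K, ← HahnSeries.C_apply] at h1
      exact mul_left_cancel₀ (HahnSeries.C_ne_zero hc') h1
    have hG'0 : G' ≠ 0 := fun h => one_ne_zero (hord.2.symm.trans (by rw [h, HahnSeries.coeff_zero]))
    haveI : NeZero n := ⟨hn⟩
    obtain ⟨ζ, hζ⟩ := HasEnoughRootsOfUnity.exists_primitiveRoot QA n
    obtain ⟨i, -, hi⟩ := (hζ.map_of_injective (f := (HahnSeries.C : QA →+* LaurentSeries QA))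
      HahnSeries.C_injective).eq_pow_of_pow_eq_one
      (show (S / G') ^ n = 1 by rw [div_pow, hpow, div_self (pow_ne_zero _ hG'0)])
    rw [eq_div_iff hG'0, ← map_pow] at hi
    have h1 := congrArg (fun z : LaurentSeries QA => z.coeff G.order) hi
    simp only [HahnSeries.C_mul_eq_smul, HahnSeries.coeff_smul, smul_eq_mul, hord.2, S,
      coeffMap_coeff, mul_one] at h1
    rw [show (σ : QA →+* QA) 1 = 1 from map_one _] at h1
    have h2 := congrArg (fun z : LaurentSeries QA => z.coeff k) hi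
    simp only [HahnSeries.C_mul_eq_smul, HahnSeries.coeff_smul, smul_eq_mul, h1, one_mul, S,
      coeffMap_coeff] at h2
    exact h2.symm
  -- back to the cover
  obtain ⟨g0, g1, hg1, hgq⟩ := P.exists_frac_Theta hK (deg q M' b g') fun i => by
    rcases (coeff_deg b g').2 i with h | ⟨k, h⟩ <;> rw [h]
    · exact K.zero_mem
    · exact hG'K k
  obtain ⟨w0, w1, hw1, hw⟩ := hK.frac c' hc'K
  have hw0 : w0 ≠ 0 := fun h0 => by
    rw [h0, ZeroMemClass.coe_zero, mul_eq_zero] at hw
    rcases hw with hw | hw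
    · exact hc' ((map_eq_zero _).1 hw)
    · exact hw1 (Subtype.ext hw)
  set F := a * d ^ (n - 1)
  obtain ⟨AF, DF, hDF, hADF⟩ := C.exists_fib_frac hK.fixed b F
  have hF1 := hfib F AF DF hADF
  have hT : P.Theta 1 (deg q M' b Nf) =
      HahnSeries.C (P.κ c') * P.Theta 1 (deg q M' b g') ^ n := by
    rw [hnorm', map_mul, map_pow, map_mul, map_pow, AlgHom.commutes, P.Theta_algebraMap]
  have hFp : ∏ l ∈ C.fib b C.one', P.eps (C.rep l) F =
      (∏ l ∈ C.fib b C.one', P.eps (C.rep l) d) ^ n * P.Theta 1 (deg q M' b Nf) := by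
    simp only [F, map_mul, map_pow, Finset.prod_mul_distrib, Finset.prod_pow]
    rw [← hprod]
    obtain ⟨m, rfl⟩ := Nat.exists_eq_succ_of_ne_zero hn
    rw [Nat.succ_sub_one, pow_succ]
    ring
  have hcst : ∀ w : C.W, P.eps 1 (C.cW w) = HahnSeries.C (w : ℂ) := fun w => by
    rw [P.eps_eq, C.embAt_cW, sIncl, HahnSeries.C_apply, coeffMap_single]
    rfl
  have key : C.cW w1 * (g1 * D2) ^ n * AF = DF * C.cW w0 * (g0 * A2) ^ n := by
    refine hepsinj 1 ?_
    simp only [map_mul, map_pow, hcst]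
    rw [← hF1, hFp, hT, ← hd1, ← hgq 1, ← hw, map_mul (HahnSeries.C : ℂ →+* LaurentSeries ℂ)]
    ring
  refine ⟨w0, w1, g0 * A2, g1 * D2, hw0, hw1, mul_ne_zero ?_ hA2, mul_ne_zero hg1 hD2, fun l => ?_⟩
  · intro h0
    have h1 := hgq 1
    rw [h0, map_zero, mul_eq_zero] at h1
    refine h1.elim (heps hg1) fun h2 => ?_
    rw [P.Theta_one] at h2
    have h3 : deg q M' b g' = 0 := Subtype.ext (P.theta_injective (h2.trans (map_zero _).symm))
    have h4 : g' = 0 := (deg q M' b).toRingHom.injective (h3.trans (map_zero _).symm)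
    exact mul_ne_zero (by simp [hlc]) hg h4
  · have h1 := congrArg (C.emb l) key
    simp only [map_mul, map_pow, Ctx.emb_cW] at h1
    simp only [map_mul, map_pow]
    refine mul_left_cancel₀ (Ram.emb_ne (l := l) hDF) ?_
    calc C.emb l DF * (HahnSeries.C (C.inc w1) * (C.emb l g1 * C.emb l D2) ^ n *
          ∏ l' ∈ C.fib b l, C.emb l' F)
        = HahnSeries.C (C.inc w1) * (C.emb l g1 * C.emb l D2) ^ n *
          (C.emb l DF * ∏ l' ∈ C.fib b l, C.emb l' F) := by ring
      _ = C.emb l DF * (HahnSeries.C (C.inc w0) * (C.emb l g0 * C.emb l A2) ^ n) := by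
          rw [hADF, h1]; ring

end Pull

end FLTAgent.Carayol
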