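import Mathlib

/-!
# Two-dimensional local rings with two-generated maximal ideal
-/

set_option autoImplicit false
set_option linter.style.haveILetI false
set_option linter.unusedSectionVars false

noncomputable section

namespace FLTAgent.Carayol

open IsLocalRing Ideal

section Principal

variable {Q : Type*} [CommRing Q] [IsLocalRing Q] [IsNoetherianRing Q] {y : Q}

theorem exists_unit_mul_pow (hy : maximalIdeal Q = span {y}) {r : Q} (hr : r ≠ 0) :
    ∃ (u : Q) (i : ℕ), IsUnit u ∧ r = u * y ^ i := by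
  classical
  have h : ∃ i, r ∉ (maximalIdeal Q) ^ i := by
    by_contra h
    push Not at h
    exact hr (by
      have := Ideal.iInf_pow_eq_bot_of_isLocalRing (maximalIdeal Q) IsPrime.ne_top'
      simpa [this] using Ideal.mem_iInf.2 h)
  obtain ⟨i, hi, hmin⟩ : ∃ i, r ∉ (maximalIdeal Q) ^ i ∧ ∀ j < i, r ∈ (maximalIdeal Q) ^ j :=
    ⟨Nat.find h, Nat.find_spec h, fun j hj => not_not.1 (Nat.find_min h hj)⟩
  rcases i with - | i
  · simp at hi
  have hm := hmin i (Nat.lt_succ_self i)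
  rw [hy, span_singleton_pow, mem_span_singleton] at hm hi
  obtain ⟨u, rfl⟩ := hm
  refine ⟨u, i, ?_, mul_comm _ _⟩
  by_contra hu
  have hu' : u ∈ maximalIdeal Q := hu
  rw [hy, mem_span_singleton] at hu'
  obtain ⟨v, rfl⟩ := hu'
  exact hi ⟨v, by ring⟩

theorem noZeroDivisors_of_principal (hy : maximalIdeal Q = span {y}) (hn : ¬ IsNilpotent y) :
    NoZeroDivisors Q := by
  constructor
  intro a b hab
  by_contra h
  push Not at h
  obtain ⟨u, i, hu, rfl⟩ := exists_unit_mul_pow hy h.1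
  obtain ⟨v, j, hv, rfl⟩ := exists_unit_mul_pow hy h.2
  refine hn ⟨i + j, (hu.mul hv).mul_right_eq_zero.1 ?_⟩
  rw [pow_add]
  linear_combination hab

theorem exists_eq_span_pow (hy : maximalIdeal Q = span {y}) (I : Ideal Q) :
    ∃ g ∈ I, I = span {g} := by
  classical
  by_cases hI : I = ⊥
  · exact ⟨0, I.zero_mem, by simpa using hI⟩
  obtain ⟨r, hr, hr0⟩ := Submodule.exists_mem_ne_zero_of_ne_bot hI
  have hex : ∃ i, y ^ i ∈ I := by
    obtain ⟨u, i, hu, rfl⟩ := exists_unit_mul_pow hy hr0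
    exact ⟨i, (Ideal.unit_mul_mem_iff_mem I hu).1 hr⟩
  refine ⟨y ^ Nat.find hex, Nat.find_spec hex, le_antisymm (fun s hs => ?_)
    ((span_singleton_le_iff_mem I).2 (Nat.find_spec hex))⟩
  rcases eq_or_ne s 0 with rfl | hs0
  · exact zero_mem _
  obtain ⟨u, i, hu, rfl⟩ := exists_unit_mul_pow hy hs0
  have hi : Nat.find hex ≤ i := Nat.find_le ((Ideal.unit_mul_mem_iff_mem I hu).1 hs)
  exact mem_span_singleton.2 (dvd_mul_of_dvd_right (pow_dvd_pow _ hi) _)

end Principal

section Two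

variable {R : Type*} [CommRing R] [IsDomain R] [IsLocalRing R] [IsNoetherianRing R] {a b : R}
  {P₀ : Ideal R} [P₀.IsPrime]

omit [IsDomain R] [IsNoetherianRing R] in
theorem exists_maximalIdeal_eq_pair (hm : maximalIdeal R = span {a, b}) {x : R}
    (hx : x ∈ maximalIdeal R) (hx2 : x ∉ (maximalIdeal R) ^ 2) :
    ∃ y, maximalIdeal R = span {x, y} := by
  have ha : a ∈ maximalIdeal R := hm ▸ subset_span (Set.mem_insert _ _)
  have hb : b ∈ maximalIdeal R := hm ▸ subset_span (Set.mem_insert_of_mem _ rfl)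
  obtain ⟨c, d, hcd⟩ := mem_span_pair.1 (hm ▸ hx)
  by_cases hc : IsUnit c
  · refine ⟨b, le_antisymm ?_ ?_⟩
    · rw [hm, span_le, Set.pair_subset_iff]
      refine ⟨?_, subset_span (Set.mem_insert_of_mem _ rfl)⟩
      obtain ⟨c, rfl⟩ := hc
      refine mem_span_pair.2 ⟨(↑c⁻¹ : R), -(↑c⁻¹ * d), ?_⟩
      calc (↑c⁻¹ : R) * x + -(↑c⁻¹ * d) * b = (↑c⁻¹ * ↑c) * a := by rw [← hcd]; ring
        _ = a := by simp
    · rw [span_le, Set.pair_subset_iff]; exact ⟨hx, hb⟩
  by_cases hd : IsUnit d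
  · refine ⟨a, le_antisymm ?_ ?_⟩
    · rw [hm, span_le, Set.pair_subset_iff]
      refine ⟨subset_span (Set.mem_insert_of_mem _ rfl), ?_⟩
      obtain ⟨d, rfl⟩ := hd
      refine mem_span_pair.2 ⟨(↑d⁻¹ : R), -(↑d⁻¹ * c), ?_⟩
      calc (↑d⁻¹ : R) * x + -(↑d⁻¹ * c) * a = (↑d⁻¹ * ↑d) * b := by rw [← hcd]; ring
        _ = b := by simp
    · rw [span_le, Set.pair_subset_iff]; exact ⟨hx, ha⟩
  exact absurd (by
    rw [← hcd, pow_two]
    exact add_mem (Ideal.mul_mem_mul hc ha) (Ideal.mul_mem_mul hd hb)) hx2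

theorem span_singleton_isPrime (hm : maximalIdeal R = span {a, b}) (h0 : P₀ ≠ ⊥)
    (h1 : P₀ ≠ maximalIdeal R) {x : R} (hx : x ∈ maximalIdeal R)
    (hx2 : x ∉ (maximalIdeal R) ^ 2) : (span {x}).IsPrime ∧
      ∃ y, maximalIdeal R = span {x, y} := by
  obtain ⟨y, hy⟩ := exists_maximalIdeal_eq_pair hm hx hx2
  refine ⟨?_, y, hy⟩
  set I := span ({x} : Set R) with hI
  have hxne : I ≠ ⊤ := fun h => (IsPrime.ne_top' : maximalIdeal R ≠ ⊤)
    (top_le_iff.1 (h ▸ (span_singleton_le_iff_mem _).2 hx))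
  haveI : Nontrivial (R ⧸ I) := Ideal.Quotient.nontrivial_iff.2 hxne
  haveI : IsLocalRing (R ⧸ I) := IsLocalRing.of_surjective' (Ideal.Quotient.mk I) Ideal.Quotient.mk_surjective
  have hq : maximalIdeal (R ⧸ I) = span {Ideal.Quotient.mk I y} := by
    have h2 : Ideal.map (Ideal.Quotient.mk I) (maximalIdeal R) = maximalIdeal (R ⧸ I) :=
      map_maximalIdeal_of_surjective _ Ideal.Quotient.mk_surjective
    rw [← h2, hy, map_span, Set.image_pair, hI,
      Ideal.Quotient.eq_zero_iff_mem.2 (mem_span_singleton_self x), span_insert_zero]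
  have hn : ¬ IsNilpotent (Ideal.Quotient.mk I y) := by
    rintro ⟨N, hN⟩
    rw [← map_pow, Ideal.Quotient.eq_zero_iff_mem] at hN
    have hmin : maximalIdeal R ∈ I.minimalPrimes := by
      refine ⟨⟨inferInstance, (span_singleton_le_iff_mem _).2 hx⟩, fun p hp _ => ?_⟩
      obtain ⟨hp, hIp⟩ := hp
      rw [hy, span_le, Set.pair_subset_iff]
      exact ⟨hIp (mem_span_singleton_self x), hp.mem_of_pow_mem N (hIp hN)⟩
    have hle := Ideal.height_le_one_of_isPrincipal_of_mem_minimalPrimes I (maximalIdeal R) hmin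
    have h2 : P₀ < maximalIdeal R := lt_of_le_of_ne (le_maximalIdeal IsPrime.ne_top') h1
    have h3 : (⊥ : Ideal R) < P₀ := bot_lt_iff_ne_bot.2 h0
    haveI : (⊥ : Ideal R).IsPrime := Ideal.isPrime_bot
    have e1 := Ideal.height_strict_mono_of_isPrime_of_isPrime h3
    have e2 := Ideal.height_strict_mono_of_isPrime_of_isPrime h2
    have := e2.trans_le hle
    rw [ENat.lt_one_iff_eq_zero] at this
    exact absurd (this ▸ e1) not_lt_zero
  haveI := noZeroDivisors_of_principal hq hn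
  haveI : IsDomain (R ⧸ I) := NoZeroDivisors.to_isDomain _
  exact (Ideal.Quotient.isDomain_iff_prime I).1 inferInstance

/-- A local ring of dimension at least two whose maximal ideal has two generators is factorial. -/
theorem uniqueFactorizationMonoid_of_pair (hm : maximalIdeal R = span {a, b}) (h0 : P₀ ≠ ⊥)
    (h1 : P₀ ≠ maximalIdeal R) : UniqueFactorizationMonoid R := by
  classical
  have hm2 : ¬ maximalIdeal R ≤ (maximalIdeal R) ^ 2 := by
    intro h
    have := Submodule.eq_bot_of_le_smul_of_le_jacobson_bot (maximalIdeal R) (maximalIdeal R)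
      (IsNoetherian.noetherian _) (by rw [smul_eq_mul, ← pow_two]; exact h)
      (le_of_eq (jacobson_eq_maximalIdeal ⊥ bot_ne_top).symm)
    exact h0 (le_bot_iff.1 (this ▸ le_maximalIdeal IsPrime.ne_top'))
  refine UniqueFactorizationMonoid.iff_exists_prime_mem_of_isPrime.mpr fun P hP0 hP => ?_
  by_cases hPm : P = maximalIdeal R
  · obtain ⟨x, hx, hx2⟩ := SetLike.not_le_iff_exists.1 hm2
    refine ⟨x, hPm ▸ hx, (Ideal.span_singleton_prime ?_).1 (span_singleton_isPrime hm h0 h1 hx hx2).1⟩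
    rintro rfl
    exact hx2 (zero_mem _)
  obtain ⟨x, hx, hx2, hxP⟩ : ∃ x ∈ maximalIdeal R, x ∉ (maximalIdeal R) ^ 2 ∧ x ∉ P := by
    by_contra h
    push Not at h
    have hsub : ((maximalIdeal R : Ideal R) : Set R) ⊆ ((maximalIdeal R ^ 2 : Ideal R) : Set R) ∪ P :=
      fun x hx => by
        by_cases h2 : x ∈ (maximalIdeal R) ^ 2
        · exact Or.inl h2
        · exact Or.inr (h x hx h2)
    rcases AddSubgroupClass.subset_union.1 hsub with h3 | h3
    · exact hm2 h3
    · exact hPm (le_antisymm (le_maximalIdeal hP.ne_top) h3)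
  obtain ⟨hprime, y, hy⟩ := span_singleton_isPrime hm h0 h1 hx hx2
  set I := span ({x} : Set R) with hI
  have hxne : I ≠ ⊤ := hprime.ne_top
  haveI : Nontrivial (R ⧸ I) := Ideal.Quotient.nontrivial_iff.2 hxne
  haveI : IsLocalRing (R ⧸ I) := IsLocalRing.of_surjective' (Ideal.Quotient.mk I) Ideal.Quotient.mk_surjective
  have hq : maximalIdeal (R ⧸ I) = span {Ideal.Quotient.mk I y} := by
    have h2 : Ideal.map (Ideal.Quotient.mk I) (maximalIdeal R) = maximalIdeal (R ⧸ I) :=
      map_maximalIdeal_of_surjective _ Ideal.Quotient.mk_surjective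
    rw [← h2, hy, map_span, Set.image_pair, hI,
      Ideal.Quotient.eq_zero_iff_mem.2 (mem_span_singleton_self x), span_insert_zero]
  obtain ⟨g, hg, hgP⟩ := exists_eq_span_pow hq (P.map (Ideal.Quotient.mk I))
  obtain ⟨p, hp, rfl⟩ := (Ideal.mem_map_iff_of_surjective _ Ideal.Quotient.mk_surjective).1 hg
  have hPle : P ≤ span {p} := by
    refine Submodule.le_of_le_smul_of_le_jacobson_bot (I := maximalIdeal R) (IsNoetherian.noetherian P)
      (le_of_eq (jacobson_eq_maximalIdeal ⊥ bot_ne_top).symm) fun r hr => ?_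
    have : Ideal.Quotient.mk I r ∈ span {Ideal.Quotient.mk I p} :=
      hgP ▸ Ideal.mem_map_of_mem _ hr
    obtain ⟨c, hc⟩ := mem_span_singleton.1 this
    obtain ⟨c, rfl⟩ := Ideal.Quotient.mk_surjective c
    rw [← map_mul, Ideal.Quotient.mk_eq_mk_iff_sub_mem, hI, mem_span_singleton] at hc
    obtain ⟨d, hd⟩ := hc
    have hxd : x * d ∈ P := hd ▸ sub_mem hr (Ideal.mul_mem_right _ _ hp)
    have hdP : d ∈ P := (hP.mem_or_mem hxd).resolve_left hxP
    rw [show r = p * c + x * d by rw [← hd]; ring]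
    exact Submodule.add_mem_sup (mem_span_singleton.2 (dvd_mul_right _ _))
      (by rw [smul_eq_mul]; exact Ideal.mul_mem_mul hx hdP)
  have hPeq : P = span {p} := le_antisymm hPle ((span_singleton_le_iff_mem _).2 hp)
  refine ⟨p, hp, (Ideal.span_singleton_prime ?_).1 (hPeq ▸ hP)⟩
  rintro rfl
  exact hP0 (by rw [hPeq]; simp)

end Two

section PowerSeries

open scoped PowerSeries

variable {O : Type*} [CommRing O] [IsDomain O] [IsDiscreteValuationRing O]

/-- Power series over a discrete valuation ring form a factorial ring. -/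
theorem uniqueFactorizationMonoid_powerSeries : UniqueFactorizationMonoid O⟦X⟧ := by
  obtain ⟨ϖ, hϖ⟩ := IsDiscreteValuationRing.exists_irreducible O
  haveI : (span {PowerSeries.X} : Ideal O⟦X⟧).IsPrime := PowerSeries.span_X_isPrime
  refine uniqueFactorizationMonoid_of_pair (R := O⟦X⟧) (a := PowerSeries.C ϖ) (b := PowerSeries.X)
    (P₀ := span {PowerSeries.X}) ?_ ?_ ?_
  · have hmem : ∀ f : O⟦X⟧, f ∈ maximalIdeal O⟦X⟧ ↔ PowerSeries.constantCoeff f ∈ maximalIdeal O := by
      intro f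
      simp [PowerSeries.isUnit_iff_constantCoeff]
    refine le_antisymm (fun f hf => ?_) ?_
    · rw [hmem, hϖ.maximalIdeal_eq, mem_span_singleton] at hf
      obtain ⟨c, hc⟩ := hf
      refine mem_span_pair.2 ⟨PowerSeries.C c, PowerSeries.mk fun n => PowerSeries.coeff (n + 1) f, ?_⟩
      conv_rhs => rw [PowerSeries.eq_shift_mul_X_add_const f, hc]
      rw [map_mul]; ring
    · rw [span_le, Set.pair_subset_iff]
      exact ⟨(hmem _).2 (by rw [PowerSeries.constantCoeff_C, hϖ.maximalIdeal_eq]; exact mem_span_singleton_self ϖ),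
        (hmem _).2 (by simp)⟩
  · simp [PowerSeries.X_ne_zero]
  · intro h
    have h2 : PowerSeries.C ϖ ∈ span {(PowerSeries.X : O⟦X⟧)} := by
      rw [h]; simp [PowerSeries.isUnit_iff_constantCoeff, hϖ.not_isUnit]
    rw [mem_span_singleton, PowerSeries.X_dvd_iff, PowerSeries.constantCoeff_C] at h2
    exact hϖ.ne_zero h2

end PowerSeries

end FLTAgent.Carayol
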