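import Fermat.Agent.Carayol.Ring
import Fermat.Agent.Carayol.Regular

/-!
# The action of inertia on expansions and integrality over the line of the coordinate
-/

set_option autoImplicit false
set_option linter.unusedSectionVars false
set_option linter.style.haveILetI false

noncomputable section

open UpperHalfPlane hiding I I_re I_im
open Filter Topology Complex Function FLTAgent.ModEq FLTAgent.GoodModel ModularCurve
open scoped MatrixGroups Manifold Classical

namespace FLTAgent.Carayol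

namespace Ctx

variable {q M0 N' : ℕ} [NeZero M0] [NeZero N'] [NeZero q] [Fact q.Prime] (C : Ctx q M0 N')

theorem embAt_apply (γ : SL(2, ℤ)) (a : C.R) :
    C.embAt γ a = ser (trComp γ (Subring.inclusion C.R_le a)) := rfl

theorem embAt_congr {γ γ' : SL(2, ℤ)} (a : C.R)
    (h : compg γ (a : ℍ → ℂ) = compg γ' (a : ℍ → ℂ)) : C.embAt γ a = C.embAt γ' a := by
  have e : trComp γ (Subring.inclusion C.R_le a) = trComp γ' (Subring.inclusion C.R_le a) :=
    Subtype.ext h
  rw [embAt_apply, embAt_apply, e]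

/-- The root of unity of order `q`. -/
def zq : C.Sˣ := C.ζ ^ (M0 * N')

theorem zq_primitive : IsPrimitiveRoot ((C.zq : C.S)) q := by
  have h : IsPrimitiveRoot ((C.ζ : C.S) : ℂ) (M0 * (N' * q)) := by
    rw [C.hζ]
    exact (zetaN_primitive (N := M0 * (N' * q))).map_of_injective (f := Units.coeHom ℂ)
      Units.val_injective
  have h2 : IsPrimitiveRoot (((C.ζ : C.S) : ℂ) ^ (M0 * N')) q :=
    h.pow (Nat.pos_of_ne_zero (NeZero.ne _)) (by ring)
  refine IsPrimitiveRoot.of_map_of_injective (f := C.S.subtype) ?_ Subtype.val_injective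
  rw [zq, Units.val_pow_eq_pow_val, map_pow]
  exact h2

theorem rHom_some (i : ZMod q) (G : LaurentSeries C.W) :
    C.rHom (some i) G = substHom (C.zq ^ i.val) (1 * N') (coeffMap C.inc G) := by
  simp only [rHom, RingHom.comp_apply, rA, rk, rB, zq]
  rw [← pow_mul, ← zpow_natCast C.ζ (M0 * N' * i.val)]
  congr 3
  push_cast
  ring

theorem fix_inc {σ : C.S ≃+* C.S} (hσ : ∀ w, σ (C.inc w) = C.inc w) (G : LaurentSeries C.W) :
    coeffMap σ.toRingHom (coeffMap C.inc G) = coeffMap C.inc G := by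
  rw [coeffMap_coeffMap]
  ext k
  simp only [coeffMap_coeff, RingHom.comp_apply]
  exact congrArg Subtype.val (hσ _)

/-- A ring automorphism of the constants fixing the small ring permutes the conjugates. -/
theorem exists_root_perm {σ : C.S ≃+* C.S} (hσ : ∀ w, σ (C.inc w) = C.inc w) :
    ∃ π : Option (ZMod q) → Option (ZMod q), Injective π ∧ π none = none ∧ π (some 0) = some 0 ∧
      ∀ r G, coeffMap σ.toRingHom (C.rHom r G) = C.rHom (π r) G := by
  have hz := C.zq_primitive
  obtain ⟨a, -, ha⟩ := hz.eq_pow_of_pow_eq_one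
    (show (σ (C.zq : C.S)) ^ q = 1 by rw [← map_pow, hz.pow_eq_one, map_one])
  have ha0 : ((a : ℕ) : ZMod q) ≠ 0 := fun h => by
    rw [ZMod.natCast_eq_zero_iff] at h
    have h2 : σ (C.zq : C.S) = 1 := by
      rw [← ha]; exact (hz.pow_eq_one_iff_dvd a).2 h
    exact hz.ne_one C.hq.one_lt (σ.injective (h2.trans (map_one σ).symm))
  refine ⟨Option.map fun i => (a : ZMod q) * i, Option.map_injective (mul_right_injective₀ ha0),
    rfl, by simp, fun r G => ?_⟩
  rcases r with _ | i
  · simp only [rHom, RingHom.comp_apply, rA, rk, rB, mul_zero, zpow_zero, Option.map_none]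
    rw [coeffMap_substHom, map_one, C.fix_inc hσ]
  · rw [Option.map_some, C.rHom_some, C.rHom_some, coeffMap_substHom, C.fix_inc hσ]
    congr 2
    refine Units.ext ?_
    have hmap : ((Units.map σ.toRingHom.toMonoidHom C.zq : C.Sˣ) : C.S) = (C.zq : C.S) ^ a := ha.symm
    rw [map_pow, Units.val_pow_eq_pow_val, hmap, ← pow_mul, Units.val_pow_eq_pow_val]
    rw [pow_eq_pow_mod (a * i.val) hz.pow_eq_one]
    congr 1
    rw [ZMod.val_mul, ZMod.val_natCast, Nat.mod_mul_mod]

theorem ser_rW_ne (r : Option (ZMod q)) :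
    ser ⟨C.rW r, C.rW_mem r⟩ ≠ 0 ∧ eul (C.rHom r C.co.H) ≠ 0 := by
  have hY : HahnSeries.C (q : C.S) * eul C.Ys ≠ 0 := by
    refine mul_ne_zero (HahnSeries.C_ne_zero (Nat.cast_ne_zero.2 (NeZero.ne q))) fun h => ?_
    have h1 := congrArg (fun z : LaurentSeries C.S => z.coeff (((N' * q : ℕ) : ℤ) * (-1))) h
    simp only [eul_coeff, Ys, qExpand_coeff_mul, coeffMap_coeff, HahnSeries.coeff_zero] at h1
    refine mul_ne_zero ?_ (C.co.leadH.2.map C.inc).ne_zero h1
    exact Int.cast_ne_zero.2 (mul_ne_zero (by exact_mod_cast NeZero.ne (N' * q)) (by norm_num))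
  rw [← C.ser_rW_eul r] at hY
  exact ⟨fun h => hY (by rw [h, zero_mul]), fun h => hY (by rw [h, mul_zero])⟩

theorem ser_rW_mul_rV (r : Option (ZMod q)) :
    ser ⟨C.rW r, C.rW_mem r⟩ * ser ⟨C.rV r, C.rV_mem r⟩ = HahnSeries.C ((q : C.S) ^ 2) := by
  have e : (⟨C.rW r, C.rW_mem r⟩ : trRing C.S (M0 * (N' * q))) * ⟨C.rV r, C.rV_mem r⟩ =
      ⟨_, C.const_mem ((q : C.S) ^ 2)⟩ := Subtype.ext (by
    show C.rW r * C.rV r = _
    rw [C.rW_mul_rV r]
    funext τ
    simp)
  rw [← map_mul, e, ser_const]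

theorem ser_rU_mul (r : Option (ZMod q)) : ser ⟨C.rU r, C.rU_mem r⟩ *
    ∏ i, (C.rHom r C.co.H - HahnSeries.C (C.inc (C.co.c i))) = 1 := by
  have hP : ((fun τ => ∏ i, (C.rX r τ - (C.co.c i : ℂ))),
      ∏ i, (C.rHom r C.co.H - HahnSeries.C (C.inc (C.co.c i)))) ∈ sPairs C.S (M0 * (N' * q)) := by
    have h := Subring.prod_mem (sPairs C.S (M0 * (N' * q))) (t := Finset.univ) fun i _ =>
      (sPairs C.S (M0 * (N' * q))).sub_mem (C.rX_spec r)
        (sPairs_const (n := M0 * (N' * q)) (C.inc (C.co.c i)))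
    convert h using 1
    refine Prod.ext (funext fun τ => ?_) ?_
    · simp [Prod.fst_prod]
    · simp [Prod.snd_prod]
  refine sPairs_unique (φ := fun _ => (1 : ℂ)) ?_ (sPairs C.S (M0 * (N' * q))).one_mem
  have h := (sPairs C.S (M0 * (N' * q))).mul_mem (ser_spec ⟨C.rU r, C.rU_mem r⟩) hP
  rw [Prod.mk_mul_mk] at h
  convert h using 2
  funext τ
  have hne : C.dlt (affPt q 0 1 (C.gr r • τ)) ≠ 0 := C.dlt_ne _
  rw [dlt] at hne
  simp only [Pi.mul_apply, rU, rX, compg_apply, sU, sX, dlt]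
  rw [inv_mul_cancel₀ hne]

theorem ser_lift_fix {σ : C.S ≃+* C.S} (hσ : ∀ w, σ (C.inc w) = C.inc w) {f : ℍ → ℂ}
    (hf : f ∈ trRing C.W (M0 * N')) :
    coeffMap σ.toRingHom (ser ⟨f, C.lift_level hf⟩) = ser ⟨f, C.lift_level hf⟩ := by
  obtain ⟨G, hG⟩ := mem_trRing.mp hf 1
  rw [compg_one] at hG
  rw [sPairs_unique (ser_spec ⟨f, C.lift_level hf⟩)
    (sPairs_refine (k := q) (mul_assoc M0 N' q) (sPairs_mono C.hWS hG)), ← coeffMap_qExpand,
    C.fix_inc hσ]

/-- The Galois action on the translates. -/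
theorem exists_galois_move {σ : C.S ≃+* C.S} (hσ : ∀ w, σ (C.inc w) = C.inc w) {γ : SL(2, ℤ)}
    (hγ : γ ∈ CongruenceSubgroup.Gamma M0) :
    ∃ γ', γ' ∈ CongruenceSubgroup.Gamma M0 ∧
      (∀ a : C.R, coeffMap σ.toRingHom (C.embAt γ a) = C.embAt γ' a) ∧
      (γ = 1 → C.triple γ' = C.triple γ) := by
  obtain ⟨π, hπ, hπ1, hπ0, hπH⟩ := C.exists_root_perm hσ
  -- the action on one side
  have side : ∀ r : Option (ZMod q),
      coeffMap σ.toRingHom (ser ⟨C.rW r, C.rW_mem r⟩) = ser ⟨C.rW (π r), C.rW_mem _⟩ ∧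
      coeffMap σ.toRingHom (ser ⟨C.rV r, C.rV_mem r⟩) = ser ⟨C.rV (π r), C.rV_mem _⟩ ∧
      coeffMap σ.toRingHom (ser ⟨C.rU r, C.rU_mem r⟩) = ser ⟨C.rU (π r), C.rU_mem _⟩ := by
    intro r
    have hY : coeffMap σ.toRingHom C.Ys = C.Ys := by
      rw [Ys, ← coeffMap_qExpand, C.fix_inc hσ]
    have hq : ∀ x : ℕ, coeffMap σ.toRingHom (HahnSeries.C (x : C.S)) = HahnSeries.C (x : C.S) :=
      fun x => by rw [HahnSeries.C_apply, coeffMap_single, map_natCast]
    have hw : coeffMap σ.toRingHom (ser ⟨C.rW r, C.rW_mem r⟩) = ser ⟨C.rW (π r), C.rW_mem _⟩ := by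
      have h := congrArg (coeffMap σ.toRingHom) (C.ser_rW_eul r)
      rw [map_mul, map_mul, coeffMap_eul, hπH, coeffMap_eul, hY, hq, ← C.ser_rW_eul (π r)] at h
      exact mul_right_cancel₀ (C.ser_rW_ne (π r)).2 h
    refine ⟨hw, ?_, ?_⟩
    · have h := congrArg (coeffMap σ.toRingHom) (C.ser_rW_mul_rV r)
      rw [map_mul, hw, show ((q : C.S) ^ 2) = ((q ^ 2 : ℕ) : C.S) by push_cast; rfl, hq] at h
      push_cast at h
      rw [← C.ser_rW_mul_rV (π r)] at h
      exact mul_left_cancel₀ (C.ser_rW_ne (π r)).1 h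
    · have h := congrArg (coeffMap σ.toRingHom) (C.ser_rU_mul r)
      have hc : ∀ i, coeffMap σ.toRingHom (HahnSeries.C (C.inc (C.co.c i))) =
          HahnSeries.C (C.inc (C.co.c i)) := fun i => by
        rw [HahnSeries.C_apply, coeffMap_single]; exact congrArg _ (hσ _)
      simp only [map_mul, map_prod, map_sub, hπH, hc, map_one] at h
      rw [← C.ser_rU_mul (π r)] at h
      refine mul_right_cancel₀ (fun h0 => ?_) h
      have h1 := C.ser_rU_mul (π r)
      rw [h0, mul_zero] at h1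
      exact zero_ne_one h1
  -- realise the image of the pair
  obtain ⟨r, hx, -⟩ := C.exists_root hγ
  obtain ⟨s, hz, -⟩ := C.exists_root (mul_mem (C.gr_mem0 (some 0)) hγ)
  have hz' : compg γ (C.rX (some 0)) = C.rX s := by rw [rX, compg_compg]; exact hz
  have hrs : r ≠ s := fun h => by
    subst h
    have h1 : C.rX none = C.rX (some 0) := by
      refine compg_injective γ ?_
      rw [hz', ← hx]
      simp [rX, gr, compg_one]
    exact absurd (C.rX_injective h1) (by simp)
  have hback : ∀ t : Option (ZMod q), ∃ t', compg γ⁻¹ (C.rX t) = C.rX t' := fun t => by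
    obtain ⟨t', ht', -⟩ := C.exists_root (mul_mem (C.gr_mem0 t) (inv_mem hγ))
    exact ⟨t', by rw [rX, compg_compg]; exact ht'⟩
  obtain ⟨r', hr'⟩ := hback (π r)
  obtain ⟨s', hs'⟩ := hback (π s)
  have hrs' : r' ≠ s' := fun h => hrs (hπ (C.rX_injective (compg_injective γ⁻¹ (by rw [hr', hs', h]))))
  obtain ⟨δ, hδ, hd1, hd2⟩ := C.exists_move hrs'
  set γ' := δ * γ with hγ'def
  have hγ' : γ' ∈ CongruenceSubgroup.Gamma M0 := mul_mem (mem_M0_of_mem_m hδ) hγ
  have he' : compg γ' C.eta = compg γ C.eta := by rw [hγ'def, ← compg_compg, C.eta_fix hδ]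
  have hx' : compg γ' C.sX = C.rX (π r) := by
    rw [hγ'def, ← compg_compg, hd1, ← hr', compg_compg, inv_mul_cancel, compg_one]
  have hz1 : compg γ' (C.rX (some 0)) = C.rX (π s) := by
    rw [hγ'def, ← compg_compg, hd2, ← hs', compg_compg, inv_mul_cancel, compg_one]
  -- the side functions
  obtain ⟨a1, ha1, ha2, ha3, ha4⟩ := C.exists_root hγ
  obtain rfl : a1 = r := C.rX_injective (ha1.symm.trans hx)
  obtain ⟨a2, hb1, hb2, hb3, hb4⟩ := C.exists_root hγ'
  obtain rfl : a2 = π a1 := C.rX_injective (hb1.symm.trans hx')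
  obtain ⟨a3, hc1, hc2, hc3, hc4⟩ := C.exists_root (mul_mem (C.gr_mem0 (some 0)) hγ)
  obtain rfl : a3 = s := C.rX_injective (hc1.symm.trans hz)
  obtain ⟨a4, he1, he2, he3, he4⟩ := C.exists_root (mul_mem (C.gr_mem0 (some 0)) hγ')
  obtain rfl : a4 = π a3 :=
    C.rX_injective (he1.symm.trans (by rw [← compg_compg]; exact hz1))
  refine ⟨γ', hγ', fun a => ?_, fun h1 => ?_⟩
  · suffices h : (coeffMap σ.toRingHom).comp (C.embAt γ) = C.embAt γ' from DFunLike.congr_fun h a
    have key : ∀ (f g : ℍ → ℂ) (hf : f ∈ trRing C.S (M0 * (N' * q)))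
        (hg : g ∈ trRing C.S (M0 * (N' * q))) (φ : ℍ → ℂ) (hφ : φ ∈ C.R),
        compg γ φ = f → compg γ' φ = g → coeffMap σ.toRingHom (ser ⟨f, hf⟩) = ser ⟨g, hg⟩ →
        coeffMap σ.toRingHom (C.embAt γ ⟨φ, hφ⟩) = C.embAt γ' ⟨φ, hφ⟩ := by
      rintro f g hf hg φ hφ rfl rfl h
      exact h
    refine RingHom.ext fun ⟨φ, hφ⟩ => ?_
    induction hφ using Subring.closure_induction with
    | mem f hf =>
      rcases hf with ⟨w, rfl⟩ | hf
      · show coeffMap σ.toRingHom (C.embAt γ (C.cW w)) = C.embAt γ' (C.cW w)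
        rw [C.embAt_cW, C.embAt_cW, HahnSeries.C_apply, coeffMap_single]
        exact congrArg _ (hσ w)
      · rcases hf with rfl | rfl | rfl | rfl | rfl | rfl | rfl | rfl | rfl | rfl | rfl | rfl
        · refine key _ _ C.T_mem C.T_mem _ _ (funext fun τ => C.T_pm (Or.inl hγ) τ)
            (funext fun τ => C.T_pm (Or.inl hγ') τ) ?_
          rw [C.ser_T, Ys, ← coeffMap_qExpand, C.fix_inc hσ]
        · refine key _ _ C.dlt_inv_mem C.dlt_inv_mem _ _ (funext fun τ => ?_) (funext fun τ => ?_) ?_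
          · simp only [compg_apply, dlt, C.T_pm (Or.inl hγ)]
          · simp only [compg_apply, dlt, C.T_pm (Or.inl hγ')]
          · obtain ⟨G, hG⟩ := mem_trRing.mp C.dlt_inv_mem0 1
            rw [compg_one] at hG
            rw [sPairs_unique (ser_spec ⟨_, C.dlt_inv_mem⟩)
              (sPairs_refine (k := N' * q) rfl (sPairs_mono C.hWS hG)), ← coeffMap_qExpand,
              C.fix_inc hσ]
        · have hn := C.node_mem0 (C.compg_mem_nodes hγ C.eta_mem_nodes)
          exact key _ _ (C.lift_level hn) (C.lift_level hn) _ _ rfl he' (C.ser_lift_fix hσ hn)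
        · have hn := C.rhoOf_mem0 (C.compg_mem_nodes hγ C.eta_mem_nodes)
          exact key _ _ (C.lift_level hn) (C.lift_level hn) _ _ (C.compg_rhoOf hγ)
            (by rw [C.compg_rhoOf hγ', he']) (C.ser_lift_fix hσ hn)
        · refine key _ _ (C.rX_mem a1) (C.rX_mem (π a1)) _ _ ha1 hb1 ?_
          rw [C.ser_rX, C.ser_rX, hπH]
        · exact key _ _ (C.rW_mem a1) (C.rW_mem (π a1)) _ _ ha2 hb2 (side a1).1
        · exact key _ _ (C.rV_mem a1) (C.rV_mem (π a1)) _ _ ha3 hb3 (side a1).2.1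
        · exact key _ _ (C.rU_mem a1) (C.rU_mem (π a1)) _ _ ha4 hb4 (side a1).2.2
        · refine key _ _ (C.rX_mem a3) (C.rX_mem (π a3)) _ _ ?_ ?_ ?_
          · exact hz'
          · exact hz1
          · rw [C.ser_rX, C.ser_rX, hπH]
        · exact key _ _ (C.rW_mem a3) (C.rW_mem (π a3)) _ _ (by rw [rW, compg_compg]; exact hc2)
            (by rw [rW, compg_compg]; exact he2) (side a3).1
        · exact key _ _ (C.rV_mem a3) (C.rV_mem (π a3)) _ _ (by rw [rV, compg_compg]; exact hc3)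
            (by rw [rV, compg_compg]; exact he3) (side a3).2.1
        · exact key _ _ (C.rU_mem a3) (C.rU_mem (π a3)) _ _ (by rw [rU, compg_compg]; exact hc4)
            (by rw [rU, compg_compg]; exact he4) (side a3).2.2
    | zero =>
      show coeffMap σ.toRingHom (C.embAt γ 0) = C.embAt γ' 0
      simp only [map_zero]
    | one =>
      show coeffMap σ.toRingHom (C.embAt γ 1) = C.embAt γ' 1
      simp only [map_one]
    | add x y hx hy ihx ihy =>
      show coeffMap σ.toRingHom (C.embAt γ (⟨x, hx⟩ + ⟨y, hy⟩)) = C.embAt γ' (⟨x, hx⟩ + ⟨y, hy⟩)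
      simp only [map_add]
      exact congrArg₂ (· + ·) ihx ihy
    | neg x hx ihx =>
      show coeffMap σ.toRingHom (C.embAt γ (-⟨x, hx⟩)) = C.embAt γ' (-⟨x, hx⟩)
      simp only [map_neg]
      exact congrArg (- ·) ihx
    | mul x y hx hy ihx ihy =>
      show coeffMap σ.toRingHom (C.embAt γ (⟨x, hx⟩ * ⟨y, hy⟩)) = C.embAt γ' (⟨x, hx⟩ * ⟨y, hy⟩)
      simp only [map_mul]
      exact congrArg₂ (· * ·) ihx ihy
  · subst h1
    have hr0 : a1 = none := C.rX_injective (by rw [← hx]; simp [rX, gr, compg_one])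
    have hs0 : a3 = some 0 := C.rX_injective (by rw [← hz', compg_one])
    simp only [triple, he', hx', hz1, hr0, hs0, hπ1, hπ0, compg_one]
    simp [rX, gr, compg_one]

/-- The expansion of a conjugate. -/
def emb (l : C.Idx) : C.R →+* LaurentSeries C.S := C.embAt (C.rep l)

/-- The generators as elements. -/
def gen (f : ℍ → ℂ) (hf : f ∈ C.gens) : C.R := ⟨f, C.gens_le hf⟩

theorem emb_injective_idx {l l' : C.Idx} (h : C.emb l = C.emb l') : l = l' := by
  have key : ∀ f : ℍ → ℂ, f ∈ C.gens → compg (C.rep l) f = compg (C.rep l') f := fun f hf => by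
    have h2 := DFunLike.congr_fun h (C.gen f hf)
    exact congrArg (fun x : trRing C.S (M0 * (N' * q)) => (x : ℍ → ℂ)) (ser_injective h2)
  refine Subtype.ext ?_
  rw [← C.triple_rep l, ← C.triple_rep l']
  simp only [triple, key C.eta (by simp [gens]), key C.sX (by simp [gens]),
    key (C.rX (some 0)) (by simp [gens])]

/-- The Galois action permutes the conjugates. -/
theorem exists_galois_perm {σ : C.S ≃+* C.S} (hσ : ∀ w, σ (C.inc w) = C.inc w) :
    ∃ e : C.Idx ≃ C.Idx, ∀ l a, coeffMap σ.toRingHom (C.emb l a) = C.emb (e l) a := by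
  choose g hg hgs _ using fun l : C.Idx => C.exists_galois_move hσ (C.rep_mem l)
  have he : ∀ l a, coeffMap σ.toRingHom (C.emb l a) = C.emb (C.idx (hg l)) a := fun l a => by
    rw [emb, hgs]
    exact C.embAt_congr a (C.compg_rep_idx (hg l) a).symm
  have hinj : Injective fun l => C.idx (hg l) := fun l l' h => C.emb_injective_idx (RingHom.ext
    fun a => coeffMap_injective σ.toRingHom σ.injective (by rw [he, he]; exact congrArg (fun i => C.emb i a) h))
  exact ⟨Equiv.ofBijective _ (Finite.injective_iff_bijective.1 hinj), he⟩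

/-- The hypothesis that the small ring is the fixed ring. -/
def FixedPart : Prop :=
  ∀ x : C.S, (∀ σ : C.S ≃+* C.S, (∀ w, σ (C.inc w) = C.inc w) → σ x = x) → x ∈ C.inc.range

/-- The expansions of the functions of the cover have small coefficients. -/
theorem coeff_embAt_one (hF : C.FixedPart) (a : C.R) (k : ℤ) :
    (C.embAt 1 a).coeff k ∈ C.inc.range := by
  refine hF _ fun σ hσ => ?_
  obtain ⟨γ', hγ', h, h1⟩ := C.exists_galois_move hσ (one_mem _)
  have h2 : C.embAt γ' a = C.embAt 1 a :=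
    C.embAt_congr a (C.compg_congr hγ' (one_mem _) (h1 rfl) a)
  have := congrArg (fun z : LaurentSeries C.S => z.coeff k) ((h a).trans h2)
  simpa using this

/-- The index of the identical embedding. -/
def one' : C.Idx := C.idx (one_mem _)

theorem emb_one' (a : C.R) : C.emb C.one' a = C.embAt 1 a :=
  C.embAt_congr a (C.compg_rep_idx (one_mem _) a)

/-- The coordinate as an element. -/
def yR : C.R := C.gen C.T (by simp [gens])

/-- The inverse of the product of differences as an element. -/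
def dR : C.R := C.gen (fun τ => (C.dlt τ)⁻¹) (by simp [gens])

/-- Polynomials in the coordinate. -/
def evR : Polynomial C.W →+* C.R := Polynomial.eval₂RingHom C.cW C.yR

/-- The product of the differences over the small ring. -/
def dltW : Polynomial C.W := ∏ i, (Polynomial.X - Polynomial.C (C.co.c i))

theorem incl_evR (P : Polynomial C.W) :
    Subring.inclusion C.R_le (C.evR P) = C.evT (P.map C.inc) := by
  rw [evR, Polynomial.coe_eval₂RingHom, Polynomial.hom_eval₂, evT, Polynomial.coe_eval₂RingHom,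
    Polynomial.eval₂_map]
  rfl

theorem map_dltW : C.dltW.map C.inc = C.dltS := by
  simp [dltW, dltS, Polynomial.map_prod]

theorem evR_dltW_mul_dR : C.evR C.dltW * C.dR = 1 := by
  refine Subtype.ext (funext fun τ => ?_)
  have h := congrArg (fun x : trRing C.S (M0 * (N' * q)) => (x : ℍ → ℂ) τ) (C.incl_evR C.dltW)
  simp only [Subring.coe_inclusion, C.map_dltW, C.evT_dltS] at h
  show (C.evR C.dltW : ℍ → ℂ) τ * (C.dlt τ)⁻¹ = 1
  rw [h, mul_inv_cancel₀ (C.dlt_ne τ)]

/-- The ring of the line. -/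
def U : Subring C.R := Subring.closure (Set.range C.evR ∪ {C.dR})

theorem evR_mem_U (P : Polynomial C.W) : C.evR P ∈ C.U :=
  Subring.subset_closure (Or.inl ⟨P, rfl⟩)

theorem dR_mem_U : C.dR ∈ C.U := Subring.subset_closure (Or.inr rfl)

theorem exists_U_form {u : C.R} (hu : u ∈ C.U) :
    ∃ (P : Polynomial C.W) (s : ℕ), u * C.evR C.dltW ^ s = C.evR P := by
  induction hu using Subring.closure_induction with
  | mem x hx =>
    rcases hx with ⟨P, rfl⟩ | rfl
    · exact ⟨P, 0, by simp⟩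
    · exact ⟨1, 1, by rw [pow_one, mul_comm, C.evR_dltW_mul_dR, map_one]⟩
  | zero => exact ⟨0, 0, by simp⟩
  | one => exact ⟨1, 0, by simp⟩
  | add x y _ _ hx hy =>
    obtain ⟨P, s, hP⟩ := hx
    obtain ⟨Q, t, hQ⟩ := hy
    refine ⟨P * C.dltW ^ t + Q * C.dltW ^ s, s + t, ?_⟩
    rw [map_add, map_mul, map_mul, map_pow, map_pow, ← hP, ← hQ, pow_add]
    ring
  | neg x _ hx =>
    obtain ⟨P, s, hP⟩ := hx
    exact ⟨-P, s, by rw [map_neg, ← hP, neg_mul]⟩
  | mul x y _ _ hx hy =>
    obtain ⟨P, s, hP⟩ := hx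
    obtain ⟨Q, t, hQ⟩ := hy
    exact ⟨P * Q, s + t, by rw [map_mul, ← hP, ← hQ, pow_add]; ring⟩

/-- The elements of the line among the invariant functions. -/
theorem exists_mem_U (x : trRing C.S (M0 * (N' * q)))
    (hinv : ∀ γ ∈ CongruenceSubgroup.Gamma M0, compg γ (x : ℍ → ℂ) = x)
    (hser : ∀ k, (ser x).coeff k ∈ C.inc.range) :
    ∃ u ∈ C.U, Subring.inclusion C.R_le u = x := by
  obtain ⟨P, s, h⟩ := C.exists_poly_W x hinv hser
  refine ⟨C.evR P * C.dR ^ s, mul_mem (C.evR_mem_U P) (pow_mem C.dR_mem_U s), ?_⟩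
  have hd : C.evT C.dltS * Subring.inclusion C.R_le C.dR = 1 := by
    rw [← C.map_dltW, ← C.incl_evR, ← map_mul, C.evR_dltW_mul_dR, map_one]
  rw [map_mul, map_pow, C.incl_evR, ← h, mul_assoc, ← mul_pow, hd, one_pow, mul_one]

/-- The characteristic polynomial of an element over the line. -/
theorem exists_charpoly (hF : C.FixedPart) (a : C.R) :
    ∃ p : Polynomial C.R, p.Monic ∧ p.natDegree = Fintype.card C.Idx ∧ (∀ k, p.coeff k ∈ C.U) ∧
      p.eval a = 0 ∧ p.map (C.embAt 1) = ∏ l, (Polynomial.X - Polynomial.C (C.emb l a)) := by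
  set el : C.Idx → trRing C.S (M0 * (N' * q)) := fun l => trComp (C.rep l) (Subring.inclusion C.R_le a)
  set p0 : Polynomial (trRing C.S (M0 * (N' * q))) := ∏ l, (Polynomial.X - Polynomial.C (el l))
  have hel : ∀ (γ : SL(2, ℤ)) (hγ : γ ∈ CongruenceSubgroup.Gamma M0) (l : C.Idx),
      trComp γ (el l) = el (C.perm hγ l) := fun γ hγ l =>
    Subtype.ext (C.compg_rep_perm hγ l (C.stab_R a)).symm
  have hp : p0.map ser = ∏ l, (Polynomial.X - Polynomial.C (C.emb l a)) := by
    rw [Polynomial.map_prod]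
    simp only [Polynomial.map_sub, Polynomial.map_X, Polynomial.map_C]
    rfl
  have hk : ∀ k, ∃ u ∈ C.U, Subring.inclusion C.R_le u = p0.coeff k := by
    intro k
    refine C.exists_mem_U _ (fun γ hγ => ?_) fun i => hF _ fun σ hσ => ?_
    · have hinv : p0.map (trComp γ) = p0 := by
        rw [Polynomial.map_prod]
        simp only [Polynomial.map_sub, Polynomial.map_X, Polynomial.map_C, hel γ hγ]
        exact Equiv.prod_comp (C.perm hγ) fun l => Polynomial.X - Polynomial.C (el l)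
      have h1 := congrArg (fun p : Polynomial (trRing C.S (M0 * (N' * q))) =>
        ((p.coeff k : trRing C.S (M0 * (N' * q))) : ℍ → ℂ)) hinv
      simp only [Polynomial.coeff_map] at h1
      exact h1
    · obtain ⟨e, he⟩ := C.exists_galois_perm hσ
      have hinv : (p0.map ser).map (coeffMap σ.toRingHom) = p0.map ser := by
        rw [hp, Polynomial.map_prod]
        simp only [Polynomial.map_sub, Polynomial.map_X, Polynomial.map_C, he]
        exact Equiv.prod_comp e fun l => Polynomial.X - Polynomial.C (C.emb l a)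
      have h1 := congrArg (fun p : Polynomial (LaurentSeries C.S) => (p.coeff k).coeff i) hinv
      simpa [Polynomial.coeff_map] using h1
  have hlift : p0 ∈ Polynomial.lifts (Subring.inclusion C.R_le) := (Polynomial.lifts_iff_coeff_lifts _).2
    fun k => by obtain ⟨u, -, hu⟩ := hk k; exact ⟨u, hu⟩
  have hmon : p0.Monic := Polynomial.monic_prod_of_monic _ _ fun l _ => Polynomial.monic_X_sub_C _
  obtain ⟨p, hp0, hdeg, hpm⟩ := Polynomial.lifts_and_natDegree_eq_and_monic hlift hmon
  have hinj := Subring.inclusion_injective C.R_le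
  have hser1 : (ser : trRing C.S (M0 * (N' * q)) →+* LaurentSeries C.S).comp
      (Subring.inclusion C.R_le) = C.embAt 1 := by
    refine RingHom.ext fun b => ?_
    have e : Subring.inclusion C.R_le b = trComp 1 (Subring.inclusion C.R_le b) :=
      Subtype.ext (compg_one _).symm
    rw [RingHom.comp_apply, e]
    rfl
  have hmap : p.map (C.embAt 1) = ∏ l, (Polynomial.X - Polynomial.C (C.emb l a)) := by
    rw [← hser1, ← Polynomial.map_map, hp0, hp]
  refine ⟨p, hpm, ?_, fun k => ?_, ?_, hmap⟩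
  · rw [hdeg, Polynomial.natDegree_prod_of_monic _ _ fun l _ => Polynomial.monic_X_sub_C _]
    simp
  · obtain ⟨u, hu, hu'⟩ := hk k
    rw [← hp0, Polynomial.coeff_map] at hu'
    rwa [← hinj hu']
  · refine C.embAt_injective 1 ?_
    rw [← Polynomial.eval₂_at_apply, ← Polynomial.eval_map, hmap, map_zero, ← C.emb_one',
      Polynomial.eval_prod]
    exact Finset.prod_eq_zero (Finset.mem_univ C.one') (by simp)

/-- Traces of products are rational in the coordinate. -/
theorem exists_trace (hF : C.FixedPart) (a : C.R) : ∃ (P : Polynomial C.W) (s : ℕ),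
    (∑ l, trComp (C.rep l) (Subring.inclusion C.R_le a)) * C.evT C.dltS ^ s =
      C.evT (P.map C.inc) := by
  refine C.exists_poly_W _ (fun γ hγ => ?_) fun i => hF _ fun σ hσ => ?_
  · rw [AddSubmonoidClass.coe_finsetSum]
    exact C.sum_invariant (C.stab_R a) hγ
  · obtain ⟨e, he⟩ := C.exists_galois_perm hσ
    have h : coeffMap σ.toRingHom (∑ l, C.emb l a) = ∑ l, C.emb l a := by
      rw [map_sum]
      simp only [he]
      exact Equiv.sum_comp e fun l => C.emb l a
    have h2 : ser (∑ l, trComp (C.rep l) (Subring.inclusion C.R_le a)) = ∑ l, C.emb l a :=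
      map_sum _ _ _
    rw [h2]
    have h1 := congrArg (fun z : LaurentSeries C.S => z.coeff i) h
    simpa using h1

/-- The ring of the cover is finitely generated. -/
theorem exists_finite_gen : ∃ (m : ℕ) (f : MvPolynomial (Fin m) C.W →+* C.R),
    Function.Surjective f ∧ f.comp MvPolynomial.C = C.cW := by
  have hfin : C.gens.Finite := by
    simp [gens]
  obtain ⟨m, g, hg⟩ := hfin.fin_embedding
  have hmem : ∀ i, g i ∈ C.gens := fun i => hg ▸ ⟨i, rfl⟩
  refine ⟨m, MvPolynomial.eval₂Hom C.cW fun i => C.gen (g i) (hmem i), ?_, RingHom.ext fun w =>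
    MvPolynomial.eval₂_C _ _ _⟩
  rintro ⟨φ, hφ⟩
  induction hφ using Subring.closure_induction with
  | mem f hf =>
    rcases hf with ⟨w, rfl⟩ | hf
    · exact ⟨MvPolynomial.C w, MvPolynomial.eval₂_C _ _ _⟩
    · obtain ⟨i, rfl⟩ : f ∈ Set.range g := hg.symm ▸ hf
      exact ⟨MvPolynomial.X i, MvPolynomial.eval₂_X _ _ _⟩
  | zero => exact ⟨0, map_zero _⟩
  | one => exact ⟨1, map_one _⟩
  | add x y hx hy ihx ihy =>
    obtain ⟨P, hP⟩ := ihx
    obtain ⟨Q, hQ⟩ := ihy
    exact ⟨P + Q, by rw [map_add, hP, hQ]; rfl⟩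
  | neg x hx ihx =>
    obtain ⟨P, hP⟩ := ihx
    exact ⟨-P, by rw [map_neg, hP]; rfl⟩
  | mul x y hx hy ihx ihy =>
    obtain ⟨P, hP⟩ := ihx
    obtain ⟨Q, hQ⟩ := ihy
    exact ⟨P * Q, by rw [map_mul, hP, hQ]; rfl⟩

theorem isNoetherianRing_R [IsNoetherianRing C.W] : IsNoetherianRing C.R := by
  obtain ⟨m, f, hf, -⟩ := C.exists_finite_gen
  exact isNoetherianRing_of_surjective _ _ f hf

/-- The ring of the cover is integral over the line. -/
theorem isIntegral_U (hF : C.FixedPart) (a : C.R) : IsIntegral C.U a := by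
  obtain ⟨p, hp, -, hk, h0, -⟩ := C.exists_charpoly hF a
  have hlift : p ∈ Polynomial.lifts C.U.subtype :=
    (Polynomial.lifts_iff_coeff_lifts _).2 fun k => ⟨⟨_, hk k⟩, rfl⟩
  obtain ⟨p', hp', -, hm⟩ := Polynomial.lifts_and_natDegree_eq_and_monic hlift hp
  refine ⟨p', hm, ?_⟩
  rw [← Polynomial.eval_map]
  show (p'.map C.U.subtype).eval a = 0
  rw [hp', h0]

end Ctx

end FLTAgent.Carayol
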