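import Fermat.Agent.Carayol.RootPoly

/-!
# The equations of the cover, with their congruences
-/

set_option autoImplicit false
set_option linter.unusedSectionVars false
set_option linter.style.haveILetI false

noncomputable section

open UpperHalfPlane hiding I I_re I_im
open Filter Topology Complex Function FLTAgent.ModEq FLTAgent.GoodModel ModularCurve
open scoped MatrixGroups Manifold Classical

namespace FLTAgent.Carayol

theorem dInner_mul {W : Type*} [CommRing W] (P Q : Polynomial (Polynomial W)) :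
    dInner (P * Q) = dInner P * Q + P * dInner Q := by
  induction P using Polynomial.induction_on' with
  | add a b ha hb => rw [add_mul, dInner_add, ha, hb, dInner_add]; ring
  | monomial i a =>
    induction Q using Polynomial.induction_on' with
    | add c d hc hd => rw [mul_add, dInner_add, hc, hd, dInner_add]; ring
    | monomial j b =>
      rw [Polynomial.monomial_mul_monomial, dInner_monomial, dInner_monomial, dInner_monomial,
        Polynomial.monomial_mul_monomial, Polynomial.monomial_mul_monomial, Polynomial.derivative_mul,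
        map_add]

theorem dInner_C {W : Type*} [CommRing W] (a : Polynomial W) :
    dInner (Polynomial.C a) = Polynomial.C (Polynomial.derivative a) := by
  rw [← Polynomial.monomial_zero_left, dInner_monomial, Polynomial.monomial_zero_left]

theorem dInner_X_pow {W : Type*} [CommRing W] (n : ℕ) :
    dInner ((Polynomial.X : Polynomial (Polynomial W)) ^ n) = 0 := by
  rw [Polynomial.X_pow_eq_monomial, dInner_monomial, Polynomial.derivative_one, map_zero]

theorem dInner_sub {W : Type*} [CommRing W] (P Q : Polynomial (Polynomial W)) :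
    dInner (P - Q) = dInner P - dInner Q := by
  have h := dInner_add (P - Q) Q
  rw [sub_add_cancel] at h
  rw [h, add_sub_cancel_right]

/-- The chain rule for a substitution of two polynomials. -/
theorem derivative_bv {W R : Type*} [CommRing W] [CommRing R] (f : W →+* R) (A B : Polynomial R)
    (P : Polynomial (Polynomial W)) :
    Polynomial.derivative (bv (Polynomial.C.comp f) A B P) =
      bv (Polynomial.C.comp f) A B (Polynomial.derivative P) * Polynomial.derivative B +
        bv (Polynomial.C.comp f) A B (dInner P) * Polynomial.derivative A := by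
  induction P using Polynomial.induction_on' with
  | add p r hp hr =>
    rw [map_add, map_add, hp, hr, map_add, map_add, dInner_add, map_add]
    ring
  | monomial i a =>
    rw [bv_monomial, Polynomial.derivative_monomial, dInner_monomial, bv_monomial, bv_monomial,
      Polynomial.derivative_mul, Polynomial.derivative_pow, Polynomial.eval₂_mul,
      Polynomial.eval₂_natCast, map_natCast Polynomial.C]
    rw [show a.eval₂ (Polynomial.C.comp f) A = (a.map f).comp A by
        rw [Polynomial.comp, Polynomial.eval₂_map],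
      show (Polynomial.derivative a).eval₂ (Polynomial.C.comp f) A =
          (Polynomial.derivative (a.map f)).comp A by
        rw [Polynomial.derivative_map, Polynomial.comp, Polynomial.eval₂_map],
      Polynomial.derivative_comp]
    ring

namespace Ctx

variable {q M0 N' : ℕ} [NeZero M0] [NeZero N'] [NeZero q] [Fact q.Prime] (C : Ctx q M0 N')

theorem incl_bv (x : C.R) (P : Polynomial (Polynomial C.W)) :
    Subring.inclusion C.R_le (bv C.cW C.yR x P) =
      (P.map C.evY).eval (Subring.inclusion C.R_le x) := by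
  rw [bv_eq_eval_map, ← Polynomial.eval₂_at_apply, ← Polynomial.eval_map, Polynomial.map_map]
  congr 2
  refine RingHom.ext fun a => ?_
  rw [RingHom.comp_apply, C.evY_eq]
  rfl

/-- The level structure as an element. -/
def etaR : C.R := C.gen C.eta (by simp [gens])

/-- The inverse derivative at the level structure as an element. -/
def rhoR : C.R := C.gen (C.rhoOf C.eta) (by simp [gens])

theorem node_sub_ne {f g : ℍ → ℂ} (hf : f ∈ C.nodes) (hg : g ∈ C.nodes) (hgf : g ≠ f) (τ : ℍ) :
    f τ - g τ ≠ 0 := by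
  obtain ⟨γ, hγ, rfl⟩ := C.mem_nodes.1 hf
  obtain ⟨δ, hδ, rfl⟩ := C.mem_nodes.1 hg
  have hnz : ∀ γ : SL(2, ℤ), Nz (M0 * N') (vmul ((0, 1) : Vec) γ) := fun γ ↦
    (level_nz C.hM rfl).2.2.2.2.vmul γ
  simp only [eta, f0, compg_fvv (n := M0 * N') rfl hγ, compg_fvv (n := M0 * N') rfl hδ] at hgf ⊢
  obtain ⟨u, hu⟩ := isUnit_fvv_sub C.hM rfl C.ζm C.hζm C.hu (hnz γ) (hnz δ) fun e =>
    hgf ((fvv_congr_iff C.hM rfl (hnz δ) (hnz γ)).2 (by
      rcases e with e | e
      · exact Or.inl ⟨e.1.symm, e.2.symm⟩
      · exact Or.inr ⟨by simp [e.1], by simp [e.2]⟩))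
  intro h0
  have h1 := congrFun (congrArg (fun x : trRing C.W (M0 * N') => (x : ℍ → ℂ)) u.mul_inv) τ
  rw [hu] at h1
  simp [h0] at h1

/-- The equation of the level structure. -/
theorem exists_node_eq (hF : C.FixedPart) : ∃ (P : Polynomial (Polynomial C.W)) (s : ℕ),
    bv C.cW C.yR C.etaR P = 0 ∧
      bv C.cW C.yR C.etaR (Polynomial.derivative P) * C.rhoR = C.evR C.dltW ^ s := by
  set nd : C.nodes → trRing C.S (M0 * (N' * q)) := fun g =>
    ⟨g.1, C.lift_level (C.node_mem0 g.2)⟩ with hnd
  set p : Polynomial (trRing C.S (M0 * (N' * q))) :=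
    ∏ g : C.nodes, (Polynomial.X - Polynomial.C (nd g)) with hp
  have hinv : ∀ γ ∈ CongruenceSubgroup.Gamma M0, p.map (trComp γ) = p := fun γ hγ => by
    rw [hp, Polynomial.map_prod]
    simp only [Polynomial.map_sub, Polynomial.map_X, Polynomial.map_C]
    set e : C.nodes → C.nodes := fun g => ⟨compg γ g.1, C.compg_mem_nodes hγ g.2⟩
    have he : Bijective e := Finite.injective_iff_bijective.1 fun a b h =>
      Subtype.ext (compg_injective γ (congrArg Subtype.val h))
    exact Fintype.prod_bijective e he _ _ fun g => rfl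
  have hfix : ∀ σ : C.S ≃+* C.S, (∀ w, σ (C.inc w) = C.inc w) →
      (p.map ser).map (coeffMap σ.toRingHom) = p.map ser := fun σ hσ => by
    rw [hp, Polynomial.map_prod, Polynomial.map_prod]
    simp only [Polynomial.map_sub, Polynomial.map_X, Polynomial.map_C, hnd]
    exact Finset.prod_congr rfl fun g _ => by rw [C.ser_lift_fix hσ (C.node_mem0 g.2)]
  obtain ⟨P, s, hP⟩ := C.exists_bivar hF p hinv hfix
  have hP' : Polynomial.C (C.evY C.dltW ^ s) * p = P.map C.evY := by
    simpa using hP s le_rfl
  set g0 : C.nodes := ⟨C.eta, C.eta_mem_nodes⟩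
  have hinj := Subring.inclusion_injective C.R_le
  have hev : Subring.inclusion C.R_le C.etaR = nd g0 := Subtype.ext rfl
  refine ⟨P, s, hinj ?_, hinj ?_⟩
  · rw [C.incl_bv, ← hP', hev, map_zero, Polynomial.eval_C_mul, hp, Polynomial.eval_prod,
      Finset.prod_eq_zero (Finset.mem_univ g0) (by simp), mul_zero]
  · rw [map_mul, C.incl_bv, ← Polynomial.derivative_map, ← hP', hev, Polynomial.derivative_C_mul,
      Polynomial.eval_C_mul, map_pow, ← C.evY_eq]
    have hd : (Polynomial.derivative p).eval (nd g0) = ∏ g ∈ Finset.univ.erase g0, (nd g0 - nd g) := by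
      rw [hp, Polynomial.derivative_prod_finset, Polynomial.eval_finsetSum, Finset.sum_eq_single g0]
      · simp [Polynomial.eval_prod]
      · intro g _ hg
        rw [Polynomial.eval_mul, Polynomial.eval_prod,
          Finset.prod_eq_zero (Finset.mem_erase.2 ⟨Ne.symm hg, Finset.mem_univ g0⟩) (by simp), zero_mul]
      · simp
    rw [hd, mul_assoc]
    refine (congrArg _ (Subtype.ext (funext fun τ => ?_))).trans (mul_one _)
    show ((∏ g ∈ Finset.univ.erase g0, (nd g0 - nd g) : trRing C.S (M0 * (N' * q))) : ℍ → ℂ) τ *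
      C.rhoOf C.eta τ = 1
    have e1 : ((∏ g ∈ Finset.univ.erase g0, (nd g0 - nd g) : trRing C.S (M0 * (N' * q))) : ℍ → ℂ) τ =
        ∏ g ∈ C.nodes.erase C.eta, (C.eta τ - g τ) := by
      rw [show ((∏ g ∈ Finset.univ.erase g0, (nd g0 - nd g) : trRing C.S (M0 * (N' * q))) : ℍ → ℂ) τ =
        ∏ g ∈ Finset.univ.erase g0, (C.eta τ - g.1 τ) from
          map_prod ((Pi.evalRingHom (fun _ : ℍ ↦ ℂ) τ).comp (trRing C.S (M0 * (N' * q))).subtype) _ _]
      refine Finset.prod_bij (fun g _ => g.1) (fun g hg => Finset.mem_erase.2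
        ⟨fun h => (Finset.mem_erase.1 hg).1 (Subtype.ext h), g.2⟩) (fun a _ b _ h => Subtype.ext h)
        (fun b hb => ⟨⟨b, (Finset.mem_erase.1 hb).2⟩, Finset.mem_erase.2
          ⟨fun h => (Finset.mem_erase.1 hb).1 (congrArg Subtype.val h), Finset.mem_univ _⟩, rfl⟩)
        fun g _ => rfl
    rw [e1, rhoOf, ← Finset.prod_mul_distrib]
    exact Finset.prod_eq_one fun g hg => mul_inv_cancel₀
      (C.node_sub_ne C.eta_mem_nodes (Finset.mem_erase.1 hg).2 (Finset.mem_erase.1 hg).1 τ)

end Ctx

/-- The equations of a cover together with their congruences. -/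
structure Eqs {q M0 N' : ℕ} [NeZero M0] [NeZero N'] [NeZero q] [Fact q.Prime]
    {C : Ctx q M0 N'} {k : Type} [Field k] (Ω : Res C k) where
  G : Polynomial (Polynomial C.W)
  Q : Polynomial (Polynomial C.W)
  H : Polynomial (Polynomial C.W)
  N : Polynomial (Polynomial C.W)
  s : ℕ
  sN : ℕ
  G_eval : ∀ b, bv C.cW C.yR (C.wR b) G = 0 ∧
    bv C.cW C.yR (C.wR b) (Polynomial.derivative G) * C.xR b = bv C.cW C.yR (C.wR b) Q ∧
    bv C.cW (C.xR b) (C.vR b) G = 0 ∧
    bv C.cW (C.xR b) (C.vR b) (Polynomial.derivative G) * C.yR = bv C.cW (C.xR b) (C.vR b) Q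
  dvd_G : ∀ Y X : C.R,
    (q : C.R) ∣ bv C.cW Y X (Polynomial.derivative G) - C.dltW.eval₂ C.cW Y ^ s * X ^ q
  G_top : ∀ γ ∈ CongruenceSubgroup.Gamma M0,
    Ω.red γ (C.evR (G.coeff q)) = -(Ω.red γ (C.evR C.dltW) ^ s * Ω.om)
  kron : ∀ b, C.evR C.dltW ^ s * ((C.xR b ^ q - C.yR) * (C.xR b - C.yR ^ q)) +
    (q : C.R) * bv C.cW C.yR (C.xR b) H = 0
  derX : ∀ b, bv C.cW C.yR (C.xR b) (Polynomial.derivative (Polynomial.C (C.dltW ^ s) *
      ((Polynomial.X - Polynomial.C (Polynomial.X ^ q)) * (Polynomial.X ^ q - Polynomial.C Polynomial.X)) +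
        Polynomial.C (Polynomial.C (q : C.W)) * H)) = C.evR C.dltW ^ s *
      ((q : C.R) * C.xR b ^ (q - 1) * (C.xR b - C.yR ^ q) + (C.xR b ^ q - C.yR)) +
        (q : C.R) * bv C.cW C.yR (C.xR b) (Polynomial.derivative H)
  first : ∀ b, (q : C.R) * bv C.cW C.yR (C.xR b) (Polynomial.derivative (Polynomial.C (C.dltW ^ s) *
      ((Polynomial.X - Polynomial.C (Polynomial.X ^ q)) * (Polynomial.X ^ q - Polynomial.C Polynomial.X)) +
        Polynomial.C (Polynomial.C (q : C.W)) * H)) +
      C.wR b * bv C.cW C.yR (C.xR b) (dInner (Polynomial.C (C.dltW ^ s) *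
      ((Polynomial.X - Polynomial.C (Polynomial.X ^ q)) * (Polynomial.X ^ q - Polynomial.C Polynomial.X)) +
        Polynomial.C (Polynomial.C (q : C.W)) * H)) = 0 ∧
    (q : C.R) * bv C.cW C.yR (C.xR b) (dInner (Polynomial.C (C.dltW ^ s) *
      ((Polynomial.X - Polynomial.C (Polynomial.X ^ q)) * (Polynomial.X ^ q - Polynomial.C Polynomial.X)) +
        Polynomial.C (Polynomial.C (q : C.W)) * H)) +
      C.vR b * bv C.cW C.yR (C.xR b) (Polynomial.derivative (Polynomial.C (C.dltW ^ s) *
      ((Polynomial.X - Polynomial.C (Polynomial.X ^ q)) * (Polynomial.X ^ q - Polynomial.C Polynomial.X)) +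
        Polynomial.C (Polynomial.C (q : C.W)) * H)) = 0
  F_eval : ∀ b, bv C.cW C.yR (C.xR b) (Polynomial.C (C.dltW ^ s) *
      ((Polynomial.X - Polynomial.C (Polynomial.X ^ q)) * (Polynomial.X ^ q - Polynomial.C Polynomial.X)) +
        Polynomial.C (Polynomial.C (q : C.W)) * H) = 0
  node : bv C.cW C.yR C.etaR N = 0 ∧
    bv C.cW C.yR C.etaR (Polynomial.derivative N) * C.rhoR = C.evR C.dltW ^ sN

namespace Res

variable {q M0 N' : ℕ} [NeZero M0] [NeZero N'] [NeZero q] [Fact q.Prime]
variable {C : Ctx q M0 N'} {k : Type} [Field k] (Ω : Res C k)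

theorem dInner_kron (D : Polynomial C.W) (H : Polynomial (Polynomial C.W)) (x : C.R) :
    bv C.cW C.yR x (dInner (Polynomial.C D *
      ((Polynomial.X - Polynomial.C (Polynomial.X ^ q)) * (Polynomial.X ^ q - Polynomial.C Polynomial.X)) +
        Polynomial.C (Polynomial.C (q : C.W)) * H)) =
      C.evR (Polynomial.derivative D) * ((x ^ q - C.yR) * (x - C.yR ^ q)) +
        C.evR D * (-((x - C.yR ^ q)) - (q : C.R) * C.yR ^ (q - 1) * (x ^ q - C.yR)) +
        (q : C.R) * bv C.cW C.yR x (dInner H) := by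
  have hX : dInner (Polynomial.X : Polynomial (Polynomial C.W)) = 0 := by
    simpa using dInner_X_pow (W := C.W) 1
  simp only [dInner_add, dInner_mul, dInner_C, dInner_sub, dInner_X_pow, hX,
    Polynomial.derivative_X_pow, Polynomial.derivative_X, Polynomial.derivative_C]
  simp only [Polynomial.derivative_natCast, map_add, map_mul,
    map_sub, map_pow, bv_C, bv_X, map_zero, Polynomial.eval₂_one, Polynomial.eval₂_mul,
    Polynomial.eval₂_natCast, Polynomial.eval₂_pow, Polynomial.eval₂_X, map_one, map_natCast,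
    Ctx.evR, Polynomial.coe_eval₂RingHom]
  ring

include Ω in
theorem nonempty_eqs : Nonempty (Eqs Ω) := by
  obtain ⟨G, Q, F, s, ⟨hG, hFF⟩, hb⟩ := C.exists_side_eqs Ω.fixed
  obtain ⟨H, hH⟩ := Ω.exists_kronecker hFF
  obtain ⟨N, sN, hN⟩ := C.exists_node_eq Ω.fixed
  subst hH
  have key : ∀ b, C.evR C.dltW ^ s * ((C.xR b ^ q - C.yR) * (C.xR b - C.yR ^ q)) +
      (q : C.R) * bv C.cW C.yR (C.xR b) H = 0 := by
    intro b
    have h := (hb b).2.2.2.2
    simp only [map_add, map_mul, map_sub, map_pow, bv_C, bv_X, Polynomial.eval₂_pow,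
      Polynomial.eval₂_X, Polynomial.eval₂_natCast, map_natCast] at h
    rw [Ctx.evR, Polynomial.coe_eval₂RingHom]
    linear_combination h
  refine ⟨⟨G, Q, H, N, s, sN, fun b => ⟨(hb b).1, (hb b).2.1, (hb b).2.2.1, (hb b).2.2.2.1⟩,
    fun Y X => by simpa using Ω.dvd_deriv_G hG C.cW Y X, fun γ hγ => ?_, key, fun b => ?_,
    fun b => Res.euler_side (C := C) b (hb b).2.2.2.2, fun b => (hb b).2.2.2.2, hN⟩⟩
  · have h1 := congrArg (fun p : Polynomial (LaurentSeries k) => p.coeff q)
      (congrArg (Polynomial.map (Ω.rd.comp ser)) hG)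
    rw [Polynomial.map_mul, Ω.map_pG, Polynomial.map_C, Polynomial.map_map] at h1
    simp only [Polynomial.coeff_C_mul, Polynomial.coeff_map, sub_mul, Polynomial.coeff_sub,
      ← pow_succ', Polynomial.coeff_X_pow, Polynomial.coeff_C_mul] at h1
    simp only [if_neg (Nat.lt_succ_self q).ne, if_true, zero_sub, mul_one] at h1
    have hev : ∀ P : Polynomial C.W, (Ω.rd.comp ser) (C.evY P) = Ω.red γ (C.evR P) := by
      intro P
      rw [Ω.red_of_evY hγ, ← Ω.red_of_evY (one_mem (CongruenceSubgroup.Gamma M0)), C.evY_eq]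
      show Ω.rd (ser _) = Ω.rd (C.embAt 1 (C.evR P))
      rw [C.embAt_apply]
      exact congrArg (fun z => Ω.rd (ser z)) (Subtype.ext (compg_one _).symm)
    rw [map_pow] at h1
    simp only [RingHom.comp_apply] at h1
    have e1 := hev (G.coeff q)
    have e2 := hev C.dltW
    simp only [RingHom.comp_apply] at e1 e2
    rw [e1, e2, mul_neg] at h1
    exact h1.symm
  · simp only [Polynomial.derivative_add, Polynomial.derivative_mul, Polynomial.derivative_sub,
      Polynomial.derivative_X, Polynomial.derivative_C, Polynomial.derivative_X_pow]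
    simp only [map_add, map_mul, map_sub, map_pow,
      bv_C, bv_X, map_zero, map_one, Polynomial.eval₂_pow, Polynomial.eval₂_X,
      Polynomial.eval₂_natCast, map_natCast, Ctx.evR, Polynomial.coe_eval₂RingHom]
    ring

end Res

end FLTAgent.Carayol
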