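import Fermat.Agent.Carayol.Coord

/-!
# The Euler operator on expansions and the derivative of the coordinate
-/

set_option autoImplicit false
set_option linter.unusedSectionVars false

noncomputable section

open UpperHalfPlane hiding I I_re I_im
open Filter Topology Complex Function FLTAgent.ModEq FLTAgent.GoodModel ModularCurve
open scoped MatrixGroups Manifold

namespace FLTAgent.Carayol

section Formal

variable {R R' : Type*} [CommRing R] [CommRing R']

/-- The operator `u d/du`. -/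
def eul (F : LaurentSeries R) : LaurentSeries R where
  coeff k := (k : R) * F.coeff k
  isPWO_support' := F.isPWO_support.mono fun k hk h => hk (by simp [h])

@[simp] theorem eul_coeff (F : LaurentSeries R) (k : ℤ) : (eul F).coeff k = (k : R) * F.coeff k :=
  rfl

theorem eul_add (F G : LaurentSeries R) : eul (F + G) = eul F + eul G := by
  ext k; simp [mul_add]

theorem eul_C (c : R) : eul (HahnSeries.C c) = 0 := by
  ext k
  rcases eq_or_ne k 0 with rfl | hk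
  · simp
  · simp [HahnSeries.C_apply, HahnSeries.coeff_single_of_ne hk]

theorem eul_mul (F G : LaurentSeries R) : eul (F * G) = eul F * G + F * eul G := by
  ext k
  have hF : (eul F).support ⊆ F.support := fun i hi h => hi (by simp [h])
  have hG : (eul G).support ⊆ G.support := fun i hi h => hi (by simp [h])
  rw [HahnSeries.coeff_add, eul_coeff, HahnSeries.coeff_mul,
    HahnSeries.coeff_mul_left' F.isPWO_support hF, HahnSeries.coeff_mul_right' G.isPWO_support hG,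
    ← Finset.sum_add_distrib, Finset.mul_sum]
  refine Finset.sum_congr rfl fun x hx => ?_
  have := (Finset.mem_antidiagonal.1 hx).2.2
  rw [eul_coeff, eul_coeff, ← this]
  push_cast
  ring

theorem coeffMap_eul (f : R →+* R') (F : LaurentSeries R) :
    coeffMap f (eul F) = eul (coeffMap f F) := by
  ext k; simp

theorem eul_substHom (u : Rˣ) (m : ℕ) [NeZero m] (F : LaurentSeries R) :
    eul (substHom u m F) = HahnSeries.C (m : R) * substHom u m (eul F) := by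
  ext k
  rw [eul_coeff, HahnSeries.C_mul_eq_smul, HahnSeries.coeff_smul, smul_eq_mul]
  by_cases h : (m : ℤ) ∣ k
  · obtain ⟨j, rfl⟩ := h
    rw [substHom_coeff_mul, substHom_coeff_mul, eul_coeff]
    push_cast
    ring
  · rw [substHom_coeff_of_not_dvd _ _ _ h, substHom_coeff_of_not_dvd _ _ _ h, mul_zero, mul_zero]

theorem eul_qExpand (m : ℕ) [NeZero m] (F : LaurentSeries R) :
    eul (qExpand R m F) = HahnSeries.C (m : R) * qExpand R m (eul F) := by
  rw [← substHom_one, eul_substHom]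

theorem geOrd_eul {F : LaurentSeries R} {a : ℤ} (h : GeOrd F a) : GeOrd (eul F) a := fun k hk => by
  rw [eul_coeff, h k hk, mul_zero]

end Formal

/-- `(n / 2πi) d/dτ`. -/
def thetaF (n : ℕ) (f : ℍ → ℂ) (τ : ℍ) : ℂ :=
  (n : ℂ) / (2 * Real.pi * I) * deriv (f ∘ ofComplex) τ

theorem hasExp_thetaF {n : ℕ} [NeZero n] {f : ℍ → ℂ} {F : LaurentSeries ℂ} (hF : HasExp n f F) :
    HasExp n (thetaF n f) (eul F) := by
  obtain ⟨T₀, hT₀⟩ := (UpperHalfPlane.atImInfty_mem _).1 hF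
  refine (UpperHalfPlane.atImInfty_mem _).2 ⟨max T₀ 1 + 1, fun τ hτ => ?_⟩
  have hn : (0 : ℝ) < n := by exact_mod_cast Nat.pos_of_ne_zero (NeZero.ne n)
  set T := max T₀ 1
  have hT1 : (1 : ℝ) ≤ T := le_max_right _ _
  set U : Set ℂ := {z | T < z.im ∧ z.im < τ.im + 1}
  have hU : IsOpen U := (isOpen_lt continuous_const Complex.continuous_im).inter
    (isOpen_lt Complex.continuous_im continuous_const)
  have hτU : (τ : ℂ) ∈ U := by
    constructor <;> simp only [UpperHalfPlane.coe_im] <;> linarith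
  set g : ℤ → ℂ → ℂ := fun k z => F.coeff k * Complex.exp (k * (2 * Real.pi * I * z / n)) with hg
  have hgq : ∀ k (z : ℍ), g k z = F.coeff k * qp n z ^ k := fun k z => by rw [qp_zpow]
  have hnorm : ∀ k z, ‖g k z‖ = ‖F.coeff k‖ * Real.exp (-(k * (2 * Real.pi * z.im / n))) := by
    intro k z
    simp only [hg, norm_mul, Complex.norm_exp]
    congr 2
    simp [Complex.mul_re, Complex.mul_im]
    ring
  let P₀ : ℍ := ⟨I * T, by simpa using lt_of_lt_of_le one_pos hT1⟩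
  let P₁ : ℍ := ⟨I * (τ.im + 1 : ℝ), by simpa using add_pos τ.im_pos one_pos⟩
  have hP₀ : P₀.im = T := by simp [P₀, ← UpperHalfPlane.coe_im]
  have hP₁ : P₁.im = τ.im + 1 := by simp [P₁, ← UpperHalfPlane.coe_im]
  have hs : ∀ z : ℍ, T ≤ z.im → HasSum (fun k => g k z) (f z) := fun z hz => by
    simp only [hgq]
    exact hT₀ z ((le_max_left _ _).trans hz)
  have hu : Summable fun k => ‖g k P₀‖ + ‖g k P₁‖ :=
    (summable_norm_iff.mpr (hs P₀ hP₀.ge).summable).add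
      (summable_norm_iff.mpr (hs P₁ (by rw [hP₁]; linarith)).summable)
  have hbound : ∀ k, ∀ z ∈ U, ‖g k z‖ ≤ ‖g k P₀‖ + ‖g k P₁‖ := by
    rintro k z ⟨h1, h2⟩
    rw [hnorm, hnorm, hnorm, UpperHalfPlane.coe_im, UpperHalfPlane.coe_im, hP₀, hP₁]
    have hc : 0 < 2 * Real.pi / n := by positivity
    rcases le_total 0 k with hk | hk
    · refine le_add_of_le_of_nonneg (mul_le_mul_of_nonneg_left (Real.exp_le_exp.2 ?_) (norm_nonneg _))
        (by positivity)
      have : (0 : ℝ) ≤ k := by exact_mod_cast hk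
      gcongr
    · refine le_add_of_nonneg_of_le (by positivity)
        (mul_le_mul_of_nonneg_left (Real.exp_le_exp.2 ?_) (norm_nonneg _))
      have : (k : ℝ) ≤ 0 := by exact_mod_cast hk
      have h3 : 2 * Real.pi * z.im / n ≤ 2 * Real.pi * (τ.im + 1) / n := by gcongr
      nlinarith
  have hdiff : ∀ k, DifferentiableOn ℂ (g k) U := fun k =>
    (Differentiable.differentiableOn (by fun_prop))
  have hder := hasSum_deriv_of_summable_norm hu hdiff hU hbound hτU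
  have heq : (fun z => ∑' k, g k z) =ᶠ[𝓝 (τ : ℂ)] f ∘ ofComplex := by
    filter_upwards [hU.mem_nhds hτU] with z hz
    have hz0 : 0 < z.im := by linarith [hz.1]
    rw [comp_apply, ofComplex_apply_of_im_pos hz0]
    exact (hs ⟨z, hz0⟩ (by simpa [← UpperHalfPlane.coe_im] using hz.1.le)).tsum_eq
  rw [heq.deriv_eq] at hder
  have h2 := hder.mul_left ((n : ℂ) / (2 * Real.pi * I))
  show HasSum (fun k : ℤ => (eul F).coeff k * qp n τ ^ k) (thetaF n f τ)
  refine h2.congr_fun fun k => ?_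
  have hd : HasDerivAt (g k) (F.coeff k * (Complex.exp (k * (2 * Real.pi * I * τ / n)) *
      (k * (2 * Real.pi * I / n)))) (τ : ℂ) := by
    have := ((((hasDerivAt_id (τ : ℂ)).const_mul (2 * Real.pi * I)).div_const (n : ℂ)).const_mul
      (k : ℂ)).cexp.const_mul (F.coeff k)
    simpa [hg] using this
  rw [hd.deriv, eul_coeff, qp_zpow]
  have : (2 * Real.pi * I : ℂ) ≠ 0 := by simp [Real.pi_ne_zero, I_ne_zero]
  have : (n : ℂ) ≠ 0 := Nat.cast_ne_zero.mpr (NeZero.ne n)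
  field_simp

theorem thetaF_comp_smul {n : ℕ} {f : ℍ → ℂ} (hf : MDiff f) (σ : SL(2, ℤ)) (τ : ℍ) :
    thetaF n (fun τ => f (σ • τ)) τ =
      thetaF n f (σ • τ) / (((σ 1 0 : ℤ) : ℂ) * τ + ((σ 1 1 : ℤ) : ℂ)) ^ 2 := by
  have hden := den_ne_zero σ τ
  rw [UpperHalfPlane.mdifferentiable_iff] at hf
  have h1 := (hf.differentiableAt
    (isOpen_upperHalfPlaneSet.mem_nhds (σ • τ).im_pos)).hasDerivAt
  have h2 : HasDerivAt (fun z : ℂ => (((σ 0 0 : ℤ) : ℂ) * z + ((σ 0 1 : ℤ) : ℂ)) /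
      (((σ 1 0 : ℤ) : ℂ) * z + ((σ 1 1 : ℤ) : ℂ)))
      (1 / (((σ 1 0 : ℤ) : ℂ) * τ + ((σ 1 1 : ℤ) : ℂ)) ^ 2) (τ : ℂ) := by
    have ha := ((hasDerivAt_id (τ : ℂ)).const_mul ((σ 0 0 : ℤ) : ℂ)).add_const ((σ 0 1 : ℤ) : ℂ)
    have hc := ((hasDerivAt_id (τ : ℂ)).const_mul ((σ 1 0 : ℤ) : ℂ)).add_const ((σ 1 1 : ℤ) : ℂ)
    have := ha.div hc hden
    simp only [id, mul_one] at this
    refine HasDerivAt.congr_deriv this ?_
    congr 1
    have hdet : ((σ 0 0 : ℤ) : ℂ) * ((σ 1 1 : ℤ) : ℂ) - ((σ 0 1 : ℤ) : ℂ) * ((σ 1 0 : ℤ) : ℂ) = 1 := by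
      exact_mod_cast det_eq σ
    linear_combination hdet
  rw [coe_sl_smul' σ τ] at h1
  have h3 := h1.comp (τ : ℂ) h2
  have heq : (fun τ => f (σ • τ)) ∘ ofComplex =ᶠ[𝓝 (τ : ℂ)]
      (f ∘ ofComplex) ∘ fun z : ℂ => (((σ 0 0 : ℤ) : ℂ) * z + ((σ 0 1 : ℤ) : ℂ)) /
        (((σ 1 0 : ℤ) : ℂ) * z + ((σ 1 1 : ℤ) : ℂ)) := by
    filter_upwards [isOpen_upperHalfPlaneSet.mem_nhds τ.im_pos] with z hz
    simp only [comp_apply, ofComplex_apply_of_im_pos hz]
    rw [show ((((σ 0 0 : ℤ) : ℂ) * z + ((σ 0 1 : ℤ) : ℂ)) /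
      (((σ 1 0 : ℤ) : ℂ) * z + ((σ 1 1 : ℤ) : ℂ))) = ((σ • (⟨z, hz⟩ : ℍ) : ℍ) : ℂ) from
        (coe_sl_smul' σ ⟨z, hz⟩).symm, ofComplex_apply]
  rw [thetaF, thetaF, (h3.congr_of_eventuallyEq heq).deriv, coe_sl_smul' σ τ]
  ring

/-- Matrices with the same action have the same automorphy factor of weight two. -/
theorem den_sq_congr {σ g : SL(2, ℤ)} (h : ∀ τ : ℍ, σ • τ = g • τ) (τ : ℍ) :
    (((σ 1 0 : ℤ) : ℂ) * τ + ((σ 1 1 : ℤ) : ℂ)) ^ 2 =
      (((g 1 0 : ℤ) : ℂ) * τ + ((g 1 1 : ℤ) : ℂ)) ^ 2 := by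
  have key : ∀ z : ℍ, thetaF 1 (fun τ : ℍ => (τ : ℂ)) z = 1 / (2 * Real.pi * I) := fun z => by
    rw [thetaF]
    have : ((fun τ : ℍ => (τ : ℂ)) ∘ ofComplex) =ᶠ[𝓝 (z : ℂ)] id := by
      filter_upwards [isOpen_upperHalfPlaneSet.mem_nhds z.im_pos] with w hw
      simp [ofComplex_apply_of_im_pos hw]
    rw [this.deriv_eq, deriv_id, Nat.cast_one, mul_one]
  have h1 := thetaF_comp_smul (n := 1) UpperHalfPlane.mdifferentiable_coe σ τ
  have h2 := thetaF_comp_smul (n := 1) UpperHalfPlane.mdifferentiable_coe g τ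
  simp only [h] at h1
  rw [h2, key] at h1
  have hc : (1 : ℂ) / (2 * Real.pi * I) ≠ 0 := by simp [Real.pi_ne_zero, I_ne_zero]
  rw [div_eq_div_iff (pow_ne_zero 2 (den_ne_zero g τ)) (pow_ne_zero 2 (den_ne_zero σ τ))] at h1
  exact mul_left_cancel₀ hc h1

section Pairs

variable {S : Subring ℂ} {n : ℕ} [NeZero n] (ζ : Sˣ)

/-- The expansion after a triangular substitution. -/
theorem sPairs_comp_affPt (hζ : ((ζ : S) : ℂ) = zetaN n) (A : ℕ) (B : ℤ) (D l k : ℕ) [NeZero A]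
    [NeZero D] [NeZero l] [NeZero k] [NeZero (A * k)] (h : D * l * k = n) {φ : ℍ → ℂ}
    {G : LaurentSeries S} (hG : (φ, G) ∈ sPairs S l) :
    ((fun τ ↦ φ (affPt A B D τ)), substHom (ζ ^ ((k : ℤ) * B)) (A * k) G) ∈ sPairs S n := by
  haveI : NeZero (D * l) := ⟨Nat.mul_ne_zero (NeZero.ne D) (NeZero.ne l)⟩
  refine mem_sPairs.mpr ⟨mdiff_comp_affPt A B D (mem_sPairs.mp hG).1, ?_⟩
  have hu : Units.map S.subtype.toMonoidHom (ζ ^ ((k : ℤ) * B)) =
      Units.mk0 (Complex.exp (2 * Real.pi * I * B / (D * l : ℕ))) (Complex.exp_ne_zero _) := by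
    refine (map_zeta ζ hζ _).trans ?_
    ext
    rw [Units.val_zpow_eq_zpow_val, zetaN, Units.val_mk0, ← Complex.exp_int_mul, Units.val_mk0, ← h]
    congr 1
    have hD : (D : ℂ) ≠ 0 := Nat.cast_ne_zero.mpr (NeZero.ne D)
    have hl : (l : ℂ) ≠ 0 := Nat.cast_ne_zero.mpr (NeZero.ne l)
    have hk : (k : ℂ) ≠ 0 := Nat.cast_ne_zero.mpr (NeZero.ne k)
    push_cast
    field_simp
  show HasExp n (fun τ ↦ φ (affPt A B D τ)) (sIncl S _)
  rw [sIncl, coeffMap_substHom, hu]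
  refine (mem_sPairs.mp hG).2.comp_affine (A * k) _ _ (fun τ ↦ ?_) (tendsto_affPt A B D)
  rw [qp_affPt A B D l, Units.val_mk0, qp_mul (D * l) k h τ, ← pow_mul, mul_comm k A]

theorem T_zpow_smul_eq_affPt (k : ℤ) (τ : ℍ) : (ModularGroup.T ^ k) • τ = affPt 1 k 1 τ := by
  refine UpperHalfPlane.ext ?_
  rw [UpperHalfPlane.modular_T_zpow_smul, UpperHalfPlane.coe_vadd, coe_affPt]
  push_cast
  ring

/-- Translating by an integer preserves expansions. -/
theorem exists_sPairs_shift (hζ : ((ζ : S) : ℂ) = zetaN n) (k : ℤ) {φ : ℍ → ℂ}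
    {G : LaurentSeries S} (hG : (φ, G) ∈ sPairs S n) :
    ∃ w : Sˣ, ((fun τ ↦ φ ((ModularGroup.T ^ k) • τ)), substHom w 1 G) ∈ sPairs S n := by
  haveI : NeZero (1 * 1) := ⟨one_ne_zero⟩
  refine ⟨ζ ^ (((1 : ℕ) : ℤ) * k), ?_⟩
  simp only [T_zpow_smul_eq_affPt]
  exact sPairs_comp_affPt ζ hζ 1 k 1 n 1 (by ring) hG

end Pairs

section Coordinate

variable {M0 : ℕ} [NeZero M0] {S : Subring ℂ} (hM : M0 = 2 ∨ M0 = 3) (ζ : Sˣ)
  (hζ : ((ζ : S) : ℂ) = zetaN M0) (hu : IsUnit ((M0 : ℕ) : S))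

theorem geOrd_substHom_one {R : Type*} [CommRing R] (w : Rˣ) {G : LaurentSeries R} {a : ℤ}
    (h : GeOrd G a) : GeOrd (substHom w 1 G) a := fun i hi => by
  rw [show i = ((1 : ℕ) : ℤ) * i by simp, substHom_coeff_mul, h i hi, mul_zero]

include hζ hu hM in
/-- The expansion of a difference at the least order. -/
theorem exists_wdiff_lead {v w : Vec} (hv : Nz M0 v) (hw : Nz M0 w) (hne : ¬ PMEq M0 v w) :
    ∃ G : LaurentSeries S, (wdiff M0 v w, G) ∈ sPairs S M0 ∧ LeadAt G (ordVec M0 v w : ℤ) := by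
  obtain ⟨a, b, hc, hp⟩ := exists_canon hv
  obtain ⟨a', b', hc', hp'⟩ := exists_canon hw
  have hne' : ¬ PMEq M0 ((a : ℤ), b) ((a' : ℤ), b') := fun he ↦ by
    refine hne ((wdiff_eq_zero_iff hv hw UpperHalfPlane.I).mp ?_)
    rw [wdiff_congr hp hp']
    exact (wdiff_eq_zero_iff hc.nz hc'.nz _).mpr he
  obtain ⟨P, hP, h1, h2⟩ := exists_wdiff_canon ζ hζ hu hc hc' hne'
  refine ⟨_, wdiff_congr hp hp' ▸ hP, ?_⟩
  have hval : ∀ {u : Vec} {x : ℕ} {y : ℤ}, Canon M0 x y → PMEq M0 u ((x : ℤ), y) →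
      (x = 0 ∧ (u.1 : ZMod M0) = 0) ∨ (x = 1 ∧ (u.1 : ZMod M0) ≠ 0) := by
    intro u x y hxy h
    have hx : x ≤ 1 := by
      have := hxy.1
      rcases hM with rfl | rfl <;> omega
    interval_cases x
    · left
      rcases h with h | h <;> exact ⟨rfl, by simpa using h.1⟩
    · right
      refine ⟨rfl, ?_⟩
      have h1 : (1 : ZMod M0) ≠ 0 := by rcases hM with rfl | rfl <;> decide
      rcases h with h | h <;> simp [h.1, h1]
  have hmin : min a a' = ordVec M0 v w := by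
    rcases hval hc hp with ⟨rfl, hv'⟩ | ⟨rfl, hv'⟩ <;> rcases hval hc' hp' with ⟨rfl, hw'⟩ | ⟨rfl, hw'⟩ <;>
      simp [ordVec, hv', hw']
  rw [← hmin]
  exact leadAt_ofPowerSeries h1 h2

include hζ hu hM in
/-- The derivative of the coordinate, normalised to have unit expansions. -/
theorem exists_theta {H : LaurentSeries S} {c : Fin M0 → S}
    (hH : (coordT M0, H) ∈ sPairs S M0) (hlead : LeadAt H (-1)) (hc : CuspData S M0 (coordT M0) c)
    (hne : ∀ i τ, coordT M0 τ ≠ (c i : ℂ)) :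
    ∃ (Θ : ℍ → ℂ) (G : LaurentSeries S) (κ : ℂ), MDiff Θ ∧ (∀ τ, Θ τ ≠ 0) ∧
      (∀ γ ∈ CongruenceSubgroup.Gamma M0, ∀ τ : ℍ,
        Θ (γ • τ) = (((γ 1 0 : ℤ) : ℂ) * τ + ((γ 1 1 : ℤ) : ℂ)) ^ 2 * Θ τ) ∧
      (∀ σ : SL(2, ℤ), ∃ U : (LaurentSeries S)ˣ,
        ((fun τ : ℍ => Θ (σ • τ) / (((σ 1 0 : ℤ) : ℂ) * τ + ((σ 1 1 : ℤ) : ℂ)) ^ 2),
          (U : LaurentSeries S)) ∈ sPairs S M0) ∧
      (Θ, G) ∈ sPairs S M0 ∧ LeadAt G (-1) ∧ κ ≠ 0 ∧
      eul (sIncl S H) = HahnSeries.C κ * sIncl S G := by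
  have hMpos : 0 < M0 := Nat.pos_of_ne_zero (NeZero.ne M0)
  set j : Fin M0 := ⟨M0 - 1, by omega⟩
  obtain ⟨n1, n2, n3, hcb⟩ := base_nz hM
  have hab : ¬ PMEq M0 ((0 : ℤ), (1 : ℤ)) ((1 : ℤ), (1 : ℤ)) := by
    rcases hM with rfl | rfl <;> exact fun h => absurd h (by
      show ¬ ((_ ∧ _) ∨ (_ ∧ _)); decide)
  set Θ : ℍ → ℂ := fun τ => (coordT M0 τ - (c j : ℂ)) * wdiff M0 (0, 1) (1, 1) τ with hΘ
  set den : SL(2, ℤ) → ℍ → ℂ := fun σ τ => ((σ 1 0 : ℤ) : ℂ) * τ + ((σ 1 1 : ℤ) : ℂ)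
  have hslash : ∀ σ τ, Θ (σ • τ) / den σ τ ^ 2 = (coordT M0 (σ • τ) - (c j : ℂ)) *
      wdiff M0 (vmul (0, 1) σ) (vmul (1, 1) σ) τ := fun σ τ => by
    simp only [hΘ, den, wdiff_smul]
    have := den_ne_zero σ τ
    field_simp
  have hweight : ∀ γ ∈ CongruenceSubgroup.Gamma M0, ∀ τ : ℍ, Θ (γ • τ) = den γ τ ^ 2 * Θ τ := by
    intro γ hγ τ
    simp only [hΘ, den, coordT_invariant hγ, wdiff_smul,
      wdiff_congr (Or.inl (mem_Gamma_vEq hγ _)) (Or.inl (mem_Gamma_vEq hγ _))]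
    ring
  -- the expansions at the representatives
  have hrep : ∀ r : SL(2, ℤ), (r = 1 ∨ ∃ i, r = cuspRep0 M0 i) → ∃ (G1 : LaurentSeries S) (b : ℤ),
      ((fun τ => Θ (r • τ) / den r τ ^ 2), G1) ∈ sPairs S M0 ∧ LeadAt G1 b ∧
      ∃ (G2 : LaurentSeries S) (a : ℤ), ((fun τ => coordT M0 (r • τ)), G2) ∈ sPairs S M0 ∧
        GeOrd (eul G2) a ∧ b ≤ a ∧ (r = 1 → b = -1) := by
    rintro r (rfl | ⟨i, rfl⟩)
    · obtain ⟨D, hD, hD'⟩ := exists_wdiff_lead hM ζ hζ hu n1 n2 hab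
      rw [show (ordVec M0 ((0 : ℤ), (1 : ℤ)) ((1 : ℤ), (1 : ℤ)) : ℤ) = 0 by
        rcases hM with rfl | rfl <;> decide] at hD'
      have hl : LeadAt (H - HahnSeries.C (c j)) (-1) :=
        ⟨fun k hk => by rw [HahnSeries.coeff_sub, hlead.1 k hk, geOrd_C (c j) k (by omega), sub_zero],
          by rw [HahnSeries.coeff_sub, geOrd_C (c j) (-1) (by norm_num), sub_zero]; exact hlead.2⟩
      refine ⟨(H - HahnSeries.C (c j)) * D, -1, ?_, by simpa using hl.mul hD',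
        H, -1, by simpa using hH, geOrd_eul hlead.1, le_rfl, fun _ => rfl⟩
      have h := (sPairs S M0).mul_mem ((sPairs S M0).sub_mem hH (sPairs_const (n := M0) (c j))) hD
      convert h using 1
      refine Prod.ext (funext fun τ => ?_) rfl
      show Θ _ / den _ τ ^ 2 = _
      rw [hslash, one_smul, vmul_one, vmul_one]
      rfl
    · obtain ⟨Gi, hGi, hGi'⟩ := hc.2 i
      obtain ⟨D, hD, hD'⟩ := exists_wdiff_lead hM ζ hζ hu (n1.vmul (cuspRep0 M0 i))
        (n2.vmul (cuspRep0 M0 i)) (by rwa [PMEq.vmul_iff])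
      have hTi : ((fun τ => coordT M0 (cuspRep0 M0 i • τ)), Gi + HahnSeries.C (c i)) ∈ sPairs S M0 := by
        have h := (sPairs S M0).add_mem hGi (sPairs_const (n := M0) (c i))
        convert h using 1
        refine Prod.ext (funext fun τ => ?_) rfl
        simp
      have hl : LeadAt (Gi + HahnSeries.C (c i) - HahnSeries.C (c j)) (if i = j then 1 else 0) := by
        split_ifs with hij
        · subst hij; rw [add_sub_cancel_right]; exact hGi'
        · rw [add_sub_assoc, ← map_sub]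
          refine ⟨fun k hk => ?_, ?_⟩
          · rw [HahnSeries.coeff_add, hGi'.1 k (by omega), geOrd_C _ k hk, add_zero]
          · rw [HahnSeries.coeff_add, hGi'.1 0 (by omega), zero_add]
            simpa using hc.1 i j hij
      refine ⟨(Gi + HahnSeries.C (c i) - HahnSeries.C (c j)) * D,
        (if i = j then 1 else 0) + (ordVec M0 (vmul (0, 1) (cuspRep0 M0 i))
          (vmul (1, 1) (cuspRep0 M0 i)) : ℤ), ?_, hl.mul hD', Gi + HahnSeries.C (c i), 1, hTi, ?_, ?_,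
        fun h => ?_⟩
      · have h := (sPairs S M0).mul_mem ((sPairs S M0).sub_mem hTi (sPairs_const (n := M0) (c j))) hD
        convert h using 1
        refine Prod.ext (funext fun τ => ?_) rfl
        show Θ _ / den _ τ ^ 2 = _
        rw [hslash]
        rfl
      · rw [eul_add, eul_C, add_zero]
        exact geOrd_eul hGi'.1
      · have : ∀ i : Fin M0, (if (i : ℕ) = M0 - 1 then 1 else 0) + (ordVec M0 (vmul (0, 1) (cuspRep0 M0 i))
            (vmul (1, 1) (cuspRep0 M0 i)) : ℤ) ≤ 1 := by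
          rcases hM with rfl | rfl <;> decide
        simpa [j, Fin.ext_iff] using this i
      · exfalso
        have : ∀ i : Fin M0, cuspRep0 M0 i ≠ 1 := by rcases hM with rfl | rfl <;> decide
        exact this i h
  have hunit : ∀ σ : SL(2, ℤ), ∃ U : (LaurentSeries S)ˣ,
      ((fun τ => Θ (σ • τ) / den σ τ ^ 2), (U : LaurentSeries S)) ∈ sPairs S M0 := by
    intro σ
    obtain ⟨γ, hγ, r, hr, k, hσ⟩ := exists_cusp_decomp hM σ
    obtain ⟨G1, b, hG1, hl, -⟩ := hrep r hr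
    obtain ⟨w, hw⟩ := exists_sPairs_shift ζ hζ k hG1
    obtain ⟨u, hu', -⟩ := hl.exists_inv
    refine ⟨u.map (substHom w 1).toMonoidHom, ?_⟩
    convert hw using 2
    · funext τ
      have hg : ∀ τ : ℍ, σ • τ = (γ * r * ModularGroup.T ^ k) • τ := fun τ => by
        rw [mul_smul, mul_smul, hσ]
      rw [show den σ τ ^ 2 = den (γ * r * ModularGroup.T ^ k) τ ^ 2 from den_sq_congr hg τ, hg τ]
      rw [hslash]
      simp only [coordT_invariant hγ, mul_smul, vmul_mul]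
      have hv : ∀ v : Vec, PMEq M0 (vmul v γ) v := fun v => Or.inl (mem_Gamma_vEq hγ v)
      rw [wdiff_congr (((hv (0, 1)).vmul r).vmul _) (((hv (1, 1)).vmul r).vmul _)]
      have h1 := wdiff_smul (n := M0) (vmul (0, 1) r) (vmul (1, 1) r) (ModularGroup.T ^ k) τ
      rw [show ((ModularGroup.T ^ k : SL(2, ℤ)) 1 0 : ℂ) = 0 by simp [ModularGroup.coe_T_zpow],
        show ((ModularGroup.T ^ k : SL(2, ℤ)) 1 1 : ℂ) = 1 by simp [ModularGroup.coe_T_zpow]] at h1
      rw [hslash, h1]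
      ring
    · show substHom w 1 (u : LaurentSeries S) = _
      rw [hu']
  obtain ⟨G, b, hG, hGl, G2, a, hG2, -, -, hb⟩ := hrep 1 (Or.inl rfl)
  rw [hb rfl] at hGl
  have hG0 : (Θ, G) ∈ sPairs S M0 := by simpa [den] using hG
  have hΘ0 : ∀ τ, Θ τ ≠ 0 := fun τ =>
    mul_ne_zero (sub_ne_zero.2 (hne j τ)) fun h => hab ((wdiff_eq_zero_iff n1 n2 τ).1 h)
  have hTd : MDiff (coordT M0) := (mem_sPairs.mp hH).1
  -- the quotient is constant
  set f : ℍ → ℂ := fun τ => thetaF M0 (coordT M0) τ / Θ τ with hf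
  have hthetaD : MDiff (thetaF M0 (coordT M0)) := by
    rw [UpperHalfPlane.mdifferentiable_iff] at hTd ⊢
    refine (((hTd.deriv isOpen_upperHalfPlaneSet).const_mul
      ((M0 : ℂ) / (2 * Real.pi * I))).congr fun z hz => ?_)
    simp only [comp_apply, thetaF, ofComplex_apply_of_im_pos hz]
  have hfd : MDiff f := by
    have hfe : f = thetaF M0 (coordT M0) * fun τ => (Θ τ)⁻¹ := by funext τ; simp [hf, div_eq_mul_inv]
    rw [hfe]
    exact hthetaD.mul (mdiff_inv' (mem_sPairs.mp hG0).1 hΘ0)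
  have hinv : ∀ γ ∈ CongruenceSubgroup.Gamma M0, ∀ τ : ℍ, f (γ • τ) = f τ := by
    intro γ hγ τ
    have h1 := thetaF_comp_smul (n := M0) hTd γ τ
    simp only [coordT_invariant hγ] at h1
    simp only [hf, hweight γ hγ τ, den]
    rw [eq_div_iff (pow_ne_zero 2 (den_ne_zero γ τ))] at h1
    rw [← h1, mul_comm]
    exact mul_div_mul_left _ _ (pow_ne_zero 2 (den_ne_zero γ τ))
  have hbd : ∀ σ : SL(2, ℤ), IsBoundedAtImInfty fun τ ↦ f (σ • τ) := by
    intro σ
    obtain ⟨γ, hγ, r, hr, k, hσ⟩ := exists_cusp_decomp hM σ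
    obtain ⟨G1, b, hG1, hl, G2, a, hG2, hord, hba, -⟩ := hrep r hr
    obtain ⟨u, hu', hu2⟩ := hl.exists_inv
    have hmap : GeOrd (sIncl S ((u⁻¹ : (LaurentSeries S)ˣ) : LaurentSeries S)) (-b) := fun i hi => by
      rw [sIncl, coeffMap_coeff, hu2.1 i hi, map_zero]
    have h1 := hasExp_thetaF (mem_sPairs.mp hG2).2
    have h2 := hasExp_inv (mem_sPairs.mp hG1).2 ((hu' ▸ u.isUnit : IsUnit G1).map (sIncl S)).ne_zero
    have hr0 : IsBoundedAtImInfty fun τ ↦ f (r • τ) := by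
      refine ((h1.mul h2).isBoundedAtImInfty ?_).congr_left fun τ => ?_
      · rw [← coeffMap_eul]
        have e : (sIncl S G1)⁻¹ = sIncl S ((u⁻¹ : (LaurentSeries S)ˣ) : LaurentSeries S) := by
          refine inv_eq_of_mul_eq_one_right ?_
          rw [← map_mul, ← hu', Units.mul_inv, map_one]
        rw [e]
        refine ((show GeOrd (coeffMap S.subtype (eul G2)) a from fun i hi => by
          rw [coeffMap_coeff, hord i hi, map_zero]).mul hmap).mono (by omega)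
      · simp only [Pi.mul_apply, hf]
        rw [thetaF_comp_smul hTd]
        have := den_ne_zero r τ
        simp only [den]
        field_simp
    refine (hr0.comp_tendsto (tendsto_T_zpow k)).congr_left fun τ ↦ ?_
    show f (r • (ModularGroup.T ^ k) • τ) = f (σ • τ)
    rw [hσ, hinv γ hγ]
  obtain ⟨κ, hκ⟩ := invariant_const hinv hfd hbd
  have hident : eul (sIncl S H) = HahnSeries.C κ * sIncl S G := by
    refine (hasExp_thetaF (mem_sPairs.mp hH).2).unique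
      (((HasExp.const κ).mul (mem_sPairs.mp hG0).2).congr (Eventually.of_forall fun τ => ?_))
    have h := congrFun hκ τ
    simp only [hf, Function.const_apply] at h
    rw [div_eq_iff (hΘ0 τ)] at h
    rw [Pi.mul_apply, h]
  refine ⟨Θ, G, κ, (mem_sPairs.mp hG0).1, hΘ0, hweight, hunit, hG0, hGl, fun h0 => ?_, hident⟩
  have h1 := congrArg (fun z : LaurentSeries ℂ => z.coeff (-1)) hident
  simp only [h0, map_zero, zero_mul, HahnSeries.coeff_zero, eul_coeff, sIncl, coeffMap_coeff] at h1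
  push_cast at h1
  exact (hlead.2.map S.subtype).ne_zero (by linear_combination -h1)

end Coordinate

end FLTAgent.Carayol
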