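import Fermat.Agent.Carayol.Orders

/-!
# Normalisation of a function with both norms powers
-/

set_option autoImplicit false
set_option linter.unusedSectionVars false
set_option linter.style.haveILetI false

noncomputable section

open UpperHalfPlane hiding I I_re I_im
open Filter Topology Complex Function FLTAgent.ModEq FLTAgent.GoodModel ModularCurve
open scoped MatrixGroups Manifold Classical

namespace FLTAgent.Carayol

variable {q M0 N' : ℕ} [NeZero M0] [NeZero N'] [NeZero q] [Fact q.Prime]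

namespace Ctx

variable (C : Ctx q M0 N')

/-- The norm along one side is a constant times an `n`th power. -/
def RelB (n : ℕ) (b : Bool) (f : C.R) : Prop :=
  ∃ (c0 c1 : C.W) (g0 g1 : C.R), c0 ≠ 0 ∧ c1 ≠ 0 ∧ g0 ≠ 0 ∧ g1 ≠ 0 ∧ ∀ l,
    HahnSeries.C (C.inc c1) * C.emb l g1 ^ n * ∏ l' ∈ C.fib b l, C.emb l' f =
      HahnSeries.C (C.inc c0) * C.emb l g0 ^ n

/-- All valuations trivial on the constants are divisible by `n`. -/
def VDvd (n : ℕ) (f : C.R) : Prop :=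
  ∀ v : FractionRing C.R → ℤ, IsIntVal ((algebraMap C.R (FractionRing C.R)).comp C.cW) v →
    (n : ℤ) ∣ v (algebraMap C.R (FractionRing C.R) f)

variable {C}

theorem card_fib (b : Bool) (l : C.Idx) : (C.fib b l).card = q := by
  have h := C.prod_fib_roots l (fun _ => Multiplicative.ofAdd 1) b (fun _ => Multiplicative.ofAdd (1 : ℕ))
    fun _ _ => rfl
  have h2 := congrArg Multiplicative.toAdd h
  simp only [Finset.prod_const, toAdd_pow, toAdd_ofAdd, smul_eq_mul, mul_one,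
    Finset.card_erase_of_mem (Finset.mem_univ _), Finset.card_univ, Fintype.card_option, ZMod.card,
    Nat.add_sub_cancel] at h2
  exact h2

theorem emb_cW (l : C.Idx) (w : C.W) : C.emb l (C.cW w) = HahnSeries.C (C.inc w) := C.embAt_cW _ w

theorem cW_ne {w : C.W} (h : w ≠ 0) : C.cW w ≠ 0 := fun h0 => h (Subtype.ext (by
  simpa [cW] using congrArg (fun z : C.R => (z : ℍ → ℂ) UpperHalfPlane.I) h0))

theorem inc_ne {w : C.W} (h : w ≠ 0) : C.inc w ≠ 0 :=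
  (map_ne_zero_iff _ (Subring.inclusion_injective C.hWS)).2 h

theorem relB_pow {n : ℕ} {b : Bool} {f : C.R} (h : C.RelB n b f) (e : ℕ) : C.RelB n b (f ^ e) := by
  obtain ⟨c0, c1, g0, g1, h0, h1, hg0, hg1, h⟩ := h
  refine ⟨c0 ^ e, c1 ^ e, g0 ^ e, g1 ^ e, pow_ne_zero _ h0, pow_ne_zero _ h1, pow_ne_zero _ hg0,
    pow_ne_zero _ hg1, fun l => ?_⟩
  have h2 := congrArg (· ^ e) (h l)
  simp only [mul_pow, ← Finset.prod_pow] at h2
  simp only [map_pow]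
  linear_combination h2

/-- The norm condition passes along a change by `n`th powers and constants. -/
theorem relB_change (hF : C.FixedPart) {n : ℕ} {b : Bool} {f f' t r : C.R} {c : C.W} (hc : c ≠ 0)
    (ht : t ≠ 0) (hr : r ≠ 0) (he : t ^ n * f = f' * C.cW c * r ^ n) (h : C.RelB n b f) :
    C.RelB n b f' := by
  obtain ⟨c0, c1, g0, g1, h0, h1, hg0, hg1, h⟩ := h
  obtain ⟨At, Dt, hDt, hAt⟩ := C.exists_fib_frac hF b t
  obtain ⟨Ar, Dr, hDr, hAr⟩ := C.exists_fib_frac hF b r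
  have hne : ∀ (x D A : C.R), x ≠ 0 → D ≠ 0 → (∀ l, C.emb l D * ∏ l' ∈ C.fib b l, C.emb l' x = C.emb l A) →
      A ≠ 0 := fun x D A hx hD hA hA0 => by
    have h2 := hA C.one'
    rw [hA0, map_zero, mul_eq_zero, Finset.prod_eq_zero_iff] at h2
    rcases h2 with h2 | ⟨l', -, h2⟩
    · exact Ram.emb_ne hD h2
    · exact Ram.emb_ne hx h2
  refine ⟨c0, c1 * c ^ q, g0 * At * Dr, g1 * Ar * Dt, h0, mul_ne_zero h1 (pow_ne_zero _ hc),
    mul_ne_zero (mul_ne_zero hg0 (hne t Dt At ht hDt hAt)) hDr,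
    mul_ne_zero (mul_ne_zero hg1 (hne r Dr Ar hr hDr hAr)) hDt, fun l => ?_⟩
  have hp : (∏ l' ∈ C.fib b l, C.emb l' t) ^ n * ∏ l' ∈ C.fib b l, C.emb l' f =
      (∏ l' ∈ C.fib b l, C.emb l' f') * HahnSeries.C (C.inc c) ^ q *
        (∏ l' ∈ C.fib b l, C.emb l' r) ^ n := by
    have e := Finset.prod_congr rfl (s₁ := C.fib b l) fun l' _ => congrArg (C.emb l') he
    simp only [map_mul, map_pow, Finset.prod_mul_distrib, Finset.prod_pow, emb_cW,
      Finset.prod_const, card_fib] at e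
    exact e
  simp only [map_mul, map_pow, mul_pow, ← hAt l, ← hAr l]
  linear_combination ((C.emb l Dr * C.emb l Dt * ∏ l' ∈ C.fib b l, C.emb l' t) ^ n) * h l -
    (HahnSeries.C (C.inc c1) * C.emb l g1 ^ n * (C.emb l Dr * C.emb l Dt) ^ n) * hp

theorem vDvd_pow {n : ℕ} {f : C.R} (hf : f ≠ 0) (h : C.VDvd n f) (e : ℕ) : C.VDvd n (f ^ e) := by
  intro v hv
  induction e with
  | zero =>
    have h1 := hv.map_const 1 (by simp)
    rw [map_one] at h1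
    simp [h1]
  | succ e ih =>
    rw [pow_succ, map_mul, hv.map_mul _ _
      (by simpa using pow_ne_zero e hf) (by simpa using hf)]
    exact dvd_add ih (h v hv)

theorem vDvd_change {n : ℕ} {f f' t r : C.R} {c : C.W} (hc : c ≠ 0) (hf : f ≠ 0) (hf' : f' ≠ 0)
    (ht : t ≠ 0) (hr : r ≠ 0) (he : t ^ n * f = f' * C.cW c * r ^ n) (h : C.VDvd n f) :
    C.VDvd n f' := by
  intro v hv
  set ι := algebraMap C.R (FractionRing C.R)
  have hι : ∀ {x : C.R}, x ≠ 0 → ι x ≠ 0 := fun hx => (map_ne_zero_iff _ (IsFractionRing.injective _ _)).2 hx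
  have hpow : ∀ {x : C.R}, x ≠ 0 → ∀ e : ℕ, v (ι (x ^ e)) = e * v (ι x) := by
    intro x hx e
    induction e with
    | zero =>
      have h1 := hv.map_const 1 (by simp)
      rw [map_one] at h1
      simp [h1]
    | succ e ih =>
      rw [pow_succ, map_mul, hv.map_mul _ _ (hι (pow_ne_zero e hx)) (hι hx), ih]
      push_cast; ring
  have h1 := congrArg (fun z => v (ι z)) he
  simp only [map_mul] at h1
  rw [hv.map_mul _ _ (hι (pow_ne_zero _ ht)) (hι hf), hpow ht,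
    hv.map_mul _ _ (mul_ne_zero (hι hf') (hι (cW_ne hc))) (hι (pow_ne_zero _ hr)),
    hv.map_mul _ _ (hι hf') (hι (cW_ne hc)), hpow hr] at h1
  have hc0 : v (ι (C.cW c)) = 0 := hv.map_const c (hι (cW_ne hc))
  obtain ⟨d, hd⟩ := h v hv
  exact ⟨v (ι t) + d - v (ι r), by rw [mul_sub, mul_add, ← hd]; linarith⟩

end Ctx

variable {C : Ctx q M0 N'} {k : Type} [Field k] {Ω : Res C k} (ρ : Ram Ω)
variable [IsDiscreteValuationRing C.S] [IsAlgClosed k] [IsNoetherianRing C.W]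

namespace Ram

omit [IsAlgClosed k] [IsNoetherianRing C.W] in
include ρ in
theorem exists_q_pow {w : C.W} (hw : w ≠ 0) :
    ∃ (v : ℕ) (w' : C.W), w = (q : C.W) ^ v * w' ∧ Ω.φW w' ≠ 0 := by
  suffices H : ∀ i : ℕ, ∀ w : C.W, w ≠ 0 → ρ.ordS (HahnSeries.C (C.inc w)) ≤ i →
      ∃ (v : ℕ) (w' : C.W), w = (q : C.W) ^ v * w' ∧ Ω.φW w' ≠ 0 from H _ w hw le_rfl
  intro i
  induction i using Nat.strong_induction_on with
  | _ i ih =>
    intro w hw hi
    by_cases h : Ω.φW w = 0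
    · obtain ⟨w', rfl⟩ := Ω.kerW w h
      have hw' : w' ≠ 0 := right_ne_zero_of_mul hw
      have e : HahnSeries.C (C.inc ((q : C.W) * w')) =
          (q : LaurentSeries C.S) * HahnSeries.C (C.inc w') := by
        rw [map_mul, map_mul, map_natCast, map_natCast]
      rw [e, ρ.ordS_eq (ρ.ord_mul ρ.ord_natCast
        (ρ.ordS_spec (HahnSeries.C_ne_zero (Ctx.inc_ne hw'))))] at hi
      have hq1 : 1 ≤ q - 1 := by have := C.hq.two_le; omega
      obtain ⟨v, w'', rfl, h''⟩ := ih (ρ.ordS (HahnSeries.C (C.inc w'))) (by omega) w' hw' le_rfl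
      exact ⟨v + 1, w'', by rw [pow_succ']; ring, h''⟩
    · exact ⟨0, w, by rw [pow_zero, one_mul], h⟩

variable (C) in
omit [IsDiscreteValuationRing C.S] [IsAlgClosed k] [IsNoetherianRing C.W] in
theorem emb_q_pow (l : C.Idx) (v : ℕ) :
    C.emb l ((q : C.R) ^ v) = (q : LaurentSeries C.S) ^ v := by rw [map_pow, map_natCast]

theorem sum_fib (g : C.Sheet) (f : C.R) (hf : f ≠ 0) :
    (∑ l ∈ C.fib false (C.lg g 0), ρ.oe l f = q * ρ.oe (C.lg g 0) f) ∧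
    (∑ l ∈ C.fib false (C.lg g 1), ρ.oe l f = ρ.oe (C.lg g 2) f + (q - 1) * ρ.oe (C.lg g 1) f) ∧
    (∑ l ∈ C.fib true (C.lg g 2), ρ.oe l f = q * ρ.oe (C.lg g 2) f) ∧
    (∑ l ∈ C.fib true (C.lg g 1), ρ.oe l f = ρ.oe (C.lg g 0) f + (q - 1) * ρ.oe (C.lg g 1) f) := by
  obtain ⟨h1, h2, h3, h4⟩ := C.prod_fib_kind g (fun l => Multiplicative.ofAdd (ρ.oe l f))
    (fun j => Multiplicative.ofAdd (ρ.oe (C.lg g j) f)) fun l hl => by rw [← hl, ← ρ.oe_lg l hf]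
  exact ⟨by simpa [← ofAdd_sum] using congrArg Multiplicative.toAdd h1,
    by simpa [← ofAdd_sum] using congrArg Multiplicative.toAdd h2,
    by simpa [← ofAdd_sum] using congrArg Multiplicative.toAdd h3,
    by simpa [← ofAdd_sum] using congrArg Multiplicative.toAdd h4⟩

theorem relB_ord {n : ℕ} {b : Bool} {f : C.R} (hf : f ≠ 0) (h : C.RelB n b f) :
    ∃ c : ZMod n, ∀ l, ((∑ l' ∈ C.fib b l, ρ.oe l' f : ℕ) : ZMod n) = c := by
  obtain ⟨c0, c1, g0, g1, h0, h1, hg0, hg1, h⟩ := h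
  refine ⟨(ρ.ordS (HahnSeries.C (C.inc c0)) : ZMod n) - ρ.ordS (HahnSeries.C (C.inc c1)), fun l => ?_⟩
  have hL := ρ.ord_mul (ρ.ord_mul (ρ.ordS_spec (HahnSeries.C_ne_zero (Ctx.inc_ne h1)))
    (ρ.ord_pow (ρ.ord_oe (l := l) hg1) n)) (ρ.ord_prod (C.fib b l) _ _ fun l' _ => ρ.ord_oe (l := l') hf)
  rw [h l] at hL
  have e := ρ.ord_unique hL (ρ.ord_mul (ρ.ordS_spec (HahnSeries.C_ne_zero (Ctx.inc_ne h0)))
    (ρ.ord_pow (ρ.ord_oe (l := l) hg0) n))
  have e2 := congrArg (fun z : ℕ => (z : ZMod n)) e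
  push_cast at e2
  simp only [ZMod.natCast_self, zero_mul, add_zero] at e2
  rw [← e2]
  push_cast
  ring

theorem ord_congr {n : ℕ} (hn : Nat.Coprime q n) [NeZero n] {f : C.R} (hf : f ≠ 0)
    (hα : C.RelB n false f) (hβ : C.RelB n true f) :
    ∃ J : ℕ, J < n ∧ ∀ g j, ((q + 1) * (q - 1) * ρ.oe (C.lg g j) f) % n = J := by
  obtain ⟨ca, hca⟩ := ρ.relB_ord hf hα
  obtain ⟨cb, hcb⟩ := ρ.relB_ord hf hβ
  set u : ZMod n := ((ZMod.unitOfCoprime q hn)⁻¹ : (ZMod n)ˣ).val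
  have hu : u * (q : ZMod n) = 1 := by
    simp only [u]
    rw [← ZMod.coe_unitOfCoprime q hn, Units.inv_mul]
  set J0 : ZMod n := ((q + 1) * (q - 1) : ℕ) * u * ca
  refine ⟨J0.val, ZMod.val_lt J0, fun g j => ?_⟩
  obtain ⟨s1, s2, s3, s4⟩ := ρ.sum_fib g f hf
  have e1 := hca (C.lg g 0)
  have e2 := hca (C.lg g 1)
  have e3 := hcb (C.lg g 2)
  have e4 := hcb (C.lg g 1)
  rw [s1] at e1
  rw [s2] at e2
  rw [s3] at e3
  rw [s4] at e4
  have hq1 : ((q - 1 : ℕ) : ZMod n) = (q : ZMod n) - 1 := by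
    rw [Nat.cast_sub C.hq.one_le, Nat.cast_one]
  push_cast [hq1] at e1 e2 e3 e4
  have key : (((q + 1) * (q - 1) * ρ.oe (C.lg g j) f : ℕ) : ZMod n) = J0 := by
    simp only [J0]
    push_cast [hq1]
    fin_cases j
    · simp only [Fin.zero_eta]
      linear_combination ((q : ZMod n) + 1) * ((q : ZMod n) - 1) * u * e1 -
        ((q : ZMod n) + 1) * ((q : ZMod n) - 1) * (ρ.oe (C.lg g 0) f : ZMod n) * hu
    · simp only [Fin.mk_one]
      linear_combination ((q : ZMod n) + 1) * e2 - (e3 - e1 + e2 - e4) - ((q : ZMod n) + 1) * e1 +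
        ((q : ZMod n) + 1) * ((q : ZMod n) - 1) * u * e1 -
        ((q : ZMod n) + 1) * ((q : ZMod n) - 1) * (ρ.oe (C.lg g 0) f : ZMod n) * hu
    · simp only [show (⟨2, by norm_num⟩ : Fin 3) = 2 from rfl]
      linear_combination ((q : ZMod n) - 1) * (e2 - e4 + e3 - e1) +
        ((q : ZMod n) + 1) * ((q : ZMod n) - 1) * u * e1 -
        ((q : ZMod n) + 1) * ((q : ZMod n) - 1) * (ρ.oe (C.lg g 0) f : ZMod n) * hu
  rw [← ZMod.val_natCast, key]

/-- The data of a normalised norm relation. -/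
structure NRel (Ω : Res C k) (n : ℕ) (b : Bool) (F : C.R) where
  c0 : C.W
  c1 : C.W
  G0 : C.R
  G1 : C.R
  hc0 : Ω.φW c0 ≠ 0
  hc1 : Ω.φW c1 ≠ 0
  hG : ∀ g j, Ω.rs g j G0 ≠ 0 ∧ Ω.rs g j G1 ≠ 0
  rel : ∀ l, HahnSeries.C (C.inc c1) * C.emb l G1 ^ n * ∏ l' ∈ C.fib b l, C.emb l' F =
    HahnSeries.C (C.inc c0) * C.emb l G0 ^ n

include ρ in
theorem nonempty_nrel {n : ℕ} (hn0 : n ≠ 0) {b : Bool} {F : C.R} (hF : ∀ g j, Ω.rs g j F ≠ 0)
    (h : C.RelB n b F) : Nonempty (NRel Ω n b (F ^ (q - 1))) := by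
  obtain ⟨c0, c1, g0, g1, h0, h1, hg0, hg1, h⟩ := h
  obtain ⟨v0, c0', rfl, hc0'⟩ := ρ.exists_q_pow h0
  obtain ⟨v1, c1', rfl, hc1'⟩ := ρ.exists_q_pow h1
  have hFne : F ≠ 0 := fun h0 => hF ⟨C.eta, C.eta_mem_nodes⟩ 0 (by rw [h0, map_zero])
  have hFord : ∀ l, ρ.oe l F = 0 := fun l => (ρ.oe_eq_zero_iff l hFne).2 (by rw [Ω.rd_emb]; exact hF _ _)
  have hcq : ∀ (v : ℕ) (c : C.W), Ω.φW c ≠ 0 →
      ρ.Ord (HahnSeries.C (C.inc ((q : C.W) ^ v * c))) (v * (q - 1)) := by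
    intro v c hc
    have hu : ρ.Ord (HahnSeries.C (C.inc c)) 0 := by
      rw [ρ.ord_zero_iff, HahnSeries.C_apply, Res.rd, coeffMap_single]
      exact fun h => hc (HahnSeries.single_eq_zero_iff.1 h)
    have := ρ.ord_mul (ρ.ord_pow ρ.ord_natCast v) hu
    rw [add_zero] at this
    rwa [map_mul, map_mul, map_pow, map_pow, map_natCast, map_natCast]
  have hbal : ∀ l, v1 * (q - 1) + n * ρ.oe l g1 = v0 * (q - 1) + n * ρ.oe l g0 := fun l => by
    have hL := ρ.ord_mul (ρ.ord_mul (hcq v1 c1' hc1') (ρ.ord_pow (ρ.ord_oe (l := l) hg1) n))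
      (ρ.ord_prod (C.fib b l) _ _ fun l' _ => ρ.ord_oe (l := l') hFne)
    rw [h l, Finset.sum_eq_zero fun l' _ => hFord l', add_zero] at hL
    exact ρ.ord_unique hL (ρ.ord_mul (hcq v0 c0' hc0') (ρ.ord_pow (ρ.ord_oe (l := l) hg0) n))
  set l0 := C.lg ⟨C.eta, C.eta_mem_nodes⟩ 0
  set d0 := ρ.oe l0 g0
  set d1 := ρ.oe l0 g1
  have hdiff : ∀ l, ρ.oe l g0 + d1 = ρ.oe l g1 + d0 := fun l => by
    have a := hbal l
    have b := hbal l0
    have : n * (ρ.oe l g0 + d1) = n * (ρ.oe l g1 + d0) := by simp only [d0, d1]; rw [mul_add, mul_add]; omega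
    exact mul_left_cancel₀ hn0 this
  have hqne := Eqs.natCast_q_ne (C := C)
  obtain ⟨t, a, hta, he⟩ := ρ.exists_clear (x := g0 ^ (q - 1) * (q : C.R) ^ d1)
    (y := g1 ^ (q - 1) * (q : C.R) ^ d0) (mul_ne_zero (pow_ne_zero _ hg0) (pow_ne_zero _ hqne))
    (mul_ne_zero (pow_ne_zero _ hg1) (pow_ne_zero _ hqne)) fun g j => by
      rw [ρ.oe_mul _ (pow_ne_zero _ hg0) (pow_ne_zero _ hqne),
        ρ.oe_mul _ (pow_ne_zero _ hg1) (pow_ne_zero _ hqne), ρ.oe_pow _ hg0, ρ.oe_pow _ hg1,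
        ρ.oe_pow _ hqne, ρ.oe_pow _ hqne, ρ.oe_natCast, mul_comm d1, mul_comm d0, ← mul_add,
        ← mul_add, hdiff]
  have hrel : ∀ l, (q : LaurentSeries C.S) ^ (v1 * (q - 1) + n * d1) *
      (HahnSeries.C (C.inc (c1' ^ (q - 1))) * C.emb l t ^ n *
        ∏ l' ∈ C.fib b l, C.emb l' (F ^ (q - 1))) =
      (q : LaurentSeries C.S) ^ (v0 * (q - 1) + n * d0) *
        (HahnSeries.C (C.inc (c0' ^ (q - 1))) * C.emb l a ^ n) := by
    intro l
    have h2 := congrArg (· ^ (q - 1)) (h l)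
    have h3 := congrArg (fun z => C.emb l z ^ n) he
    simp only [map_mul, map_pow, mul_pow, map_natCast, ← Finset.prod_pow, ← pow_mul] at h2 h3 ⊢
    rw [mul_comm n (q - 1)] at h2
    refine mul_left_cancel₀ (pow_ne_zero ((q - 1) * n) (Ram.emb_ne (l := l) hg1)) ?_
    rw [pow_add, pow_add, mul_comm n d1, mul_comm n d0]
    linear_combination (C.emb l t ^ n * (q : LaurentSeries C.S) ^ (d1 * n)) * h2 +
      ((q : LaurentSeries C.S) ^ (v0 * (q - 1)) * HahnSeries.C (C.inc c0') ^ (q - 1)) * h3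
  have hexp : v1 * (q - 1) + n * d1 = v0 * (q - 1) + n * d0 := hbal l0
  refine ⟨⟨c0' ^ (q - 1), c1' ^ (q - 1), a, t, by rw [map_pow]; exact pow_ne_zero _ hc0',
    by rw [map_pow]; exact pow_ne_zero _ hc1', fun g j => ⟨(hta g j).2, (hta g j).1⟩, fun l => ?_⟩⟩
  have h4 := hrel l
  rw [hexp] at h4
  refine mul_left_cancel₀ (pow_ne_zero _ ?_) h4
  exact (ρ.ord_ne ρ.ord_natCast)

include ρ in
/-- A function with both norms constant multiples of `n`th powers becomes, up to constants and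
`n`th powers, a function outside all branches with normalised norm relations. -/
theorem exists_normalised {n : ℕ} (hn : Nat.Coprime q n) [NeZero n] {f : C.R} (hf : f ≠ 0)
    (hα : C.RelB n false f) (hβ : C.RelB n true f) (hv : C.VDvd n f) :
    ∃ (F t r : C.R) (c : C.W), c ≠ 0 ∧ t ≠ 0 ∧ r ≠ 0 ∧ (∀ g j, Ω.rs g j F ≠ 0) ∧
      t ^ n * f ^ ((q + 1) * (q - 1) * (q - 1) * (q - 1)) = F * C.cW c * r ^ n ∧ C.VDvd n F ∧
      Nonempty (NRel Ω n false F) ∧ Nonempty (NRel Ω n true F) := by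
  obtain ⟨J, hJ, hcon⟩ := ρ.ord_congr hn hf hα hβ
  set E0 := (q + 1) * (q - 1)
  set m : C.Sheet → Fin 3 → ℕ := fun g j => E0 * ρ.oe (C.lg g j) f / n
  obtain ⟨r, hr, hrord⟩ := ρ.exists_orders m fun g j g' j' hker => by
    show E0 * ρ.oe (C.lg g j) f / n = E0 * ρ.oe (C.lg g' j') f / n
    rw [ρ.oe_eq_of_ker (l := C.lg g j) (g := g') (j := j') ?_ hf]
    rw [← hker]
    ext x
    rw [RingHom.mem_ker, RingHom.mem_ker, ← Ω.rd_emb, Ω.rs_lg]
  have hqne := Eqs.natCast_q_ne (C := C)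
  obtain ⟨t, a, hta, he⟩ := ρ.exists_clear (x := f ^ (E0 * (q - 1))) (y := (q : C.R) ^ J * r ^ n)
    (pow_ne_zero _ hf) (mul_ne_zero (pow_ne_zero _ hqne) (pow_ne_zero _ hr)) fun g j => by
      rw [ρ.oe_pow _ hf, ρ.oe_mul _ (pow_ne_zero _ hqne) (pow_ne_zero _ hr), ρ.oe_pow _ hqne,
        ρ.oe_pow _ hr, ρ.oe_natCast, hrord]
      have h1 := Nat.mod_add_div (E0 * ρ.oe (C.lg g j) f) n
      rw [hcon g j] at h1
      calc E0 * (q - 1) * ρ.oe (C.lg g j) f = (q - 1) * (E0 * ρ.oe (C.lg g j) f) := by ring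
        _ = (q - 1) * (J + n * m g j) := by rw [h1]
        _ = _ := by ring
  have ht0 : t ≠ 0 := fun h => (hta ⟨C.eta, C.eta_mem_nodes⟩ 0).1 (by rw [h, map_zero])
  set f5 := a * t ^ (n - 1)
  have hpred : t ^ n = t ^ (n - 1) * t := by
    rw [← pow_succ, Nat.sub_add_cancel (NeZero.one_le)]
  have hc : ((q : C.W) ^ J) ≠ 0 := pow_ne_zero _ fun h => NeZero.ne q (by
    simpa using congrArg (fun z : C.W => (z : ℂ)) h)
  have he5 : t ^ n * f ^ (E0 * (q - 1)) = f5 * C.cW ((q : C.W) ^ J) * r ^ n := by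
    rw [map_pow, map_natCast, hpred]
    linear_combination t ^ (n - 1) * he
  have hf5 : ∀ g j, Ω.rs g j f5 ≠ 0 := fun g j => by
    rw [map_mul, map_pow]; exact mul_ne_zero (hta g j).2 (pow_ne_zero _ (hta g j).1)
  have hf5ne : f5 ≠ 0 := fun h => hf5 ⟨C.eta, C.eta_mem_nodes⟩ 0 (by rw [h, map_zero])
  obtain ⟨A⟩ := ρ.nonempty_nrel (NeZero.ne n) hf5
    (Ctx.relB_change Ω.fixed hc ht0 hr he5 (Ctx.relB_pow hα _))
  obtain ⟨B⟩ := ρ.nonempty_nrel (NeZero.ne n) hf5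
    (Ctx.relB_change Ω.fixed hc ht0 hr he5 (Ctx.relB_pow hβ _))
  refine ⟨f5 ^ (q - 1), t ^ (q - 1), r ^ (q - 1), ((q : C.W) ^ J) ^ (q - 1), pow_ne_zero _ hc,
    pow_ne_zero _ ht0, pow_ne_zero _ hr, fun g j => by rw [map_pow]; exact pow_ne_zero _ (hf5 g j), ?_,
    Ctx.vDvd_pow hf5ne (Ctx.vDvd_change hc (pow_ne_zero _ hf) hf5ne ht0 hr he5 (Ctx.vDvd_pow hf hv _)) _,
    ⟨A⟩, ⟨B⟩⟩
  have h2 := congrArg (· ^ (q - 1)) he5
  simp only [mul_pow, map_pow, ← pow_mul] at h2 ⊢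
  rw [mul_comm n (q - 1)] at h2
  exact h2

end Ram

end FLTAgent.Carayol
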