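import Fermat.Agent.Carayol.Pullback
import Fermat.Agent.Carayol.Normalise
import Fermat.Agent.TorsionHom.Degeneracy

/-!
# Norms along the degeneracy maps as products over the fibres of the auxiliary cover
-/

set_option autoImplicit false
set_option linter.unusedSectionVars false
set_option linter.style.haveILetI false
set_option synthInstance.maxHeartbeats 400000
set_option maxHeartbeats 1000000

noncomputable section

open UpperHalfPlane hiding I I_re I_im
open Filter Topology Complex Function FLTAgent.ModEq FLTAgent.GoodModel ModularCurve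
open AlgebraicCurve
open scoped MatrixGroups Manifold Classical

namespace FLTAgent.Carayol

local notation "QA" => AlgebraicClosure ℚ

theorem natDegree_prime {p : ℕ} [Fact p.Prime] [NeZero p] (data : ModularPolynomialData p) :
    data.Φ.natDegree = p + 1 := by
  rw [data.natDegree_eq]
  have h := dedekindPsi_mul_prime_of_not_dvd (M := 1) (Fact.out : p.Prime)
    (Fact.out : p.Prime).not_dvd_one
  rw [one_mul, dedekindPsi_one, mul_one] at h
  exact h

/-- A generator which is a root, other than a known one, of a polynomial of degree `p + 1`. -/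
theorem finrank_le_of_root {F F' : Type*} [Field F] [Field F'] [Algebra F F'] {p : ℕ}
    (P : Polynomial F) (hP : P.Monic) (hdeg : P.natDegree = p + 1) {y : F} (hy : P.eval y = 0)
    {x : F'} (hx : Polynomial.aeval x P = 0) (hne : x ≠ algebraMap F F' y)
    (hgen : IntermediateField.adjoin F ({x} : Set F') = ⊤) :
    FiniteDimensional F F' ∧ Module.finrank F F' ≤ p := by
  obtain ⟨P', hP'⟩ := Polynomial.dvd_iff_isRoot.2 (show P.IsRoot y from hy)
  have hP'0 : P' ≠ 0 := fun h => hP.ne_zero (by rw [hP', h, mul_zero])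
  have hx' : Polynomial.aeval x P' = 0 := by
    rw [hP', map_mul, map_sub, Polynomial.aeval_X, Polynomial.aeval_C, mul_eq_zero, sub_eq_zero] at hx
    exact hx.resolve_left hne
  have hint : IsIntegral F x := ⟨P, hP, hx⟩
  have hdeg' : P'.natDegree = p := by
    have h := congrArg Polynomial.natDegree hP'
    rw [Polynomial.natDegree_mul (Polynomial.X_sub_C_ne_zero y) hP'0, hdeg,
      Polynomial.natDegree_X_sub_C] at h
    omega
  haveI hfin : FiniteDimensional F (IntermediateField.adjoin F ({x} : Set F')) :=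
    IntermediateField.adjoin.finiteDimensional hint
  have hle : (minpoly F x).natDegree ≤ p := hdeg' ▸ Polynomial.natDegree_le_of_dvd (minpoly.dvd F x hx') hP'0
  have hfin' : FiniteDimensional F F' := by
    rw [hgen] at hfin
    exact Module.Finite.equiv IntermediateField.topEquiv.toLinearEquiv
  refine ⟨hfin', ?_⟩
  rw [← IntermediateField.adjoin.finrank hint] at hle
  rwa [hgen, IntermediateField.finrank_top'] at hle

/-- An intermediate field with the constants, `j` and `j_N` is everything. -/
theorem eq_top_of_gens {F : Type*} [Field F] {N : ℕ} [NeZero N] [Algebra F (modularFunctionFieldBar N)]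
    (L : IntermediateField F (modularFunctionFieldBar N))
    (hc : ∀ c : QA, algebraMap QA (modularFunctionFieldBar N) c ∈ L)
    (hj : Kronecker.jEl N ∈ L) (hjN : Kronecker.jNEl N ∈ L) : L = ⊤ := by
  have key : ∀ w : LaurentSeries QA, w ∈ modularFunctionFieldC QA N →
      ∃ hw : w ∈ modularFunctionFieldBar N, (⟨w, hw⟩ : modularFunctionFieldBar N) ∈ L := by
    intro w hw
    induction hw using IntermediateField.adjoin_induction with
    | mem y hy =>
      rcases hy with rfl | rfl
      · exact ⟨(Kronecker.jEl N).2, hj⟩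
      · exact ⟨(Kronecker.jNEl N).2, hjN⟩
    | algebraMap c => exact ⟨(algebraMap QA (modularFunctionFieldBar N) c).2, hc c⟩
    | add y y' _ _ h h' =>
      obtain ⟨hy, ey⟩ := h
      obtain ⟨hy', ey'⟩ := h'
      refine ⟨add_mem hy hy', ?_⟩
      rw [show (⟨y + y', add_mem hy hy'⟩ : modularFunctionFieldBar N) = ⟨y, hy⟩ + ⟨y', hy'⟩ from rfl]
      exact L.add_mem ey ey'
    | inv y _ h =>
      obtain ⟨hy, ey⟩ := h
      refine ⟨inv_mem hy, ?_⟩
      rw [show (⟨y⁻¹, inv_mem hy⟩ : modularFunctionFieldBar N) = (⟨y, hy⟩)⁻¹ from rfl]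
      exact L.inv_mem ey
    | mul y y' _ _ h h' =>
      obtain ⟨hy, ey⟩ := h
      obtain ⟨hy', ey'⟩ := h'
      refine ⟨mul_mem hy hy', ?_⟩
      rw [show (⟨y * y', mul_mem hy hy'⟩ : modularFunctionFieldBar N) = ⟨y, hy⟩ * ⟨y', hy'⟩ from rfl]
      exact L.mul_mem ey ey'
  refine eq_top_iff.2 fun z _ => ?_
  obtain ⟨z, hz⟩ := z
  obtain ⟨_, h⟩ := key z (by rw [← modularFunctionFieldBar_eq]; exact hz)
  exact h

namespace Pull

variable {q M0 N' : ℕ} [NeZero M0] [NeZero N'] [NeZero q] [Fact q.Prime]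
variable {C : Ctx q M0 N'} {M' : ℕ} [NeZero M'] (P : Pull C M')

theorem gen_mem (d : ℕ) [NeZero d] (hd : d ∣ q * M' * q) :
    qExpand QA d (jqModC QA) ∈ X0Fn.XA QA (q * M' * q) :=
  Algebra.subset_adjoin ⟨qExpand ℚ d jq, ⟨d, ‹_›, hd, rfl⟩, by
    rw [coeffEmb, coeffMap_qExpand, ← jqModC_rat, coeffMap_jqModC]⟩

include P in
/-- The modular equation with the two invariants exchanged. -/
theorem eval_symm :
    ((modularPolynomialData q).Φ.map (evalAt (jqNModC QA q))).eval (jqModC QA) = 0 := by
  set Φ := (modularPolynomialData q).Φ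
  have h1mem : qExpand QA 1 (jqModC QA) ∈ X0Fn.XA QA (q * M' * q) := gen_mem 1 (one_dvd _)
  set a1 : X0Fn.XA QA (q * M' * q) := ⟨_, h1mem⟩
  set aq : X0Fn.XA QA (q * M' * q) := ⟨_, gen_mem q (dvd_mul_left q _)⟩
  have hf1 : P.fn a1 = P.jf 1 (one_dvd _) := P.fn_gen _ _
  have hfq : P.fn aq = P.jf q ((dvd_mul_left q q).trans (dvd_mul_right _ _)) := P.fn_gen _ _
  set V : X0Fn.XA QA (q * M' * q) →+* LaurentSeries QA := (X0Fn.XA QA (q * M' * q)).val.toRingHom
  have hV : Injective V := Subtype.val_injective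
  have hV1 : V a1 = jqModC QA := qExpand_one_apply _
  have hR : (Φ.map (evalAt a1)).eval aq = 0 := hV <| by
    rw [map_zero, Kronecker.evalRel_map, hV1]
    exact eval_modularPolynomial QA (modularPolynomialData q)
  have hpt : ∀ τ : ℍ, (Φ.map (evalAt (jd q 1 τ))).eval (jd q q τ) = 0 := fun τ => by
    have h := congrArg (fun x => ((Pi.evalRingHom (fun _ : ℍ => ℂ) τ).comp P.Fn.subtype) (P.fn x)) hR
    simp only [map_zero, Kronecker.evalRel_map, hf1, hfq] at h
    exact h
  have hswap : (Φ.map (evalAt aq)).eval a1 = 0 := P.fn_injective <| by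
    rw [map_zero, Kronecker.evalRel_map, hf1, hfq]
    refine Subtype.ext (funext fun τ => ?_)
    show ((Pi.evalRingHom (fun _ : ℍ => ℂ) τ).comp P.Fn.subtype) _ = 0
    rw [Kronecker.evalRel_map]
    show (Φ.map (evalAt (jd q q τ))).eval (jd q 1 τ) = 0
    set τ' : ℍ := affPt q 0 1 (ModularGroup.S • τ)
    have hq : (q : ℂ) ≠ 0 := Nat.cast_ne_zero.mpr (NeZero.ne q)
    have e1 : jd q q τ' = jd q 1 τ := by
      rw [jd, jd, ← jFun_smul ModularGroup.S (affPt 1 0 q τ)]
      congr 1
      refine UpperHalfPlane.ext ?_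
      simp only [τ', coe_affPt, UpperHalfPlane.modular_S_smul, UpperHalfPlane.coe_mk]
      have := τ.ne_zero
      push_cast
      field_simp
      first | ring1 | (simp [this]; ring)
    have e2 : jd q 1 τ' = jd q q τ := by
      rw [jd, jd, show affPt q 0 q τ = τ from UpperHalfPlane.ext (by
        rw [coe_affPt]; push_cast; field_simp; ring), ← jFun_smul ModularGroup.S τ]
      congr 1
      refine UpperHalfPlane.ext ?_
      simp only [τ', coe_affPt, UpperHalfPlane.modular_S_smul, UpperHalfPlane.coe_mk]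
      have := τ.ne_zero
      push_cast
      field_simp
      ring
    rw [← e1, ← e2]
    exact hpt τ'
  have h := congrArg V hswap
  rwa [map_zero, Kronecker.evalRel_map, hV1] at h

include P in
theorem eval_symm_qExpand (d : ℕ) [NeZero d] :
    ((modularPolynomialData q).Φ.map (evalAt (qExpand QA d (qExpand QA q (jqModC QA))))).eval
      (qExpand QA d (jqModC QA)) = 0 := by
  have h := congrArg (qExpand QA d) P.eval_symm
  rwa [map_zero, Kronecker.evalRel_map] at h

omit [Fact q.Prime] in
theorem eval_qExpand (d : ℕ) [NeZero d] :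
    ((modularPolynomialData q).Φ.map (evalAt (qExpand QA d (jqModC QA)))).eval
      (qExpand QA d (qExpand QA q (jqModC QA))) = 0 := by
  have h := congrArg (qExpand QA d) (eval_modularPolynomial QA (modularPolynomialData q))
  rwa [map_zero, Kronecker.evalRel_map] at h

theorem qExpand_ne {a b : ℕ} [NeZero a] [NeZero b] (h : a ≠ b) :
    qExpand QA a (jqModC QA) ≠ qExpand QA b (jqModC QA) := fun he => by
  rw [← substHom_one, ← substHom_one, ← jAt_eq, ← jAt_eq] at he
  exact h (jAt_injective (NeZero.ne a) (NeZero.ne b) he).1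

/-- The degeneracy map of a side. -/
def deg (q M' : ℕ) [NeZero q] [NeZero M'] (b : Bool) :
    modularFunctionFieldBar (q * M') →ₐ[QA] modularFunctionFieldBar (q * M' * q) :=
  if b then heckeAlphaBar QA (q * M') q else heckeBetaBar QA (q * M') q

omit [Fact q.Prime] [NeZero M'] in
theorem finrank_along_le {N N₀ : ℕ} [NeZero N] [NeZero N₀] [Fact q.Prime]
    (φ : modularFunctionFieldBar N₀ →ₐ[QA] modularFunctionFieldBar N)
    (g y : modularFunctionFieldBar N₀) (x : modularFunctionFieldBar N)
    (hy : ((modularPolynomialData q).Φ.map (evalAt (g : LaurentSeries QA))).eval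
      (y : LaurentSeries QA) = 0)
    (hx : ((modularPolynomialData q).Φ.map (evalAt ((φ g : modularFunctionFieldBar N) :
      LaurentSeries QA))).eval (x : LaurentSeries QA) = 0)
    (hne : x ≠ φ y) (hj : Kronecker.jEl N = x ∨ ∃ z, Kronecker.jEl N = φ z)
    (hjN : Kronecker.jNEl N = x ∨ ∃ z, Kronecker.jNEl N = φ z) :
    letI := algebraAlong φ
    FiniteDimensional (modularFunctionFieldBar N₀) (modularFunctionFieldBar N) ∧
      Module.finrank (modularFunctionFieldBar N₀) (modularFunctionFieldBar N) ≤ q := by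
  letI := algebraAlong φ
  have halg : ∀ z, algebraMap (modularFunctionFieldBar N₀) (modularFunctionFieldBar N) z = φ z :=
    fun _ => rfl
  have hmem : ∀ z, φ z ∈ IntermediateField.adjoin (modularFunctionFieldBar N₀)
      ({x} : Set (modularFunctionFieldBar N)) := fun z => by
    rw [← halg z]
    exact IntermediateField.algebraMap_mem _ z
  refine finrank_le_of_root (((modularPolynomialData q).Φ.map (evalAt g)))
    ((modularPolynomialData q).monic.map _)
    (by rw [(modularPolynomialData q).monic.natDegree_map, natDegree_prime]) (y := y) ?_ (x := x) ?_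
    (by rw [halg]; exact hne) (eq_top_of_gens _ (fun c => ?_) ?_ ?_)
  · apply (modularFunctionFieldBar N₀).val.toRingHom.injective
    rw [map_zero, Kronecker.evalRel_map]
    exact hy
  · rw [Polynomial.aeval_def, ← Polynomial.eval_map, Polynomial.map_map, comp_evalAt, halg]
    apply (modularFunctionFieldBar N).val.toRingHom.injective
    rw [map_zero, Kronecker.evalRel_map]
    exact hx
  · rw [← φ.commutes c]
    exact hmem _
  · rcases hj with h | ⟨z, h⟩
    · rw [h]; exact IntermediateField.subset_adjoin _ _ rfl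
    · rw [h]; exact hmem z
  · rcases hjN with h | ⟨z, h⟩
    · rw [h]; exact IntermediateField.subset_adjoin _ _ rfl
    · rw [h]; exact hmem z

include P in
theorem finrank_deg_le (b : Bool) :
    letI := algebraAlong (deg q M' b)
    FiniteDimensional (modularFunctionFieldBar (q * M')) (modularFunctionFieldBar (q * M' * q)) ∧
      Module.finrank (modularFunctionFieldBar (q * M')) (modularFunctionFieldBar (q * M' * q)) ≤ q := by
  have hq1 : q ≠ 1 := C.hq.one_lt.ne'
  have hgenF : ∀ (d : ℕ) [NeZero d], d ∣ q * M' →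
      qExpand QA d (jqModC QA) ∈ modularFunctionFieldBar (q * M') := fun d _ hd => by
    have h := coeffEmb_mem_laurentBaseChange QA (jqd_mem_full (q * M') hd)
    rwa [coeffEmb, coeffMap_qExpand, ← jqModC_rat, coeffMap_jqModC] at h
  cases b
  · refine finrank_along_le (deg q M' false) ⟨_, hgenF 1 (one_dvd _)⟩
      ⟨_, hgenF q (dvd_mul_right q M')⟩ (Kronecker.jEl _) ?_ ?_ ?_ (Or.inl rfl)
      (Or.inr ⟨Kronecker.jNEl (q * M'), Subtype.ext ?_⟩)
    · simp only [qExpand_one_apply]
      exact eval_modularPolynomial QA (modularPolynomialData q)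
    · show ((modularPolynomialData q).Φ.map (evalAt (qExpand QA q (qExpand QA 1 (jqModC QA))))).eval
        (jqModC QA) = 0
      rw [qExpand_one_apply]
      exact P.eval_symm
    · intro h
      haveI : NeZero (q * q) := ⟨mul_ne_zero (NeZero.ne q) (NeZero.ne q)⟩
      have h' : jqModC QA = qExpand QA q (qExpand QA q (jqModC QA)) := congrArg Subtype.val h
      rw [qExpand_qExpand] at h'
      refine qExpand_ne (a := 1) (b := q * q) ?_ (by rw [qExpand_one_apply]; exact h')
      intro h''
      exact hq1 (Nat.eq_one_of_mul_eq_one_right h''.symm)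
    · show qExpand QA (q * M' * q) (jqModC QA) = qExpand QA q (qExpand QA (q * M') (jqModC QA))
      rw [qExpand_qExpand]
      exact qExpand_congr (mul_comm _ _) _
  · refine finrank_along_le (deg q M' true) ⟨_, hgenF (q * M') dvd_rfl⟩
      ⟨_, hgenF M' (dvd_mul_left M' q)⟩ (Kronecker.jNEl _) ?_ ?_ ?_
      (Or.inr ⟨Kronecker.jEl (q * M'), Subtype.ext rfl⟩) (Or.inl rfl)
    · have h := P.eval_symm_qExpand M'
      rw [qExpand_qExpand] at h
      simpa [qExpand_congr (mul_comm M' q)] using h
    · show ((modularPolynomialData q).Φ.map (evalAt (qExpand QA (q * M') (jqModC QA)))).eval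
        (qExpand QA (q * M' * q) (jqModC QA)) = 0
      rw [← qExpand_qExpand]
      exact eval_qExpand (q * M')
    · intro h
      have h' : qExpand QA (q * M' * q) (jqModC QA) = qExpand QA M' (jqModC QA) := congrArg Subtype.val h
      refine qExpand_ne ?_ h'
      intro h''
      have h1 : M' * (q * q) = M' * 1 := by rw [mul_one]; linarith
      exact hq1 (Nat.eq_one_of_mul_eq_one_right
        (Nat.eq_of_mul_eq_mul_left (Nat.pos_of_ne_zero (NeZero.ne M')) h1))

theorem fix_of_mem_fib {b : Bool} {l : C.Idx} (h : l ∈ C.fib b C.one') :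
    ((M0 * N' : ℕ) : ℤ) ∣ C.rep l 1 0 ∧ if b then (q : ℤ) ∣ C.rep l 0 1 else (q : ℤ) ∣ C.rep l 1 0 := by
  obtain ⟨he, hx⟩ := C.mem_fib.1 h
  have key : ∀ a : C.R, C.emb l a = C.emb C.one' a → compg (C.rep l) (a : ℍ → ℂ) = a := fun a ha => by
    rw [C.emb_one', Ctx.emb, C.embAt_apply, C.embAt_apply] at ha
    have h2 := congrArg (fun z : trRing C.S (M0 * (N' * q)) => (z : ℍ → ℂ)) (ser_injective ha)
    exact Eq.trans h2 (compg_one _)
  refine ⟨C.dvd_of_fix_eta (C.rep_mem l) (key _ he), ?_⟩
  have hx' := key _ hx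
  cases b
  · refine C.dvd_of_fix_sX (C.rep_mem l) ?_
    have e : (C.xR false : ℍ → ℂ) = C.sX := by simp [Ctx.xR, Ctx.sb, Ctx.rX, Ctx.gr, compg_one]
    rwa [e] at hx'
  · exact (C.fix_rX0_iff (C.rep_mem l)).1 hx'

theorem Theta_gen (γ : SL(2, ℤ)) {d : ℕ} [NeZero d] (hd : d ∣ q * q * M')
    (f : modularFunctionFieldBar (q * M' * q)) (hf : (f : LaurentSeries QA) = qExpand QA d (jqModC QA)) :
    P.Theta γ f = P.big γ (P.jf d hd) := by
  have hd' : d ∣ q * M' * q := hd.trans (dvd_of_eq (by ring))
  have : f = X0Fn.incA QA _ ⟨_, gen_mem d hd'⟩ := Subtype.ext hf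
  rw [this, P.Theta_incA, P.fn_gen hd]

theorem big_eq_one (γ : SL(2, ℤ)) {d : ℕ} [NeZero d] (hd : d ∣ q * q * M')
    (h : ∀ τ, jd q d (γ • τ) = jd q d τ) : P.big γ (P.jf d hd) = P.big 1 (P.jf d hd) := by
  refine (P.big_spec γ _).unique ?_
  rw [show compg γ ((P.jf d hd : P.Fn) : ℍ → ℂ) = compg 1 ((P.jf d hd : P.Fn) : ℍ → ℂ) from by
    funext τ; simp only [compg_apply, one_smul]; exact h τ]
  exact P.big_spec 1 _

theorem Theta_deg {b : Bool} {l : C.Idx} (h : l ∈ C.fib b C.one')
    (g : modularFunctionFieldBar (q * M')) :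
    P.Theta (C.rep l) (deg q M' b g) = P.Theta 1 (deg q M' b g) := by
  obtain ⟨h10, hside⟩ := fix_of_mem_fib h
  set δ := C.rep l
  have hM' : (M' : ℤ) ∣ δ 1 0 :=
    (Int.natCast_dvd_natCast.2 P.hN).trans h10
  suffices h : (P.Theta δ).comp (deg q M' b).toRingHom = (P.Theta 1).comp (deg q M' b).toRingHom from
    RingHom.congr_fun h g
  refine Kronecker.ringHom_ext (q * M') _ _ (fun c => ?_) ?_ ?_
  · simp only [RingHom.comp_apply, AlgHom.toRingHom_eq_coe, RingHom.coe_coe, AlgHom.commutes,
      P.Theta_algebraMap]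
  all_goals simp only [RingHom.comp_apply, AlgHom.toRingHom_eq_coe, RingHom.coe_coe]
  all_goals cases b
  · simp only [Bool.false_eq_true, if_false] at hside
    rw [P.Theta_gen δ (d := q) (dvd_mul_of_dvd_left (dvd_mul_left q q) _) _ rfl,
      P.Theta_gen 1 (d := q) (dvd_mul_of_dvd_left (dvd_mul_left q q) _) _ rfl]
    refine P.big_eq_one δ _ fun τ => jd_invariant' (dvd_mul_right _ _) (dvd_mul_right _ _) τ
  · simp only [if_true] at hside
    have e : ((deg q M' true (Kronecker.jEl (q * M')) : modularFunctionFieldBar (q * M' * q)) :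
        LaurentSeries QA) = qExpand QA 1 (jqModC QA) := by rw [qExpand_one_apply]; rfl
    rw [P.Theta_gen δ (one_dvd _) _ e, P.Theta_gen 1 (one_dvd _) _ e]
    refine P.big_eq_one δ _ fun τ => jd_invariant' (dvd_mul_of_dvd_right hside _) (one_dvd _) τ
  · simp only [Bool.false_eq_true, if_false] at hside
    haveI : NeZero (q * (q * M')) := ⟨mul_ne_zero (NeZero.ne q) (NeZero.ne _)⟩
    have e : ((deg q M' false (Kronecker.jNEl (q * M')) : modularFunctionFieldBar (q * M' * q)) :
        LaurentSeries QA) = qExpand QA (q * (q * M')) (jqModC QA) := (qExpand_qExpand _ _ _)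
    rw [P.Theta_gen δ (dvd_of_eq (mul_assoc q q M').symm) _ e,
      P.Theta_gen 1 (dvd_of_eq (mul_assoc q q M').symm) _ e]
    refine P.big_eq_one δ _ fun τ => jd_invariant' ?_ ?_ τ
    · push_cast
      exact dvd_mul_of_dvd_left (dvd_mul_right _ _) _
    · push_cast
      refine mul_dvd_mul_left _ ?_
      refine IsCoprime.mul_dvd ?_ hside hM'
      rw [Int.isCoprime_iff_nat_coprime]
      simpa using (C.hq.coprime_iff_not_dvd.2 fun h => C.hqm
        (h.trans P.hN))
  · simp only [if_true] at hside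
    have e : ((deg q M' true (Kronecker.jNEl (q * M')) : modularFunctionFieldBar (q * M' * q)) :
        LaurentSeries QA) = qExpand QA (q * M') (jqModC QA) := rfl
    rw [P.Theta_gen δ (mul_dvd_mul_right (dvd_mul_left q q) M') _ e,
      P.Theta_gen 1 (mul_dvd_mul_right (dvd_mul_left q q) M') _ e]
    refine P.big_eq_one δ _ fun τ => jd_invariant' (dvd_mul_of_dvd_right hside _) ?_ τ
    push_cast
    exact mul_dvd_mul_left _ hM'

theorem compg_eq_of_big {γ γ' : SL(2, ℤ)} {f : P.Fn} (h : P.big γ f = P.big γ' f) :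
    compg γ (f : ℍ → ℂ) = compg γ' (f : ℍ → ℂ) := by
  simp only [big, RingHom.comp_apply] at h
  have h2 : trComp γ f = trComp γ' f := ser_injective (sIncl_injective h)
  exact congrArg (fun z : trRing P.κ.range (M0 * (N' * q)) => (z : ℍ → ℂ)) h2

theorem compg_eq_of_emb {l l' : C.Idx} {a : C.R} (h : C.emb l a = C.emb l' a) :
    compg (C.rep l) (a : ℍ → ℂ) = compg (C.rep l') (a : ℍ → ℂ) := by
  rw [Ctx.emb, Ctx.emb, C.embAt_apply, C.embAt_apply] at h
  exact congrArg (fun z : trRing C.S (M0 * (N' * q)) => (z : ℍ → ℂ)) (ser_injective h)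

theorem Theta_fib_injective (b : Bool) :
    Injective fun l : ↥(C.fib b C.one') => P.Theta (C.rep (l : C.Idx)) := by
  intro l l' h
  simp only at h
  set δ := C.rep (l : C.Idx) with hδdef
  set δ' := C.rep (l' : C.Idx) with hδ'def
  obtain ⟨he, hx⟩ := C.mem_fib.1 l.2
  obtain ⟨he', hx'⟩ := C.mem_fib.1 l'.2
  have hmem := mul_mem (C.rep_mem (l' : C.Idx)) (inv_mem (C.rep_mem (l : C.Idx)))
  rw [← hδdef, ← hδ'def] at hmem
  have key : ∀ f : ℍ → ℂ, compg δ f = compg δ' f → compg (δ' * δ⁻¹) f = f := fun f h => by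
    rw [← compg_compg, ← h, compg_compg, mul_inv_cancel, compg_one]
  have key' : ∀ f : ℍ → ℂ, compg (δ' * δ⁻¹) f = f → compg δ f = compg δ' f := fun f h => by
    conv_lhs => rw [← h]
    rw [compg_compg, inv_mul_cancel_right]
  have hfun : ∀ a : C.R, C.emb l a = C.emb C.one' a → C.emb l' a = C.emb C.one' a →
      compg δ (a : ℍ → ℂ) = compg δ' (a : ℍ → ℂ) := fun a h1 h2 =>
    compg_eq_of_emb (h1.trans h2.symm)
  have hjd : ∀ (d : ℕ) [NeZero d] (hd : d ∣ q * q * M'),
      compg (δ' * δ⁻¹) (jd q d) = jd q d := fun d _ hd => by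
    refine key _ ?_
    have h1 := RingHom.congr_fun h
      (X0Fn.incA QA _ ⟨_, gen_mem d (hd.trans (dvd_of_eq (by ring)))⟩)
    rw [P.Theta_incA, P.Theta_incA, P.fn_gen hd] at h1
    exact P.compg_eq_of_big h1
  have heta := hfun _ he he'
  have hside := hfun _ hx hx'
  refine Subtype.ext (Subtype.ext ?_)
  rw [← C.triple_rep, ← C.triple_rep, ← hδdef, ← hδ'def]
  simp only [Ctx.triple, Prod.mk.injEq]
  have e0 : (C.xR false : ℍ → ℂ) = C.sX := by simp [Ctx.xR, Ctx.sb, Ctx.rX, Ctx.gr, compg_one]
  cases b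
  · rw [e0] at hside
    refine ⟨heta, hside, key' _ ((C.fix_rX0_iff hmem).2 ?_)⟩
    exact C.dvd01_of_fix P.hN (hjd 1 (one_dvd _)) (C.dvd_of_fix_sX hmem (key _ hside))
  · refine ⟨heta, key' _ ((C.fix_sX_iff hmem).2 ?_), hside⟩
    haveI : NeZero (q * q) := ⟨mul_ne_zero (NeZero.ne q) (NeZero.ne q)⟩
    exact C.dvd10_of_fix hmem (hjd (q * q) (dvd_mul_right _ _))

/-- The norm along a degeneracy map is the product over the fibre. -/
theorem Theta_norm (b : Bool) (f : modularFunctionFieldBar (q * M' * q)) :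
    letI := algebraAlong (deg q M' b)
    P.Theta 1 (deg q M' b (Algebra.norm (modularFunctionFieldBar (q * M')) f)) =
      ∏ l ∈ C.fib b C.one', P.Theta (C.rep l) f := by
  letI := algebraAlong (deg q M' b)
  obtain ⟨hfin, hle⟩ := P.finrank_deg_le b
  haveI := hfin
  haveI : CharZero (modularFunctionFieldBar (q * M')) :=
    charZero_of_injective_algebraMap (algebraMap QA (modularFunctionFieldBar (q * M'))).injective
  set ψ : modularFunctionFieldBar (q * M') →+* LaurentSeries ℂ :=
    (P.Theta 1).comp (deg q M' b).toRingHom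
  have hover : ∀ l : ↥(C.fib b C.one'), (P.Theta (C.rep (l : C.Idx))).comp
      (algebraMap (modularFunctionFieldBar (q * M')) (modularFunctionFieldBar (q * M' * q))) = ψ :=
    fun l => RingHom.ext fun g => P.Theta_deg l.2 g
  have hcard : Fintype.card ↥(C.fib b C.one') =
      Module.finrank (modularFunctionFieldBar (q * M')) (modularFunctionFieldBar (q * M' * q)) := by
    refine le_antisymm ?_ (by rw [Fintype.card_coe, Ctx.card_fib]; exact hle)
    letI : Algebra (modularFunctionFieldBar (q * M')) (AlgebraicClosure (LaurentSeries ℂ)) :=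
      ((algebraMap (LaurentSeries ℂ) (AlgebraicClosure (LaurentSeries ℂ))).comp ψ).toAlgebra
    rw [← AlgHom.card (modularFunctionFieldBar (q * M')) (modularFunctionFieldBar (q * M' * q))
      (AlgebraicClosure (LaurentSeries ℂ))]
    let e : ↥(C.fib b C.one') → (modularFunctionFieldBar (q * M' * q) →ₐ[modularFunctionFieldBar (q * M')]
        AlgebraicClosure (LaurentSeries ℂ)) := fun l =>
      { (algebraMap (LaurentSeries ℂ) (AlgebraicClosure (LaurentSeries ℂ))).comp
          (P.Theta (C.rep (l : C.Idx))) with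
        commutes' := fun g => congrArg (algebraMap (LaurentSeries ℂ) _)
          (RingHom.congr_fun (hover l) g) }
    exact Fintype.card_le_of_injective e fun l l' h => P.Theta_fib_injective b (RingHom.ext fun x =>
      (algebraMap (LaurentSeries ℂ) (AlgebraicClosure (LaurentSeries ℂ))).injective
        (DFunLike.congr_fun h x))
  have h := TorsionHom.norm_eq_prod ψ (fun l : ↥(C.fib b C.one') => P.Theta (C.rep (l : C.Idx)))
    hover (P.Theta_fib_injective b) hcard f
  rw [Finset.prod_coe_sort (C.fib b C.one') (fun l => P.Theta (C.rep l) f)] at h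
  exact h

end Pull

end FLTAgent.Carayol
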