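import Fermat.Agent.GoodModel.Hauptmodul

/-!
# Rational functions with bounded poles at the punctures
-/

set_option autoImplicit false

noncomputable section

namespace FLTAgent.Carayol

open FLTAgent.ModEq FLTAgent.GoodModel Polynomial

variable {Q : Type*} [CommRing Q]

/-- `T` is a local parameter of exponent `e` at the puncture `c`. -/
def AtPuncture (T : LaurentSeries Q) (c : Q) (e : ℕ) : Prop :=
  LeadAt (T - HahnSeries.C c) e

/-- The product of the `X - c i`. -/
def punct {ι : Type*} [Fintype ι] (c : ι → Q) : Q[X] := ∏ i, (X - C (c i))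

theorem monic_punct {ι : Type*} [Fintype ι] (c : ι → Q) : (punct c).Monic :=
  monic_prod_of_monic _ _ fun i _ => monic_X_sub_C (c i)

theorem natDegree_punct [Nontrivial Q] {ι : Type*} [Fintype ι] (c : ι → Q) :
    (punct c).natDegree = Fintype.card ι := by
  rw [punct, natDegree_prod_of_monic _ _ fun i _ => monic_X_sub_C (c i)]
  simp

theorem leadAt_eval₂_sub {T : LaurentSeries Q} {c c' : Q} {e : ℕ} (he : 0 < e) (h : AtPuncture T c e)
    (hc : IsUnit (c - c')) : LeadAt (T - HahnSeries.C c') 0 := by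
  have hT : T - HahnSeries.C c' = (T - HahnSeries.C c) + HahnSeries.C (c - c') := by
    rw [map_sub]; ring
  rw [hT]
  refine ⟨(h.1.mono (by omega)).add (geOrd_C _), ?_⟩
  rw [HahnSeries.coeff_add, h.1 0 (by exact_mod_cast he), zero_add, HahnSeries.C_apply,
    HahnSeries.coeff_single_same]
  exact hc

theorem GeOrd.of_mul_leadAt {a b : LaurentSeries Q} {N k : ℤ} (hb : LeadAt b k)
    (h : GeOrd (a * b) N) : GeOrd a (N - k) := by
  obtain ⟨u, rfl, hu⟩ := hb.exists_inv
  have : a = a * (u : LaurentSeries Q) * ((u⁻¹ : (LaurentSeries Q)ˣ) : LaurentSeries Q) := by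
    rw [mul_assoc, ← Units.val_mul, mul_inv_cancel, Units.val_one, mul_one]
  rw [this, sub_eq_add_neg]
  exact h.mul hu.1

theorem leadAt_one : LeadAt (1 : LaurentSeries Q) 0 := ⟨geOrd_one, by simp⟩

theorem leadAt_pow {G : LaurentSeries Q} {a : ℤ} (h : LeadAt G a) (n : ℕ) : LeadAt (G ^ n) (n * a) :=
  ⟨h.1.pow n, by rw [h.1.coeff_pow]; exact h.2.pow n⟩

theorem leadAt_punct {ι : Type*} [Fintype ι] (c : ι → Q)
    (hc : ∀ i j, i ≠ j → IsUnit (c i - c j)) {T : LaurentSeries Q} {i : ι} {e : ℕ} (he : 0 < e)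
    (h : AtPuncture T (c i) e) : LeadAt ((punct c).eval₂ HahnSeries.C T) e := by
  classical
  rw [punct, eval₂_finsetProd, ← Finset.mul_prod_erase _ _ (Finset.mem_univ i)]
  have hrest : LeadAt (∏ j ∈ Finset.univ.erase i, eval₂ HahnSeries.C T (X - C (c j))) 0 := by
    refine Finset.prod_induction _ (fun G => LeadAt G 0)
      (fun a b ha hb => by simpa using ha.mul hb) leadAt_one fun j hj => ?_
    rw [eval₂_sub, eval₂_X, eval₂_C]
    exact leadAt_eval₂_sub he h (hc i j (Finset.ne_of_mem_erase hj).symm)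
  rw [eval₂_sub, eval₂_X, eval₂_C]
  simpa using LeadAt.mul h hrest

/-- A numerator vanishing to high order at every puncture is divisible by the puncture product. -/
theorem exists_eq_punct_pow_mul {ι : Type*} [Fintype ι] (c : ι → Q)
    (hc : ∀ i j, i ≠ j → IsUnit (c i - c j)) (T : ι → LaurentSeries Q) {e : ℕ} (he : 0 < e)
    (hT : ∀ i, AtPuncture (T i) (c i) e) : ∀ (d : ℕ) (P : Q[X]),
    (∀ i, GeOrd (P.eval₂ HahnSeries.C (T i)) (e * d)) → ∃ P', P = punct c ^ d * P' := by
  classical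
  intro d
  induction d with
  | zero => exact fun P _ => ⟨P, by simp⟩
  | succ d ih =>
    intro P hP
    have hroot : ∀ i, P.IsRoot (c i) := by
      intro i
      obtain ⟨P₁, hP₁⟩ : (X - C (c i)) ∣ P - C (P.eval (c i)) := by
        rw [dvd_iff_isRoot]; simp [IsRoot.def]
      have h2 := congrArg (fun R : Q[X] => (R.eval₂ HahnSeries.C (T i)).coeff 0) hP₁
      simp only [eval₂_sub, eval₂_C, eval₂_mul, eval₂_X, HahnSeries.coeff_sub] at h2
      have hg : GeOrd (P₁.eval₂ HahnSeries.C (T i)) 0 := by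
        rw [eval₂_eq_sum_range]
        refine GeOrd.sum _ _ fun j _ => ?_
        have hT0 : GeOrd (T i) 0 := by
          have := ((hT i).1.mono (b := 0) (by omega)).add (geOrd_C (c i))
          simpa using this
        simpa using (geOrd_C (P₁.coeff j)).mul (hT0.pow j)
      rw [(hP i) 0 (by positivity), ((hT i).1.mul hg) 0 (by simpa using he)] at h2
      simpa [HahnSeries.C_apply, IsRoot.def] using h2.symm
    obtain ⟨P₁, rfl⟩ : punct c ∣ P := by
      refine Finset.prod_dvd_of_coprime (fun i _ j _ hij =>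
        isCoprime_X_sub_C_of_isUnit_sub (hc i j hij)) fun i _ => dvd_iff_isRoot.2 (hroot i)
    obtain ⟨P', rfl⟩ := ih P₁ fun i => by
      have h1 := hP i
      rw [eval₂_mul, mul_comm] at h1
      exact (GeOrd.of_mul_leadAt (leadAt_punct c hc he (hT i)) h1).mono (by push_cast; ring_nf; rfl)
    exact ⟨P', by ring⟩

theorem leadAt_punct_infty {ι : Type*} [Fintype ι] (c : ι → Q) {T : LaurentSeries Q} {e : ℕ}
    (he : 0 < e) (hT : LeadAt T (-(e : ℤ))) :
    LeadAt ((punct c).eval₂ HahnSeries.C T) (-(e * Fintype.card ι : ℤ)) := by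
  classical
  rw [punct, eval₂_finsetProd]
  have : ∀ s : Finset ι, LeadAt (∏ i ∈ s, eval₂ HahnSeries.C T (X - C (c i))) (-(e * s.card : ℤ)) := by
    intro s
    induction s using Finset.induction with
    | empty => simpa using leadAt_one
    | insert i s hi ih =>
      rw [Finset.prod_insert hi, Finset.card_insert_of_notMem hi]
      have h1 : LeadAt (eval₂ HahnSeries.C T (X - C (c i))) (-(e : ℤ)) := by
        rw [eval₂_sub, eval₂_X, eval₂_C]
        refine ⟨fun k hk => ?_, ?_⟩
        · rw [HahnSeries.coeff_sub, hT.1 k hk, geOrd_C (c i) k (by omega), sub_zero]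
        · rw [HahnSeries.coeff_sub, geOrd_C (c i) _ (by omega), sub_zero]
          exact hT.2
      have := h1.mul ih
      convert this using 1
      push_cast; ring
  exact this Finset.univ

theorem natDegree_le_of_geOrd {T : LaurentSeries Q} {e : ℕ} (he : 0 < e)
    (hT : LeadAt T (-(e : ℤ))) {P : Q[X]} {D : ℕ}
    (hP : GeOrd (P.eval₂ HahnSeries.C T) (-(e * D : ℤ))) : P.natDegree ≤ D := by
  by_contra hlt
  push Not at hlt
  have hlc : P.leadingCoeff ≠ 0 := by
    rw [Ne, leadingCoeff_eq_zero]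
    rintro rfl
    simp at hlt
  have h1 := hP (-(e * P.natDegree : ℤ)) (by
    have : (e : ℤ) * D < e * P.natDegree := by gcongr
    omega)
  rw [eval₂_eq_sum_range, HahnSeries.coeff_sum, Finset.sum_eq_single P.natDegree] at h1
  · have h2 := (hT.1.pow P.natDegree).coeff_mul_add (geOrd_C P.leadingCoeff)
    have hC0 : (HahnSeries.C P.leadingCoeff : LaurentSeries Q).coeff 0 = P.leadingCoeff := by simp
    rw [add_zero, hT.1.coeff_pow, hC0] at h2
    rw [mul_comm, show -(e * P.natDegree : ℤ) = (P.natDegree : ℤ) * -(e : ℤ) by ring] at h1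
    rw [← coeff_natDegree] at h2 hlc
    exact hlc ((hT.2.pow P.natDegree).mul_right_eq_zero.1 (h2.symm.trans h1))
  · intro i hi hne
    have hi' : i < P.natDegree := lt_of_le_of_ne (Nat.lt_succ_iff.1 (Finset.mem_range.1 hi)) hne
    refine ((geOrd_C (P.coeff i)).mul (hT.1.pow i)) _ ?_
    have : (e : ℤ) * i < e * P.natDegree := by gcongr
    have e2 : (i : ℤ) * -(e : ℤ) = -((e : ℤ) * i) := by ring
    omega
  · simp

/-- A rational function with bounded poles at all punctures lies in a fixed finite span. -/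
theorem exists_bounded_numerator {ι : Type*} [Fintype ι] (c : ι → Q)
    (hc : ∀ i j, i ≠ j → IsUnit (c i - c j)) (T : ι → LaurentSeries Q) {T₀ : LaurentSeries Q}
    {e : ℕ} (he : 0 < e) (hT : ∀ i, AtPuncture (T i) (c i) e) (hT₀ : LeadAt T₀ (-(e : ℤ)))
    {m s : ℕ} {P : Q[X]} {v : ι → LaurentSeries Q} {v₀ : LaurentSeries Q}
    (hv : ∀ i, GeOrd (v i) (-(e * m : ℤ))) (hv₀ : GeOrd v₀ (-(e * m : ℤ)))
    (hP : ∀ i, v i * (punct c).eval₂ HahnSeries.C (T i) ^ s = P.eval₂ HahnSeries.C (T i))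
    (hP₀ : v₀ * (punct c).eval₂ HahnSeries.C T₀ ^ s = P.eval₂ HahnSeries.C T₀) :
    ∃ P' : Q[X], P'.natDegree ≤ m * (Fintype.card ι + 1) ∧
      v₀ * (punct c).eval₂ HahnSeries.C T₀ ^ m = P'.eval₂ HahnSeries.C T₀ := by
  obtain ⟨P', hP'⟩ := exists_eq_punct_pow_mul c hc T he hT s (P * punct c ^ m) fun i => by
    rw [eval₂_mul, eval₂_pow, ← hP, mul_assoc, ← pow_add]
    exact ((hv i).mul (leadAt_pow (leadAt_punct c hc he (hT i)) (s + m)).1).mono (by push_cast; ring_nf; rfl)
  have h0 : v₀ * (punct c).eval₂ HahnSeries.C T₀ ^ m = P'.eval₂ HahnSeries.C T₀ := by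
    obtain ⟨u, hu, -⟩ := (leadAt_pow (leadAt_punct_infty c he hT₀) s).exists_inv
    refine (Units.mul_right_inj u).1 ?_
    rw [hu, ← mul_assoc, mul_comm (_ ^ s) v₀, hP₀, ← eval₂_pow, ← eval₂_mul, hP', eval₂_mul,
      eval₂_pow]
  refine ⟨P', natDegree_le_of_geOrd he hT₀ ?_, h0⟩
  rw [← h0]
  exact (hv₀.mul (leadAt_pow (leadAt_punct_infty c he hT₀) m).1).mono (by push_cast; ring_nf; rfl)

end FLTAgent.Carayol
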