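import Fermat.Agent.Carayol.Root
import Fermat.Agent.Carayol.PartialFraction

/-!
# From approximate roots to a root in the function field
-/

set_option autoImplicit false
set_option linter.style.haveILetI false

noncomputable section

namespace FLTAgent.Carayol

open FLTAgent.ModEq FLTAgent.GoodModel ModularCurve Polynomial

section Factor

variable {O : Type*} [CommRing O] [IsDomain O] [IsDiscreteValuationRing O]
  {R F W : Type*} [CommRing R] [IsDomain R] [Field F] [Algebra R F] [IsFractionRing R F]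
  [CommRing W]

/-- The expansion of an element with divisor divisible by `n` is, up to a unit power series, an
`n`th power. -/
theorem exists_series_factor {k : Type*} [Field k] (φ : O →+* k) {ϖ : O} (hirr : Irreducible ϖ)
    (hker : ∀ x, φ x = 0 → ϖ ∣ x) (hϖ : φ ϖ = 0) (c : W →+* R) (cO : W →+* O)
    (ι : R →+* LaurentSeries O) (hι : Function.Injective ι)
    (hcomm : ∀ w, ι (c w) = HahnSeries.C (cO w)) {n : ℕ} (hn : 0 < n) {f : R} (hf : f ≠ 0)
    (hval : ∀ v : F → ℤ, IsIntVal ((algebraMap R F).comp c) v → (n : ℤ) ∣ v (algebraMap R F f))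
    (hnz : coeffMap φ (ι f) ≠ 0) :
    ∃ (v h : LaurentSeries O) (m : ℤ), GeOrd v 0 ∧ φ (v.coeff 0) ≠ 0 ∧ GeOrd h m ∧
      coeffMap φ h ≠ 0 ∧ ι f = v * h ^ n := by
  classical
  haveI : UniqueFactorizationMonoid (PowerSeries O) := uniqueFactorizationMonoid_powerSeries
  haveI : UniqueFactorizationMonoid (LaurentSeries O) :=
    UniqueFactorizationMonoid.of_isLocalization (Submonoid.powers (PowerSeries.X : PowerSeries O)) _
  have hι0 : ∀ {r : R}, r ≠ 0 → ι r ≠ 0 := fun {r} hr h => hr (hι (h.trans (map_zero ι).symm))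
  have hCk : coeffMap φ (HahnSeries.C ϖ) = 0 := by
    rw [HahnSeries.C_apply, coeffMap_single, hϖ, HahnSeries.single_eq_zero]
  -- the valuation at the puncture
  obtain ⟨w, hw, hw1⟩ := exists_isIntVal_extend (F := F) c (fun r => (ι r).order)
    (fun {a b} ha hb => by simp only [map_mul]; exact HahnSeries.order_mul (hι0 ha) (hι0 hb))
    (fun {a b} _ _ hab => by
      simp only [map_add]
      exact HahnSeries.min_order_le_order_add (by rw [← map_add]; exact hι0 hab))
    (fun z hz => by
      simp only [hcomm, HahnSeries.C_apply]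
      exact HahnSeries.order_single fun h => hι0 hz (by rw [hcomm, h, map_zero]))
  have hord := hval w hw
  rw [hw1 f hf] at hord
  -- the other valuations
  have hϖunit : ∀ {G : LaurentSeries O}, IsUnit G → coeffMap φ G ≠ 0 := fun hG =>
    (hG.map (coeffMap φ)).ne_zero
  obtain ⟨u, h, huh⟩ := exists_eq_unit_mul_pow_of_val (F := F) c ι hι hf hval fun p hp hpf z hz hpz => by
    have hcz : cO z ≠ 0 := fun h => hι0 hz (by rw [hcomm, h, map_zero])
    obtain ⟨i, hi⟩ := IsDiscreteValuationRing.associated_pow_irreducible hcz hirr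
    rw [hcomm] at hpz
    have hp' : p ∣ HahnSeries.C ϖ := by
      refine hp.dvd_of_dvd_pow (n := i) ?_
      rw [← map_pow]
      exact hpz.trans (hi.map HahnSeries.C).dvd
    have hprime : Prime (HahnSeries.C ϖ : LaurentSeries O) := by
      refine ⟨HahnSeries.C_ne_zero hirr.ne_zero, fun h => hϖunit h hCk, fun a b hab => ?_⟩
      have hdvd : ∀ {G : LaurentSeries O}, coeffMap φ G = 0 → HahnSeries.C ϖ ∣ G := fun {G} hG => by
        have hall : ∀ j, ϖ ∣ G.coeff j := fun j => hker _ (by rw [← coeffMap_coeff, hG, HahnSeries.coeff_zero])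
        choose d hd using hall
        refine ⟨{ coeff := fun j => if G.coeff j = 0 then 0 else d j
                  isPWO_support' := G.isPWO_support.mono fun j hj => by
                    simp only [Function.mem_support, ne_eq, ite_eq_left_iff, not_forall] at hj
                    exact hj.1 }, ?_⟩
        ext j
        rw [HahnSeries.C_mul_eq_smul, HahnSeries.coeff_smul, smul_eq_mul]
        show _ = ϖ * (if G.coeff j = 0 then 0 else d j)
        split_ifs with h0
        · rw [h0, mul_zero]
        · exact hd j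
      obtain ⟨d, hd⟩ := hab
      have : coeffMap φ a * coeffMap φ b = 0 := by rw [← map_mul, hd, map_mul, hCk, zero_mul]
      exact (mul_eq_zero.1 this).imp hdvd hdvd
    have hass : Associated p (HahnSeries.C ϖ) := hp.associated_of_dvd hprime hp'
    obtain ⟨d, hd⟩ := hass.symm.dvd.trans hpf
    exact hnz (by rw [hd, map_mul, hCk, zero_mul])
  have hk : coeffMap φ (u : LaurentSeries O) * coeffMap φ h ^ n = coeffMap φ (ι f) := by
    rw [huh, map_mul, map_pow]
  have hhk : coeffMap φ h ≠ 0 := fun hh => hnz (by rw [← hk, hh, zero_pow hn.ne', mul_zero])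
  have hh0 : h ≠ 0 := fun hh => hhk (by rw [hh, map_zero])
  -- a unit series has a unit leading coefficient
  set a := (u : LaurentSeries O).order with ha
  have hulead : LeadAt (u : LaurentSeries O) a := by
    refine ⟨fun j hj => HahnSeries.coeff_eq_zero_of_lt_order hj, ?_⟩
    have h1 := (u.mul_inv : (u : LaurentSeries O) * _ = 1)
    have h2 := HahnSeries.order_mul u.ne_zero u⁻¹.ne_zero
    rw [h1, HahnSeries.order_one] at h2
    set b := ((u⁻¹ : (LaurentSeries O)ˣ) : LaurentSeries O).order
    have ga : GeOrd (u : LaurentSeries O) a := fun j hj => HahnSeries.coeff_eq_zero_of_lt_order hj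
    have gb : GeOrd ((u⁻¹ : (LaurentSeries O)ˣ) : LaurentSeries O) b := fun j hj =>
      HahnSeries.coeff_eq_zero_of_lt_order hj
    have h3 := ga.coeff_mul_add gb
    rw [h1, show a + b = 0 by omega] at h3
    refine IsUnit.of_mul_eq_one _ (h3.symm.trans (by simp))
  rw [huh, HahnSeries.order_mul u.ne_zero (pow_ne_zero n hh0), HahnSeries.order_pow, nsmul_eq_mul,
    ← ha] at hord
  obtain ⟨t, ht⟩ := (Int.dvd_add_left (dvd_mul_right _ _)).1 hord
  have hsn : (HahnSeries.single t (1 : O)) ^ n = HahnSeries.single a 1 := by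
    rw [HahnSeries.single_pow, one_pow, nsmul_eq_mul, ht]
  have hva : LeadAt ((u : LaurentSeries O) * HahnSeries.single (-a) 1) 0 := by
    have := hulead.mul (H := HahnSeries.single (-a) (1 : O)) (b := -a)
      ⟨fun j hj => HahnSeries.coeff_single_of_ne hj.ne, by simp⟩
    simpa using this
  refine ⟨(u : LaurentSeries O) * HahnSeries.single (-a) 1, h * HahnSeries.single t 1, h.order + t,
    hva.1, fun h0 => ?_, ?_, ?_, ?_⟩
  · exact (hva.2.map φ).ne_zero h0
  · exact GeOrd.mul (fun j hj => HahnSeries.coeff_eq_zero_of_lt_order hj)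
      fun j hj => HahnSeries.coeff_single_of_ne hj.ne
  · rw [map_mul, coeffMap_single, map_one]
    exact mul_ne_zero hhk (by simp)
  · rw [huh, mul_pow, hsn]
    calc (u : LaurentSeries O) * h ^ n
        = (u : LaurentSeries O) * h ^ n * (HahnSeries.single (-a) 1 * HahnSeries.single a 1) := by
          rw [HahnSeries.single_mul_single, neg_add_cancel, one_mul, HahnSeries.single_zero_one, mul_one]
      _ = _ := by ring

end Factor

section Aux

variable {O : Type*} [CommRing O]

/-- An element with bounded poles at every puncture modulo an ideal, as a combination of powers of the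
parameter. -/
theorem exists_coords {Q : Type*} [CommRing Q] (q : O →+* Q) (hq : Function.Surjective q)
    {ι : Type*} [Fintype ι] (cp : ι → O) (hcp : ∀ i j, i ≠ j → IsUnit (cp i - cp j))
    (T : Option ι → LaurentSeries O) {e : ℕ} (he : 0 < e)
    (hT : ∀ i, AtPuncture (T (some i)) (cp i) e) (hT₀ : LeadAt (T none) (-(e : ℤ)))
    (t : Option ι → LaurentSeries O) {M : ℕ} (ht : ∀ c, GeOrd (coeffMap q (t c)) (-(e * M : ℤ)))
    {P : O[X]} {s : ℕ}
    (hP : ∀ c, t c * (punct cp).eval₂ HahnSeries.C (T c) ^ s = P.eval₂ HahnSeries.C (T c)) :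
    ∃ b : Fin (M * (Fintype.card ι + 1) + 1) → O,
      coeffMap q (t none * (punct cp).eval₂ HahnSeries.C (T none) ^ M -
        ∑ x : Fin (M * (Fintype.card ι + 1) + 1), HahnSeries.C (b x) * T none ^ (x : ℕ)) = 0 := by
  classical
  have hmapev : ∀ (P : O[X]) (S : LaurentSeries O),
      coeffMap q (P.eval₂ HahnSeries.C S) = (P.map q).eval₂ HahnSeries.C (coeffMap q S) := by
    intro P S
    rw [hom_eval₂, eval₂_map]
    congr 1
    ext x : 1
    simp [HahnSeries.C_apply]
  have hpm : (punct cp).map q = punct fun i => q (cp i) := by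
    simp [punct, Polynomial.map_prod]
  have hlead : ∀ {S : LaurentSeries O} {z : ℤ}, LeadAt S z → LeadAt (coeffMap q S) z :=
    fun {S z} h => ⟨fun i hi => by simp [h.1 i hi], by simpa using h.2.map q⟩
  obtain ⟨P', hdeg, hP'⟩ := exists_bounded_numerator (fun i => q (cp i))
    (fun i i' hne => by rw [← map_sub]; exact (hcp i i' hne).map q)
    (fun i => coeffMap q (T (some i))) (T₀ := coeffMap q (T none)) he
    (fun i => by
      have := hlead (hT i)
      rwa [map_sub, HahnSeries.C_apply, coeffMap_single, ← HahnSeries.C_apply] at this)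
    (hlead hT₀) (m := M) (s := s) (P := P.map q)
    (v := fun i => coeffMap q (t (some i))) (v₀ := coeffMap q (t none))
    (fun i => ht (some i)) (ht none)
    (fun i => by rw [← hpm, ← hmapev, ← hmapev, ← map_pow, ← map_mul, hP])
    (by rw [← hpm, ← hmapev, ← hmapev, ← map_pow, ← map_mul, hP])
  choose b hb using fun x : ℕ => hq (P'.coeff x)
  refine ⟨fun x => b x, ?_⟩
  have hdeg' : P'.natDegree < M * (Fintype.card ι + 1) + 1 := Nat.lt_succ_of_le hdeg
  rw [map_sub, map_mul, map_pow, hmapev, hpm, hP', sub_eq_zero, eval₂_eq_sum_range' _ hdeg',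
    map_sum, ← Fin.sum_univ_eq_sum_range]
  refine Finset.sum_congr rfl fun x _ => ?_
  rw [map_mul, map_pow, HahnSeries.C_apply, HahnSeries.C_apply, coeffMap_single, hb]

/-- Reconstruction of a vector from its pairings by the trace form. -/
theorem det_mul_eq_sum [IsDomain O] {N : ℕ} (V : Matrix (Fin N) (Fin N) O) (hV : V.det ≠ 0)
    (w : Fin N → O) (i : Fin N) :
    (V.transpose * V).det * w i =
      ∑ l, (∑ j, (V.transpose * V).adjugate l j * ∑ m, w m * V m j) * V i l := by
  set Tm := V.transpose * V with hTm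
  have hmat : V * (Tm.adjugate * V.transpose) = Tm.det • (1 : Matrix (Fin N) (Fin N) O) := by
    have h1 : (V * (Tm.adjugate * V.transpose) - Tm.det • 1) * V = 0 := by
      rw [sub_mul, mul_assoc, mul_assoc, ← hTm, Matrix.adjugate_mul, Matrix.mul_smul, mul_one,
        Matrix.smul_mul, one_mul, sub_self]
    have h2 := congrArg (fun X => X * V.adjugate) h1
    simp only [zero_mul, mul_assoc, Matrix.mul_adjugate, Matrix.mul_smul, mul_one] at h2
    rw [smul_eq_zero] at h2
    exact sub_eq_zero.1 (h2.resolve_left hV)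
  have h1 := congrFun (congrArg (fun X : Matrix (Fin N) (Fin N) O => X.mulVec w) hmat) i
  simp only [Matrix.smul_mulVec, Matrix.one_mulVec, Pi.smul_apply, smul_eq_mul,
    ← Matrix.mulVec_mulVec] at h1
  rw [← h1]
  simp only [Matrix.mulVec, dotProduct, Matrix.transpose_apply]
  refine Finset.sum_congr rfl fun l _ => ?_
  rw [mul_comm]
  congr 1
  refine Finset.sum_congr rfl fun j _ => ?_
  congr 1
  exact Finset.sum_congr rfl fun m _ => mul_comm _ _

end Aux

section Main

variable {L k : Type*} [Field L] [IsAlgClosed L] [Field k] {A : ValuationSubring L} {π : A →+* k}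
  {O : Type*} [CommRing O] [IsDomain O] [IsDiscreteValuationRing O]
  {R F W : Type*} [CommRing R] [IsDomain R] [Field F] [Algebra R F] [IsFractionRing R F] [CommRing W]
  {ι : Type*} [Fintype ι] {N : ℕ}

/-- The series in `L` of a series in `O`. -/
def toL (jO : O →+* A) : LaurentSeries O →+* LaurentSeries L := coeffMap (A.subtype.comp jO)

/-- From a root modulo a topologically nilpotent element to a root in the function field. -/
theorem exists_nth_root (hπ : Function.Surjective π) (hA : Specialization.RankOne π) (jO : O →+* A)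
    (hjO : Function.Injective jO) {ϖ : O} (hirr : Irreducible ϖ) (hϖ : π (jO ϖ) = 0)
    (hker : ∀ x, π (jO x) = 0 → ϖ ∣ x) (hsurj : Function.Surjective fun x => π (jO x))
    (cW : W →+* R) (cO : W →+* O) (cp : ι → O) (hcp : ∀ i j, i ≠ j → IsUnit (cp i - cp j))
    (T : Option ι → LaurentSeries O) {e : ℕ} (he : 0 < e)
    (hT : ∀ i, AtPuncture (T (some i)) (cp i) e) (hT₀ : LeadAt (T none) (-(e : ℤ)))
    (σ : Option ι → Fin N → R →+* LaurentSeries O) (hσ : ∀ c l, Function.Injective (σ c l))
    (hconst : ∀ c l w, σ c l (cW w) = HahnSeries.C (cO w))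
    (htr : ∀ a : R, ∃ (P : O[X]) (s : ℕ), ∀ c,
      (∑ l, σ c l a) * (punct cp).eval₂ HahnSeries.C (T c) ^ s = P.eval₂ HahnSeries.C (T c))
    (r : Fin N → R) (hV : (Matrix.of fun l j => σ none l (r j)).det ≠ 0)
    {n : ℕ} (hn : (n : k) ≠ 0) {f : R} (hf : f ≠ 0)
    (hval : ∀ v : F → ℤ, IsIntVal ((algebraMap R F).comp cW) v → (n : ℤ) ∣ v (algebraMap R F f))
    (hnz : ∀ c l, coeffMap (π.comp jO) (σ c l f) ≠ 0)
    {u : R} (hu : (n : R) * u = 1) {ϖR a₀ j₀ : R} (hϖR : ∀ c l, HahnSeries.C ϖ ∣ σ c l ϖR)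
    (ha₀ : a₀ ^ n = f * (1 + j₀)) {e₀ : ℕ} (hj₀ : ϖR ∣ j₀ ^ e₀)
    (l₀ : Fin N) (K : Subfield (LaurentSeries L)) (hC : ∀ x : L, HahnSeries.C x ∈ K)
    (hTK : toL jO (T none) ∈ K) (hRK : ∀ a, toL jO (σ none l₀ a) ∈ K) :
    ∃ g ∈ K, g ^ n = toL jO (σ none l₀ f) := by
  classical
  set φ : O →+* k := π.comp jO with hφ
  have hn0 : 0 < n := Nat.pos_of_ne_zero fun h => hn (by simp [h])
  have hϖ0 : ϖ ≠ 0 := hirr.ne_zero
  have hfac := fun c l => exists_series_factor (F := F) φ hirr hker hϖ cW cO (σ c l) (hσ c l)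
    (hconst c l) hn0 hf hval (hnz c l)
  choose v h m hv hv0 hh hh0 hfact using hfac
  -- a uniform bound for the poles
  obtain ⟨M, hM⟩ : ∃ M : ℕ, ∀ c l j, -(M : ℤ) ≤ m c l + (σ c l (r j)).order := by
    obtain ⟨B, hB⟩ := (Set.finite_range fun x : Option ι × Fin N × Fin N =>
      -(m x.1 x.2.1 + (σ x.1 x.2.1 (r x.2.2)).order)).bddAbove
    refine ⟨B.toNat, fun c l j => ?_⟩
    have := hB ⟨(c, l, j), rfl⟩
    simp only at this
    omega
  set Δ : LaurentSeries O := (punct cp).eval₂ HahnSeries.C (T none) with hΔ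
  set D := M * (Fintype.card ι + 1)
  set V : Matrix (Fin N) (Fin N) (LaurentSeries O) := Matrix.of fun l j => σ none l (r j) with hVdef
  set Tm := V.transpose * V with hTm
  set E : Fin N × Fin (D + 1) → LaurentSeries O := fun x =>
    T none ^ (x.2 : ℕ) * ∑ l, Tm.adjugate l x.1 * σ none l₀ (r l) with hE
  set G : LaurentSeries O := (Tm.det * Δ ^ M) ^ n * σ none l₀ f with hG
  have hjL : Function.Injective (A.subtype.comp jO) := Subtype.val_injective.comp hjO
  have htoL : Function.Injective (toL jO) := fun x y hxy => HahnSeries.ext (funext fun i => hjL (by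
    simpa [toL] using congrArg (fun z : LaurentSeries L => z.coeff i) hxy))
  obtain ⟨c₀, hc₀⟩ := exists_root_of_lattice hπ hA (fun x => toL jO (E x)) (toL jO G) n
    (a := jO ϖ) hϖ (fun h0 => hϖ0 (hjO (h0.trans (map_zero jO).symm))) fun i => by
    obtain ⟨a, j, haj, hj⟩ := exists_root_approx hu ha₀ hj₀ (i + 1)
    set q : O →+* O ⧸ Ideal.span {ϖ ^ (i + 1)} := Ideal.Quotient.mk _ with hq
    have hq0 : ∀ x, q x = 0 ↔ ϖ ^ (i + 1) ∣ x := fun x => by
      rw [hq, Ideal.Quotient.eq_zero_iff_mem, Ideal.mem_span_singleton]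
    have hqC : coeffMap q (HahnSeries.C ϖ ^ (i + 1)) = 0 := by
      rw [← map_pow, HahnSeries.C_apply, coeffMap_single, (hq0 _).2 dvd_rfl, HahnSeries.single_eq_zero]
    have hσj : ∀ c l, HahnSeries.C ϖ ^ (i + 1) ∣ σ c l j := fun c l =>
      (pow_dvd_pow_of_dvd (hϖR c l) _).trans (by rw [← map_pow]; exact map_dvd _ hj)
    have hs : ∀ c l, HahnSeries.C ϖ ^ (i + 1) ∣ σ c l a ^ n - v c l * h c l ^ n := fun c l => by
      rw [← hfact, ← map_pow (σ c l), haj, map_mul, map_add, map_one, show σ c l f * (1 + σ c l j) - σ c l f =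
        σ c l f * σ c l j by ring]
      exact dvd_mul_of_dvd_right (hσj c l) _
    have hpole : ∀ c l, GeOrd (coeffMap q (σ c l a)) (m c l) := fun c l j hj => by
      rw [coeffMap_coeff, hq0]
      exact pole_bound φ ϖ hn hker hsurj hϖ hϖ0 (hv c l) (hv0 c l) (hh c l) (hh0 c l) (hs c l) j hj
    set t : Option ι → Fin N → LaurentSeries O := fun c j => ∑ l, σ c l (a * r j) with ht
    have htg : ∀ c j, GeOrd (coeffMap q (t c j)) (-(e * M : ℤ)) := fun c j => by
      rw [ht, map_sum]
      refine GeOrd.sum _ _ fun l _ => ?_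
      rw [map_mul, map_mul]
      refine ((hpole c l).mul (b := (σ c l (r j)).order) fun i hi => ?_).mono ?_
      · rw [coeffMap_coeff, HahnSeries.coeff_eq_zero_of_lt_order hi, map_zero]
      · have : (M : ℤ) ≤ e * M := le_mul_of_one_le_left (by positivity) (by exact_mod_cast he)
        have := hM c l j
        omega
    have hlift : ∀ j : Fin N, ∃ b : Fin (D + 1) → O,
        coeffMap q (t none j * Δ ^ M - ∑ x : Fin (D + 1), HahnSeries.C (b x) * T none ^ (x : ℕ)) = 0 := by
      intro j
      obtain ⟨P, s, hP⟩ := htr (a * r j)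
      exact exists_coords q Ideal.Quotient.mk_surjective cp hcp T he hT hT₀ (fun c => t c j)
        (fun c => htg c j) hP
    choose b hb using hlift
    refine ⟨fun x => jO (b x.1 x.2), fun z => ?_⟩
    -- the linear algebra of the trace form
    have hrec : Tm.det * σ none l₀ a =
        ∑ l, (∑ j, Tm.adjugate l j * t none j) * σ none l₀ (r l) := by
      simp only [ht, map_mul]
      exact det_mul_eq_sum V hV (fun l => σ none l a) l₀
    have hcong : coeffMap q ((∑ x, HahnSeries.C (b x.1 x.2) * E x) ^ n - G) = 0 := by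
      have h1 : coeffMap q (∑ x, HahnSeries.C (b x.1 x.2) * E x) =
          coeffMap q (Tm.det * Δ ^ M * σ none l₀ a) := by
        have h2 : Tm.det * Δ ^ M * σ none l₀ a =
            ∑ j, (t none j * Δ ^ M) * ∑ l, Tm.adjugate l j * σ none l₀ (r l) := by
          rw [mul_right_comm, hrec]
          simp only [Finset.sum_mul, Finset.mul_sum]
          rw [Finset.sum_comm]
          exact Finset.sum_congr rfl fun j _ => Finset.sum_congr rfl fun l _ => by ring
        rw [h2, Fintype.sum_prod_type, map_sum, map_sum]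
        refine Finset.sum_congr rfl fun j _ => ?_
        have h3 := hb j
        rw [map_sub, sub_eq_zero] at h3
        rw [map_mul, h3, ← map_mul]
        congr 1
        rw [hE, Finset.sum_mul]
        exact Finset.sum_congr rfl fun x _ => by ring
      rw [map_sub, map_pow, h1, ← map_pow, ← map_sub, hG, mul_pow _ (σ none l₀ a),
        ← map_pow (σ none l₀), haj, map_mul (σ none l₀), map_add (σ none l₀), map_one (σ none l₀),
        show (Tm.det * Δ ^ M) ^ n * (σ none l₀ f * (1 + σ none l₀ j)) - (Tm.det * Δ ^ M) ^ n * σ none l₀ f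
          = (Tm.det * Δ ^ M) ^ n * σ none l₀ f * σ none l₀ j by ring]
      obtain ⟨w, hw⟩ := hσj none l₀
      rw [hw, map_mul, map_mul, map_mul, hqC, zero_mul, mul_zero]
    have h1 := congrArg (fun S : LaurentSeries (O ⧸ Ideal.span {ϖ ^ (i + 1)}) => S.coeff z) hcong
    simp only [coeffMap_coeff, HahnSeries.coeff_zero] at h1
    obtain ⟨w, hw⟩ := (hq0 _).1 h1
    have hsum : (∑ x, HahnSeries.C ((jO (b x.1 x.2) : A) : L) * toL jO (E x)) ^ n - toL jO G =
        toL jO ((∑ x, HahnSeries.C (b x.1 x.2) * E x) ^ n - G) := by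
      have hC' : ∀ x : O, toL jO (HahnSeries.C x) = HahnSeries.C ((jO x : A) : L) := fun x => by
        rw [toL, HahnSeries.C_apply, coeffMap_single]
        rfl
      simp only [map_sub, map_pow, map_sum, map_mul, hC']
    rw [hsum]
    show (A.subtype.comp jO) _ / _ ∈ A
    rw [hw, RingHom.comp_apply, map_mul, map_pow, map_mul, map_pow, pow_succ]
    show ((jO ϖ : A) : L) ^ i * (jO ϖ : A) * (jO w : A) / ((jO ϖ : A) : L) ^ i ∈ A
    rw [mul_assoc, mul_div_cancel_left₀]
    · exact mul_mem (jO ϖ).2 (jO w).2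
    · exact pow_ne_zero _ fun h0 => hϖ0 (hjL (h0.trans (map_zero _).symm))
  -- the root lies in the subfield
  have hΔne : Δ ≠ 0 := by
    obtain ⟨w, hw, -⟩ := (leadAt_punct_infty cp he hT₀).exists_inv
    rw [hΔ, ← hw]
    exact w.ne_zero
  set d := Tm.det * Δ ^ M with hd
  have hd0 : toL jO d ≠ 0 := by
    refine fun h0 => mul_ne_zero ?_ (pow_ne_zero M ?_) (htoL (h0.trans (map_zero _).symm))
    · rw [hTm, Matrix.det_mul, Matrix.det_transpose]; exact mul_ne_zero hV hV
    · exact hΔne
  have hCO : ∀ x : O, toL jO (HahnSeries.C x) ∈ K := fun x => by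
    rw [toL, HahnSeries.C_apply, coeffMap_single]
    exact hC _
  have hev : ∀ P : O[X], toL jO (P.eval₂ HahnSeries.C (T none)) ∈ K := fun P => by
    rw [eval₂_eq_sum_range, map_sum]
    exact sum_mem fun x _ => by rw [map_mul, map_pow]; exact mul_mem (hCO _) (pow_mem hTK _)
  have hΔK : toL jO Δ ∈ K := hev _
  have hTmK : ∀ l j, toL jO (Tm l j) ∈ K := fun l j => by
    obtain ⟨P, s, hP⟩ := htr (r l * r j)
    have h1 : Tm l j * Δ ^ s = P.eval₂ HahnSeries.C (T none) := by
      rw [← hP none]
      congr 1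
      simp [hTm, hVdef, Matrix.mul_apply]
    have h2 := congrArg (toL jO) h1
    rw [map_mul, map_pow] at h2
    have hΔ0 : toL jO Δ ≠ 0 := fun h0 => hΔne (htoL (h0.trans (map_zero _).symm))
    rw [eq_div_iff (pow_ne_zero s hΔ0) |>.2 h2]
    exact div_mem (hev _) (pow_mem hΔK s)
  have hadj : ∀ l j, toL jO (Tm.adjugate l j) ∈ K ∧ toL jO Tm.det ∈ K := fun l j => by
    set T' : Matrix (Fin N) (Fin N) K := Matrix.of fun l j => ⟨_, hTmK l j⟩ with hT'
    have hmap : (toL jO).mapMatrix Tm = K.subtype.mapMatrix T' := rfl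
    constructor
    · have h1 := congrFun (congrFun ((toL jO).map_adjugate Tm) l) j
      rw [hmap, ← RingHom.map_adjugate] at h1
      rw [RingHom.mapMatrix_apply, Matrix.map_apply, RingHom.mapMatrix_apply, Matrix.map_apply] at h1
      rw [h1]
      exact (T'.adjugate l j).2
    · have h1 := (toL jO).map_det Tm
      rw [hmap, ← RingHom.map_det] at h1
      rw [h1]
      exact (T'.det).2
  refine ⟨(∑ x, HahnSeries.C (c₀ x) * toL jO (E x)) / toL jO d, div_mem (sum_mem fun x _ => mul_mem (hC _) ?_) ?_, ?_⟩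
  · rw [hE, map_mul, map_pow, map_sum]
    exact mul_mem (pow_mem hTK _) (sum_mem fun l _ => by rw [map_mul]; exact mul_mem (hadj l x.1).1 (hRK _))
  · rw [hd, map_mul, map_pow]
    exact mul_mem (hadj l₀ l₀).2 (pow_mem hΔK _)
  · rw [div_pow, hc₀, hG, map_mul, map_pow, hd, mul_div_cancel_left₀]
    exact pow_ne_zero _ (hd ▸ hd0)

end Main

end FLTAgent.Carayol
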