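import Fermat.Agent.Carayol.Points
import Fermat.Agent.Carayol.Finish

/-!
# The function field of the cover and fibrewise products
-/

set_option autoImplicit false
set_option linter.unusedSectionVars false
set_option linter.style.haveILetI false

noncomputable section

open UpperHalfPlane hiding I I_re I_im
open Filter Topology Complex Function FLTAgent.ModEq FLTAgent.GoodModel ModularCurve
open scoped MatrixGroups Manifold Classical

namespace FLTAgent.Carayol

namespace Ctx

variable {q M0 N' : ℕ} [NeZero M0] [NeZero N'] [NeZero q] [Fact q.Prime] (C : Ctx q M0 N')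

/-- A translate of an element as an element of the big ring. -/
def trEl (l : C.Idx) (a : C.R) : trRing C.S (M0 * (N' * q)) :=
  trComp (C.rep l) (Subring.inclusion C.R_le a)

theorem ser_trEl (l : C.Idx) (a : C.R) : ser (C.trEl l a) = C.emb l a := rfl

theorem trEl_one (a : C.R) : C.trEl C.one' a = Subring.inclusion C.R_le a :=
  Subtype.ext ((C.compg_rep_idx (one_mem _) a).trans (compg_one _))

theorem trEl_perm {γ : SL(2, ℤ)} (hγ : γ ∈ CongruenceSubgroup.Gamma M0) (l : C.Idx) (a : C.R) :
    trComp γ (C.trEl l a) = C.trEl (C.perm hγ l) a :=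
  Subtype.ext (C.compg_rep_perm hγ l (C.stab_R a)).symm

theorem perm_one' {γ : SL(2, ℤ)} (hγ : γ ∈ CongruenceSubgroup.Gamma M0) :
    C.perm hγ C.one' = C.idx hγ := by
  refine C.emb_injective_idx (RingHom.ext fun a => ?_)
  rw [← C.ser_trEl, ← C.ser_trEl, ← C.trEl_perm hγ, C.trEl_one]
  exact congrArg ser (Subtype.ext (C.compg_rep_idx hγ a).symm)

theorem perm_rep_one' (l : C.Idx) : C.perm (C.rep_mem l) C.one' = l := by
  rw [C.perm_one']
  exact Subtype.ext (C.triple_rep l)

theorem isDomain_trRing : IsDomain (trRing C.S (M0 * (N' * q))) :=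
  (ser_injective (S := C.S) (n := M0 * (N' * q))).isDomain _

/-- A separating element. -/
theorem exists_separating : ∃ θ : C.R, Injective fun l => C.emb l θ := by
  set θ : ℕ → C.R := fun t => C.etaR + (t : C.R) * C.xR false + (t : C.R) ^ 2 * C.xR true
  -- the bad parameters
  set P : C.Idx × C.Idx → Polynomial (LaurentSeries C.S) := fun x =>
    Polynomial.C (C.emb x.1 C.etaR - C.emb x.2 C.etaR) +
      Polynomial.C (C.emb x.1 (C.xR false) - C.emb x.2 (C.xR false)) * Polynomial.X +
      Polynomial.C (C.emb x.1 (C.xR true) - C.emb x.2 (C.xR true)) * Polynomial.X ^ 2 with hP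
  have hne : ∀ x : C.Idx × C.Idx, x.1 ≠ x.2 → P x ≠ 0 := by
    intro x hx h
    refine hx (Subtype.ext ?_)
    have h0 := congrArg (fun p => p.coeff 0) h
    have h1 := congrArg (fun p => p.coeff 1) h
    have h2 := congrArg (fun p => p.coeff 2) h
    simp only [hP, Polynomial.coeff_add, Polynomial.coeff_C_mul, Polynomial.coeff_C, Polynomial.coeff_X,
      Polynomial.coeff_X_pow, Polynomial.coeff_zero] at h0 h1 h2
    norm_num at h0 h1 h2
    rw [sub_eq_zero] at h0 h1 h2
    have key : ∀ a : C.R, C.emb x.1 a = C.emb x.2 a →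
        compg (C.rep x.1) (a : ℍ → ℂ) = compg (C.rep x.2) (a : ℍ → ℂ) := fun a h =>
      congrArg (fun z : trRing C.S (M0 * (N' * q)) => (z : ℍ → ℂ)) (ser_injective h)
    rw [← C.triple_rep x.1, ← C.triple_rep x.2]
    have e0 := key C.etaR h0
    have e1 := key (C.xR false) h1
    have e2 := key (C.xR true) h2
    simp only [triple, Prod.mk.injEq]
    refine ⟨e0, ?_, e2⟩
    have hx0 : (C.xR false : ℍ → ℂ) = C.sX := by simp [xR, sb, rX, gr, compg_one]
    rwa [hx0] at e1
  have hcast : Injective (Nat.cast : ℕ → LaurentSeries C.S) := by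
    intro a b h
    rw [← map_natCast (HahnSeries.C : C.S →+* LaurentSeries C.S),
      ← map_natCast (HahnSeries.C : C.S →+* LaurentSeries C.S)] at h
    exact Nat.cast_injective (HahnSeries.C_injective h)
  have hfin : {t : ℕ | ∃ x : C.Idx × C.Idx, x.1 ≠ x.2 ∧ (P x).IsRoot (t : LaurentSeries C.S)}.Finite := by
    refine (Set.finite_iUnion fun x : {x : C.Idx × C.Idx // x.1 ≠ x.2} =>
      (Polynomial.finite_setOf_isRoot (hne x.1 x.2)).preimage hcast.injOn).subset ?_
    rintro t ⟨x, hx, ht⟩
    exact Set.mem_iUnion.2 ⟨⟨x, hx⟩, ht⟩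
  obtain ⟨t, ht⟩ := hfin.exists_notMem
  refine ⟨θ t, fun l l' h => ?_⟩
  by_contra hll
  refine ht ⟨(l, l'), hll, ?_⟩
  simp only [θ, map_add, map_mul, map_pow, map_natCast] at h
  simp [hP]
  linear_combination h

theorem exists_basis : ∃ r : Fin (Fintype.card C.Idx) → C.R,
    (Matrix.of fun i j => C.emb ((Fintype.equivFin C.Idx).symm i) (r j)).det ≠ 0 := by
  obtain ⟨θ, hθ⟩ := C.exists_separating
  refine ⟨fun j => θ ^ (j : ℕ), ?_⟩
  have e : (Matrix.of fun i j : Fin (Fintype.card C.Idx) =>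
      C.emb ((Fintype.equivFin C.Idx).symm i) (θ ^ (j : ℕ))) =
      Matrix.vandermonde fun i => C.emb ((Fintype.equivFin C.Idx).symm i) θ := by
    ext i j
    simp [Matrix.vandermonde]
  rw [e]
  exact Matrix.det_vandermonde_ne_zero_iff.2 (hθ.comp (Fintype.equivFin C.Idx).symm.injective)

/-- A stable function with small traces is a quotient of two elements. -/
theorem exists_frac (hF : C.FixedPart) (φ : trRing C.S (M0 * (N' * q)))
    (hstab : C.Stab (φ : ℍ → ℂ))
    (hser : ∀ (a : C.R) (k : ℤ),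
      (ser (∑ l, trComp (C.rep l) (φ * Subring.inclusion C.R_le a))).coeff k ∈ C.inc.range) :
    ∃ a d : C.R, d ≠ 0 ∧ Subring.inclusion C.R_le d * φ = Subring.inclusion C.R_le a := by
  haveI := C.isDomain_trRing
  obtain ⟨r, hr⟩ := C.exists_basis
  set e := Fintype.equivFin C.Idx
  set i0 := e C.one'
  set V : Matrix (Fin (Fintype.card C.Idx)) (Fin (Fintype.card C.Idx)) (trRing C.S (M0 * (N' * q))) :=
    Matrix.of fun i j => C.trEl (e.symm i) (r j) with hVdef
  have hV : V.det ≠ 0 := fun h => hr (by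
    have h2 := congrArg ser h
    rw [RingHom.map_det, map_zero] at h2
    exact h2)
  have hTm : ∀ i j, ∃ u : C.R, Subring.inclusion C.R_le u = (V.transpose * V) i j := by
    intro i j
    have hs : (V.transpose * V) i j = ∑ l, trComp (C.rep l) (Subring.inclusion C.R_le (r i * r j)) := by
      rw [Matrix.mul_apply]
      refine Fintype.sum_equiv e.symm _ _ fun x => ?_
      simp [hVdef, trEl]
    obtain ⟨P, s, hP⟩ := C.exists_trace hF (r i * r j)
    refine ⟨C.evR P * C.dR ^ s, ?_⟩
    have hd : C.evT C.dltS * Subring.inclusion C.R_le C.dR = 1 := by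
      rw [← C.map_dltW, ← C.incl_evR, ← map_mul, C.evR_dltW_mul_dR, map_one]
    rw [hs, map_mul, map_pow, C.incl_evR, ← hP, mul_assoc, ← mul_pow, hd, one_pow, mul_one]
  have ht : ∀ j, ∃ u : C.R, Subring.inclusion C.R_le u =
      ∑ m, trComp (C.rep (e.symm m)) φ * V m j := by
    intro j
    have hs : ∑ m, trComp (C.rep (e.symm m)) φ * V m j =
        ∑ l, trComp (C.rep l) (φ * Subring.inclusion C.R_le (r j)) := by
      refine Fintype.sum_equiv e.symm _ _ fun x => ?_
      simp [hVdef, trEl]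
    obtain ⟨u, -, hu⟩ := C.exists_mem_U (∑ l, trComp (C.rep l) (φ * Subring.inclusion C.R_le (r j)))
      (fun γ hγ => by
        rw [AddSubmonoidClass.coe_finsetSum]
        refine C.sum_invariant (φ := ((φ * Subring.inclusion C.R_le (r j) :
          trRing C.S (M0 * (N' * q))) : ℍ → ℂ)) ?_ hγ
        intro γ1 γ2 h1 h2 htr
        show compg γ1 ((φ : ℍ → ℂ) * (r j : ℍ → ℂ)) = compg γ2 ((φ : ℍ → ℂ) * (r j : ℍ → ℂ))
        rw [map_mul, map_mul, hstab γ1 γ2 h1 h2 htr, C.stab_R (r j) γ1 γ2 h1 h2 htr])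
      (hser (r j))
    exact ⟨u, hu.trans hs.symm⟩
  choose Tm hTm using hTm
  choose t ht using ht
  have hmap : (Subring.inclusion C.R_le).mapMatrix (Matrix.of Tm) = V.transpose * V :=
    Matrix.ext fun i j => hTm i j
  have hdet : Subring.inclusion C.R_le (Matrix.of Tm).det = (V.transpose * V).det := by
    rw [RingHom.map_det, hmap]
  have hadj : ∀ i j, Subring.inclusion C.R_le ((Matrix.of Tm).adjugate i j) =
      (V.transpose * V).adjugate i j := fun i j => by
    have h := congrFun (congrFun ((Subring.inclusion C.R_le).map_adjugate (Matrix.of Tm)) i) j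
    rw [hmap] at h
    exact h
  refine ⟨∑ l, (∑ j, (Matrix.of Tm).adjugate l j * t j) * r l, (Matrix.of Tm).det, fun h => ?_, ?_⟩
  · have := congrArg (Subring.inclusion C.R_le) h
    rw [hdet, map_zero, Matrix.det_mul, Matrix.det_transpose] at this
    exact mul_ne_zero hV hV this
  have h1 := det_mul_eq_sum V hV (fun m => trComp (C.rep (e.symm m)) φ) i0
  have hφ0 : trComp (C.rep (e.symm i0)) φ = φ := by
    refine Subtype.ext ?_
    show compg (C.rep (e.symm i0)) (φ : ℍ → ℂ) = φ
    rw [Equiv.symm_apply_apply]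
    refine (hstab _ 1 (C.rep_mem _) (one_mem _) ?_).trans (compg_one _)
    exact C.triple_rep C.one'
  have hr0 : ∀ l, V i0 l = Subring.inclusion C.R_le (r l) := fun l => by
    show C.trEl (e.symm i0) (r l) = _
    rw [Equiv.symm_apply_apply, C.trEl_one]
  rw [hdet]
  simp only [hφ0, hr0] at h1
  rw [h1, map_sum]
  refine Finset.sum_congr rfl fun l _ => ?_
  rw [map_mul, map_sum]
  congr 1
  exact Finset.sum_congr rfl fun j _ => by rw [map_mul, hadj, ht]

/-- The embeddings with the same level structure and the same root on one side. -/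
def fib (b : Bool) (l : C.Idx) : Finset C.Idx :=
  Finset.univ.filter fun l' => C.emb l' C.etaR = C.emb l C.etaR ∧ C.emb l' (C.xR b) = C.emb l (C.xR b)

theorem mem_fib {b : Bool} {l l' : C.Idx} : l' ∈ C.fib b l ↔
    C.emb l' C.etaR = C.emb l C.etaR ∧ C.emb l' (C.xR b) = C.emb l (C.xR b) := by
  simp [fib]

theorem emb_perm_iff {γ : SL(2, ℤ)} (hγ : γ ∈ CongruenceSubgroup.Gamma M0) (l l' : C.Idx) (a : C.R) :
    C.emb (C.perm hγ l) a = C.emb (C.perm hγ l') a ↔ C.emb l a = C.emb l' a := by
  simp only [← C.ser_trEl, ← C.trEl_perm hγ]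
  constructor
  · intro h
    refine congrArg ser (Subtype.ext (compg_injective γ ?_))
    exact congrArg Subtype.val (ser_injective h)
  · intro h
    rw [ser_injective h]

theorem prod_fib_perm {β : Type*} [CommMonoid β] (b : Bool) {γ : SL(2, ℤ)}
    (hγ : γ ∈ CongruenceSubgroup.Gamma M0) (l : C.Idx) (F : C.Idx → β) :
    ∏ l' ∈ C.fib b l, F (C.perm hγ l') = ∏ l' ∈ C.fib b (C.perm hγ l), F l' := by
  refine Finset.prod_equiv (C.perm hγ) (fun i => ?_) fun _ _ => rfl
  rw [C.mem_fib, C.mem_fib, C.emb_perm_iff, C.emb_perm_iff]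

/-- Fibrewise products are quotients of two elements. -/
theorem exists_fib_frac (hF : C.FixedPart) (b : Bool) (x : C.R) :
    ∃ a d : C.R, d ≠ 0 ∧ ∀ l, C.emb l d * ∏ l' ∈ C.fib b l, C.emb l' x = C.emb l a := by
  set φ := ∏ l' ∈ C.fib b C.one', C.trEl l' x with hφ
  have hcomp : ∀ (γ : SL(2, ℤ)) (hγ : γ ∈ CongruenceSubgroup.Gamma M0),
      trComp γ φ = ∏ l' ∈ C.fib b (C.idx hγ), C.trEl l' x := by
    intro γ hγ
    rw [hφ, map_prod, Finset.prod_congr rfl fun l' _ => C.trEl_perm hγ l' x,
      C.prod_fib_perm b hγ C.one' fun l' => C.trEl l' x, C.perm_one' hγ]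
  have hrep : ∀ l, trComp (C.rep l) φ = ∏ l' ∈ C.fib b l, C.trEl l' x := fun l => by
    rw [hcomp _ (C.rep_mem l), ← C.perm_one' (C.rep_mem l), C.perm_rep_one']
  have hstab : C.Stab (φ : ℍ → ℂ) := fun γ γ' h h' e => by
    have : trComp γ φ = trComp γ' φ := by
      rw [hcomp γ h, hcomp γ' h', (C.idx_eq_iff h h').2 e]
    exact congrArg Subtype.val this
  obtain ⟨a, d, hd, had⟩ := C.exists_frac hF φ hstab fun z k => by
    refine hF _ fun σ hσ => ?_
    obtain ⟨e, he⟩ := C.exists_galois_perm hσ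
    have hs : ser (∑ l, trComp (C.rep l) (φ * Subring.inclusion C.R_le z)) =
        ∑ l, (∏ l' ∈ C.fib b l, C.emb l' x) * C.emb l z := by
      rw [map_sum]
      refine Finset.sum_congr rfl fun l _ => ?_
      rw [map_mul, hrep, map_mul, map_prod]
      rfl
    have hfix : coeffMap σ.toRingHom (∑ l, (∏ l' ∈ C.fib b l, C.emb l' x) * C.emb l z) =
        ∑ l, (∏ l' ∈ C.fib b l, C.emb l' x) * C.emb l z := by
      rw [map_sum]
      refine Fintype.sum_equiv e _ _ fun l => ?_
      rw [map_mul, map_prod, he]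
      congr 1
      refine Finset.prod_equiv e (fun i => ?_) fun i _ => he i x
      rw [C.mem_fib, C.mem_fib, ← he, ← he, ← he, ← he]
      have hinj := coeffMap_injective σ.toRingHom σ.injective
      exact ⟨fun h => ⟨congrArg _ h.1, congrArg _ h.2⟩, fun h => ⟨hinj h.1, hinj h.2⟩⟩
    rw [hs]
    have h1 := congrArg (fun z : LaurentSeries C.S => z.coeff k) hfix
    simp only [coeffMap_coeff] at h1
    exact h1
  refine ⟨a, d, hd, fun l => ?_⟩
  have h := congrArg (fun z => ser (trComp (C.rep l) z)) had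
  simp only [map_mul, hrep, map_prod] at h
  exact h

/-- A root of a monic polynomial over the line. -/
def IntU (X : LaurentSeries C.S) : Prop := ((C.embAt 1).comp C.U.subtype).IsIntegralElem X

theorem intU_emb (hF : C.FixedPart) (l : C.Idx) (a : C.R) : C.IntU (C.emb l a) := by
  obtain ⟨p, hp, -, hk, -, hmap⟩ := C.exists_charpoly hF a
  obtain ⟨p', hp', -, hm⟩ := Polynomial.lifts_and_natDegree_eq_and_monic
    ((Polynomial.lifts_iff_coeff_lifts (f := C.U.subtype) p).2 fun k => ⟨⟨_, hk k⟩, rfl⟩) hp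
  refine ⟨p', hm, ?_⟩
  rw [← Polynomial.eval_map, ← Polynomial.map_map, hp', hmap, Polynomial.eval_prod]
  exact Finset.prod_eq_zero (Finset.mem_univ l) (by simp)

theorem intU_prod {ι : Type*} (s : Finset ι) (F : ι → LaurentSeries C.S) (h : ∀ i ∈ s, C.IntU (F i)) :
    C.IntU (∏ i ∈ s, F i) := by
  induction s using Finset.induction with
  | empty => simpa [IntU] using ((C.embAt 1).comp C.U.subtype).isIntegralElem_one
  | insert i s hi ih =>
    rw [Finset.prod_insert hi]
    exact RingHom.IsIntegralElem.mul _ (h i (Finset.mem_insert_self _ _))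
      (ih fun j hj => h j (Finset.mem_insert_of_mem hj))

/-- An integral quotient lies in every normal ring over the cover. -/
theorem exists_of_intU {L : Type*} [CommRing L] [IsDomain L] [IsIntegrallyClosed L] (φ : C.R →+* L)
    (hφ : Injective φ) (hF : C.FixedPart) (b : Bool) (x : C.R) :
    ∃ a d : C.R, ∃ z : L, d ≠ 0 ∧ φ d * z = φ a ∧
      ∀ l, C.emb l d * ∏ l' ∈ C.fib b l, C.emb l' x = C.emb l a := by
  obtain ⟨a, d, hd, had⟩ := C.exists_fib_frac hF b x
  obtain ⟨p, hp, hp0⟩ := C.intU_prod (C.fib b C.one') (fun l' => C.emb l' x)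
    fun i _ => C.intU_emb hF i x
  have had1 := had C.one'
  rw [C.emb_one', C.emb_one'] at had1
  -- the equation in the ring
  have heq : (Polynomial.scaleRoots (p.map C.U.subtype) d).eval a = 0 := by
    refine C.embAt_injective 1 ?_
    rw [map_zero, ← Polynomial.eval₂_at_apply, ← had1]
    exact Polynomial.scaleRoots_eval₂_eq_zero (C.embAt 1) (by rw [Polynomial.eval₂_map]; exact hp0)
  set K := FractionRing L
  set ψ : C.R →+* K := (algebraMap L K).comp φ with hψ
  have hd' : ψ d ≠ 0 := fun h => hd (hφ (IsFractionRing.injective L K (h.trans ((map_zero ψ).symm.trans rfl))))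
  have hint : IsIntegral L (ψ a / ψ d) := by
    refine ⟨(p.map C.U.subtype).map φ, (hp.map _).map _, ?_⟩
    rw [Polynomial.eval₂_map, ← hψ]
    have h2 := congrArg ψ heq
    rw [map_zero, ← Polynomial.eval₂_at_apply,
      show ψ a = ψ d * (ψ a / ψ d) from (mul_div_cancel₀ _ hd').symm, Polynomial.scaleRoots_eval₂_mul] at h2
    exact (mul_eq_zero.1 h2).resolve_left (pow_ne_zero _ hd')
  obtain ⟨z, hz⟩ := IsIntegrallyClosed.isIntegral_iff.1 hint
  refine ⟨a, d, z, hd, IsFractionRing.injective L K ?_, had⟩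
  rw [map_mul, hz]
  exact mul_div_cancel₀ _ hd'

end Ctx

end FLTAgent.Carayol
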