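import Mathlib

/-!
# Gluing roots on branches and lifting them
-/

set_option autoImplicit false
set_option linter.style.haveILetI false

noncomputable section

namespace FLTAgent.Carayol

open IsLocalRing

theorem mem_of_mul_mem_of_isUnit_add {B : Type*} [CommRing B] {I : Ideal B} {e u z : B} {K : ℕ}
    (hu : IsUnit u) (hK : z * e ^ K ∈ I) (h : e * (u + z * e) ∈ I) : e ∈ I := by
  obtain ⟨w, hw⟩ := hu.exists_left_inv
  have hnil : IsNilpotent (Ideal.Quotient.mk I (w * (z * e))) := by
    refine ⟨K + 1, ?_⟩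
    rw [← map_pow, Ideal.Quotient.eq_zero_iff_mem,
      show (w * (z * e)) ^ (K + 1) = (w ^ (K + 1) * z ^ K * e) * (z * e ^ K) by ring]
    exact I.mul_mem_left _ hK
  have h2 : Ideal.Quotient.mk I e * (1 + Ideal.Quotient.mk I (w * (z * e))) = 0 := by
    rw [← map_one (Ideal.Quotient.mk I), ← map_add, ← map_mul, Ideal.Quotient.eq_zero_iff_mem,
      show e * (1 + w * (z * e)) = w * (e * (u + z * e)) + e * (1 - w * u) by ring, hw, sub_self,
      mul_zero, add_zero]
    exact I.mul_mem_left _ h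
  rw [← Ideal.Quotient.eq_zero_iff_mem]
  exact hnil.isUnit_one_add.mul_left_eq_zero.1 h2

/-- Roots of a unit on the branches of a local ring with equal residues come from one element. -/
theorem exists_glue {A0 : Type*} [CommRing A0] [IsLocalRing A0] {ι : Type*} [Finite ι]
    (q : ι → Ideal A0) (hq : ∀ i, q i ≤ maximalIdeal A0) {n : ℕ} (hn : IsUnit (n : A0))
    {v r : A0} (hr : IsUnit r) (b : ι → A0) (hb : ∀ i, b i ^ n - v ∈ q i)
    (hbr : ∀ i, b i - r ∈ maximalIdeal A0) : ∃ c, ∀ i, c - b i ∈ q i := by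
  classical
  rcases isEmpty_or_nonempty ι with hι | ⟨⟨i₀⟩⟩
  · exact ⟨0, fun i => hι.elim i⟩
  set P := (i : ι) → A0 ⧸ q i
  set β : P := fun i => Ideal.Quotient.mk _ (b i) with hβ
  set m := maximalIdeal A0
  set B := Algebra.adjoin A0 ({β} : Set P)
  haveI : Module.Finite A0 P := inferInstance
  haveI := Fintype.ofFinite ι
  have hint : IsIntegral A0 β := IsIntegral.of_finite A0 β
  haveI : Module.Finite A0 B :=
    Module.Finite.iff_fg.2 hint.fg_adjoin_singleton
  set βB : B := ⟨β, Algebra.self_mem_adjoin_singleton A0 β⟩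
  set e : B := βB - algebraMap A0 B r with he
  set mB : Ideal B := m.map (algebraMap A0 B)
  -- `e` is nilpotent modulo `mB`
  have hnil : ∃ K, e ^ K ∈ mB := by
    have hrange : LinearMap.range (Algebra.lmul A0 P (e : P)) ≤ m • (⊤ : Submodule A0 P) := by
      rintro _ ⟨x, rfl⟩
      have : (e : P) * x = ∑ i, (b i - r) • Pi.single i (x i) := by
        ext j
        rw [Finset.sum_apply, Finset.sum_eq_single j]
        · simp [he, βB, hβ, Algebra.smul_def]
          rfl
        · intro i _ hij; simp [hij]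
        · simp
      rw [show (Algebra.lmul A0 P (e : P)) x = (e : P) * x from rfl, this]
      exact sum_mem fun i _ => Submodule.smul_mem_smul (hbr i) Submodule.mem_top
    obtain ⟨p, hp, hdeg, hcoef, hev⟩ :=
      LinearMap.exists_monic_and_natDegree_eq_and_coeff_mem_pow_and_aeval_eq_zero A0
        (Algebra.lmul A0 P (e : P)) m hrange
    refine ⟨p.natDegree, ?_⟩
    rw [Polynomial.aeval_algHom_apply] at hev
    have h0 : Polynomial.aeval e p = 0 := by
      refine Subtype.val_injective ?_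
      show B.val (Polynomial.aeval e p) = B.val 0
      rw [map_zero, ← Polynomial.aeval_algHom_apply]
      simpa using congrArg (fun φ : Module.End A0 P => φ 1) hev
    rw [Polynomial.aeval_eq_sum_range, Finset.sum_range_succ, hp.coeff_natDegree, one_smul,
      add_eq_zero_iff_neg_eq] at h0
    rw [← h0]
    refine neg_mem (sum_mem fun i hi => ?_)
    rw [Algebra.smul_def]
    exact Ideal.mul_mem_right _ _ (Ideal.mem_map_of_mem _
      (Ideal.pow_le_self (by have := Finset.mem_range.1 hi; omega) (hcoef i)))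
  obtain ⟨K, hK⟩ := hnil
  -- hence zero
  have he0 : e ∈ mB := by
    obtain ⟨z, hz⟩ := Polynomial.binomExpansion (Polynomial.X ^ n : Polynomial B) (algebraMap A0 B r) e
    simp only [Polynomial.eval_pow, Polynomial.eval_X, Polynomial.derivative_X_pow,
      Polynomial.eval_mul, Polynomial.eval_C] at hz
    have hv : (algebraMap A0 B r + e) ^ n = algebraMap A0 B v := by
      rw [he, add_sub_cancel]
      refine Subtype.ext (funext fun i => ?_)
      show (Ideal.Quotient.mk (q i) (b i)) ^ n = Ideal.Quotient.mk (q i) v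
      rw [← map_pow, Ideal.Quotient.mk_eq_mk_iff_sub_mem]
      exact hb i
    have hvr : v - r ^ n ∈ m := by
      have h1 : b i₀ ^ n - r ^ n ∈ m := Ideal.mem_of_dvd _ (sub_dvd_pow_sub_pow _ _ n) (hbr i₀)
      have h2 := hq i₀ (hb i₀)
      rw [show v - r ^ n = (b i₀ ^ n - r ^ n) - (b i₀ ^ n - v) by ring]
      exact sub_mem h1 h2
    have hprod : e * ((n : B) * algebraMap A0 B r ^ (n - 1) + z * e) ∈ mB := by
      have : e * ((n : B) * algebraMap A0 B r ^ (n - 1) + z * e) = algebraMap A0 B (v - r ^ n) := by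
        rw [map_sub, map_pow, ← hv, hz]; ring
      rw [this]
      exact Ideal.mem_map_of_mem _ hvr
    refine mem_of_mul_mem_of_isUnit_add ?_ (Ideal.mul_mem_left _ z hK) hprod
    refine IsUnit.mul ?_ ((hr.map _).pow _)
    simpa using hn.map (algebraMap A0 B)
  -- every element is a constant modulo `mB`
  set Bsub : Submodule A0 B := LinearMap.range (Algebra.linearMap A0 B)
  have hdec : ∀ y : P, ∀ hy : y ∈ B, (⟨y, hy⟩ : B) ∈ Bsub ⊔ mB.restrictScalars A0 := by
    intro y hy
    induction hy using Algebra.adjoin_induction with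
    | mem x hx =>
      obtain rfl := Set.mem_singleton_iff.1 hx
      rw [show (⟨β, _⟩ : B) = algebraMap A0 B r + e by simp [he, βB]]
      exact Submodule.add_mem_sup ⟨r, rfl⟩ he0
    | algebraMap c => exact Submodule.mem_sup_left ⟨c, rfl⟩
    | add x y hx hy ihx ihy => exact add_mem ihx ihy
    | mul x y hx hy ihx ihy =>
      obtain ⟨_, ⟨c, rfl⟩, u, hu, hxy⟩ := Submodule.mem_sup.1 ihx
      obtain ⟨_, ⟨d, rfl⟩, w, hw, hyw⟩ := Submodule.mem_sup.1 ihy
      rw [show (⟨x * y, _⟩ : B) = ⟨x, hx⟩ * ⟨y, hy⟩ from rfl, ← hxy, ← hyw]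
      rw [show (Algebra.linearMap A0 B c + u) * (Algebra.linearMap A0 B d + w) =
        algebraMap A0 B (c * d) + (u * (algebraMap A0 B d + w) + algebraMap A0 B c * w) by
          rw [map_mul, Algebra.linearMap_apply, Algebra.linearMap_apply]; ring]
      exact Submodule.add_mem_sup ⟨c * d, rfl⟩
        (add_mem (Ideal.mul_mem_right _ _ hu) (Ideal.mul_mem_left _ _ hw))
  have hNak : (⊤ : Submodule A0 B) ≤ Bsub := by
    refine Submodule.le_of_le_smul_of_le_jacobson_bot Module.Finite.fg_top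
      (le_of_eq (jacobson_eq_maximalIdeal ⊥ bot_ne_top).symm) ?_
    rw [Ideal.smul_top_eq_map]
    exact fun y _ => hdec y.1 y.2
  obtain ⟨c, hc⟩ := hNak (Submodule.mem_top (x := βB))
  refine ⟨c, fun i => ?_⟩
  have := congrFun (congrArg Subtype.val hc) i
  rw [← Ideal.Quotient.mk_eq_mk_iff_sub_mem]
  exact this

/-- A root modulo an intersection of primes, locally of the shape unit times root of the divisor,
lifts to a root up to an error in the intersection. -/
theorem exists_lift_root {R : Type*} [CommRing R] (J : Ideal R) {ι : Type*} (q : ι → Ideal R)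
    [∀ i, (q i).IsPrime] (hJ : J = ⨅ i, q i) {n : ℕ} (hn : 0 < n) {f a : R}
    (hf : ∀ i, f ∉ q i) (ha : a ^ n - f ∈ J) (h : Ideal R → R)
    (hfac : ∀ P : Ideal R, P.IsMaximal → J ≤ P → ∃ s v, s ∉ P ∧ v ∉ P ∧ s * f = v * h P ^ n)
    (hroot : ∀ P : Ideal R, P.IsMaximal → J ≤ P → ∀ b, f ∣ b ^ n → ∃ s, s ∉ P ∧ h P ∣ s * b)
    (hglue : ∀ P : Ideal R, P.IsMaximal → J ≤ P → ∃ t c, t ∉ P ∧ t * a - h P * c ∈ J) :
    ∃ a' j, a' ^ n = f * (1 + j) ∧ j ∈ J := by
  classical
  -- elements divisible by the local roots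
  let M : Ideal R :=
    { carrier := {b | ∀ P : Ideal R, P.IsMaximal → J ≤ P → ∃ s, s ∉ P ∧ h P ∣ s * b}
      add_mem' := fun {b c} hb hc P hP hJP => by
        obtain ⟨s, hs, d, hd⟩ := hb P hP hJP
        obtain ⟨t, ht, e, he⟩ := hc P hP hJP
        refine ⟨s * t, fun hst => (hP.isPrime.mem_or_mem hst).elim hs ht, t * d + s * e, ?_⟩
        linear_combination t * hd + s * he
      zero_mem' := fun P hP _ => ⟨1, fun h => hP.ne_top (P.eq_top_iff_one.2 h), by simp⟩
      smul_mem' := fun c b hb P hP hJP => by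
        obtain ⟨s, hs, d, hd⟩ := hb P hP hJP
        exact ⟨s, hs, c * d, by rw [smul_eq_mul]; linear_combination c * hd⟩ }
  -- `a` is congruent to such an element
  obtain ⟨b, hb, hba⟩ : ∃ b ∈ M, a - b ∈ J := by
    let I : Ideal R := Submodule.comap (LinearMap.mulRight R a) (M ⊔ J)
    have hI : I ⊔ J = ⊤ := by
      by_contra hne
      obtain ⟨P, hP, hle⟩ := Ideal.exists_le_maximal _ hne
      have hJP : J ≤ P := le_sup_right.trans hle
      obtain ⟨s, v, hs, hv, hsv⟩ := hfac P hP hJP
      obtain ⟨t, c, ht, htc⟩ := hglue P hP hJP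
      have hmem : v * s * (h P * c) ∈ M := by
        intro Q hQ hJQ
        refine hroot Q hQ hJQ _ (Dvd.intro (v ^ (n - 1) * s ^ n * c ^ n * s) ?_)
        rw [mul_pow, mul_pow, mul_pow, show f * (v ^ (n - 1) * s ^ n * c ^ n * s) =
          v ^ (n - 1) * s ^ n * c ^ n * (s * f) by ring, hsv,
          show v ^ n = v ^ (n - 1) * v by rw [← pow_succ, Nat.sub_add_cancel hn]]
        ring
      have : v * s * t ∈ I := by
        show (v * s * t) * a ∈ M ⊔ J
        rw [show v * s * t * a = v * s * (h P * c) + v * s * (t * a - h P * c) by ring]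
        exact Submodule.add_mem_sup hmem (J.mul_mem_left _ htc)
      rcases hP.isPrime.mem_or_mem (hle (Submodule.mem_sup_left this)) with h1 | h1
      · exact (hP.isPrime.mem_or_mem h1).elim hv hs
      · exact ht h1
    obtain ⟨i, hi, j, hj, hij⟩ := Submodule.mem_sup.1 (hI ▸ Submodule.mem_top (x := (1 : R)))
    obtain ⟨b, hb, j', hj', hbj⟩ := Submodule.mem_sup.1 (show i * a ∈ M ⊔ J from hi)
    refine ⟨b, hb, ?_⟩
    rw [show a - b = j * a + j' by linear_combination (-a) * hij - hbj]
    exact add_mem (J.mul_mem_right _ hj) hj'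
  -- clear the remaining denominators
  let If : Ideal R := Submodule.comap (LinearMap.mulRight R (b ^ n)) (Ideal.span {f})
  have hIf : If ⊔ J = ⊤ := by
    by_contra hne
    obtain ⟨P, hP, hle⟩ := Ideal.exists_le_maximal _ hne
    have hJP : J ≤ P := le_sup_right.trans hle
    obtain ⟨s, v, hs, hv, hsv⟩ := hfac P hP hJP
    obtain ⟨t, ht, d, hd⟩ := hb P hP hJP
    have : v * t ^ n ∈ If := by
      show v * t ^ n * b ^ n ∈ Ideal.span {f}
      refine Ideal.mem_span_singleton.2 ⟨s * d ^ n, ?_⟩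
      rw [mul_assoc, ← mul_pow, hd, mul_pow]
      linear_combination (-(d ^ n)) * hsv
    rcases hP.isPrime.mem_or_mem (hle (Submodule.mem_sup_left this)) with h1 | h1
    · exact hv h1
    · exact ht (hP.isPrime.mem_of_pow_mem n h1)
  obtain ⟨t, ht, j, hj, htj⟩ := Submodule.mem_sup.1 (hIf ▸ Submodule.mem_top (x := (1 : R)))
  obtain ⟨c, hc⟩ := Ideal.mem_span_singleton.1 (show t * b ^ n ∈ Ideal.span {f} from ht)
  refine ⟨b * t, t ^ (n - 1) * c - 1, ?_, ?_⟩
  · rw [mul_pow, show t ^ n = t ^ (n - 1) * t by rw [← pow_succ, Nat.sub_add_cancel hn]]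
    linear_combination t ^ (n - 1) * hc
  rw [hJ, Ideal.mem_iInf]
  intro i
  have hJi : J ≤ q i := hJ ▸ iInf_le _ i
  have key : f * (t ^ (n - 1) * c - 1) ∈ q i := by
    have h1 : f * (t ^ (n - 1) * c - 1) = (a * (1 - j)) ^ n - f - ((a * t) ^ n - (b * t) ^ n) := by
      have : 1 - j = t := by linear_combination -htj
      rw [this, mul_pow b t n, show t ^ n = t ^ (n - 1) * t by rw [← pow_succ, Nat.sub_add_cancel hn]]
      linear_combination (-(t ^ (n - 1))) * hc
    rw [h1]
    refine sub_mem (hJi ?_) (hJi ?_)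
    · rw [show (a * (1 - j)) ^ n - f = (a ^ n - f) + a ^ n * ((1 - j) ^ n - 1 ^ n) by
        rw [mul_pow, one_pow]; ring]
      exact add_mem ha (J.mul_mem_left _ (Ideal.mem_of_dvd _ (sub_dvd_pow_sub_pow _ _ n)
        (by simpa using neg_mem hj)))
    · exact Ideal.mem_of_dvd _ (sub_dvd_pow_sub_pow _ _ n)
        (by rw [← sub_mul]; exact J.mul_mem_right _ hba)
  exact (Ideal.IsPrime.mem_or_mem inferInstance key).resolve_left (hf i)

end FLTAgent.Carayol
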