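import Fermat.Agent.Carayol.Descent

/-!
# Functions `j (d τ / q)` on the auxiliary cover
-/

set_option autoImplicit false
set_option linter.unusedSectionVars false
set_option linter.style.haveILetI false

noncomputable section

open UpperHalfPlane hiding I I_re I_im
open Filter Topology Complex Function FLTAgent.ModEq FLTAgent.GoodModel ModularCurve
open scoped MatrixGroups Manifold Classical

namespace FLTAgent.Carayol

/-- Invariance of `j (d τ / M)`. -/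
theorem jd_invariant' {M d : ℕ} [NeZero M] [NeZero d] {γ : SL(2, ℤ)}
    (hb : (M : ℤ) ∣ d * γ 0 1) (hc : (d : ℤ) ∣ M * γ 1 0) (τ : ℍ) :
    jd M d (γ • τ) = jd M d τ := by
  obtain ⟨c, hc⟩ := hc
  obtain ⟨b, hb⟩ := hb
  obtain ⟨δ, d00, d01, d10, d11⟩ : ∃ δ : SL(2, ℤ),
      δ 0 0 = γ 0 0 ∧ δ 0 1 = b ∧ δ 1 0 = c ∧ δ 1 1 = γ 1 1 :=
    ⟨⟨!![γ 0 0, b; c, γ 1 1], by
      rw [Matrix.det_fin_two_of]
      have hd0 : (d : ℤ) ≠ 0 := by exact_mod_cast NeZero.ne d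
      have hM0 : (M : ℤ) ≠ 0 := by exact_mod_cast NeZero.ne M
      refine mul_left_cancel₀ (mul_ne_zero hd0 hM0) ?_
      linear_combination ((d : ℤ) * M) * (det_eq γ) + ((d : ℤ) * c) * hb + (d : ℤ) * γ 0 1 * hc⟩,
      rfl, rfl, rfl, rfl⟩
  rw [jd, jd, ← jFun_smul δ (affPt d 0 M τ)]
  congr 1
  refine UpperHalfPlane.ext ?_
  rw [coe_sl_smul' δ, d00, d01, d10, d11, coe_affPt, coe_affPt, coe_sl_smul' γ]
  have hM : (M : ℂ) ≠ 0 := Nat.cast_ne_zero.mpr (NeZero.ne M)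
  have hden : ((γ 1 0 : ℤ) : ℂ) * τ + (γ 1 1 : ℤ) ≠ 0 := den_ne_zero γ τ
  have hc' : (M : ℂ) * (γ 1 0 : ℤ) = d * c := by exact_mod_cast hc
  have hb' : (d : ℂ) * ((γ 0 1 : ℤ) : ℂ) = M * b := by exact_mod_cast hb
  have e2 : (c : ℂ) * (((d : ℂ) * τ + ((0 : ℤ) : ℂ)) / M) + (γ 1 1 : ℤ) =
      (γ 1 0 : ℤ) * τ + (γ 1 1 : ℤ) := by
    push_cast
    field_simp
    linear_combination -(τ : ℂ) * hc'
  have e1 : ((γ 0 0 : ℤ) : ℂ) * (((d : ℂ) * τ + ((0 : ℤ) : ℂ)) / M) + b =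
      (d : ℂ) * ((γ 0 0 : ℤ) * τ + (γ 0 1 : ℤ)) / M := by
    push_cast
    field_simp
    linear_combination -hb'
  rw [e1, e2]
  push_cast
  field_simp
  ring

namespace Ctx

variable {q M0 N' : ℕ} [NeZero M0] [NeZero N'] [NeZero q] [Fact q.Prime] (C : Ctx q M0 N')

include C in
theorem isUnit_mod : ((M0 * N' : ℕ) : ZMod q) ≠ 0 := C.ne_zero_mod.1

theorem exists_rep_dvd {γ : SL(2, ℤ)} :
    ∃ r, (q : ℤ) ∣ (γ * (C.gr r)⁻¹) 1 0 := by
  by_cases hc : (q : ℤ) ∣ γ 1 0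
  · exact ⟨none, by simpa [gr] using hc⟩
  obtain ⟨hm, hM0, -⟩ := C.ne_zero_mod
  have hc' : ((γ 1 0 : ℤ) : ZMod q) ≠ 0 := fun h =>
    hc ((ZMod.intCast_zmod_eq_zero_iff_dvd _ _).1 h)
  set m : ℕ := M0 * N' with hmdef
  set K : ZMod q := (((γ 1 1 : ℤ) : ZMod q) * m - (γ 1 0 : ℤ)) /
    (((γ 1 0 : ℤ) : ZMod q) * m * m)
  refine ⟨some (((m : ZMod q) * K + (m : ZMod q)⁻¹) / ((M0 : ℕ) : ZMod q)), ?_⟩
  rw [← ZMod.intCast_zmod_eq_zero_iff_dvd]
  rw [mul_inv_apply10]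
  simp only [gr, gq, Matrix.SpecialLinearGroup.coe_mk, Matrix.of_apply,
    Matrix.cons_val', Matrix.cons_val_zero, Matrix.cons_val_one, Matrix.empty_val',
    Matrix.cons_val_fin_one]
  rw [idxK, ← hmdef]
  push_cast
  rw [ZMod.natCast_zmod_val]
  simp only [K]
  field_simp
  ring

/-- The stabiliser of the isogenous coordinate. -/
theorem dvd_of_fix_sX {δ : SL(2, ℤ)} (hδ : δ ∈ CongruenceSubgroup.Gamma M0)
    (h : compg δ C.sX = C.sX) : (q : ℤ) ∣ δ 1 0 := by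
  obtain ⟨r, hr⟩ := C.exists_rep_dvd (γ := δ)
  obtain ⟨h1, -⟩ := C.side_fix (mul_mem hδ (inv_mem (C.gr_mem0 r))) hr
  have h2 : compg δ C.sX = C.rX r := by
    rw [rX]
    conv_rhs => rw [← h1]
    rw [compg_compg, inv_mul_cancel_right]
  have h3 : C.rX none = C.sX := by simp [rX, gr, compg_one]
  obtain rfl : r = none := C.rX_injective (h2.symm.trans (h.trans h3.symm))
  simpa [gr] using hr

theorem conj_apply10 (δ : SL(2, ℤ)) :
    (((C.gr (some 0) * δ * (C.gr (some 0))⁻¹) 1 0 : ℤ) : ZMod q) =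
      -(((M0 * N' : ℕ) : ZMod q) ^ 2) * ((δ 0 1 : ℤ) : ZMod q) := by
  obtain ⟨hm, hM0, -⟩ := C.ne_zero_mod
  have hN0 : ((N' : ℕ) : ZMod q) ≠ 0 := fun h => hm (by rw [Nat.cast_mul, h, mul_zero])
  rw [mul_inv_apply10]
  simp only [gr, gq, Matrix.SpecialLinearGroup.coe_mul, Matrix.mul_apply, Fin.sum_univ_two,
    Matrix.SpecialLinearGroup.coe_mk, Matrix.of_apply, Matrix.cons_val', Matrix.cons_val_zero,
    Matrix.cons_val_one, Matrix.empty_val', Matrix.cons_val_fin_one]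
  rw [idxK]
  push_cast at hm ⊢
  rw [ZMod.natCast_zmod_val]
  field_simp
  ring

/-- The stabiliser of the coordinate at the other isogeny. -/
theorem fix_rX0_iff {δ : SL(2, ℤ)} (hδ : δ ∈ CongruenceSubgroup.Gamma M0) :
    compg δ (C.rX (some 0)) = C.rX (some 0) ↔ (q : ℤ) ∣ δ 0 1 := by
  set g := C.gr (some 0) with hg
  have hmem : g * δ * g⁻¹ ∈ CongruenceSubgroup.Gamma M0 :=
    mul_mem (mul_mem (C.gr_mem0 _) hδ) (inv_mem (C.gr_mem0 _))
  have hiff : compg δ (C.rX (some 0)) = C.rX (some 0) ↔ compg (g * δ * g⁻¹) C.sX = C.sX := by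
    rw [rX, compg_compg, ← hg]
    constructor
    · intro h
      rw [← compg_compg g⁻¹, h, compg_compg, mul_inv_cancel, compg_one]
    · intro h
      conv_rhs => rw [← h]
      rw [compg_compg, inv_mul_cancel_right]
  rw [hiff, ← ZMod.intCast_zmod_eq_zero_iff_dvd]
  obtain ⟨hm, -, -⟩ := C.ne_zero_mod
  have h10 := C.conj_apply10 δ
  constructor
  · intro h
    have h1 := C.dvd_of_fix_sX hmem h
    rw [← ZMod.intCast_zmod_eq_zero_iff_dvd, h10] at h1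
    exact (mul_eq_zero.1 h1).resolve_left (neg_ne_zero.2 (pow_ne_zero 2 hm))
  · intro h
    refine (C.side_fix hmem ?_).1
    rw [← ZMod.intCast_zmod_eq_zero_iff_dvd, h10, h, mul_zero]

theorem fix_sX_iff {δ : SL(2, ℤ)} (hδ : δ ∈ CongruenceSubgroup.Gamma M0) :
    compg δ C.sX = C.sX ↔ (q : ℤ) ∣ δ 1 0 :=
  ⟨C.dvd_of_fix_sX hδ, fun h => (C.side_fix hδ h).1⟩

/-- The stabiliser of the level structure. -/
theorem dvd_of_fix_eta {δ : SL(2, ℤ)} (hδ : δ ∈ CongruenceSubgroup.Gamma M0)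
    (h : compg δ C.eta = C.eta) : ((M0 * N' : ℕ) : ℤ) ∣ δ 1 0 := by
  have hnz := (level_nz (n := M0 * N') C.hM rfl).2.2.2.2
  rw [eta, f0, compg_fvv (n := M0 * N') rfl hδ] at h
  rw [← ZMod.intCast_zmod_eq_zero_iff_dvd]
  rcases (fvv_congr_iff C.hM rfl (hnz.vmul δ) hnz).1 h with e | e
  · simpa [vmul] using e.1
  · simpa [vmul] using e.1

theorem jd_mem {M' d : ℕ} [NeZero d] (hN : M' ∣ M0 * N') (hd : d ∣ q * q * M') :
    jd q d ∈ trRing C.S (M0 * (N' * q)) := by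
  refine mem_trRing.mpr fun σ => ?_
  obtain ⟨G, hG⟩ := exists_sPairs_jd_smul C.ζ C.hζ (M0 := q) C.hq (N' := M0 * N')
    (by ring) (hd.trans (mul_dvd_mul_left _ hN)) σ
  exact ⟨G, hG⟩

theorem ser_jd {M' d : ℕ} [NeZero d] (hN : M' ∣ M0 * N') (hd : d ∣ q * q * M') :
    ser ⟨jd q d, C.jd_mem hN hd⟩ = jAt (1 : C.Sˣ) (d * (M0 * N')) :=
  sPairs_unique (ser_spec _) (sPairs_jd C.ζ C.hζ (by ring) d)

theorem stab_jd {M' d : ℕ} [NeZero d] (hN : M' ∣ M0 * N') (hd : d ∣ q * q * M') :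
    C.Stab (jd q d) := by
  intro γ γ' hγ hγ' h
  simp only [triple, Prod.mk.injEq] at h
  obtain ⟨he, hx, hz⟩ := h
  have key : ∀ f : ℍ → ℂ, compg γ f = compg γ' f → compg (γ' * γ⁻¹) f = f := fun f h => by
    rw [← compg_compg, ← h, compg_compg, mul_inv_cancel, compg_one]
  have hmem := mul_mem hγ' (inv_mem hγ)
  have h1 := C.dvd_of_fix_eta hmem (key _ he)
  have h2 := C.dvd_of_fix_sX hmem (key _ hx)
  have h3 := (C.fix_rX0_iff hmem).1 (key _ hz)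
  set δ := γ' * γ⁻¹
  have hfix : compg δ (jd q d) = jd q d := by
    funext τ
    refine jd_invariant' (dvd_mul_of_dvd_right h3 _) ?_ τ
    obtain ⟨b, hb⟩ := h2
    have hM' : (M' : ℤ) ∣ δ 1 0 := by
      exact (Int.natCast_dvd_natCast.2 hN).trans h1
    have hcop : IsCoprime ((q : ℕ) : ℤ) ((M' : ℕ) : ℤ) := by
      rw [Int.isCoprime_iff_nat_coprime]
      simpa using (C.hq.coprime_iff_not_dvd.2 fun h => C.hqm
        (h.trans hN))
    have h4 : ((q * M' : ℕ) : ℤ) ∣ δ 1 0 := by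
      push_cast
      exact hcop.mul_dvd ⟨b, hb⟩ hM'
    refine (Int.natCast_dvd_natCast.2 hd).trans ?_
    push_cast at h4 ⊢
    rw [mul_assoc]
    exact mul_dvd_mul_left _ h4
  calc compg γ (jd q d) = compg γ (compg δ (jd q d)) := by rw [hfix]
    _ = compg γ' (jd q d) := by rw [compg_compg, inv_mul_cancel_right]

include C in
/-- A translate fixing `j (τ / q)` fixes the other side. -/
theorem dvd01_of_fix {M' : ℕ} (hN : M' ∣ M0 * N') {δ : SL(2, ℤ)} (h : compg δ (jd q 1) = jd q 1)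
    (hc : (q : ℤ) ∣ δ 1 0) : (q : ℤ) ∣ δ 0 1 := by
  obtain ⟨c, hc⟩ := hc
  have hdet := det_eq δ
  have ha : ((δ 0 0 : ℤ) : ZMod q) ≠ 0 := fun h0 => by
    have := congrArg (fun z : ℤ => (z : ZMod q)) hdet
    simp [hc, h0] at this
  set B : ℕ := (((δ 0 1 : ℤ) : ZMod q) / ((δ 0 0 : ℤ) : ZMod q)).val
  obtain ⟨e, he⟩ : (q : ℤ) ∣ δ 0 1 - δ 0 0 * B := by
    rw [← ZMod.intCast_zmod_eq_zero_iff_dvd]
    simp only [B]
    push_cast
    rw [ZMod.natCast_zmod_val]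
    field_simp
    ring
  obtain ⟨η, e00, e01, e10, e11⟩ : ∃ η : SL(2, ℤ),
      η 0 0 = δ 0 0 ∧ η 0 1 = e ∧ η 1 0 = q * (q * c) ∧ η 1 1 = δ 1 1 - (q * c) * B :=
    ⟨⟨!![δ 0 0, e; q * (q * c), δ 1 1 - (q * c) * B], by
      rw [Matrix.det_fin_two_of]
      linear_combination hdet + (δ 0 1) * hc + ((q : ℤ) * c) * he⟩, rfl, rfl, rfl, rfl⟩
  have hpt : ∀ τ : ℍ, affPt 1 0 q (δ • τ) = η • affPt 1 (B : ℤ) q τ := fun τ => by
    refine UpperHalfPlane.ext ?_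
    rw [coe_sl_smul' η, e00, e01, e10, e11, coe_affPt, coe_affPt, coe_sl_smul' δ]
    have hq : (q : ℂ) ≠ 0 := Nat.cast_ne_zero.mpr (NeZero.ne q)
    have hden : ((δ 1 0 : ℤ) : ℂ) * τ + (δ 1 1 : ℤ) ≠ 0 := den_ne_zero δ τ
    have hc' : ((δ 1 0 : ℤ) : ℂ) = q * c := by exact_mod_cast hc
    have he' : ((δ 0 1 : ℤ) : ℂ) - (δ 0 0 : ℤ) * B = q * e := by exact_mod_cast he
    have e2 : ((q * (q * c) : ℤ) : ℂ) * ((((1 : ℕ) : ℂ) * τ + ((B : ℤ) : ℂ)) / q) +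
        ((δ 1 1 - (q * c) * B : ℤ) : ℂ) = (δ 1 0 : ℤ) * τ + (δ 1 1 : ℤ) := by
      push_cast
      rw [hc']
      field_simp
      ring
    have e1 : ((δ 0 0 : ℤ) : ℂ) * ((((1 : ℕ) : ℂ) * τ + ((B : ℤ) : ℂ)) / q) + e =
        ((δ 0 0 : ℤ) * τ + (δ 0 1 : ℤ)) / q := by
      push_cast
      field_simp
      linear_combination -he'
    rw [e1, e2]
    push_cast
    field_simp
    ring
  haveI : NeZero (1 * (M0 * N')) := ⟨by simp [NeZero.ne M0, NeZero.ne N']⟩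
  have h1 := sPairs_jFun_affPt C.ζ C.hζ 1 (B : ℤ) q (M0 * N') (by ring)
  have h2 := sPairs_jd C.ζ C.hζ (M0 := q) (N' := M0 * N') (by ring) 1
  have hf : (fun τ => jFun (affPt 1 (B : ℤ) q τ)) = jd q 1 := by
    rw [← h]
    funext τ
    rw [compg_apply, jd, hpt, jFun_smul]
  rw [hf] at h1
  obtain ⟨-, hu⟩ := jAt_injective (NeZero.ne _) (NeZero.ne _) (sPairs_unique h1 h2)
  have hB : (C.zq : C.Sˣ) ^ B = 1 := by
    rw [← hu, zq, ← pow_mul, ← zpow_natCast C.ζ (M0 * N' * B)]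
    push_cast
    rfl
  have hB' : q ∣ B := (C.zq_primitive.pow_eq_one_iff_dvd B).1 (by
    rw [← Units.val_pow_eq_pow_val, hB, Units.val_one])
  have : (q : ℤ) ∣ δ 0 0 * B := dvd_mul_of_dvd_right (Int.natCast_dvd_natCast.2 hB') _
  have h3 := dvd_add ⟨e, he⟩ this
  rwa [sub_add_cancel] at h3

include C in
/-- A translate fixing `j (q τ)` fixes the other side. -/
theorem dvd10_of_fix {δ : SL(2, ℤ)} (hδ : δ ∈ CongruenceSubgroup.Gamma M0)
    (h : compg δ (jd q (q * q)) = jd q (q * q)) : (q : ℤ) ∣ δ 1 0 := by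
  obtain ⟨r, hr⟩ := C.exists_rep_dvd (γ := δ)
  rcases r with _ | i
  · simpa [gr] using hr
  exfalso
  obtain ⟨ε, -, he⟩ := C.aff_gr (some i)
  have hsq : jd q (q * q) = fun τ => jFun (affPt q 0 1 τ) := by
    funext τ
    rw [jd]
    congr 1
    refine UpperHalfPlane.ext ?_
    rw [coe_affPt, coe_affPt]
    have hq : (q : ℂ) ≠ 0 := Nat.cast_ne_zero.mpr (NeZero.ne q)
    push_cast
    field_simp
    ring
  have hinv : compg (δ * (C.gr (some i))⁻¹) (jd q (q * q)) = jd q (q * q) := by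
    funext τ
    refine jd_invariant' (dvd_mul_of_dvd_left ?_ _) ?_ τ
    · exact_mod_cast dvd_mul_right q q
    · push_cast
      exact mul_dvd_mul_left _ hr
  have h' : compg (C.gr (some i)) (jd q (q * q)) = jd q (q * q) := by
    conv_rhs => rw [← h]
    conv_lhs => rw [← hinv]
    rw [compg_compg, inv_mul_cancel_right]
  haveI : NeZero (C.rA (some i) * (M0 * C.rk (some i))) :=
    ⟨mul_ne_zero (NeZero.ne _) (mul_ne_zero (NeZero.ne _) (NeZero.ne _))⟩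
  have h1 := sPairs_jFun_affPt C.ζ C.hζ (C.rA (some i)) (C.rB (some i)) (C.rD (some i))
    (M0 * C.rk (some i)) (by rw [← C.rD_mul (some i)]; ring)
  have h2 := sPairs_jd C.ζ C.hζ (M0 := q) (N' := M0 * N') (by ring) (q * q)
  have hf : (fun τ => jFun (affPt (C.rA (some i)) (C.rB (some i)) (C.rD (some i)) τ)) = jd q (q * q) := by
    conv_rhs => rw [← h', hsq]
    funext τ
    rw [compg_apply, he, jFun_smul]
  rw [hf] at h1
  obtain ⟨hm, -⟩ := jAt_injective (NeZero.ne _) (NeZero.ne _) (sPairs_unique h1 h2)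
  simp only [rA, rk, one_mul] at hm
  have h3 : 1 * (M0 * N') = q * q * (M0 * N') := by rw [one_mul]; exact hm
  have h4 := Nat.eq_of_mul_eq_mul_right (Nat.pos_of_ne_zero (NeZero.ne (M0 * N'))) h3
  have := C.hq.two_le
  nlinarith

end Ctx

end FLTAgent.Carayol
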