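import Fermat.Agent.Carayol.Eqs

/-!
# Points modulo `q` and their first order neighbourhoods
-/

set_option autoImplicit false
set_option linter.unusedSectionVars false
set_option linter.style.haveILetI false

noncomputable section

open UpperHalfPlane hiding I I_re I_im
open Filter Topology Complex Function FLTAgent.ModEq FLTAgent.GoodModel ModularCurve
open scoped MatrixGroups Manifold Classical

namespace FLTAgent.Carayol

variable {q M0 N' : ℕ} [NeZero M0] [NeZero N'] [NeZero q] [Fact q.Prime]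
variable {C : Ctx q M0 N'} {k : Type} [Field k]

/-- A point of the cover modulo `q`. -/
structure Pt (Ω : Res C k) where
  π : C.R →+* k
  comp : π.comp C.cW = Ω.φW

namespace Pt

variable {Ω : Res C k} (p : Pt Ω)

/-- The ideal of a point. -/
def ideal : Ideal C.R := RingHom.ker p.π

theorem mem_ideal {z : C.R} : z ∈ p.ideal ↔ p.π z = 0 := RingHom.mem_ker

theorem π_cW (w : C.W) : p.π (C.cW w) = Ω.φW w := RingHom.congr_fun p.comp w

theorem π_surjective : Surjective p.π := fun a => by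
  obtain ⟨w, rfl⟩ := Ω.surjW a
  exact ⟨C.cW w, p.π_cW w⟩

instance isMaximal : p.ideal.IsMaximal := RingHom.ker_isMaximal_of_surjective p.π p.π_surjective

theorem q_mem : (q : C.R) ∈ p.ideal := by
  haveI := Ω.charK
  rw [p.mem_ideal, map_natCast, CharP.cast_eq_zero]

theorem π_q : p.π (q : C.R) = 0 := p.mem_ideal.1 p.q_mem

theorem exists_lift (z : C.R) : ∃ c : C.W, z - C.cW c ∈ p.ideal := by
  obtain ⟨c, hc⟩ := Ω.surjW (p.π z)
  refine ⟨c, ?_⟩
  rw [p.mem_ideal, map_sub, p.π_cW]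
  exact sub_eq_zero.2 hc.symm

theorem exists_branch : ∃ l, Ω.ker (C.rep l) ≤ p.ideal := Ω.exists_ker_le _ p.q_mem

theorem π_evR (P : Polynomial C.W) : p.π (C.evR P) = (P.map Ω.φW).eval (p.π C.yR) := by
  rw [Ctx.evR, Polynomial.coe_eval₂RingHom, Polynomial.hom_eval₂, p.comp, Polynomial.eval_map]

theorem π_dlt : p.π (C.evR C.dltW) ≠ 0 := fun h => by
  have := congrArg p.π C.evR_dltW_mul_dR
  rw [map_mul, h, zero_mul, map_one] at this
  exact zero_ne_one this

theorem π_dlt_x (b : Bool) : p.π (C.dltW.eval₂ C.cW (C.xR b)) ≠ 0 := fun h => by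
  have := congrArg p.π (C.dltW_x_mul_uR b)
  rw [map_mul, h, zero_mul, map_one] at this
  exact zero_ne_one this

end Pt

/-- The value of the slope modulo `q`. -/
def Eqs.OmR {Ω : Res C k} (E : Eqs Ω) : C.R := -(C.evR (E.G.coeff q) * C.dR ^ E.s)

theorem Eqs.red_OmR {Ω : Res C k} (E : Eqs Ω) {γ : SL(2, ℤ)}
    (hγ : γ ∈ CongruenceSubgroup.Gamma M0) : Ω.red γ E.OmR = Ω.om := by
  have h := congrArg (fun z => Ω.red γ z ^ E.s) C.evR_dltW_mul_dR
  simp only [map_mul, map_one, one_pow, mul_pow] at h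
  rw [Eqs.OmR, map_neg, map_mul, map_pow, E.G_top γ hγ]
  linear_combination Ω.om * h

namespace Pt

variable {Ω : Res C k} (p : Pt Ω)

/-- The two possible types of a side. -/
theorem side (E : Eqs Ω) (b : Bool) :
    (p.π (C.xR b) = p.π C.yR ^ q ∧ p.π (C.vR b) = 0 ∧ p.π (C.wR b) = p.π E.OmR) ∨
      (p.π (C.xR b) ^ q = p.π C.yR ∧ p.π (C.wR b) = 0 ∧ p.π (C.vR b) ^ q = p.π E.OmR) := by
  obtain ⟨l, hl⟩ := p.exists_branch
  obtain ⟨r, -, h1, h2⟩ := Ω.red_cases (C.rep_mem l) b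
  have key : ∀ {z z' : C.R}, Ω.red (C.rep l) z = Ω.red (C.rep l) z' → p.π z = p.π z' := by
    intro z z' h
    rw [← sub_eq_zero, ← map_sub, ← p.mem_ideal]
    refine hl ?_
    show Ω.red (C.rep l) (z - z') = 0
    rw [map_sub, h, sub_self]
  by_cases hr : r = none
  · obtain ⟨a1, a2, a3⟩ := h1 hr
    refine Or.inl ⟨?_, ?_, ?_⟩
    · rw [← map_pow]; exact key (by rw [map_pow]; exact a1)
    · rw [← map_zero p.π]; exact key (by rw [map_zero]; exact a2)
    · exact key (by rw [E.red_OmR (C.rep_mem l)]; exact a3)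
  · obtain ⟨a1, a2, a3⟩ := h2 hr
    refine Or.inr ⟨?_, ?_, ?_⟩
    · rw [← map_pow]; exact key (by rw [map_pow]; exact a1)
    · rw [← map_zero p.π]; exact key (by rw [map_zero]; exact a2)
    · rw [← map_pow]; exact key (by rw [map_pow, E.red_OmR (C.rep_mem l)]; exact a3)

theorem π_dG (E : Eqs Ω) (Y X : C.R) : p.π (bv C.cW Y X (Polynomial.derivative E.G)) =
    p.π (C.dltW.eval₂ C.cW Y) ^ E.s * p.π X ^ q := by
  obtain ⟨c, hc⟩ := E.dvd_G Y X
  have h := congrArg p.π hc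
  simp only [map_sub, map_mul, map_pow, p.π_q, zero_mul, sub_eq_zero] at h
  exact h

theorem side_zero (E : Eqs Ω) (h : p.π E.OmR = 0) (b : Bool) :
    p.π (C.wR b) = 0 ∧ p.π (C.vR b) = 0 := by
  rcases p.side E b with ⟨-, h2, h3⟩ | ⟨-, h2, h3⟩
  · exact ⟨h3.trans h, h2⟩
  · exact ⟨h2, eq_zero_of_pow_eq_zero (h3.trans h)⟩

theorem side_ne (E : Eqs Ω) (h : p.π E.OmR ≠ 0) (b : Bool) :
    (p.π (C.wR b) ≠ 0 ∧ p.π (C.vR b) = 0) ∨
      (p.π (C.vR b) ≠ 0 ∧ p.π (C.wR b) = 0 ∧ p.π (C.xR b) ^ q = p.π C.yR ∧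
        p.π (C.vR b) ^ q = p.π E.OmR) := by
  rcases p.side E b with ⟨-, h2, h3⟩ | ⟨h1, h2, h3⟩
  · exact Or.inl ⟨h3 ▸ h, h2⟩
  · exact Or.inr ⟨fun h0 => h (by rw [← h3, h0, zero_pow (NeZero.ne q)]), h2, h1, h3⟩

end Pt

/-- A first order neighbourhood of a point. -/
structure Jet {Ω : Res C k} (p : Pt Ω) (B : Type) [CommRing B] where
  f : C.R →+* B
  ι : k →+* B
  comp : f.comp C.cW = ι.comp Ω.φW
  sq : ∀ z z' : C.R, p.π z = 0 → p.π z' = 0 → f z * f z' = 0

namespace Jet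

variable {Ω : Res C k} {p : Pt Ω} {B : Type} [CommRing B] (J : Jet p B)

/-- Elements without first order part. -/
def Agree (z : C.R) : Prop := J.f z = J.ι (p.π z)

theorem agree_cW (w : C.W) : J.Agree (C.cW w) := by
  rw [Agree, p.π_cW]
  exact RingHom.congr_fun J.comp w

theorem isUnit_f {z : C.R} (h : p.π z ≠ 0) : IsUnit (J.f z) := by
  obtain ⟨c, hc⟩ := p.exists_lift z
  have hz : p.π z = Ω.φW c := by rw [← sub_eq_zero, ← p.π_cW, ← map_sub, ← p.mem_ideal]; exact hc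
  have h2 : IsUnit (J.f (C.cW c)) := by
    rw [J.agree_cW c, p.π_cW, ← hz]
    exact (IsUnit.mk0 _ h).map J.ι
  have h3 : IsNilpotent (J.f (z - C.cW c)) :=
    ⟨2, by rw [pow_two]; exact J.sq _ _ (p.mem_ideal.1 hc) (p.mem_ideal.1 hc)⟩
  rw [show z = (z - C.cW c) + C.cW c by ring, map_add]
  exact h3.isUnit_add_right_of_commute h2 (Commute.all _ _)

theorem agree_mul {z z' : C.R} (h : J.Agree z) (h' : J.Agree z') : J.Agree (z * z') := by
  simp only [Agree, map_mul] at h h' ⊢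
  rw [h, h']

theorem agree_pow {z : C.R} (h : J.Agree z) (n : ℕ) : J.Agree (z ^ n) := by
  simp only [Agree, map_pow] at h ⊢
  rw [h]

theorem agree_natCast (n : ℕ) : J.Agree (n : C.R) := by simp [Agree]

theorem agree_bv {Y X : C.R} (hY : J.Agree Y) (hX : J.Agree X) (P : Polynomial (Polynomial C.W)) :
    J.Agree (bv C.cW Y X P) := by
  simp only [Agree, map_bv, p.comp] at *
  rw [J.comp, hY, hX]

theorem agree_eval₂ {Y : C.R} (hY : J.Agree Y) (P : Polynomial C.W) :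
    J.Agree (P.eval₂ C.cW Y) := by
  simp only [Agree, Polynomial.hom_eval₂, p.comp] at *
  rw [J.comp, hY]

theorem agree_cancel {z z' : C.R} (hz : J.Agree z) (h : J.Agree (z * z')) (hne : p.π z ≠ 0) :
    J.Agree z' := by
  simp only [Agree, map_mul] at hz h ⊢
  rw [hz] at h
  exact ((IsUnit.mk0 _ hne).map J.ι).mul_left_cancel h

/-- A simple root has no first order part. -/
theorem agree_root {Y Z : C.R} (hY : J.Agree Y) {P : Polynomial (Polynomial C.W)}
    (h0 : bv C.cW Y Z P = 0) (hd : p.π (bv C.cW Y Z (Polynomial.derivative P)) ≠ 0) :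
    J.Agree Z := by
  obtain ⟨c, hc⟩ := p.exists_lift Z
  set zc := C.cW c
  have hzc : p.π zc = p.π Z := by
    rw [eq_comm, ← sub_eq_zero, ← map_sub, ← p.mem_ideal]; exact hc
  obtain ⟨e, he⟩ := Polynomial.binomExpansion (P.map (Polynomial.eval₂RingHom C.cW Y)) zc (Z - zc)
  rw [add_sub_cancel, Polynomial.derivative_map, ← bv_eq_eval_map, ← bv_eq_eval_map,
    ← bv_eq_eval_map, h0] at he
  have h1 := congrArg J.f he
  have hd2 : J.f (Z - zc) * J.f (Z - zc) = 0 := J.sq _ _ (p.mem_ideal.1 hc) (p.mem_ideal.1 hc)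
  have hv : J.f (bv C.cW Y zc P) = 0 := by
    have h2 := congrArg p.π h0
    rw [(J.agree_bv hY (J.agree_cW c) P), map_bv, hzc, ← map_bv, h2, map_zero, map_zero]
  simp only [map_zero, map_add, map_mul, map_pow, hv] at h1
  have hu : IsUnit (J.f (bv C.cW Y zc (Polynomial.derivative P))) := J.isUnit_f (by
    rw [map_bv, hzc, ← map_bv]; exact hd)
  have h3 : J.f (Z - zc) = 0 := by
    refine hu.mul_right_eq_zero.1 ?_
    linear_combination -h1 - J.f e * hd2
  rw [Agree, ← hzc, ← J.agree_cW c, ← sub_eq_zero, ← map_sub, h3]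

theorem f_q (J : Jet p B) : J.f (q : C.R) = 0 := by
  haveI := Ω.charK
  rw [J.agree_natCast q, map_natCast p.π, CharP.cast_eq_zero, map_zero]

/-- A side étale over the coordinate. -/
theorem agree_side_F (E : Eqs Ω) {b : Bool} (hy : J.Agree C.yR) (hw : p.π (C.wR b) ≠ 0) :
    J.Agree (C.xR b) ∧ J.Agree (C.wR b) ∧ J.Agree (C.vR b) := by
  obtain ⟨e1, e2, -, -⟩ := E.G_eval b
  have hd : p.π (bv C.cW C.yR (C.wR b) (Polynomial.derivative E.G)) ≠ 0 := by
    rw [p.π_dG E]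
    exact mul_ne_zero (pow_ne_zero _ p.π_dlt) (pow_ne_zero _ hw)
  have hW : J.Agree (C.wR b) := J.agree_root hy e1 hd
  refine ⟨J.agree_cancel (J.agree_bv hy hW _) (e2 ▸ J.agree_bv hy hW _) hd, hW,
    J.agree_cancel hW ?_ hw⟩
  rw [C.wR_mul_vR b]
  exact J.agree_pow (J.agree_natCast q) 2

/-- A side étale over the other coordinate. -/
theorem agree_side_V (E : Eqs Ω) {b : Bool} (hx : J.Agree (C.xR b)) (hv : p.π (C.vR b) ≠ 0) :
    J.Agree C.yR ∧ J.Agree (C.wR b) ∧ J.Agree (C.vR b) := by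
  obtain ⟨-, -, e1, e2⟩ := E.G_eval b
  have hd : p.π (bv C.cW (C.xR b) (C.vR b) (Polynomial.derivative E.G)) ≠ 0 := by
    rw [p.π_dG E]
    exact mul_ne_zero (pow_ne_zero _ (p.π_dlt_x b)) (pow_ne_zero _ hv)
  have hV : J.Agree (C.vR b) := J.agree_root hx e1 hd
  refine ⟨J.agree_cancel (J.agree_bv hx hV _) (e2 ▸ J.agree_bv hx hV _) hd,
    J.agree_cancel hV ?_ hv, hV⟩
  rw [mul_comm, C.wR_mul_vR b]
  exact J.agree_pow (J.agree_natCast q) 2

/-- Agreement on the coordinates gives agreement everywhere. -/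
theorem agree_all (E : Eqs Ω) (hy : J.Agree C.yR)
    (hb : ∀ b, J.Agree (C.xR b) ∧ J.Agree (C.wR b) ∧ J.Agree (C.vR b)) :
    J.f = J.ι.comp p.π := by
  have hev : ∀ P, J.Agree (C.evR P) := fun P => J.agree_eval₂ hy P
  have hone : J.Agree (1 : C.R) := by simp [Agree]
  have hdR : J.Agree C.dR :=
    J.agree_cancel (hev _) (C.evR_dltW_mul_dR ▸ hone) p.π_dlt
  have hu : ∀ b, J.Agree (C.uR b) := fun b =>
    J.agree_cancel (J.agree_eval₂ (hb b).1 _) (C.dltW_x_mul_uR b ▸ hone) (p.π_dlt_x b)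
  obtain ⟨n1, n2⟩ := E.node
  have hd : p.π (bv C.cW C.yR C.etaR (Polynomial.derivative E.N)) ≠ 0 := fun h => by
    have := congrArg p.π n2
    rw [map_mul, h, zero_mul, map_pow] at this
    exact pow_ne_zero _ p.π_dlt this.symm
  have heta : J.Agree C.etaR := J.agree_root hy n1 hd
  have hrho : J.Agree C.rhoR :=
    J.agree_cancel (J.agree_bv hy heta _) (n2 ▸ J.agree_pow (hev _) _) hd
  have hs : ∀ {f : ℍ → ℂ} (hf : f ∈ C.R) (z : C.R), (z : ℍ → ℂ) = f → J.Agree z →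
      J.Agree ⟨f, hf⟩ := by
    rintro f hf z rfl h
    exact h
  have hgr : C.gr none = 1 := rfl
  refine RingHom.ext fun ⟨φ, hφ⟩ => ?_
  show J.Agree ⟨φ, hφ⟩
  induction hφ using Subring.closure_induction with
  | mem f hf =>
    rcases hf with ⟨w, rfl⟩ | hf
    · exact J.agree_cW w
    · rcases hf with rfl | rfl | rfl | rfl | rfl | rfl | rfl | rfl | rfl | rfl | rfl | rfl
      · exact hs _ C.yR rfl hy
      · exact hs _ C.dR rfl hdR
      · exact hs _ C.etaR rfl heta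
      · exact hs _ C.rhoR rfl hrho
      · exact hs _ (C.xR false) (by simp [Ctx.xR, Ctx.sb, Ctx.rX, hgr, compg_one]) (hb false).1
      · exact hs _ (C.wR false) (by simp [Ctx.wR, Ctx.sb, Ctx.rW, hgr, compg_one]) (hb false).2.1
      · exact hs _ (C.vR false) (by simp [Ctx.vR, Ctx.sb, Ctx.rV, hgr, compg_one]) (hb false).2.2
      · exact hs _ (C.uR false) (by simp [Ctx.uR, Ctx.sb, Ctx.rU, hgr, compg_one]) (hu false)
      · exact hs _ (C.xR true) rfl (hb true).1
      · exact hs _ (C.wR true) rfl (hb true).2.1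
      · exact hs _ (C.vR true) rfl (hb true).2.2
      · exact hs _ (C.uR true) rfl (hu true)
  | zero => exact (map_zero J.f).trans (by show (0 : B) = J.ι (p.π 0); rw [map_zero, map_zero])
  | one => exact hone
  | add x y hx hy ihx ihy =>
    show J.f (⟨x, hx⟩ + ⟨y, hy⟩) = J.ι (p.π (⟨x, hx⟩ + ⟨y, hy⟩))
    simp only [Agree] at ihx ihy
    simp only [map_add, ihx, ihy]
  | neg x hx ihx =>
    show J.f (-⟨x, hx⟩) = J.ι (p.π (-⟨x, hx⟩))
    simp only [Agree] at ihx
    simp only [map_neg, ihx]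
  | mul x y hx hy ihx ihy => exact J.agree_mul ihx ihy

end Jet

end FLTAgent.Carayol
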