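import Fermat.Agent.Carayol.Supersingular

/-!
# Regularity of the cover over `q`
-/

set_option autoImplicit false
set_option linter.unusedSectionVars false
set_option linter.style.haveILetI false

noncomputable section

open UpperHalfPlane hiding I I_re I_im
open Filter Topology Complex Function FLTAgent.ModEq FLTAgent.GoodModel ModularCurve
open scoped MatrixGroups Manifold Classical

namespace FLTAgent.Carayol

open IsLocalRing (maximalIdeal)

variable {q M0 N' : ℕ} [NeZero M0] [NeZero N'] [NeZero q] [Fact q.Prime]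
variable {C : Ctx q M0 N'} {k : Type} [Field k]

theorem le_of_le_sup_sq {L : Type*} [CommRing L] [IsLocalRing L] [IsNoetherianRing L] {J : Ideal L}
    (h : maximalIdeal L ≤ J ⊔ maximalIdeal L ^ 2) : maximalIdeal L ≤ J :=
  Submodule.le_of_le_smul_of_le_jacobson_bot (IsNoetherian.noetherian _)
    (le_of_eq (IsLocalRing.jacobson_eq_maximalIdeal ⊥ bot_ne_top).symm)
    (by rwa [smul_eq_mul, ← pow_two])

theorem Res.exists_pt (Ω : Res C k) [IsAlgClosed k] (P : Ideal C.R) [P.IsMaximal]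
    (hP : (q : C.R) ∈ P) : ∃ p : Pt Ω, p.ideal = P := by
  obtain ⟨m, f, hf, hfC⟩ := C.exists_finite_gen
  letI := Ideal.Quotient.field P
  have hker : RingHom.ker Ω.φW ≤ RingHom.ker ((Ideal.Quotient.mk P).comp C.cW) := by
    intro w hw
    obtain ⟨c, rfl⟩ := Ω.kerW w hw
    rw [RingHom.mem_ker, RingHom.comp_apply, map_mul, map_natCast, map_mul,
      Ideal.Quotient.eq_zero_iff_mem.2 hP, zero_mul]
  set ι : k →+* C.R ⧸ P := RingHom.liftOfSurjective Ω.φW Ω.surjW
    ⟨(Ideal.Quotient.mk P).comp C.cW, hker⟩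
  have hι : ι.comp Ω.φW = (Ideal.Quotient.mk P).comp C.cW :=
    RingHom.liftOfRightInverse_comp _ _ _ _
  letI := ι.toAlgebra
  let g : MvPolynomial (Fin m) k →ₐ[k] C.R ⧸ P :=
    MvPolynomial.aeval fun i => Ideal.Quotient.mk P (f (MvPolynomial.X i))
  have hg : Surjective g := by
    have key : g.toRingHom.comp (MvPolynomial.map Ω.φW) = (Ideal.Quotient.mk P).comp f := by
      refine MvPolynomial.ringHom_ext (fun w => ?_) fun i => ?_
      · simp only [RingHom.comp_apply, MvPolynomial.map_C, g, AlgHom.toRingHom_eq_coe,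
          RingHom.coe_coe, MvPolynomial.aeval_C]
        rw [show f (MvPolynomial.C w) = C.cW w from RingHom.congr_fun hfC w]
        exact RingHom.congr_fun hι w
      · simp [g]
    intro z
    obtain ⟨z, rfl⟩ := Ideal.Quotient.mk_surjective z
    obtain ⟨P', rfl⟩ := hf z
    exact ⟨MvPolynomial.map Ω.φW P', RingHom.congr_fun key P'⟩
  haveI : Algebra.FiniteType k (C.R ⧸ P) := Algebra.FiniteType.of_surjective g hg
  haveI : Module.Finite k (C.R ⧸ P) := finite_of_finite_type_of_isJacobsonRing k _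
  haveI : Algebra.IsIntegral k (C.R ⧸ P) := Algebra.IsIntegral.of_finite k _
  set e : k ≃+* C.R ⧸ P := RingEquiv.ofBijective ι
    (IsAlgClosed.algebraMap_bijective_of_isIntegral (k := k) (K := C.R ⧸ P))
  refine ⟨⟨e.symm.toRingHom.comp (Ideal.Quotient.mk P), RingHom.ext fun w => ?_⟩, ?_⟩
  · apply e.injective
    simp only [RingHom.comp_apply, RingEquiv.toRingHom_eq_coe, RingEquiv.coe_toRingHom,
      RingEquiv.apply_symm_apply]
    exact (RingHom.congr_fun hι w).symm
  · ext z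
    rw [Pt.mem_ideal]
    simp [Ideal.Quotient.eq_zero_iff_mem]

namespace Pt

variable {Ω : Res C k} (p : Pt Ω)

/-- The local ring of a point. -/
abbrev Loc : Type := Localization.AtPrime p.ideal

theorem algebraMap_mem_max {z : C.R} :
    algebraMap C.R p.Loc z ∈ maximalIdeal p.Loc ↔ p.π z = 0 := by
  rw [IsLocalization.AtPrime.to_map_mem_maximal_iff p.Loc p.ideal z, p.mem_ideal]

theorem isUnit_algebraMap {z : C.R} (h : p.π z ≠ 0) : IsUnit (algebraMap C.R p.Loc z) :=
  IsLocalization.map_units p.Loc (⟨z, fun hz => h (p.mem_ideal.1 hz)⟩ : p.ideal.primeCompl)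

/-- Agreement of all first order neighbourhoods bounds the maximal ideal. -/
theorem maximal_le (I : Ideal p.Loc) (hq : algebraMap C.R p.Loc (q : C.R) ∈ I ⊔ maximalIdeal p.Loc ^ 2)
    (h : ∀ (B : Type) [CommRing B] (J : Jet p B), (∀ z, algebraMap C.R p.Loc z ∈ I → J.f z = 0) →
      J.f = J.ι.comp p.π) [IsNoetherianRing p.Loc] : maximalIdeal p.Loc ≤ I := by
  refine le_of_le_sup_sq ?_
  set K := I ⊔ maximalIdeal p.Loc ^ 2
  set f := (Ideal.Quotient.mk K).comp (algebraMap C.R p.Loc)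
  have hker : RingHom.ker Ω.φW ≤ RingHom.ker (f.comp C.cW) := by
    intro w hw
    obtain ⟨c, rfl⟩ := Ω.kerW w hw
    rw [RingHom.mem_ker, map_mul, map_natCast]
    simp only [f]
    rw [← map_natCast ((Ideal.Quotient.mk K).comp (algebraMap C.R p.Loc)), RingHom.comp_apply,
      Ideal.Quotient.eq_zero_iff_mem.2 hq, zero_mul]
  let J : Jet p (p.Loc ⧸ K) := ⟨f, RingHom.liftOfSurjective Ω.φW Ω.surjW ⟨f.comp C.cW, hker⟩,
    (RingHom.liftOfRightInverse_comp Ω.φW (Function.surjInv Ω.surjW)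
      (Function.rightInverse_surjInv Ω.surjW) ⟨f.comp C.cW, hker⟩).symm, fun z z' hz hz' => by
      rw [← map_mul, RingHom.comp_apply, Ideal.Quotient.eq_zero_iff_mem, map_mul]
      refine Ideal.mem_sup_right ?_
      rw [pow_two]
      exact Ideal.mul_mem_mul (p.algebraMap_mem_max.2 hz) (p.algebraMap_mem_max.2 hz')⟩
  have hJ := h _ J fun z hz => Ideal.Quotient.eq_zero_iff_mem.2 (Ideal.mem_sup_left hz)
  rw [← Localization.AtPrime.map_eq_maximalIdeal, Ideal.map_le_iff_le_comap]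
  intro z hz
  rw [Ideal.mem_comap, ← Ideal.Quotient.eq_zero_iff_mem]
  show J.f z = 0
  rw [hJ, RingHom.comp_apply, p.mem_ideal.1 hz, map_zero]

theorem eval₂_π (Y : C.R) (P : Polynomial C.W) :
    p.π (P.eval₂ C.cW Y) = (P.map Ω.φW).eval (p.π Y) := by
  rw [Polynomial.hom_eval₂, p.comp, Polynomial.eval_map]

end Pt

namespace Jet

variable {Ω : Res C k} {p : Pt Ω} {B : Type} [CommRing B] (J : Jet p B)

theorem agree_of_zero {z : C.R} (h : J.f z = 0) (hπ : p.π z = 0) : J.Agree z := by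
  rw [Agree, h, hπ, map_zero]

theorem agree_of_sub {z : C.R} {c : C.W} (h : J.f (z - C.cW c) = 0)
    (hπ : z - C.cW c ∈ p.ideal) : J.Agree z := by
  have h1 := J.agree_cW c
  have h2 := p.mem_ideal.1 hπ
  rw [map_sub, sub_eq_zero] at h h2
  rw [Agree, h, h2, ← h1]

theorem agree_congr {z z' : C.R} (h : J.Agree z') (h1 : J.f (z - z') = 0) (h2 : p.π (z - z') = 0) :
    J.Agree z := by
  rw [map_sub, sub_eq_zero] at h1 h2
  rw [Agree, h1, h2]
  exact h

theorem agree_OmR (E : Eqs Ω) (hy : J.Agree C.yR) : J.Agree E.OmR := by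
  have h1 : J.Agree (C.evR C.dltW) := J.agree_eval₂ hy _
  have h2 : J.Agree C.dR :=
    J.agree_cancel h1 (C.evR_dltW_mul_dR ▸ by simp [Agree]) p.π_dlt
  have h3 := J.agree_mul (J.agree_eval₂ hy (E.G.coeff q)) (J.agree_pow h2 E.s)
  simp only [Eqs.OmR, Agree, map_neg] at h3 ⊢
  rw [Ctx.evR, Polynomial.coe_eval₂RingHom, h3]

/-- Agreement at supersingular points. -/
theorem agree_super (E : Eqs Ω) (h : p.π E.OmR = 0) (hy : J.Agree C.yR) {b : Bool}
    (hx : J.Agree (C.xR b)) : J.Agree (C.wR b) ∧ J.Agree (C.vR b) := by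
  obtain ⟨hw, hv⟩ := p.side_zero E h b
  obtain ⟨hL, hL'⟩ := E.π_L p h b
  have hLf : J.f (C.xR b ^ q - C.yR) = 0 := by
    rw [map_sub, map_pow, hx, hy, ← map_pow, hL, sub_self]
  have hL'f : J.f (C.xR b - C.yR ^ q) = 0 := by
    rw [map_sub, map_pow, hx, hy, ← map_pow, hL', sub_self]
  have hH : p.π (E.Hv b) ≠ 0 := E.π_Hv_ne p h b
  have hD : p.π E.Dv ≠ 0 := E.π_Dv p
  have hπL : p.π (C.xR b ^ q - C.yR) = 0 := by rw [map_sub, map_pow, hL, sub_self]
  have hπL' : p.π (C.xR b - C.yR ^ q) = 0 := by rw [map_sub, map_pow, hL', sub_self]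
  refine ⟨J.agree_of_zero ?_ hw, J.agree_of_zero ?_ hv⟩
  · have h1 := congrArg J.f (E.eq_w b)
    have hu : IsUnit (J.f (E.Hv b * E.Dv)) := J.isUnit_f (by rw [map_mul]; exact mul_ne_zero hH hD)
    simp only [map_add, map_sub, map_mul, map_pow, map_zero, J.f_q, hLf, zero_mul, mul_zero,
      zero_pow two_ne_zero, add_zero, sub_zero, zero_add] at h1 hu
    exact hu.mul_left_eq_zero.1 h1
  · have h1 := congrArg J.f (E.eq_v b)
    have hu : IsUnit (J.f (-(E.Dv * E.Hv b))) := J.isUnit_f (by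
      rw [map_neg, map_mul, neg_ne_zero]; exact mul_ne_zero hD hH)
    simp only [map_add, map_sub, map_neg, map_mul, map_pow, map_zero, J.f_q, hL'f, zero_mul,
      mul_zero, zero_pow two_ne_zero, neg_zero, add_zero, sub_zero, zero_add, zero_sub, mul_neg] at h1 hu
    refine hu.mul_left_eq_zero.1 ?_
    linear_combination h1

end Jet

namespace Eqs

variable {Ω : Res C k} (E : Eqs Ω)

/-- The derivative of the inverse of the second coordinate. -/
theorem euler_dual (b : Bool) :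
    C.vR b * ((bv C.cW (C.xR b) (C.vR b) (Polynomial.derivative E.Q) -
        C.yR * bv C.cW (C.xR b) (C.vR b) (Polynomial.derivative (Polynomial.derivative E.G))) *
          (-bv C.cW (C.xR b) (C.vR b) (dInner E.G)) +
        (bv C.cW (C.xR b) (C.vR b) (dInner E.Q) -
          C.yR * bv C.cW (C.xR b) (C.vR b) (dInner (Polynomial.derivative E.G))) *
          bv C.cW (C.xR b) (C.vR b) (Polynomial.derivative E.G)) =
      (q : C.R) * bv C.cW (C.xR b) (C.vR b) (Polynomial.derivative E.G) ^ 2 := by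
  obtain ⟨-, -, e1, e2⟩ := E.G_eval b
  set Ψ := C.embAt 1
  have hΨ : Ψ.comp C.cW = (HahnSeries.C : C.S →+* LaurentSeries C.S).comp C.inc :=
    RingHom.ext fun w => C.embAt_cW 1 w
  have hy : Ψ C.yR = C.Ys := by
    rw [← C.ser_T]
    exact C.embAt_eq _ C.T_mem (compg_one _)
  have hx : Ψ (C.xR b) = C.rHom (C.sb b) C.co.H := by
    rw [← C.ser_rX]
    exact C.embAt_eq _ (C.rX_mem _) (compg_one _)
  have hw : Ψ (C.wR b) * eul (Ψ (C.xR b)) = HahnSeries.C (q : C.S) * eul (Ψ C.yR) := by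
    have e : Ψ (C.wR b) = ser ⟨C.rW (C.sb b), C.rW_mem _⟩ := C.embAt_eq _ (C.rW_mem _) (compg_one _)
    rw [e, hx, hy]; exact C.ser_rW_eul _
  have h3 : Ψ (C.vR b) * eul (Ψ C.yR) = (q : LaurentSeries C.S) * eul (Ψ (C.xR b)) := by
    have hwv := congrArg Ψ (C.wR_mul_vR b)
    rw [map_natCast] at hw
    rw [map_mul, map_pow, map_natCast] at hwv
    have hqne : (q : LaurentSeries C.S) ≠ 0 := by
      rw [← map_natCast (HahnSeries.C : C.S →+* LaurentSeries C.S)]
      exact HahnSeries.C_ne_zero (Nat.cast_ne_zero.2 (NeZero.ne q))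
    refine mul_left_cancel₀ hqne ?_
    linear_combination (eul (Ψ (C.xR b))) * hwv - (Ψ (C.vR b)) * hw
  have h1 := congrArg (fun z => eul (Ψ z)) e1
  have h2 := congrArg (fun z => eul (Ψ z)) e2
  simp only [map_mul, eul_mul, map_bv, hΨ, eul_bv] at h1 h2
  rw [map_zero, ← map_zero (HahnSeries.C : C.S →+* LaurentSeries C.S), eul_C] at h1
  simp only [← hΨ, ← map_bv] at h1 h2
  refine C.embAt_injective 1 (mul_right_cancel₀ (b := eul (Ψ (C.xR b))) ?_ ?_)
  · rw [hx]; exact (C.ser_rW_ne _).2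
  simp only [map_add, map_sub, map_mul, map_neg, map_pow, map_natCast]
  linear_combination (-(Ψ (C.vR b)) * (Ψ (bv C.cW (C.xR b) (C.vR b) (Polynomial.derivative E.Q)) -
        Ψ C.yR * Ψ (bv C.cW (C.xR b) (C.vR b) (Polynomial.derivative (Polynomial.derivative E.G))))) * h1 -
    (Ψ (C.vR b) * Ψ (bv C.cW (C.xR b) (C.vR b) (Polynomial.derivative E.G))) * h2 +
    Ψ (bv C.cW (C.xR b) (C.vR b) (Polynomial.derivative E.G)) ^ 2 * h3

theorem xR_ne : C.xR false - C.xR true ≠ 0 := by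
  intro h
  have h1 := congrArg Subtype.val (sub_eq_zero.1 h)
  exact absurd (C.rX_injective h1) (by simp [Ctx.sb])

/-- At doubly Verschiebung points `q` is a multiple of the difference of the two coordinates. -/
theorem q_mem_VV (E : Eqs Ω) (p : Pt Ω) (h0 : p.π (C.vR false) ≠ 0) (h1 : p.π (C.vR true) ≠ 0)
    (hv : p.π (C.vR false) = p.π (C.vR true)) (hx : p.π (C.xR false) = p.π (C.xR true)) :
    algebraMap C.R p.Loc (q : C.R) ∈
      Ideal.span {algebraMap C.R p.Loc (C.xR false - C.xR true)} := by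
  obtain ⟨-, -, a1, a2⟩ := E.G_eval false
  obtain ⟨-, -, c1, c2⟩ := E.G_eval true
  obtain ⟨P1, P2, hP, hP1, hP2⟩ :=
    exists_divided C.cW (C.xR false) (C.xR true) (C.vR false) (C.vR true) E.G
  obtain ⟨A1, A2, hA, hA1, hA2⟩ := exists_divided C.cW (C.xR false) (C.xR true) (C.vR false)
    (C.vR true) (Polynomial.derivative E.G)
  obtain ⟨Q1, Q2, hQ, hQ1, hQ2⟩ :=
    exists_divided C.cW (C.xR false) (C.xR true) (C.vR false) (C.vR true) E.Q
  set K := Ideal.span {C.vR false - C.vR true, C.xR false - C.xR true} with hK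
  set GX := bv C.cW (C.xR false) (C.vR false) (Polynomial.derivative E.G)
  rw [a1, c1, sub_zero] at hP
  have brace : C.yR * (-P2 * A1 + P1 * A2) - (-P2 * Q1 + P1 * Q2) = 0 := by
    refine mul_left_cancel₀ (xR_ne (C := C)) ?_
    rw [mul_zero]
    linear_combination (-(P1 * C.yR)) * hA + P1 * hQ + P1 * a2 - P1 * c2 +
      (C.yR * A1 - Q1) * hP
  -- read it modulo the differences
  have e1 := Ideal.Quotient.mk_eq_mk_iff_sub_mem (I := K) _ _ |>.2 hP1
  have e2 := Ideal.Quotient.mk_eq_mk_iff_sub_mem (I := K) _ _ |>.2 hP2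
  have e3 := Ideal.Quotient.mk_eq_mk_iff_sub_mem (I := K) _ _ |>.2 hA1
  have e4 := Ideal.Quotient.mk_eq_mk_iff_sub_mem (I := K) _ _ |>.2 hA2
  have e5 := Ideal.Quotient.mk_eq_mk_iff_sub_mem (I := K) _ _ |>.2 hQ1
  have e6 := Ideal.Quotient.mk_eq_mk_iff_sub_mem (I := K) _ _ |>.2 hQ2
  have hqK : (q : C.R) * GX ^ 2 ∈ K := by
    rw [← E.euler_dual false, ← Ideal.Quotient.eq_zero_iff_mem, map_mul]
    have h := congrArg (Ideal.Quotient.mk K) brace
    simp only [map_sub, map_add, map_mul, map_neg, map_zero, e1, e2, e3, e4, e5, e6] at h ⊢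
    linear_combination -(Ideal.Quotient.mk K (C.vR false)) * h
  -- pass to the local ring
  set φ := algebraMap C.R p.Loc
  set I := Ideal.span {φ (C.xR false - C.xR true)}
  have hKP : ∀ z ∈ K, p.π z = 0 := by
    intro z hz
    obtain ⟨c, d, rfl⟩ := Ideal.mem_span_pair.1 hz
    simp [hv, hx]
  have hGX : p.π GX ≠ 0 := by
    rw [p.π_dG E]
    exact mul_ne_zero (pow_ne_zero _ (p.π_dlt_x false)) (pow_ne_zero _ h0)
  have hu : IsUnit (φ P1) := p.isUnit_algebraMap (by
    have := hKP _ hP1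
    rw [map_sub, sub_eq_zero] at this
    rw [this]; exact hGX)
  have hdiff : φ (C.vR false - C.vR true) ∈ I := by
    refine (Ideal.unit_mul_mem_iff_mem I hu).1 (Ideal.mem_span_singleton.2 ⟨-φ P2, ?_⟩)
    rw [← map_mul, ← map_neg, ← map_mul]
    exact congrArg φ (by linear_combination -hP)
  have hmap : K.map φ ≤ I := by
    rw [hK, Ideal.map_span, Ideal.span_le, Set.image_pair, Set.pair_subset_iff]
    exact ⟨hdiff, Ideal.subset_span rfl⟩
  have h2 := hmap (Ideal.mem_map_of_mem φ hqK)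
  rw [map_mul, map_pow, mul_comm] at h2
  exact (Ideal.unit_mul_mem_iff_mem I ((p.isUnit_algebraMap hGX).pow 2)).1 h2

end Eqs

namespace Pt

variable {Ω : Res C k} (p : Pt Ω)

theorem killed {x y : C.R} {B : Type} [CommRing B] (J : Jet p B)
    (hJ : ∀ z, algebraMap C.R p.Loc z ∈
      Ideal.span {algebraMap C.R p.Loc x, algebraMap C.R p.Loc y} → J.f z = 0) :
    J.f x = 0 ∧ J.f y = 0 :=
  ⟨hJ _ (Ideal.subset_span (Set.mem_insert _ _)),
    hJ _ (Ideal.subset_span (Set.mem_insert_of_mem _ rfl))⟩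

theorem gens_super (E : Eqs Ω) [IsNoetherianRing p.Loc] (h : p.π E.OmR = 0) :
    ∃ a b : C.R, p.π a = 0 ∧ p.π b = 0 ∧
      maximalIdeal p.Loc ≤ Ideal.span {algebraMap C.R p.Loc a, algebraMap C.R p.Loc b} := by
  obtain ⟨c0, hc0⟩ := p.exists_lift (C.xR false)
  obtain ⟨hL, hL'⟩ := E.π_L p h false
  obtain ⟨-, hM'⟩ := E.π_L p h true
  have hc1 : C.xR true - C.cW c0 ∈ p.ideal := by
    rw [p.mem_ideal, map_sub, hM', ← hL', ← map_sub, ← p.mem_ideal]; exact hc0
  refine ⟨_, _, p.mem_ideal.1 hc0, p.mem_ideal.1 hc1, p.maximal_le _ ?_ fun B _ J hJ => ?_⟩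
  · refine Ideal.mem_sup_right ?_
    refine (Ideal.unit_mul_mem_iff_mem _ (p.isUnit_algebraMap (E.π_Hv_ne p h false))).1 ?_
    rw [← map_mul, show E.Hv false * (q : C.R) = -(E.Dv * (C.xR false ^ q - C.yR)) *
      (C.xR false - C.yR ^ q) by linear_combination E.kron' false, map_mul, pow_two]
    exact Ideal.mul_mem_mul (p.algebraMap_mem_max.2 (by simp [hL]))
      (p.algebraMap_mem_max.2 (by simp [hL']))
  obtain ⟨h0, h1⟩ := p.killed J hJ
  have hx0 := J.agree_of_sub h0 hc0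
  have hx1 := J.agree_of_sub h1 hc1
  have hd : J.f (C.xR false - C.xR true) = 0 := by
    rw [show C.xR false - C.xR true = (C.xR false - C.cW c0) - (C.xR true - C.cW c0) by ring,
      map_sub, h0, h1, sub_self]
  obtain ⟨P1, P2, hP, hP1, -⟩ :=
    exists_divided C.cW C.yR C.yR (C.xR false) (C.xR true) (Polynomial.C (C.dltW ^ E.s) *
      ((Polynomial.X - Polynomial.C (Polynomial.X ^ q)) *
        (Polynomial.X ^ q - Polynomial.C Polynomial.X)) + Polynomial.C (Polynomial.C (q : C.W)) * E.H)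
  rw [E.F_eval, E.F_eval, sub_self, sub_self, zero_mul, add_zero, eq_comm] at hP
  have hP0 : P1 = 0 := (mul_eq_zero.1 hP).resolve_left (Eqs.xR_ne (C := C))
  obtain ⟨u, v, huv⟩ := Ideal.mem_span_pair.1 hP1
  rw [hP0, sub_self, mul_zero, add_zero, zero_sub, E.derX false] at huv
  have hfL : J.f (C.xR false ^ q - C.yR) = 0 := by
    have h3 := congrArg J.f huv
    simp only [map_mul, hd, mul_zero, map_neg, map_add, J.f_q, zero_mul, zero_add,
      add_zero] at h3
    refine ((J.isUnit_f (E.π_Dv p)).mul_right_eq_zero).1 ?_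
    rw [Eqs.Dv]
    exact neg_eq_zero.1 h3.symm
  have hy : J.Agree C.yR := by
    rw [map_sub, map_pow, sub_eq_zero] at hfL
    rw [Jet.Agree, ← hfL, hx0, ← map_pow, hL]
  refine J.agree_all E hy fun b => ?_
  cases b
  · exact ⟨hx0, J.agree_super E h hy hx0⟩
  · exact ⟨hx1, J.agree_super E h hy hx1⟩

theorem gens_ordinary_VV (E : Eqs Ω) [IsNoetherianRing p.Loc] (hv0 : p.π (C.vR false) ≠ 0)
    (hxy0 : p.π (C.xR false) ^ q = p.π C.yR) (hvq0 : p.π (C.vR false) ^ q = p.π E.OmR)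
    (hv1 : p.π (C.vR true) ≠ 0) (hxy1 : p.π (C.xR true) ^ q = p.π C.yR)
    (hvq1 : p.π (C.vR true) ^ q = p.π E.OmR) :
    ∃ a b : C.R, p.π a = 0 ∧ p.π b = 0 ∧
      maximalIdeal p.Loc ≤ Ideal.span {algebraMap C.R p.Loc a, algebraMap C.R p.Loc b} := by
  haveI := Ω.charK
  obtain ⟨c0, hc0⟩ := p.exists_lift (C.xR false)
  have hxx : p.π (C.xR false) = p.π (C.xR true) :=
    frobenius_inj k q (by simp [frobenius_def, hxy0, hxy1])
  have hvv : p.π (C.vR false) = p.π (C.vR true) :=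
    frobenius_inj k q (by simp [frobenius_def, hvq0, hvq1])
  have hc1 : C.xR true - C.cW c0 ∈ p.ideal := by
    rw [p.mem_ideal, map_sub, ← hxx, ← map_sub, ← p.mem_ideal]; exact hc0
  refine ⟨_, _, p.mem_ideal.1 hc0, p.mem_ideal.1 hc1, p.maximal_le _ (Ideal.mem_sup_left ?_)
    fun B _ J hJ => ?_⟩
  · have hsub := map_sub (algebraMap C.R p.Loc) (C.xR false - C.cW c0) (C.xR true - C.cW c0)
    rw [sub_sub_sub_cancel_right] at hsub
    have hmem : algebraMap C.R p.Loc (C.xR false - C.xR true) ∈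
        Ideal.span {algebraMap C.R p.Loc (C.xR false - C.cW c0),
          algebraMap C.R p.Loc (C.xR true - C.cW c0)} :=
      hsub ▸ sub_mem (Ideal.subset_span (Set.mem_insert _ _))
        (Ideal.subset_span (Set.mem_insert_of_mem _ rfl))
    exact (Ideal.span_singleton_le_iff_mem _).2 hmem (E.q_mem_VV p hv0 hv1 hvv hxx)
  obtain ⟨h0, h1⟩ := p.killed J hJ
  have hx0 := J.agree_of_sub h0 hc0
  have hx1 := J.agree_of_sub h1 hc1
  obtain ⟨hy, h2⟩ := J.agree_side_V E hx0 hv0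
  refine J.agree_all E hy fun b => ?_
  cases b
  · exact ⟨hx0, h2⟩
  · exact ⟨hx1, (J.agree_side_V E hx1 hv1).2⟩

theorem gens_ordinary (E : Eqs Ω) [IsNoetherianRing p.Loc] (h : p.π E.OmR ≠ 0) :
    ∃ a b : C.R, p.π a = 0 ∧ p.π b = 0 ∧
      maximalIdeal p.Loc ≤ Ideal.span {algebraMap C.R p.Loc a, algebraMap C.R p.Loc b} := by
  obtain ⟨c, hc⟩ := p.exists_lift C.yR
  obtain ⟨c0, hc0⟩ := p.exists_lift (C.xR false)
  have hq : ∀ z : p.Loc, algebraMap C.R p.Loc (q : C.R) ∈
      Ideal.span {algebraMap C.R p.Loc (q : C.R), z} ⊔ maximalIdeal p.Loc ^ 2 := fun z =>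
    Ideal.mem_sup_left (Ideal.subset_span (Set.mem_insert _ _))
  rcases p.side_ne E h false with ⟨hw0, -⟩ | ⟨hv0, -, hxy0, hvq0⟩
  · rcases p.side_ne E h true with ⟨hw1, -⟩ | ⟨hv1, -, -, -⟩
    · refine ⟨_, _, p.π_q, p.mem_ideal.1 hc, p.maximal_le _ (hq _) fun B _ J hJ => ?_⟩
      have hy := J.agree_of_sub (p.killed J hJ).2 hc
      refine J.agree_all E hy fun b => ?_
      cases b
      · exact J.agree_side_F E hy hw0
      · exact J.agree_side_F E hy hw1
    · obtain ⟨c1, hc1⟩ := p.exists_lift (C.xR true)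
      refine ⟨_, _, p.π_q, p.mem_ideal.1 hc1, p.maximal_le _ (hq _) fun B _ J hJ => ?_⟩
      have hx1 := J.agree_of_sub (p.killed J hJ).2 hc1
      obtain ⟨hy, h2⟩ := J.agree_side_V E hx1 hv1
      refine J.agree_all E hy fun b => ?_
      cases b
      · exact J.agree_side_F E hy hw0
      · exact ⟨hx1, h2⟩
  · rcases p.side_ne E h true with ⟨hw1, -⟩ | ⟨hv1, -, hxy1, hvq1⟩
    · refine ⟨_, _, p.π_q, p.mem_ideal.1 hc0, p.maximal_le _ (hq _) fun B _ J hJ => ?_⟩
      have hx0 := J.agree_of_sub (p.killed J hJ).2 hc0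
      obtain ⟨hy, h2⟩ := J.agree_side_V E hx0 hv0
      refine J.agree_all E hy fun b => ?_
      cases b
      · exact ⟨hx0, h2⟩
      · exact J.agree_side_F E hy hw1
    · exact p.gens_ordinary_VV E hv0 hxy0 hvq0 hv1 hxy1 hvq1

theorem exists_gens (E : Eqs Ω) [IsNoetherianRing p.Loc] :
    ∃ a b : p.Loc, maximalIdeal p.Loc = Ideal.span {a, b} := by
  obtain ⟨a, b, ha, hb, hle⟩ : ∃ a b : C.R, p.π a = 0 ∧ p.π b = 0 ∧
      maximalIdeal p.Loc ≤ Ideal.span {algebraMap C.R p.Loc a, algebraMap C.R p.Loc b} := by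
    by_cases h : p.π E.OmR = 0
    · exact p.gens_super E h
    · exact p.gens_ordinary E h
  exact ⟨algebraMap C.R p.Loc a, algebraMap C.R p.Loc b, le_antisymm hle (by
    rw [Ideal.span_le, Set.pair_subset_iff]
    exact ⟨p.algebraMap_mem_max.2 ha, p.algebraMap_mem_max.2 hb⟩)⟩

/-- The branches through a point are proper. -/
theorem ker_lt {l : C.Idx} (hl : Ω.ker (C.rep l) ≤ p.ideal) : Ω.ker (C.rep l) ≠ p.ideal := by
  intro h
  obtain ⟨c, hc⟩ := p.exists_lift C.yR
  rw [← h] at hc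
  have h1 : Ω.red (C.rep l) (C.yR - C.cW c) = 0 := hc
  rw [map_sub, Ω.red_yR (C.rep_mem l), Ω.red_cW, sub_eq_zero] at h1
  have := not_eval₂_eq_zero (P := Polynomial.X - Polynomial.C (Ω.φW c)) (by
    simp [NeZero.ne q, NeZero.ne N']) Ω.leadAt_base (by simp [h1])
  exact Polynomial.X_sub_C_ne_zero _ this

theorem isNoetherian_loc [IsNoetherianRing C.W] : IsNoetherianRing p.Loc := by
  haveI := C.isNoetherianRing_R
  exact IsLocalization.isNoetherianRing p.ideal.primeCompl p.Loc inferInstance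

/-- The local rings over `q` are factorial. -/
theorem ufd_loc [IsNoetherianRing C.W] : UniqueFactorizationMonoid p.Loc := by
  haveI := p.isNoetherian_loc
  obtain ⟨E⟩ := Ω.nonempty_eqs
  obtain ⟨a, b, hab⟩ := p.exists_gens E
  obtain ⟨l, hl⟩ := p.exists_branch
  set P₀ := (Ω.ker (C.rep l)).map (algebraMap C.R p.Loc)
  have hdisj : Disjoint (p.ideal.primeCompl : Set C.R) (Ω.ker (C.rep l) : Set C.R) :=
    Set.disjoint_left.2 fun z hz hz' => hz (hl hz')
  haveI : P₀.IsPrime :=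
    IsLocalization.isPrime_of_isPrime_disjoint p.ideal.primeCompl p.Loc _ inferInstance hdisj
  have hcomap : P₀.comap (algebraMap C.R p.Loc) = Ω.ker (C.rep l) :=
    IsLocalization.under_map_of_isPrime_disjoint p.ideal.primeCompl p.Loc inferInstance hdisj
  refine uniqueFactorizationMonoid_of_pair hab (P₀ := P₀) (fun h => ?_) fun h => p.ker_lt hl ?_
  · have h1 : algebraMap C.R p.Loc (q : C.R) ∈ P₀ := Ideal.mem_map_of_mem _ (Ω.red_natCast _)
    rw [h, Ideal.mem_bot] at h1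
    exact Eqs.natCast_q_ne (C := C) (IsLocalization.injective p.Loc
      (Ideal.primeCompl_le_nonZeroDivisors p.ideal) (h1.trans (map_zero _).symm))
  · rw [← hcomap, h]
    exact IsLocalization.AtPrime.under_maximalIdeal p.Loc p.ideal

end Pt

end FLTAgent.Carayol
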