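import Fermat.Agent.Carayol.Descent
import Fermat.Agent.Kronecker.Congruence
import Fermat.Agent.GoodModel.Line

/-!
# Reduction modulo `q` of the conjugates
-/

set_option autoImplicit false
set_option linter.unusedSectionVars false
set_option linter.style.haveILetI false

noncomputable section

open UpperHalfPlane hiding I I_re I_im
open Filter Topology Complex Function FLTAgent.ModEq FLTAgent.GoodModel ModularCurve
open scoped MatrixGroups Manifold Classical

namespace FLTAgent.Carayol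

theorem not_eval₂_eq_zero {k : Type*} [Field k] {Y : LaurentSeries k} {c : k} {a : ℤ} (ha : a ≠ 0)
    (hY : LeadAt (Y - HahnSeries.C c) a) {P : Polynomial k} (h : P.eval₂ HahnSeries.C Y = 0) :
    P = 0 := by
  by_contra hP
  have hord : ∀ G : LaurentSeries k, LeadAt G a → IsAlgebraic k G → False := by
    intro G hG halg
    rcases lt_or_gt_of_ne ha with h' | h'
    · exact transcendental_of_geOrd h' hG.2.ne_zero halg
    · obtain ⟨u, hu, hu'⟩ := hG.exists_inv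
      have e : G⁻¹ = ((u⁻¹ : (LaurentSeries k)ˣ) : LaurentSeries k) :=
        inv_eq_of_mul_eq_one_right (by rw [← hu, Units.mul_inv])
      have halg' := halg.inv
      rw [e] at halg'
      exact transcendental_of_geOrd (a := -a) (by omega) hu'.2.ne_zero halg'
  refine hord _ hY ⟨P.comp (Polynomial.X + Polynomial.C c), fun h0 => hP ?_, ?_⟩
  · have := congrArg (fun p : Polynomial k => p.comp (Polynomial.X - Polynomial.C c)) h0
    simpa [Polynomial.comp_assoc] using this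
  · rw [Polynomial.aeval_comp, ← eval₂_C_eq_aeval]
    have e : (Polynomial.aeval (Y - HahnSeries.C c)) (Polynomial.X + Polynomial.C c) = Y := by
      rw [← eval₂_C_eq_aeval]
      simp
    rw [e, h]

variable {q M0 N' : ℕ} [NeZero M0] [NeZero N'] [NeZero q] [Fact q.Prime]

/-- A reduction map of the constants. -/
structure Res (C : Ctx q M0 N') (k : Type) [Field k] where
  φ : C.S →+* k
  surjW : Function.Surjective (φ.comp C.inc)
  kerW : ∀ w : C.W, φ (C.inc w) = 0 → (q : C.W) ∣ w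
  q0 : φ q = 0
  fixed : C.FixedPart

namespace Res

variable {C : Ctx q M0 N'} {k : Type} [Field k] (Ω : Res C k)

/-- The reduction of the small ring. -/
abbrev φW : C.W →+* k := Ω.φ.comp C.inc

include Ω in
theorem charK : CharP k q := by
  refine (CharP.charP_iff_prime_eq_zero C.hq).2 ?_
  rw [← map_natCast Ω.φ, Ω.q0]

theorem φ_zq : Ω.φ (C.zq : C.S) = 1 := by
  haveI := Ω.charK
  refine sub_eq_zero.1 (eq_zero_of_pow_eq_zero (n := q) ?_)
  rw [sub_pow_char, one_pow, ← map_pow, C.zq_primitive.pow_eq_one, map_one, sub_self]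

theorem frob_rat {w : C.W} (hw : (w : ℂ) ∈ ratLoc M0) : Ω.φW w ^ q = Ω.φW w := by
  haveI := Ω.charK
  have key : ∀ z : ℂ, z ∈ ratLoc M0 → ∀ hz : z ∈ C.W, Ω.φW ⟨z, hz⟩ ^ q = Ω.φW ⟨z, hz⟩ := by
    intro z hz
    have hsub : ratLoc M0 ≤ C.W := ratLoc_le C.unit_M0
    induction hz using Subring.closure_induction with
    | mem x hx =>
      intro hxW
      have hx' : x = ((M0 : ℂ))⁻¹ := hx
      have h1 : ((M0 : ℕ) : C.W) * ⟨x, hxW⟩ = 1 := Subtype.ext (by
        show (M0 : ℂ) * x = 1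
        rw [hx', mul_inv_cancel₀ (Nat.cast_ne_zero.2 (NeZero.ne M0))])
      have h2 := congrArg Ω.φW h1
      rw [map_mul, map_natCast, map_one] at h2
      rw [eq_inv_of_mul_eq_one_right h2, inv_pow]
      congr 1
      have := map_natCast (frobenius k q) M0
      rwa [frobenius_def] at this
    | zero =>
      intro h
      rw [show (⟨0, h⟩ : C.W) = 0 from rfl, map_zero, zero_pow (NeZero.ne q)]
    | one =>
      intro h
      rw [show (⟨1, h⟩ : C.W) = 1 from rfl, map_one, one_pow]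
    | add x y hx hy ihx ihy =>
      intro h
      rw [show (⟨x + y, h⟩ : C.W) = ⟨x, hsub hx⟩ + ⟨y, hsub hy⟩ from rfl, map_add, add_pow_char,
        ihx, ihy]
    | neg x hx ihx =>
      intro h
      rw [show (⟨-x, h⟩ : C.W) = -⟨x, hsub hx⟩ from rfl, map_neg]
      have := map_neg (frobenius k q) (Ω.φW ⟨x, hsub hx⟩)
      simp only [frobenius_def] at this
      rw [this, ihx]
    | mul x y hx hy ihx ihy =>
      intro h
      rw [show (⟨x * y, h⟩ : C.W) = ⟨x, hsub hx⟩ * ⟨y, hsub hy⟩ from rfl, map_mul, mul_pow,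
        ihx, ihy]
  exact key _ hw w.2

include Ω in
theorem qExpand_eq_pow {G : LaurentSeries k} (hG : ∀ i, G.coeff i ^ q = G.coeff i) :
    haveI := Ω.charK
    qExpand k q G = G ^ q := by
  haveI := Ω.charK
  rw [Kronecker.laurent_pow_char q G]
  congr 1
  ext i
  rw [coeffMap_coeff, frobenius_def, hG]

/-- The reduced expansion of the coordinate in the finest parameter. -/
def bb : LaurentSeries k := qExpand k N' (coeffMap Ω.φW C.co.H)

/-- The reduced expansion of the derivative of the coordinate. -/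
def ee : LaurentSeries k := qExpand k N' (coeffMap Ω.φW (eul C.co.H))

theorem frob_H (i : ℤ) : (coeffMap Ω.φW C.co.H).coeff i ^ q = (coeffMap Ω.φW C.co.H).coeff i := by
  rw [coeffMap_coeff]; exact Ω.frob_rat (C.co.rat i)

theorem frob_eulH (i : ℤ) :
    (coeffMap Ω.φW (eul C.co.H)).coeff i ^ q = (coeffMap Ω.φW (eul C.co.H)).coeff i := by
  rw [coeffMap_coeff]
  refine Ω.frob_rat ?_
  rw [eul_coeff]
  push_cast
  exact mul_mem (intCast_mem _ i) (C.co.rat i)

include Ω in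
theorem qExpand_base {G : LaurentSeries k} (hG : ∀ i, G.coeff i ^ q = G.coeff i) :
    qExpand k (N' * q) G = qExpand k N' G ^ q ∧
      qExpand k (q * (N' * q)) G = qExpand k N' G ^ (q ^ 2) := by
  have h1 : qExpand k (N' * q) G = qExpand k N' G ^ q := by
    rw [← qExpand_qExpand, Ω.qExpand_eq_pow hG, map_pow]
  refine ⟨h1, ?_⟩
  have hgq : ∀ i, (qExpand k (N' * q) G).coeff i ^ q = (qExpand k (N' * q) G).coeff i := by
    intro i
    by_cases hd : ((N' * q : ℕ) : ℤ) ∣ i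
    · obtain ⟨j, rfl⟩ := hd
      rw [qExpand_coeff_mul, hG]
    · rw [qExpand_coeff_of_not_dvd _ _ hd, zero_pow (NeZero.ne q)]
  rw [← qExpand_qExpand, Ω.qExpand_eq_pow hgq, h1, ← pow_mul, pow_two]

theorem leadAt_bb : LeadAt Ω.bb (-(N' : ℤ)) ∧ LeadAt Ω.ee (-(N' : ℤ)) := by
  have hmap : ∀ {G : LaurentSeries C.W}, LeadAt G (-1) →
      LeadAt (qExpand k N' (coeffMap Ω.φW G)) (-(N' : ℤ)) := by
    intro G hG
    refine ⟨fun i hi => geOrd_qExpand (a := -1) (fun j hj => by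
      rw [coeffMap_coeff, hG.1 j hj, map_zero]) N' i (by simpa using hi), ?_⟩
    rw [show -(N' : ℤ) = (N' : ℤ) * (-1) by ring, qExpand_coeff_mul, coeffMap_coeff]
    exact hG.2.map _
  refine ⟨hmap C.co.leadH, hmap ⟨geOrd_eul C.co.leadH.1, ?_⟩⟩
  rw [eul_coeff]
  exact IsUnit.mul (by simp) C.co.leadH.2

/-- The reduction of an expansion. -/
abbrev rd : LaurentSeries C.S →+* LaurentSeries k := coeffMap Ω.φ

theorem rd_inc (G : LaurentSeries C.W) : Ω.rd (coeffMap C.inc G) = coeffMap Ω.φW G := by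
  rw [rd, coeffMap_coeffMap]

theorem rd_Ys : Ω.rd C.Ys = Ω.bb ^ q := by
  rw [Ctx.Ys, rd, coeffMap_qExpand, ← rd, Ω.rd_inc]
  exact (Ω.qExpand_base Ω.frob_H).1

theorem rd_rHom_none {G : LaurentSeries C.W}
    (hG : ∀ i, (coeffMap Ω.φW G).coeff i ^ q = (coeffMap Ω.φW G).coeff i) :
    Ω.rd (C.rHom none G) = qExpand k N' (coeffMap Ω.φW G) ^ (q ^ 2) := by
  simp only [Ctx.rHom, RingHom.comp_apply, Ctx.rA, Ctx.rk, Ctx.rB, mul_zero, zpow_zero, rd]
  rw [coeffMap_substHom, map_one, substHom_one, ← rd, Ω.rd_inc]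
  exact (Ω.qExpand_base hG).2

theorem rd_rHom_some (i : ZMod q) (G : LaurentSeries C.W) :
    Ω.rd (C.rHom (some i) G) = qExpand k N' (coeffMap Ω.φW G) := by
  rw [C.rHom_some, rd, coeffMap_substHom]
  have h1 : Units.map Ω.φ.toMonoidHom (C.zq ^ i.val) = 1 := Units.ext (by
    show Ω.φ ((C.zq ^ i.val : C.Sˣ) : C.S) = 1
    rw [Units.val_pow_eq_pow_val, map_pow, Ω.φ_zq, one_pow])
  rw [h1, substHom_one, ← rd, Ω.rd_inc]
  exact qExpand_congr (one_mul N') _

theorem ser_rW_base (r : Option (ZMod q)) :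
    ser ⟨C.rW r, C.rW_mem r⟩ * C.rHom r (eul C.co.H) =
      HahnSeries.C (C.rc r : C.S) * qExpand C.S (N' * q) (coeffMap C.inc (eul C.co.H)) := by
  have h := C.ser_rW_eul r
  simp only [Ctx.rHom, RingHom.comp_apply, Ctx.Ys, eul_substHom, ← substHom_one, ← coeffMap_eul] at h ⊢
  have hne : HahnSeries.C ((C.rA r * C.rk r : ℕ) : C.S) ≠ (0 : LaurentSeries C.S) :=
    HahnSeries.C_ne_zero (Nat.cast_ne_zero.2 (NeZero.ne _))
  refine mul_left_cancel₀ hne ?_
  have hfac : ((C.rA r * C.rk r : ℕ) : C.S) * (C.rc r : C.S) = (q : C.S) * ((N' * q : ℕ) : C.S) := by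
    cases r <;> simp only [Ctx.rA, Ctx.rk, Ctx.rc] <;> push_cast <;> ring
  have hfac' := congrArg (HahnSeries.C : C.S → LaurentSeries C.S) hfac
  rw [map_mul, map_mul] at hfac'
  linear_combination h -
    (substHom (1 : C.Sˣ) (N' * q) (coeffMap C.inc (eul C.co.H))) * hfac'

theorem ee_ne : Ω.ee ≠ 0 := fun h => Ω.leadAt_bb.2.2.ne_zero (by rw [h]; simp)

/-- The slope on the side of the Frobenius. -/
def om : LaurentSeries k := Ω.ee ^ q / Ω.ee ^ (q ^ 2)

/-- The dual slope on the side of the Verschiebung. -/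
def nu : LaurentSeries k := Ω.ee / Ω.ee ^ q

theorem nu_pow : Ω.nu ^ q = Ω.om := by
  rw [nu, om, div_pow, ← pow_mul, pow_two]

theorem rd_rW_none : Ω.rd (ser ⟨C.rW none, C.rW_mem none⟩) = Ω.om := by
  have h := congrArg Ω.rd (ser_rW_base (C := C) none)
  simp only [map_mul, Ω.rd_rHom_none Ω.frob_eulH, Ctx.rc, Nat.cast_one, map_one, one_mul] at h
  rw [show Ω.rd (qExpand C.S (N' * q) (coeffMap C.inc (eul C.co.H))) = Ω.ee ^ q from by
    rw [rd, coeffMap_qExpand, ← rd, Ω.rd_inc]; exact (Ω.qExpand_base Ω.frob_eulH).1] at h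
  rw [om, eq_div_iff (pow_ne_zero _ Ω.ee_ne)]
  exact h

theorem rd_rW_some (i : ZMod q) : Ω.rd (ser ⟨C.rW (some i), C.rW_mem _⟩) = 0 := by
  have h := congrArg Ω.rd (ser_rW_base (C := C) (some i))
  simp only [map_mul, Ω.rd_rHom_some, Ctx.rc] at h
  rw [show Ω.rd (HahnSeries.C ((q ^ 2 : ℕ) : C.S)) = 0 by
    rw [HahnSeries.C_apply, rd, coeffMap_single, Nat.cast_pow, map_pow, map_natCast,
      ← map_natCast Ω.φ q, Ω.q0, zero_pow two_ne_zero, HahnSeries.single_eq_zero], zero_mul] at h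
  exact (mul_eq_zero.1 h).resolve_right Ω.ee_ne

theorem ser_rV_base (r : Option (ZMod q)) :
    ser ⟨C.rV r, C.rV_mem r⟩ *
        (HahnSeries.C (C.rc r : C.S) * qExpand C.S (N' * q) (coeffMap C.inc (eul C.co.H))) =
      HahnSeries.C ((q : C.S) ^ 2) * C.rHom r (eul C.co.H) := by
  rw [← ser_rW_base (C := C) r, ← C.ser_rW_mul_rV r]
  ring

theorem rd_rV_none : Ω.rd (ser ⟨C.rV none, C.rV_mem none⟩) = 0 := by
  have h := congrArg Ω.rd (ser_rV_base (C := C) none)
  simp only [map_mul, Ctx.rc, Nat.cast_one, map_one, one_mul] at h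
  rw [show Ω.rd (HahnSeries.C ((q : C.S) ^ 2)) = 0 by
    rw [HahnSeries.C_apply, rd, coeffMap_single, map_pow, Ω.q0, zero_pow two_ne_zero,
      HahnSeries.single_eq_zero], zero_mul,
    show Ω.rd (qExpand C.S (N' * q) (coeffMap C.inc (eul C.co.H))) = Ω.ee ^ q from by
      rw [rd, coeffMap_qExpand, ← rd, Ω.rd_inc]; exact (Ω.qExpand_base Ω.frob_eulH).1] at h
  exact (mul_eq_zero.1 h).resolve_right (pow_ne_zero _ Ω.ee_ne)

theorem rd_rV_some (i : ZMod q) : Ω.rd (ser ⟨C.rV (some i), C.rV_mem _⟩) = Ω.nu := by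
  have h := ser_rV_base (C := C) (some i)
  simp only [Ctx.rc] at h
  push_cast at h
  have h' : ser ⟨C.rV (some i), C.rV_mem _⟩ * qExpand C.S (N' * q) (coeffMap C.inc (eul C.co.H)) =
      C.rHom (some i) (eul C.co.H) := by
    refine mul_left_cancel₀ (HahnSeries.C_ne_zero
      (pow_ne_zero 2 (Nat.cast_ne_zero.2 (NeZero.ne q) : (q : C.S) ≠ 0))) ?_
    rw [← h]
    ring
  have h2 := congrArg Ω.rd h'
  rw [map_mul, Ω.rd_rHom_some,
    show Ω.rd (qExpand C.S (N' * q) (coeffMap C.inc (eul C.co.H))) = Ω.ee ^ q from by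
      rw [rd, coeffMap_qExpand, ← rd, Ω.rd_inc]; exact (Ω.qExpand_base Ω.frob_eulH).1] at h2
  rw [nu, eq_div_iff (pow_ne_zero _ Ω.ee_ne)]
  exact h2

/-- The reduced coordinate of a root. -/
def rootB (r : Option (ZMod q)) : LaurentSeries k := if r = none then Ω.bb ^ (q ^ 2) else Ω.bb

theorem rd_rX (r : Option (ZMod q)) : Ω.rd (ser ⟨C.rX r, C.rX_mem r⟩) = Ω.rootB r := by
  rw [C.ser_rX]
  cases r
  · rw [rootB, if_pos rfl, Ω.rd_rHom_none Ω.frob_H]; rfl
  · rw [rootB, if_neg (by simp), Ω.rd_rHom_some]; rfl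

theorem rd_rW_congr {r r' : Option (ZMod q)} (h : r = none ↔ r' = none) :
    Ω.rd (ser ⟨C.rX r, C.rX_mem r⟩) = Ω.rd (ser ⟨C.rX r', C.rX_mem r'⟩) ∧
      Ω.rd (ser ⟨C.rW r, C.rW_mem r⟩) = Ω.rd (ser ⟨C.rW r', C.rW_mem r'⟩) ∧
      Ω.rd (ser ⟨C.rV r, C.rV_mem r⟩) = Ω.rd (ser ⟨C.rV r', C.rV_mem r'⟩) ∧
      Ω.rd (ser ⟨C.rU r, C.rU_mem r⟩) = Ω.rd (ser ⟨C.rU r', C.rU_mem r'⟩) := by
  have hX : Ω.rd (ser ⟨C.rX r, C.rX_mem r⟩) = Ω.rd (ser ⟨C.rX r', C.rX_mem r'⟩) := by
    simp only [Ω.rd_rX, rootB, h]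
  refine ⟨hX, ?_, ?_, ?_⟩
  · rcases r with _ | i <;> rcases r' with _ | j
    · rfl
    · simp at h
    · simp at h
    · rw [Ω.rd_rW_some, Ω.rd_rW_some]
  · rcases r with _ | i <;> rcases r' with _ | j
    · rfl
    · simp at h
    · simp at h
    · rw [Ω.rd_rV_some, Ω.rd_rV_some]
  · have h1 := congrArg Ω.rd (C.ser_rU_mul r)
    have h2 := congrArg Ω.rd (C.ser_rU_mul r')
    rw [C.ser_rX, C.ser_rX] at hX
    simp only [map_mul, map_prod, map_sub, hX, map_one] at h1 h2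
    exact (eq_inv_of_mul_eq_one_left h1).trans (eq_inv_of_mul_eq_one_left h2).symm

/-- The reduction of a translate. -/
def red (γ : SL(2, ℤ)) : C.R →+* LaurentSeries k := Ω.rd.comp (C.embAt γ)

/-- Reductions only depend on the level structure and on the types of the two roots. -/
theorem red_congr {γ γ' : SL(2, ℤ)} (hγ : γ ∈ CongruenceSubgroup.Gamma M0)
    (hγ' : γ' ∈ CongruenceSubgroup.Gamma M0) (he : compg γ C.eta = compg γ' C.eta)
    {r r' s s' : Option (ZMod q)} (hr : compg γ C.sX = C.rX r) (hr' : compg γ' C.sX = C.rX r')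
    (hs : compg γ (C.rX (some 0)) = C.rX s) (hs' : compg γ' (C.rX (some 0)) = C.rX s')
    (h1 : r = none ↔ r' = none) (h2 : s = none ↔ s' = none) : Ω.red γ = Ω.red γ' := by
  obtain ⟨a1, ha1, ha2, ha3, ha4⟩ := C.exists_root hγ
  obtain rfl : r = a1 := C.rX_injective (hr.symm.trans ha1)
  obtain ⟨a2, hb1, hb2, hb3, hb4⟩ := C.exists_root hγ'
  obtain rfl : r' = a2 := C.rX_injective (hr'.symm.trans hb1)
  obtain ⟨a3, hc1, hc2, hc3, hc4⟩ := C.exists_root (mul_mem (C.gr_mem0 (some 0)) hγ)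
  obtain rfl : s = a3 := C.rX_injective (hs.symm.trans (by rw [Ctx.rX, compg_compg]; exact hc1))
  obtain ⟨a4, he1, he2, he3, he4⟩ := C.exists_root (mul_mem (C.gr_mem0 (some 0)) hγ')
  obtain rfl : s' = a4 := C.rX_injective (hs'.symm.trans (by rw [Ctx.rX, compg_compg]; exact he1))
  have side := Ω.rd_rW_congr h1
  have side' := Ω.rd_rW_congr h2
  have key : ∀ (f g : ℍ → ℂ) (hf : f ∈ trRing C.S (M0 * (N' * q)))
      (hg : g ∈ trRing C.S (M0 * (N' * q))) (φ : ℍ → ℂ) (hφ : φ ∈ C.R),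
      compg γ φ = f → compg γ' φ = g → Ω.rd (ser ⟨f, hf⟩) = Ω.rd (ser ⟨g, hg⟩) →
      Ω.red γ ⟨φ, hφ⟩ = Ω.red γ' ⟨φ, hφ⟩ := by
    rintro f g hf hg φ hφ rfl rfl h
    exact h
  refine RingHom.ext fun ⟨φ, hφ⟩ => ?_
  induction hφ using Subring.closure_induction with
  | mem f hf =>
    rcases hf with ⟨w, rfl⟩ | hf
    · show Ω.rd (C.embAt γ (C.cW w)) = Ω.rd (C.embAt γ' (C.cW w))
      rw [C.embAt_cW, C.embAt_cW]
    · rcases hf with rfl | rfl | rfl | rfl | rfl | rfl | rfl | rfl | rfl | rfl | rfl | rfl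
      · exact key _ _ C.T_mem C.T_mem _ _ (funext fun τ => C.T_pm (Or.inl hγ) τ)
          (funext fun τ => C.T_pm (Or.inl hγ') τ) rfl
      · refine key _ _ C.dlt_inv_mem C.dlt_inv_mem _ _ (funext fun τ => ?_) (funext fun τ => ?_) rfl
        · simp only [compg_apply, Ctx.dlt, C.T_pm (Or.inl hγ)]
        · simp only [compg_apply, Ctx.dlt, C.T_pm (Or.inl hγ')]
      · have hn := C.node_mem0 (C.compg_mem_nodes hγ C.eta_mem_nodes)
        exact key _ _ (C.lift_level hn) (C.lift_level hn) _ _ rfl he.symm rfl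
      · have hn := C.rhoOf_mem0 (C.compg_mem_nodes hγ C.eta_mem_nodes)
        exact key _ _ (C.lift_level hn) (C.lift_level hn) _ _ (C.compg_rhoOf hγ)
          (by rw [C.compg_rhoOf hγ', he]) rfl
      · exact key _ _ (C.rX_mem r) (C.rX_mem r') _ _ hr hr' side.1
      · exact key _ _ (C.rW_mem r) (C.rW_mem r') _ _ ha2 hb2 side.2.1
      · exact key _ _ (C.rV_mem r) (C.rV_mem r') _ _ ha3 hb3 side.2.2.1
      · exact key _ _ (C.rU_mem r) (C.rU_mem r') _ _ ha4 hb4 side.2.2.2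
      · exact key _ _ (C.rX_mem s) (C.rX_mem s') _ _ hs hs' side'.1
      · exact key _ _ (C.rW_mem s) (C.rW_mem s') _ _ (by rw [Ctx.rW, compg_compg]; exact hc2)
          (by rw [Ctx.rW, compg_compg]; exact he2) side'.2.1
      · exact key _ _ (C.rV_mem s) (C.rV_mem s') _ _ (by rw [Ctx.rV, compg_compg]; exact hc3)
          (by rw [Ctx.rV, compg_compg]; exact he3) side'.2.2.1
      · exact key _ _ (C.rU_mem s) (C.rU_mem s') _ _ (by rw [Ctx.rU, compg_compg]; exact hc4)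
          (by rw [Ctx.rU, compg_compg]; exact he4) side'.2.2.2
  | zero =>
    show Ω.red γ 0 = Ω.red γ' 0
    simp only [map_zero]
  | one =>
    show Ω.red γ 1 = Ω.red γ' 1
    simp only [map_one]
  | add x y hx hy ihx ihy =>
    show Ω.red γ (⟨x, hx⟩ + ⟨y, hy⟩) = Ω.red γ' (⟨x, hx⟩ + ⟨y, hy⟩)
    simp only [map_add]
    exact congrArg₂ (· + ·) ihx ihy
  | neg x hx ihx =>
    show Ω.red γ (-⟨x, hx⟩) = Ω.red γ' (-⟨x, hx⟩)
    simp only [map_neg]
    exact congrArg (- ·) ihx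
  | mul x y hx hy ihx ihy =>
    show Ω.red γ (⟨x, hx⟩ * ⟨y, hy⟩) = Ω.red γ' (⟨x, hx⟩ * ⟨y, hy⟩)
    simp only [map_mul]
    exact congrArg₂ (· * ·) ihx ihy

theorem red_cW (γ : SL(2, ℤ)) (w : C.W) : Ω.red γ (C.cW w) = HahnSeries.C (Ω.φW w) := by
  rw [red, RingHom.comp_apply, C.embAt_cW, HahnSeries.C_apply, rd, coeffMap_single]
  rfl

/-- The reduction of a translate of the coordinate. -/
theorem red_evR (γ : SL(2, ℤ)) (P : Polynomial C.W) :
    Ω.red γ (C.evR P) = (P.map Ω.φW).eval₂ HahnSeries.C (Ω.red γ C.yR) := by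
  rw [Polynomial.eval₂_map, Ctx.evR, Polynomial.coe_eval₂RingHom, Polynomial.hom_eval₂]
  congr 1
  ext w : 1
  exact Ω.red_cW γ w

theorem red_yR {γ : SL(2, ℤ)} (hγ : γ ∈ CongruenceSubgroup.Gamma M0) :
    Ω.red γ C.yR = Ω.bb ^ q := by
  have e : trComp γ (Subring.inclusion C.R_le C.yR) = (⟨C.T, C.T_mem⟩ : trRing C.S (M0 * (N' * q))) :=
    Subtype.ext (funext fun τ => C.T_pm (Or.inl hγ) τ)
  rw [red, RingHom.comp_apply, C.embAt_apply, e, C.ser_T, Ω.rd_Ys]

/-- The coordinate at a translate has an exact pole or an exact zero. -/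
theorem exists_red_yR (σ : SL(2, ℤ)) : ∃ (c : k) (a : ℤ), a ≠ 0 ∧
    LeadAt (Ω.red σ C.yR - HahnSeries.C c) a := by
  obtain ⟨γ, hγ, r, hr, j, hσ⟩ := exists_cusp_decomp C.hM σ
  have hlift : ∀ {G : LaurentSeries C.W} {a : ℤ}, LeadAt G a →
      LeadAt (Ω.rd (qExpand C.S (N' * q) (coeffMap C.inc G))) (((N' * q : ℕ) : ℤ) * a) := by
    intro G a hG
    refine ⟨fun i hi => ?_, ?_⟩
    · rw [rd, coeffMap_coeff, geOrd_qExpand (a := a) (fun l hl => by
        rw [coeffMap_coeff, hG.1 l hl, map_zero]) (N' * q) i hi, map_zero]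
    · rw [rd, coeffMap_coeff, qExpand_coeff_mul, coeffMap_coeff]
      exact (hG.2.map C.inc).map Ω.φ
  have hNq : ((N' * q : ℕ) : ℤ) ≠ 0 := by exact_mod_cast NeZero.ne (N' * q)
  obtain ⟨c, G, a, ha, hG, hl⟩ : ∃ (c : C.W) (G : LaurentSeries C.W) (a : ℤ), a ≠ 0 ∧
      ((fun τ => C.T (r • τ)), G + HahnSeries.C c) ∈ sPairs C.W M0 ∧ LeadAt G a := by
    rcases hr with rfl | ⟨i, rfl⟩
    · exact ⟨0, C.co.H, -1, by norm_num, by simpa using C.co.hH, C.co.leadH⟩
    · obtain ⟨G, hG, hG'⟩ := C.co.cusp.2 i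
      refine ⟨C.co.c i, G, 1, one_ne_zero, ?_, hG'⟩
      have h := (sPairs C.W M0).add_mem hG (sPairs_const (n := M0) (C.co.c i))
      convert h using 1
      refine Prod.ext (funext fun τ => ?_) rfl
      simp
  obtain ⟨w, hw⟩ := exists_sPairs_shift (C.ζm ^ N') C.zeta0 j hG
  rw [map_add, substHom_C] at hw
  have h1 : ser (trComp σ (Subring.inclusion C.R_le C.yR)) =
      qExpand C.S (N' * q) (coeffMap C.inc (substHom w 1 G + HahnSeries.C c)) := by
    refine sPairs_unique (ser_spec _) ?_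
    have h2 := sPairs_refine (k := N' * q) rfl (sPairs_mono C.hWS hw)
    convert h2 using 2
    funext τ
    show C.T (σ • τ) = _
    rw [hσ, C.T_pm (Or.inl hγ)]
  refine ⟨Ω.φW c, ((N' * q : ℕ) : ℤ) * a, mul_ne_zero hNq ha, ?_⟩
  have hl' : LeadAt (substHom w 1 G) a := by
    refine ⟨geOrd_substHom_one w hl.1, ?_⟩
    rw [show a = ((1 : ℕ) : ℤ) * a by simp, substHom_coeff_mul]
    exact (Units.isUnit _).mul (by simpa using hl.2)
  have h3 := hlift hl'
  rw [red, RingHom.comp_apply, C.embAt_apply, h1]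
  simp only [map_add, HahnSeries.C_apply, coeffMap_single, qExpand_single, mul_zero, rd] at h3 ⊢
  rw [show Ω.φ (C.inc c) = Ω.φW c from rfl, add_sub_cancel_right]
  exact h3

theorem dvd_of_red_U {σ : SL(2, ℤ)} {u : C.R} (hu : u ∈ C.U) (h : Ω.red σ u = 0) :
    (q : C.R) ∣ u := by
  obtain ⟨P, s, hP⟩ := C.exists_U_form hu
  obtain ⟨c, a, ha, hl⟩ := Ω.exists_red_yR σ
  have h1 : (P.map Ω.φW).eval₂ HahnSeries.C (Ω.red σ C.yR) = 0 := by
    rw [← Ω.red_evR, ← hP, map_mul, h, zero_mul]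
  have h2 := not_eval₂_eq_zero ha hl h1
  have hdvd : Polynomial.C (q : C.W) ∣ P := Polynomial.C_dvd_iff_dvd_coeff _ _ |>.2 fun i => Ω.kerW _ (by
    have := congrArg (fun p : Polynomial k => p.coeff i) h2
    simpa [Polynomial.coeff_map] using this)
  have h3 : C.evR (Polynomial.C (q : C.W)) = (q : C.R) := by rw [map_natCast Polynomial.C, map_natCast]
  have h4 : u = C.evR P * C.dR ^ s := by
    rw [← hP, mul_assoc, ← mul_pow, C.evR_dltW_mul_dR, one_pow, mul_one]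
  rw [h4]
  exact dvd_mul_of_dvd_left (h3 ▸ map_dvd C.evR hdvd) _

theorem red_natCast (σ : SL(2, ℤ)) : Ω.red σ (q : C.R) = 0 := by
  haveI := Ω.charK
  rw [map_natCast, ← map_natCast (HahnSeries.C : k →+* LaurentSeries k), CharP.cast_eq_zero, map_zero]

/-- The kernel of the reduction of a translate. -/
def ker (σ : SL(2, ℤ)) : Ideal C.R := RingHom.ker (Ω.red σ)

instance isPrime_ker (σ : SL(2, ℤ)) : (Ω.ker σ).IsPrime := RingHom.ker_isPrime _

theorem isNilpotent_of_forall {a : C.R} (h : ∀ l, a ∈ Ω.ker (C.rep l)) :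
    (q : C.R) ∣ a ^ Fintype.card C.Idx := by
  obtain ⟨p, hp, hdeg, hk, h0, hmap⟩ := C.exists_charpoly Ω.fixed a
  have hcoef : ∀ i, i < Fintype.card C.Idx → (q : C.R) ∣ p.coeff i := by
    intro i hi
    refine Ω.dvd_of_red_U (σ := 1) (hk i) ?_
    have h1 := congrArg (fun P : Polynomial (LaurentSeries k) => P.coeff i)
      (congrArg (Polynomial.map Ω.rd) hmap)
    simp only [Polynomial.map_map, Polynomial.map_prod, Polynomial.map_sub, Polynomial.map_X,
      Polynomial.map_C, Polynomial.coeff_map] at h1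
    rw [show Ω.red 1 (p.coeff i) = (Ω.rd.comp (C.embAt 1)) (p.coeff i) from rfl, h1]
    rw [Finset.prod_congr rfl fun l _ => by
      rw [show Ω.rd (C.emb l a) = 0 from h l, map_zero, sub_zero]]
    rw [Finset.prod_const, Finset.card_univ, Polynomial.coeff_X_pow, if_neg hi.ne]
  have h1 := h0
  rw [Polynomial.eval_eq_sum_range, hdeg, Finset.sum_range_succ,
    show p.coeff (Fintype.card C.Idx) = 1 from hdeg ▸ hp.coeff_natDegree, one_mul,
    add_eq_zero_iff_neg_eq] at h1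
  rw [← h1]
  exact (dvd_neg).2 (Finset.dvd_sum fun i hi => dvd_mul_of_dvd_left (hcoef i (Finset.mem_range.1 hi)) _)

/-- The reductions of all translates give minimal primes over `q`. -/
theorem exists_ker_le (P : Ideal C.R) [P.IsPrime] (hP : (q : C.R) ∈ P) :
    ∃ l, Ω.ker (C.rep l) ≤ P := by
  by_contra hne
  push Not at hne
  have : ∀ l, ∃ a ∈ Ω.ker (C.rep l), a ∉ P := fun l => SetLike.not_le_iff_exists.1 (hne l)
  choose a ha haP using this
  have hprod : ∀ l, (∏ j, a j) ∈ Ω.ker (C.rep l) := fun l =>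
    Ideal.mem_of_dvd _ (Finset.dvd_prod_of_mem a (Finset.mem_univ l)) (ha l)
  have h := P.mem_of_dvd (Ω.isNilpotent_of_forall hprod) hP
  obtain ⟨l, -, hl⟩ := (Ideal.IsPrime.prod_mem_iff).1 (Ideal.IsPrime.mem_of_pow_mem ‹_› _ h)
  exact haP l hl

theorem exists_ker_eq (σ : SL(2, ℤ)) : ∃ l, Ω.ker σ = Ω.ker (C.rep l) := by
  obtain ⟨l, hl⟩ := Ω.exists_ker_le (Ω.ker σ) (Ω.red_natCast σ)
  refine ⟨l, (eq_of_le_of_not_lt hl fun hlt => ?_).symm⟩
  haveI : Algebra.IsIntegral C.U C.R := ⟨C.isIntegral_U Ω.fixed⟩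
  have h2 := Ideal.IsIntegral.comap_lt_comap (R := C.U) (A := C.R) hlt
  obtain ⟨u, hu, hu'⟩ := SetLike.exists_of_lt h2
  refine hu' ?_
  obtain ⟨v, hv⟩ := Ω.dvd_of_red_U u.2 (show Ω.red σ (u : C.R) = 0 from hu)
  show Ω.red (C.rep l) (u : C.R) = 0
  rw [hv, map_mul, Ω.red_natCast, zero_mul]

end Res

end FLTAgent.Carayol
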