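import Fermat.Agent.Carayol.Branches

/-!
# Residues of the roots on the branches
-/

set_option autoImplicit false
set_option linter.unusedSectionVars false
set_option linter.style.haveILetI false

noncomputable section

open UpperHalfPlane hiding I I_re I_im
open Filter Topology Complex Function FLTAgent.ModEq FLTAgent.GoodModel ModularCurve
open scoped MatrixGroups Manifold Classical

namespace FLTAgent.Carayol

open IsLocalRing (maximalIdeal)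

variable {q M0 N' : ℕ} [NeZero M0] [NeZero N'] [NeZero q] [Fact q.Prime]
variable {C : Ctx q M0 N'} {k : Type} [Field k] {Ω : Res C k}

theorem ratio_pow {K : Type*} [Field K] {A f h : K} {a b n e : ℕ} (hh : h ≠ 0)
    (hab : a * e = 1 + b * n) : (A / h ^ e) ^ a / (f / h ^ n) ^ b = A ^ a / f ^ b / h := by
  have h1 : (h ^ e) ^ a = h * (h ^ n) ^ b := by
    rw [← pow_mul, ← pow_mul, mul_comm e a, hab, pow_add, pow_one, mul_comm n b]
  rw [div_pow, div_pow, h1]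
  field_simp

theorem comp_middle {K : Type*} [Field K] {A1 B1 R0 R2 h0 h1 h2 : K} {e : ℕ} (e0 : h0 ≠ 0)
    (e2 : h2 ≠ 0) :
    (A1 / R2) ^ e * (B1 / R0) / h1 ^ ((e + 1) * (e - 1)) =
      (A1 / (h2 * h1 ^ (e - 1)) * (R2 / h2)⁻¹) ^ e * (B1 / (h0 * h1 ^ (e - 1)) * (R0 / h0)⁻¹) := by
  have expo : h1 ^ ((e + 1) * (e - 1)) = (h1 ^ (e - 1)) ^ e * h1 ^ (e - 1) := by
    rw [← pow_mul, ← pow_add]; congr 1; ring
  have a1 : A1 / (h2 * h1 ^ (e - 1)) * (R2 / h2)⁻¹ = A1 / R2 / h1 ^ (e - 1) := by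
    simp only [div_eq_mul_inv, mul_inv_rev, inv_inv]
    rw [show A1 * ((h1 ^ (e - 1))⁻¹ * h2⁻¹) * (h2 * R2⁻¹) = A1 * R2⁻¹ * (h1 ^ (e - 1))⁻¹ * (h2⁻¹ * h2) by ring,
      inv_mul_cancel₀ e2, mul_one]
  have b1 : B1 / (h0 * h1 ^ (e - 1)) * (R0 / h0)⁻¹ = B1 / R0 / h1 ^ (e - 1) := by
    simp only [div_eq_mul_inv, mul_inv_rev, inv_inv]
    rw [show B1 * ((h1 ^ (e - 1))⁻¹ * h0⁻¹) * (h0 * R0⁻¹) = B1 * R0⁻¹ * (h1 ^ (e - 1))⁻¹ * (h0⁻¹ * h0) by ring,
      inv_mul_cancel₀ e0, mul_one]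
  rw [a1, b1, div_pow _ (h1 ^ (e - 1)), div_mul_div_comm, expo]

theorem comp_last {K : Type*} [Field K] {A1 B1 R0 R2 h0 h1 h2 : K} {e : ℕ} (e0 : h0 ≠ 0)
    (e1 : h1 ^ (e - 1) ≠ 0) :
    (R0 * A1 / B1) ^ (e - 1) * R2 ^ (e * (e - 1)) / h2 ^ ((e + 1) * (e - 1)) =
      (R0 / h0 * (A1 / (h2 * h1 ^ (e - 1))) * (B1 / (h0 * h1 ^ (e - 1)))⁻¹) ^ (e - 1) *
        (R2 / h2) ^ (e * (e - 1)) := by
  have expo : h2 ^ ((e + 1) * (e - 1)) = h2 ^ (e - 1) * h2 ^ (e * (e - 1)) := by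
    rw [← pow_add]; congr 1; ring
  have a1 : R0 / h0 * (A1 / (h2 * h1 ^ (e - 1))) * (B1 / (h0 * h1 ^ (e - 1)))⁻¹ = R0 * A1 / B1 / h2 := by
    simp only [div_eq_mul_inv, mul_inv_rev, inv_inv]
    rw [show R0 * h0⁻¹ * (A1 * ((h1 ^ (e - 1))⁻¹ * h2⁻¹)) * (h0 * h1 ^ (e - 1) * B1⁻¹) =
      R0 * A1 * B1⁻¹ * h2⁻¹ * (h0⁻¹ * h0) * ((h1 ^ (e - 1))⁻¹ * h1 ^ (e - 1)) by ring,
      inv_mul_cancel₀ e0, inv_mul_cancel₀ e1, mul_one, mul_one]
  rw [a1, div_pow _ h2, div_pow _ h2, div_mul_div_comm, expo]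

namespace Ram

/-- A root on a branch read off a normalised norm relation. -/
def gS {n : ℕ} {b : Bool} {F : C.R} (N : Ram.NRel Ω n b F) (κ : k) (g : C.Sheet) (j : Fin 3) :
    LaurentSeries k :=
  HahnSeries.C κ * Ω.rs g j N.G0 / Ω.rs g j N.G1

/-- The roots on the branches. -/
def rootS {n : ℕ} {F : C.R} (A : Ram.NRel Ω n false F) (B : Ram.NRel Ω n true F) (κα κβ : k)
    (a b : ℕ) (g : C.Sheet) : Fin 3 → LaurentSeries k
  | 0 => (gS A κα g 0 ^ a / Ω.rs g 0 F ^ b) ^ ((q + 1) * (q - 1))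
  | 1 => (gS A κα g 1 / (gS B κβ g 2 ^ a / Ω.rs g 2 F ^ b)) ^ q *
      (gS B κβ g 1 / (gS A κα g 0 ^ a / Ω.rs g 0 F ^ b))
  | 2 => (gS A κα g 0 ^ a / Ω.rs g 0 F ^ b * gS A κα g 1 / gS B κβ g 1) ^ (q - 1) *
      (gS B κβ g 2 ^ a / Ω.rs g 2 F ^ b) ^ (q * (q - 1))

variable {n : ℕ} {F : C.R}

theorem gS_ne {b : Bool} (N : Ram.NRel Ω n b F) {κ : k} (hκ : κ ≠ 0) (g : C.Sheet) (j : Fin 3) :
    gS N κ g j ≠ 0 :=
  div_ne_zero (mul_ne_zero (HahnSeries.C_ne_zero hκ) (N.hG g j).1) (N.hG g j).2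

theorem exists_kappa [IsAlgClosed k] (hn : n ≠ 0) {b : Bool} (N : Ram.NRel Ω n b F) :
    ∃ κ : k, κ ≠ 0 ∧ κ ^ n * Ω.φW N.c1 = Ω.φW N.c0 := by
  obtain ⟨κ, hκ⟩ := IsAlgClosed.exists_pow_nat_eq (Ω.φW N.c0 / Ω.φW N.c1) (Nat.pos_of_ne_zero hn)
  refine ⟨κ, fun h0 => ?_, by rw [hκ, div_mul_cancel₀ _ N.hc1]⟩
  rw [h0, zero_pow hn] at hκ
  exact div_ne_zero N.hc0 N.hc1 hκ.symm

theorem rd_C_inc (w : C.W) : Ω.rd (HahnSeries.C (C.inc w)) = HahnSeries.C (Ω.φW w) := by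
  rw [HahnSeries.C_apply, Res.rd, coeffMap_single]
  rfl

/-- The norm relation on reductions. -/
theorem red_rel {b : Bool} (N : Ram.NRel Ω n b F) {κ : k} (hκ : κ ^ n * Ω.φW N.c1 = Ω.φW N.c0)
    (g : C.Sheet) (j : Fin 3) :
    ∏ l ∈ C.fib b (C.lg g j), Ω.rd (C.emb l F) = gS N κ g j ^ n := by
  have h := congrArg Ω.rd (N.rel (C.lg g j))
  rw [map_mul, map_mul, map_mul, map_pow, map_pow, map_prod, rd_C_inc, rd_C_inc, Ω.rs_lg, Ω.rs_lg] at h
  have hc : (HahnSeries.C (Ω.φW N.c1) : LaurentSeries k) ≠ 0 := HahnSeries.C_ne_zero N.hc1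
  rw [← hκ, map_mul, map_pow] at h
  rw [gS, div_pow, eq_div_iff (pow_ne_zero _ (N.hG g j).2), mul_pow]
  refine mul_left_cancel₀ hc ?_
  linear_combination h

/-- The roots are roots. -/
theorem rootS_pow {a b : ℕ} (hab : a * q = 1 + b * n) (hF : ∀ g j, Ω.rs g j F ≠ 0)
    (A : Ram.NRel Ω n false F) (B : Ram.NRel Ω n true F) {κα κβ : k}
    (hα : κα ^ n * Ω.φW A.c1 = Ω.φW A.c0) (hβ : κβ ^ n * Ω.φW B.c1 = Ω.φW B.c0)
    (g : C.Sheet) (j : Fin 3) :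
    rootS A B κα κβ a b g j ^ n = Ω.rs g j F ^ ((q + 1) * (q - 1)) := by
  obtain ⟨p1, p2, p3, p4⟩ := C.prod_fib_kind g (fun l => Ω.rd (C.emb l F))
    (fun j => Ω.rs g j F) fun l hl => by rw [Ω.rd_emb, hl]
  have r1 := (red_rel A hα g 0).symm.trans p1
  have r2 := (red_rel A hα g 1).symm.trans p2
  have r3 := (red_rel B hβ g 2).symm.trans p3
  have r4 := (red_rel B hβ g 1).symm.trans p4
  have hR : ∀ (X f : LaurentSeries k), f ≠ 0 → X ^ n = f ^ q → (X ^ a / f ^ b) ^ n = f := by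
    intro X f hf hX
    rw [div_pow, ← pow_mul, mul_comm a n, pow_mul, hX, ← pow_mul, ← pow_mul, mul_comm q a, hab,
      pow_add, pow_one, mul_div_assoc, div_self (pow_ne_zero _ hf), mul_one]
  have h0 := hF g 0
  have h1 := hF g 1
  have h2 := hF g 2
  have e0 := hR _ _ h0 r1
  have e2 := hR _ _ h2 r3
  fin_cases j
  · show ((gS A κα g 0 ^ a / Ω.rs g 0 F ^ b) ^ ((q + 1) * (q - 1))) ^ n = _
    rw [← pow_mul, mul_comm _ n, pow_mul, e0]
    rfl
  · show ((gS A κα g 1 / _) ^ q * (gS B κβ g 1 / _)) ^ n = Ω.rs g 1 F ^ _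
    rw [mul_pow, ← pow_mul, mul_comm q n, pow_mul, div_pow (gS A κα g 1), div_pow (gS B κβ g 1), e0,
      e2, r2, r4, mul_div_cancel_left₀ _ h2, mul_div_cancel_left₀ _ h0, ← pow_mul, ← pow_add]
    congr 1
    ring
  · show ((_ * gS A κα g 1 / gS B κβ g 1) ^ (q - 1) * _ ^ (q * (q - 1))) ^ n = Ω.rs g 2 F ^ _
    rw [mul_pow, ← pow_mul, ← pow_mul, mul_comm (q - 1) n, mul_comm (q * (q - 1)) n, pow_mul, pow_mul,
      div_pow, mul_pow, e0, e2, r2, r4]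
    have hc : Ω.rs g 0 F * (Ω.rs g 2 F * Ω.rs g 1 F ^ (q - 1)) /
        (Ω.rs g 0 F * Ω.rs g 1 F ^ (q - 1)) = Ω.rs g 2 F := by
      have := pow_ne_zero (q - 1) h1
      field_simp
    rw [hc, ← pow_add]
    congr 1
    ring

/-- The roots are uniformly rational. -/
theorem rootS_mem {a b : ℕ} (hF : ∀ g j, Ω.rs g j F ≠ 0)
    (A : Ram.NRel Ω n false F) (B : Ram.NRel Ω n true F) {κα κβ : k} (hκα : κα ≠ 0) (hκβ : κβ ≠ 0)
    (j : Fin 3) : (fun g => rootS A B κα κβ a b g j) ∈ Ω.UF j := by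
  have hC : ∀ κ : k, (fun _ : C.Sheet => (HahnSeries.C κ : LaurentSeries k)) ∈ Ω.UF j := fun κ => by
    obtain ⟨w, hw⟩ := Ω.surjW κ
    convert Ω.rs_mem_UF j (C.cW w) using 1
    funext g
    rw [Res.rs, Ω.red_cW]
    exact congrArg _ hw.symm
  have hdiv : ∀ {X Y : C.Sheet → LaurentSeries k}, X ∈ Ω.UF j → Y ∈ Ω.UF j → (∀ g, Y g ≠ 0) →
      (fun g => X g / Y g) ∈ Ω.UF j := fun {X Y} hX hY hne => by
    convert (Ω.UF j).mul_mem hX (Ω.UF_inv hY hne) using 1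
    funext g
    exact div_eq_mul_inv _ _
  have hg : ∀ {b : Bool} (N : Ram.NRel Ω n b F) (κ : k) (j' : Fin 3),
      (fun g => gS N κ g j') ∈ Ω.UF j := fun N κ j' =>
    hdiv ((Ω.UF j).mul_mem (hC κ) (Ω.UF_transfer j j' N.G0)) (Ω.UF_transfer j j' N.G1)
      fun g => (N.hG g j').2
  have hR : ∀ {b' : Bool} (N : Ram.NRel Ω n b' F) (κ : k) (j' : Fin 3),
      (fun g => gS N κ g j' ^ a / Ω.rs g j' F ^ b) ∈ Ω.UF j := fun N κ j' =>
    hdiv ((Ω.UF j).pow_mem (hg N κ j') a) ((Ω.UF j).pow_mem (Ω.UF_transfer j j' F) b)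
      fun g => pow_ne_zero _ (hF g j')
  have hRne : ∀ {b' : Bool} (N : Ram.NRel Ω n b' F) {κ : k}, κ ≠ 0 → ∀ (g : C.Sheet) (j' : Fin 3),
      gS N κ g j' ^ a / Ω.rs g j' F ^ b ≠ 0 := fun N κ hκ g j' =>
    div_ne_zero (pow_ne_zero _ (gS_ne N hκ g j')) (pow_ne_zero _ (hF g j'))
  fin_cases j
  · exact (Ω.UF 0).pow_mem (hR A κα 0) _
  · exact (Ω.UF 1).mul_mem ((Ω.UF 1).pow_mem (hdiv (hg A κα 1) (hR B κβ 2) fun g => hRne B hκβ g 2) q)
      (hdiv (hg B κβ 1) (hR A κα 0) fun g => hRne A hκα g 0)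
  · exact (Ω.UF 2).mul_mem
      ((Ω.UF 2).pow_mem (hdiv ((Ω.UF 2).mul_mem (hR A κα 0) (hg A κα 1)) (hg B κβ 1)
        fun g => gS_ne B hκβ g 1) (q - 1))
      ((Ω.UF 2).pow_mem (hR B κβ 2) _)

end Ram

namespace Pt

variable (p : Pt Ω)

/-- The value at a point of the elements of its local ring. -/
def πL : p.Loc →+* k :=
  IsLocalization.lift (M := p.ideal.primeCompl) (g := p.π) fun s =>
    IsUnit.mk0 _ fun h => s.2 (p.mem_ideal.2 h)

theorem πL_alg (x : C.R) : p.πL (algebraMap C.R p.Loc x) = p.π x := IsLocalization.lift_eq _ x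

theorem isUnit_of_πL {z : p.Loc} (h : p.πL z ≠ 0) : IsUnit z := by
  obtain ⟨⟨x, s⟩, hx⟩ := IsLocalization.surj p.ideal.primeCompl z
  change z * algebraMap C.R p.Loc s.1 = algebraMap C.R p.Loc x at hx
  have h1 : IsUnit (algebraMap C.R p.Loc x) := p.isUnit_algebraMap (by
    rw [← p.πL_alg, ← hx, map_mul, p.πL_alg]
    exact mul_ne_zero h fun h0 => s.2 (p.mem_ideal.2 h0))
  rw [← hx] at h1
  exact isUnit_of_mul_isUnit_left h1

variable [IsAlgClosed k] [IsNoetherianRing C.W]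

set_option synthInstance.maxHeartbeats 400000 in
theorem isIntegrallyClosed_loc : IsIntegrallyClosed p.Loc := by
  haveI := p.isNoetherian_loc
  haveI := p.ufd_loc
  infer_instance

/-- Values of fibre products at supersingular points. -/
theorem fib_value (E : Eqs Ω) (hss : p.π E.OmR = 0) {g : C.Sheet} {j : Fin 3}
    (h : RingHom.ker (Ω.rs g j) ≤ p.ideal) (b : Bool) (x : C.R) :
    ∃ (A D : C.R) (z : p.Loc), D ≠ 0 ∧ algebraMap C.R p.Loc D * z = algebraMap C.R p.Loc A ∧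
      (∀ l, C.emb l D * ∏ l' ∈ C.fib b l, C.emb l' x = C.emb l A) ∧ p.πL z = p.π x ^ q := by
  haveI := p.isNoetherian_loc
  haveI := p.ufd_loc
  haveI := p.isIntegrallyClosed_loc
  have hinj : Injective (algebraMap C.R p.Loc) :=
    IsLocalization.injective p.Loc (Ideal.primeCompl_le_nonZeroDivisors p.ideal)
  obtain ⟨A, D, z, hD, hz, hAD⟩ := C.exists_of_intU (algebraMap C.R p.Loc) hinj Ω.fixed b x
  refine ⟨A, D, z, hD, hz, hAD, ?_⟩
  obtain ⟨⟨a', d'⟩, hd'⟩ := IsLocalization.surj p.ideal.primeCompl z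
  change z * algebraMap C.R p.Loc d'.1 = algebraMap C.R p.Loc a' at hd'
  have heq : a' * D = A * d'.1 := hinj (by rw [map_mul, map_mul, ← hd', ← hz]; ring)
  have hd0 : p.π d'.1 ≠ 0 := fun h0 => d'.2 (p.mem_ideal.2 h0)
  have hemb : ∀ l, C.emb l a' = C.emb l d'.1 * ∏ l' ∈ C.fib b l, C.emb l' x := fun l => by
    have h1 := congrArg (C.emb l) heq
    rw [map_mul, map_mul, ← hAD l] at h1
    refine mul_right_cancel₀ (Ram.emb_ne (l := l) hD) ?_
    linear_combination h1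
  have hcast : ((q - 1 : ℕ) + 1) = q := Nat.sub_add_cancel C.hq.one_le
  -- evaluate along the fibre with one root of Frobenius
  set j0 : Fin 3 := if b then 2 else 0
  have h2 := congrArg Ω.rd (hemb (C.lg g j0))
  rw [map_mul, map_prod, Ω.rs_lg, Ω.rs_lg] at h2
  obtain ⟨p1, -, p3, -⟩ := C.prod_fib_kind g (fun l => Ω.rd (C.emb l x))
    (fun j => Ω.rs g j x) fun l hl => by rw [Ω.rd_emb, hl]
  have hprod : ∏ l ∈ C.fib b (C.lg g j0), Ω.rd (C.emb l x) = Ω.rs g j0 x ^ q := by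
    cases b
    · exact p1
    · exact p3
  rw [hprod] at h2
  have hev := (p.EV g j).mul_mem (p.ev_transfer h E hss j0 d'.1)
    ((p.EV g j).pow_mem (p.ev_transfer h E hss j0 x) q)
  rw [show (Ω.rs g j0 d'.1, p.π d'.1) * (Ω.rs g j0 x, p.π x) ^ q =
    (Ω.rs g j0 a', p.π d'.1 * p.π x ^ q) from Prod.ext h2.symm rfl] at hev
  have h3 := p.ev_unique h (p.ev_transfer h E hss j0 a') hev
  have h4 := congrArg p.πL hd'
  rw [map_mul, p.πL_alg, p.πL_alg, h3] at h4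
  exact mul_right_cancel₀ hd0 (by linear_combination h4)

/-- The value of a norm relation at a supersingular point. -/
theorem exists_norm_value (E : Eqs Ω) (hss : p.π E.OmR = 0) {g0 : C.Sheet} {j0 : Fin 3}
    (h0 : RingHom.ker (Ω.rs g0 j0) ≤ p.ideal) {n : ℕ} (hn : n ≠ 0) {F : C.R}
    (hF : ∀ g j, Ω.rs g j F ≠ 0) {b : Bool} (N : Ram.NRel Ω n b F) {κ : k}
    (hκ : κ ^ n * Ω.φW N.c1 = Ω.φW N.c0) {s v h : C.R} (hs : p.π s ≠ 0) (hv : p.π v ≠ 0)
    (he : s * F = v * h ^ n) :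
    ∃ u : k, u ^ n = (p.π v / p.π s) ^ q ∧ ∀ g j, RingHom.ker (Ω.rs g j) ≤ p.ideal → ∀ j',
      (Ram.gS N κ g j' / ∏ l ∈ C.fib b (C.lg g j'), Ω.rd (C.emb l h), u) ∈ p.EV g j := by
  haveI := p.isNoetherian_loc
  haveI := p.ufd_loc
  haveI := p.isIntegrallyClosed_loc
  set φ := algebraMap C.R p.Loc
  have hinj : Injective φ :=
    IsLocalization.injective p.Loc (Ideal.primeCompl_le_nonZeroDivisors p.ideal)
  obtain ⟨As, Ds, zs, hDs, hzs, hAs, vs⟩ := p.fib_value E hss h0 b s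
  obtain ⟨Av, Dv, zv, hDv, hzv, hAv, vv⟩ := p.fib_value E hss h0 b v
  obtain ⟨Ah, Dh, hDh, hAh⟩ := C.exists_fib_frac Ω.fixed b h
  have hG1 : N.G1 ≠ 0 := fun h1 => (N.hG g0 0).2 (by rw [h1, map_zero])
  have hhne : h ≠ 0 := fun h1 => by
    rw [h1, zero_pow hn, mul_zero, mul_eq_zero] at he
    rcases he with he | he
    · exact hs (by rw [he, map_zero])
    · exact hF g0 0 (by rw [he, map_zero])
  have hAh0 : Ah ≠ 0 := fun h1 => by
    have h2 := hAh C.one'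
    rw [h1, map_zero, mul_eq_zero, Finset.prod_eq_zero_iff] at h2
    rcases h2 with h2 | ⟨l', -, h2⟩
    · exact Ram.emb_ne hDh h2
    · exact Ram.emb_ne hhne h2
  have hR : C.cW N.c0 * (N.G0 * Dh) ^ n * (As * Dv) = C.cW N.c1 * (N.G1 * Ah) ^ n * (Av * Ds) := by
    refine C.embAt_injective (C.rep C.one') ?_
    show C.emb C.one' _ = C.emb C.one' _
    set l := C.one'
    have e := Finset.prod_congr rfl (s₁ := C.fib b l) fun l' _ => congrArg (C.emb l') he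
    simp only [map_mul, map_pow, Finset.prod_mul_distrib, Finset.prod_pow] at e
    simp only [map_mul, map_pow, ← hAs l, ← hAv l, ← hAh l, Ctx.emb_cW, mul_pow]
    linear_combination (-(C.emb l Dh ^ n * C.emb l Ds * C.emb l Dv *
        ∏ l' ∈ C.fib b l, C.emb l' s)) * N.rel l +
      (HahnSeries.C (C.inc N.c1) * C.emb l N.G1 ^ n * C.emb l Dh ^ n * C.emb l Ds * C.emb l Dv) * e
  have hL : φ (C.cW N.c0) * zs * φ (N.G0 * Dh) ^ n = φ (C.cW N.c1) * zv * φ (N.G1 * Ah) ^ n := by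
    have h1 := congrArg φ hR
    simp only [map_mul, map_pow] at h1
    rw [show φ As = φ Ds * zs from hzs.symm, show φ Av = φ Dv * zv from hzv.symm] at h1
    simp only [map_mul]
    refine mul_right_cancel₀ (mul_ne_zero ((map_ne_zero_iff _ hinj).2 hDs) ((map_ne_zero_iff _ hinj).2 hDv)) ?_
    linear_combination h1
  have hu : IsUnit (φ (C.cW N.c0) * zs) := p.isUnit_of_πL (by
    rw [map_mul, p.πL_alg, p.π_cW, vs]
    exact mul_ne_zero N.hc0 (pow_ne_zero _ hs))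
  have hdvd : φ (N.G1 * Ah) ∣ φ (N.G0 * Dh) := by
    refine (IsIntegrallyClosed.pow_dvd_pow_iff hn).1 ?_
    exact (hu.dvd_mul_left).1 ⟨φ (C.cW N.c1) * zv, by rw [hL]; ring⟩
  obtain ⟨z, hz⟩ := hdvd
  obtain ⟨⟨n', d'⟩, hnd⟩ := IsLocalization.surj p.ideal.primeCompl z
  change z * φ d'.1 = φ n' at hnd
  have hd0 : p.π d'.1 ≠ 0 := fun h1 => d'.2 (p.mem_ideal.2 h1)
  have hGA : φ (N.G1 * Ah) ≠ 0 := (map_ne_zero_iff _ hinj).2 (mul_ne_zero hG1 hAh0)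
  have hzn : φ (C.cW N.c0) * zs * z ^ n = φ (C.cW N.c1) * zv := by
    refine mul_right_cancel₀ (pow_ne_zero n hGA) ?_
    rw [← hL, hz, mul_pow]
    ring
  have hRd : d'.1 * (N.G0 * Dh) = n' * (N.G1 * Ah) := hinj (by
    rw [map_mul φ d'.1, hz, map_mul φ n', ← hnd]; ring)
  have hemb : ∀ l, C.emb l d'.1 * C.emb l N.G0 =
      C.emb l n' * C.emb l N.G1 * ∏ l' ∈ C.fib b l, C.emb l' h := fun l => by
    have h1 := congrArg (C.emb l) hRd
    simp only [map_mul, ← hAh l] at h1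
    refine mul_right_cancel₀ (Ram.emb_ne (l := l) hDh) ?_
    linear_combination h1
  refine ⟨κ * (p.π n' / p.π d'.1), ?_, fun g j hle j' => ?_⟩
  · have h1 := congrArg p.πL hzn
    have h2 := congrArg p.πL hnd
    have hπ : ∀ x, p.πL (φ x) = p.π x := p.πL_alg
    simp only [map_mul, map_pow, hπ, p.π_cW, vs, vv] at h1 h2
    have h3 : p.π n' / p.π d'.1 = p.πL z := by rw [div_eq_iff hd0, h2]
    rw [h3, mul_pow, div_pow, eq_div_iff (pow_ne_zero _ hs)]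
    refine mul_right_cancel₀ N.hc1 ?_
    linear_combination h1 + p.πL z ^ n * p.π s ^ q * hκ
  · obtain ⟨wκ, hwκ⟩ := Ω.surjW κ
    have hκev : ((HahnSeries.C κ : LaurentSeries k), κ) ∈ p.EV g j := by
      have := p.ev_self g j (C.cW wκ)
      rwa [show Ω.rs g j (C.cW wκ) = HahnSeries.C κ from (Ω.red_cW _ _).trans (congrArg _ hwκ),
        show p.π (C.cW wκ) = κ from (p.π_cW _).trans hwκ] at this
    have hev := (p.EV g j).mul_mem hκev ((p.EV g j).mul_mem (p.ev_transfer hle E hss j' n')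
      (p.ev_inv hle (p.ev_transfer hle E hss j' d'.1) hd0))
    convert hev using 1
    refine Prod.ext ?_ (by show κ * (p.π n' / p.π d'.1) = κ * (p.π n' * (p.π d'.1)⁻¹); rw [div_eq_mul_inv])
    have h1 := congrArg Ω.rd (hemb (C.lg g j'))
    rw [map_mul, map_mul, map_mul, map_prod, Ω.rs_lg, Ω.rs_lg, Ω.rs_lg, Ω.rs_lg] at h1
    have hd'ne : Ω.rs g j' d'.1 ≠ 0 :=
      p.ev_ne hle (p.ev_transfer hle E hss j' d'.1) hd0
    have hpr : ∏ l ∈ C.fib b (C.lg g j'), Ω.rd (C.emb l h) ≠ 0 := fun h2 => by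
      rw [h2, mul_zero] at h1
      exact mul_ne_zero hd'ne (N.hG g j').1 h1
    show Ram.gS N κ g j' / _ = HahnSeries.C κ * (Ω.rs g j' n' * (Ω.rs g j' d'.1)⁻¹)
    have := (N.hG g j').2
    rw [Ram.gS]
    field_simp
    linear_combination (HahnSeries.C κ) * h1

/-- A common residue of the roots on all branches through a point. -/
theorem exists_residue (E : Eqs Ω) {n : ℕ} (hn : n ≠ 0) {F : C.R} (hF : ∀ g j, Ω.rs g j F ≠ 0)
    (A : Ram.NRel Ω n false F) (B : Ram.NRel Ω n true F) {a b : ℕ} (hab : a * q = 1 + b * n)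
    {κα κβ : k} (hκα : κα ≠ 0) (hκβ : κβ ≠ 0) (hα : κα ^ n * Ω.φW A.c1 = Ω.φW A.c0)
    (hβ : κβ ^ n * Ω.φW B.c1 = Ω.φW B.c0) {s v h : C.R} (hs : p.π s ≠ 0) (hv : p.π v ≠ 0)
    (he : s * F = v * h ^ n) :
    ∃ ω : k, ω ≠ 0 ∧ ∀ g j, RingHom.ker (Ω.rs g j) ≤ p.ideal →
      (Ram.rootS A B κα κβ a b g j / Ω.rs g j h ^ ((q + 1) * (q - 1)), ω) ∈ p.EV g j := by
  haveI := p.isNoetherian_loc
  set V := p.π v / p.π s
  have hV : V ≠ 0 := div_ne_zero hv hs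
  by_cases hnone : ∀ g j, ¬ RingHom.ker (Ω.rs g j) ≤ p.ideal
  · exact ⟨1, one_ne_zero, fun g j h' => absurd h' (hnone g j)⟩
  push Not at hnone
  obtain ⟨g0, j0, hg0⟩ := hnone
  have hfact : ∀ g j, Ω.rs g j s * Ω.rs g j F = Ω.rs g j v * Ω.rs g j h ^ n := fun g j => by
    rw [← map_mul, he, map_mul, map_pow]
  by_cases hss : p.π E.OmR = 0
  · obtain ⟨uα, hu1, hαev⟩ := p.exists_norm_value E hss hg0 hn hF A hα hs hv he
    obtain ⟨uβ, hu2, hβev⟩ := p.exists_norm_value E hss hg0 hn hF B hβ hs hv he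
    have hα0 : uα ≠ 0 := fun h0 => pow_ne_zero q hV (by rw [← hu1, h0, zero_pow hn])
    have hβ0 : uβ ≠ 0 := fun h0 => pow_ne_zero q hV (by rw [← hu2, h0, zero_pow hn])
    obtain ⟨r1, r2, r3⟩ := residue_eq (C.hq.pos) hα0 hβ0 hV hab hu1 hu2
    refine ⟨uα ^ q * V ^ b / uα ^ a, div_ne_zero (mul_ne_zero (pow_ne_zero _ hα0) (pow_ne_zero _ hV))
      (pow_ne_zero _ hα0), fun g j hle => ?_⟩
    have hne : ∀ i, Ω.rs g i s ≠ 0 := fun i => p.ev_ne hle (p.ev_transfer hle E hss i s) hs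
    have hh : ∀ i, Ω.rs g i h ≠ 0 := fun i h0 => mul_ne_zero (hne i) (hF g i) (by
      rw [hfact, h0, zero_pow hn, mul_zero])
    have hvs : ∀ i, (Ω.rs g i F / Ω.rs g i h ^ n, V) ∈ p.EV g j := fun i => by
      convert (p.EV g j).mul_mem (p.ev_transfer hle E hss i v)
        (p.ev_inv hle (p.ev_transfer hle E hss i s) hs) using 1
      refine Prod.ext ?_ (div_eq_mul_inv _ _)
      show Ω.rs g i F / Ω.rs g i h ^ n = Ω.rs g i v * (Ω.rs g i s)⁻¹
      have := hne i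
      have := pow_ne_zero n (hh i)
      field_simp
      linear_combination hfact g i
    obtain ⟨p1, p2, p3, p4⟩ := C.prod_fib_kind g (fun l => Ω.rd (C.emb l h))
      (fun j => Ω.rs g j h) fun l hl => by rw [Ω.rd_emb, hl]
    have a0 := hαev g j hle 0
    have a1 := hαev g j hle 1
    have b2 := hβev g j hle 2
    have b1 := hβev g j hle 1
    rw [p1] at a0
    rw [p2] at a1
    rw [p3] at b2
    rw [p4] at b1
    have hR0 : (Ram.gS A κα g 0 ^ a / Ω.rs g 0 F ^ b / Ω.rs g 0 h, uα ^ a / V ^ b) ∈ p.EV g j := by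
      convert (p.EV g j).mul_mem ((p.EV g j).pow_mem a0 a)
        (p.ev_inv hle ((p.EV g j).pow_mem (hvs 0) b) (pow_ne_zero _ hV)) using 1
      refine Prod.ext ?_ (div_eq_mul_inv _ _)
      rw [← ratio_pow (hh 0) hab]
      exact div_eq_mul_inv _ _
    have hR2 : (Ram.gS B κβ g 2 ^ a / Ω.rs g 2 F ^ b / Ω.rs g 2 h, uβ ^ a / V ^ b) ∈ p.EV g j := by
      convert (p.EV g j).mul_mem ((p.EV g j).pow_mem b2 a)
        (p.ev_inv hle ((p.EV g j).pow_mem (hvs 2) b) (pow_ne_zero _ hV)) using 1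
      refine Prod.ext ?_ (div_eq_mul_inv _ _)
      rw [← ratio_pow (hh 2) hab]
      exact div_eq_mul_inv _ _
    have e0 := hh 0
    have e1 := pow_ne_zero (q - 1) (hh 1)
    have e2 := hh 2
    fin_cases j
    · convert (p.EV g _).pow_mem hR0 ((q + 1) * (q - 1)) using 1
      refine Prod.ext ?_ r1.symm
      exact (div_pow _ _ _).symm
    · have hmem := (p.EV g _).mul_mem
        ((p.EV g _).pow_mem ((p.EV g _).mul_mem a1
          (p.ev_inv hle hR2 (div_ne_zero (pow_ne_zero _ hβ0) (pow_ne_zero _ hV)))) q)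
        ((p.EV g _).mul_mem b1
          (p.ev_inv hle hR0 (div_ne_zero (pow_ne_zero _ hα0) (pow_ne_zero _ hV))))
      simp only [Prod.mk_mul_mk, Prod.pow_mk] at hmem
      rw [← comp_middle e0 e2, ← div_eq_mul_inv uα, ← div_eq_mul_inv uβ, r2] at hmem
      exact hmem
    · have hmem := (p.EV g _).mul_mem
        ((p.EV g _).pow_mem ((p.EV g _).mul_mem ((p.EV g _).mul_mem hR0 a1)
          (p.ev_inv hle b1 hβ0)) (q - 1))
        ((p.EV g _).pow_mem hR2 (q * (q - 1)))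
      simp only [Prod.mk_mul_mk, Prod.pow_mk] at hmem
      rw [← comp_last e0 e1, ← div_eq_mul_inv (uα ^ a / V ^ b * uα), r3] at hmem
      exact hmem
  · -- ordinary point
    obtain ⟨A', D', hAD⟩ := Ram.rootS_mem (a := a) (b := b) hF A B hκα hκβ j0
    have hs' : ∀ g j, RingHom.ker (Ω.rs g j) ≤ p.ideal → Ω.rs g j s ≠ 0 := fun g j hle =>
      p.rs_ne hle hs
    have hh : ∀ g j, RingHom.ker (Ω.rs g j) ≤ p.ideal → Ω.rs g j h ≠ 0 := fun g j hle h0 =>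
      mul_ne_zero (hs' g j hle) (hF g j) (by rw [hfact, h0, zero_pow hn, mul_zero])
    set E0 := (q + 1) * (q - 1)
    set X : C.Sheet → LaurentSeries k := fun g => Ram.rootS A B κα κβ a b g j0 / Ω.rs g j0 h ^ E0
    have hXrel : ∀ g, RingHom.ker (Ω.rs g j0) ≤ p.ideal →
        Ω.rs g j0 (D' * h ^ E0) ≠ 0 ∧ Ω.rs g j0 (D' * h ^ E0) * X g = Ω.rs g j0 A' := fun g hle => by
      have := pow_ne_zero E0 (hh g j0 hle)
      refine ⟨by rw [map_mul, map_pow]; exact mul_ne_zero (hAD g).1 this, ?_⟩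
      rw [map_mul, map_pow, mul_assoc, mul_div_cancel₀ _ this]
      exact (hAD g).2
    have hXpow : ∀ g, RingHom.ker (Ω.rs g j0) ≤ p.ideal →
        Ω.rs g j0 (s ^ E0) * X g ^ n = Ω.rs g j0 (v ^ E0) := fun g hle => by
      have h1 := pow_ne_zero (E0 * n) (hh g j0 hle)
      rw [map_pow, map_pow, div_pow, Ram.rootS_pow hab hF A B hα hβ, ← pow_mul, ← mul_div_assoc,
        div_eq_iff h1, ← mul_pow, hfact, mul_pow, ← pow_mul, mul_comm n E0]
    obtain ⟨ω, hω⟩ := p.ev_root E hg0 hn (hXrel g0 hg0).1 (hXrel g0 hg0).2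
      (by rw [map_pow]; exact pow_ne_zero _ hs) (hXpow g0 hg0)
    refine ⟨ω, fun h0 => ?_, fun g j hle => ?_⟩
    · have h1 := (p.EV g0 j0).mul_mem (p.ev_self g0 j0 (s ^ E0)) ((p.EV g0 j0).pow_mem hω n)
      rw [show (Ω.rs g0 j0 (s ^ E0), p.π (s ^ E0)) * (X g0, ω) ^ n =
        (Ω.rs g0 j0 (v ^ E0), p.π (s ^ E0) * ω ^ n) from Prod.ext (hXpow g0 hg0) rfl] at h1
      have h2 := p.ev_unique hg0 (p.ev_self g0 j0 (v ^ E0)) h1
      rw [h0, zero_pow hn, mul_zero, map_pow] at h2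
      exact pow_ne_zero _ hv h2
    · obtain rfl := p.kind_unique E hss hle hg0
      have hker := p.ker_unique E hg0 hle
      obtain ⟨c, d, hd, h1, h2⟩ := hω
      refine ⟨c, d, hd, ?_, h2⟩
      show Ω.rs g j d * X g = Ω.rs g j c
      obtain ⟨hne, hrel⟩ := hXrel g hle
      have hmem : d * A' - c * (D' * h ^ E0) ∈ RingHom.ker (Ω.rs g0 j) := by
        rw [RingHom.mem_ker, map_sub, map_mul, map_mul, ← (hXrel g0 hg0).2, ← h1]
        ring
      have h3 := RingHom.mem_ker.1 (hker hmem)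
      rw [map_sub, map_mul, map_mul, ← hrel] at h3
      refine mul_left_cancel₀ hne ?_
      linear_combination h3

end Pt

end FLTAgent.Carayol
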