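import Fermat.Agent.Carayol.Roots

/-!
# The ring of functions of the auxiliary cover and its embeddings
-/

set_option autoImplicit false
set_option linter.unusedSectionVars false
set_option linter.style.haveILetI false

noncomputable section

open UpperHalfPlane hiding I I_re I_im
open Filter Topology Complex Function FLTAgent.ModEq FLTAgent.GoodModel ModularCurve
open scoped MatrixGroups Manifold Classical

namespace FLTAgent.Carayol

/-- A holomorphic function vanishing near `i∞` vanishes. -/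
theorem eq_zero_of_eventually {f : ℍ → ℂ} (hf : MDiff f) (h : ∀ᶠ τ in atImInfty, f τ = 0) :
    f = 0 := by
  rw [UpperHalfPlane.mdifferentiable_iff] at hf
  have hA := hf.analyticOnNhd isOpen_upperHalfPlaneSet
  obtain ⟨A, hA'⟩ := (UpperHalfPlane.atImInfty_mem _).1 h
  set z₀ : ℂ := Complex.I * ((|A| + 1 : ℝ) : ℂ)
  have hz₀ : |A| < z₀.im := by simp [z₀]
  have hz₀' : 0 < z₀.im := lt_of_le_of_lt (abs_nonneg A) hz₀
  have hev : (f ∘ ofComplex) =ᶠ[𝓝 z₀] 0 := by
    have ho : IsOpen {z : ℂ | |A| < z.im} := isOpen_lt continuous_const Complex.continuous_im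
    filter_upwards [ho.mem_nhds hz₀] with z hz
    have hz' : 0 < z.im := lt_of_le_of_lt (abs_nonneg A) hz
    rw [Function.comp_apply, ofComplex_apply_of_im_pos hz']
    exact hA' ⟨z, hz'⟩ (by
      show A ≤ z.im
      exact (le_abs_self A).trans (le_of_lt hz))
  funext τ
  have := hA.eqOn_zero_of_preconnected_of_eventuallyEq_zero
    (Complex.isConnected_of_upperHalfPlane subset_rfl fun z (hz : 0 < z.im) =>
      (show 0 ≤ z.im from le_of_lt hz)).isPreconnected
    (show z₀ ∈ {z : ℂ | 0 < z.im} from hz₀') hev τ.im_pos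
  simpa [ofComplex_apply] using this

/-- The expansion at infinity is injective. -/
theorem ser_injective {S : Subring ℂ} {n : ℕ} [NeZero n] :
    Function.Injective (ser : trRing S n →+* LaurentSeries S) := by
  rw [injective_iff_map_eq_zero]
  intro a ha
  have h := ser_spec a
  rw [ha] at h
  obtain ⟨h1, h2⟩ := mem_sPairs.mp h
  refine Subtype.ext (eq_zero_of_eventually h1 ?_)
  rw [map_zero] at h2
  filter_upwards [h2] with τ hτ
  simpa using hτ.unique (by simpa using (hasSum_zero (α := ℂ) (β := ℤ)))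

/-- Composition with `σ` on the ring of functions. -/
def trComp {S : Subring ℂ} {n : ℕ} (σ : SL(2, ℤ)) : trRing S n →+* trRing S n :=
  ((compg σ).comp (trRing S n).subtype).codRestrict (trRing S n) fun a => compg_mem_trRing a.2 σ

theorem coeffMap_range {R R' : Type*} [CommRing R] [CommRing R'] (f : R →+* R')
    (hf : Function.Injective f) {G : LaurentSeries R'} (h : ∀ k, G.coeff k ∈ f.range) :
    ∃ G0, coeffMap f G0 = G := by
  choose g hg using h
  refine ⟨⟨g, G.isPWO_support.mono fun k hk h0 => hk (hf (by rw [map_zero, hg, h0]))⟩, ?_⟩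
  ext k
  rw [coeffMap_coeff]
  exact hg k

theorem substHom_C {R : Type*} [CommRing R] (u : Rˣ) (m : ℕ) [NeZero m] (x : R) :
    substHom u m (HahnSeries.C x) = HahnSeries.C x := by
  ext k
  by_cases hd : (m : ℤ) ∣ k
  · obtain ⟨j, rfl⟩ := hd
    rw [substHom_coeff_mul]
    rcases eq_or_ne j 0 with rfl | hj
    · simp
    · have : (m : ℤ) * j ≠ 0 := mul_ne_zero (by exact_mod_cast NeZero.ne m) hj
      simp [HahnSeries.C_apply, HahnSeries.coeff_single_of_ne hj,
        HahnSeries.coeff_single_of_ne this]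
  · rw [substHom_coeff_of_not_dvd _ _ _ hd, HahnSeries.C_apply, HahnSeries.coeff_single_of_ne]
    rintro rfl
    exact hd (dvd_zero _)

/-- A polynomial whose value at a series with a pole has coefficients in a subring. -/
theorem coeff_mem_of_eval {R R' : Type*} [CommRing R] [CommRing R'] [IsDomain R'] (f : R →+* R')
    {Y : LaurentSeries R} {e : ℕ} (he : 0 < e) (hY : LeadAt Y (-(e : ℤ))) (d : ℕ) :
    ∀ P : Polynomial R', P.natDegree ≤ d →
      (∀ k, (P.eval₂ HahnSeries.C (coeffMap f Y)).coeff k ∈ f.range) → ∀ i, P.coeff i ∈ f.range := by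
  have hgo : ∀ (a : R') (x : ℕ), GeOrd (HahnSeries.C a * coeffMap f Y ^ x) (-((e * x : ℕ) : ℤ)) := by
    intro a x
    have h1 : GeOrd (coeffMap f Y) (-(e : ℤ)) := fun i hi => by
      rw [coeffMap_coeff, hY.1 i hi, map_zero]
    exact ((geOrd_C a).mul (h1.pow x)).mono (by push_cast; ring_nf; rfl)
  induction d with
  | zero =>
    intro P hP h i
    rcases Nat.eq_zero_or_pos i with rfl | hi
    · have := h 0
      rw [Polynomial.eq_C_of_natDegree_le_zero hP, Polynomial.eval₂_C] at this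
      simpa using this
    · rw [Polynomial.coeff_eq_zero_of_natDegree_lt (by omega)]
      exact zero_mem _
  | succ d ih =>
    intro P hP h i
    have htop : P.coeff (d + 1) ∈ f.range := by
      obtain ⟨u, hu⟩ := hY.2
      have h1 := h (-((e * (d + 1) : ℕ) : ℤ))
      rw [Polynomial.eval₂_eq_sum_range' _ (Nat.lt_succ_of_le hP), HahnSeries.coeff_sum,
        Finset.sum_range_succ, Finset.sum_eq_zero, zero_add] at h1
      · have hYg : GeOrd (coeffMap f Y) (-(e : ℤ)) := fun i hi => by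
          rw [coeffMap_coeff, hY.1 i hi, map_zero]
        rw [show -((e * (d + 1) : ℕ) : ℤ) = 0 + ((d + 1 : ℕ) : ℤ) * -(e : ℤ) by push_cast; ring,
          (geOrd_C _).coeff_mul_add (hYg.pow _), hYg.coeff_pow, coeffMap_coeff, ← hu] at h1
        simp only [HahnSeries.C_apply, HahnSeries.coeff_single_same] at h1
        obtain ⟨x, hx⟩ := h1
        refine ⟨x * ((u⁻¹ ^ (d + 1) : Rˣ) : R), ?_⟩
        rw [map_mul, hx, Units.val_pow_eq_pow_val, map_pow, mul_assoc, ← mul_pow, ← map_mul,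
          Units.mul_inv, map_one, one_pow, mul_one]
      · intro x hx
        refine hgo _ x _ ?_
        have : e * x < e * (d + 1) := Nat.mul_lt_mul_of_pos_left (Finset.mem_range.1 hx) he
        omega
    obtain ⟨x, hx⟩ := htop
    rcases eq_or_ne i (d + 1) with rfl | hi
    · exact ⟨x, hx⟩
    have hdeg : (P - Polynomial.C (P.coeff (d + 1)) * Polynomial.X ^ (d + 1)).natDegree ≤ d := by
      rw [Polynomial.natDegree_le_iff_coeff_eq_zero]
      intro j hj
      rcases eq_or_ne j (d + 1) with rfl | hne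
      · simp
      · rw [Polynomial.coeff_sub, Polynomial.coeff_eq_zero_of_natDegree_lt (by omega),
          Polynomial.coeff_C_mul_X_pow, if_neg hne, sub_zero]
    have := ih _ hdeg (fun k => ?_) i
    · simpa [hi] using this
    · rw [Polynomial.eval₂_sub, Polynomial.eval₂_mul, Polynomial.eval₂_C, Polynomial.eval₂_X_pow,
        HahnSeries.coeff_sub]
      refine sub_mem (h k) ⟨(HahnSeries.C x * Y ^ (d + 1)).coeff k, ?_⟩
      rw [← coeffMap_coeff f, map_mul, map_pow, HahnSeries.C_apply, coeffMap_single, hx,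
        ← HahnSeries.C_apply]

namespace Ctx

variable {q M0 N' : ℕ} [NeZero M0] [NeZero N'] [NeZero q] [Fact q.Prime] (C : Ctx q M0 N')

/-- The level structure. -/
def eta (_C : Ctx q M0 N') : ℍ → ℂ := f0 (M0 * N') N'

/-- Its conjugates. -/
def nodes (_C : Ctx q M0 N') : Finset (ℍ → ℂ) :=
  (nodeSet_finite (n := M0 * N') (M0 := M0) (N' := N') rfl).toFinset

theorem mem_nodes {f : ℍ → ℂ} :
    f ∈ C.nodes ↔ ∃ γ ∈ CongruenceSubgroup.Gamma M0, compg γ C.eta = f := by
  simp [nodes, eta, nodeSet]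

theorem eta_mem_nodes : C.eta ∈ C.nodes := C.mem_nodes.2 ⟨1, one_mem _, compg_one _⟩

theorem node_mem0 {f : ℍ → ℂ} (hf : f ∈ C.nodes) : f ∈ trRing C.W (M0 * N') :=
  nodeSet_subset (n := M0 * N') (N' := N') (M0 := M0) C.hM rfl C.ζm C.hζm C.hu
    (by simpa [nodes] using hf)

theorem compg_mem_nodes {γ : SL(2, ℤ)} (hγ : γ ∈ CongruenceSubgroup.Gamma M0) {f : ℍ → ℂ}
    (hf : f ∈ C.nodes) : compg γ f ∈ C.nodes := by
  obtain ⟨δ, hδ, rfl⟩ := C.mem_nodes.1 hf
  exact C.mem_nodes.2 ⟨δ * γ, mul_mem hδ hγ, by rw [compg_compg]⟩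

theorem eta_fix {δ : SL(2, ℤ)} (hδ : δ ∈ CongruenceSubgroup.Gamma (M0 * N')) :
    compg δ C.eta = C.eta := by
  rw [eta, f0, compg_fvv (n := M0 * N') rfl (mem_M0_of_mem_m hδ)]
  exact (fvv_congr_iff C.hM rfl ((level_nz C.hM rfl).2.2.2.2.vmul δ) (level_nz C.hM rfl).2.2.2.2).2
    (Or.inl (mem_Gamma_vEq hδ _))

/-- The inverse of the derivative of the polynomial of the nodes. -/
def rhoOf (f : ℍ → ℂ) : ℍ → ℂ := fun τ => ∏ g ∈ C.nodes.erase f, (f τ - g τ)⁻¹

theorem rhoOf_mem0 {f : ℍ → ℂ} (hf : f ∈ C.nodes) : C.rhoOf f ∈ trRing C.W (M0 * N') := by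
  have key : ∀ g ∈ C.nodes.erase f, (fun τ => (f τ - g τ)⁻¹) ∈ trRing C.W (M0 * N') := by
    intro g hg
    have hgf : g ≠ f := (Finset.mem_erase.1 hg).1
    obtain ⟨γ, hγ, rfl⟩ := C.mem_nodes.1 hf
    obtain ⟨δ, hδ, rfl⟩ := C.mem_nodes.1 (Finset.mem_erase.1 hg).2
    have hnz : ∀ γ : SL(2, ℤ), Nz (M0 * N') (vmul ((0, 1) : Vec) γ) := fun γ ↦
      (level_nz C.hM rfl).2.2.2.2.vmul γ
    simp only [eta, f0, compg_fvv (n := M0 * N') rfl hγ, compg_fvv (n := M0 * N') rfl hδ] at hgf ⊢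
    obtain ⟨u, hu⟩ := isUnit_fvv_sub C.hM rfl C.ζm C.hζm C.hu (hnz γ) (hnz δ) fun e =>
      hgf ((fvv_congr_iff C.hM rfl (hnz δ) (hnz γ)).2 (by
        rcases e with e | e
        · exact Or.inl ⟨e.1.symm, e.2.symm⟩
        · exact Or.inr ⟨by simp [e.1], by simp [e.2]⟩))
    convert ((u⁻¹ : (trRing C.W (M0 * N'))ˣ) : trRing C.W (M0 * N')).2 using 1
    funext τ
    have h1 := congrFun (congrArg (fun x : trRing C.W (M0 * N') => (x : ℍ → ℂ)) u.mul_inv) τ
    rw [hu] at h1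
    exact inv_eq_of_mul_eq_one_right (by simpa using h1)
  have := Subring.prod_mem (trRing C.W (M0 * N')) key
  convert this using 1
  funext τ
  simp [rhoOf, Finset.prod_apply]

theorem compg_rhoOf {γ : SL(2, ℤ)} (hγ : γ ∈ CongruenceSubgroup.Gamma M0) {f : ℍ → ℂ} :
    compg γ (C.rhoOf f) = C.rhoOf (compg γ f) := by
  funext τ
  simp only [rhoOf, compg_apply]
  refine Finset.prod_bij' (fun g _ => compg γ g) (fun g _ => compg γ⁻¹ g) ?_ ?_ ?_ ?_ ?_
  · intro g hg
    rw [Finset.mem_erase] at hg ⊢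
    exact ⟨fun h => hg.1 (compg_injective γ h), C.compg_mem_nodes hγ hg.2⟩
  · intro g hg
    rw [Finset.mem_erase] at hg ⊢
    refine ⟨fun h => hg.1 ?_, C.compg_mem_nodes (inv_mem hγ) hg.2⟩
    rw [← h, compg_compg, inv_mul_cancel, compg_one]
  · intro g _
    simp only [compg_compg, mul_inv_cancel, compg_one]
  · intro g _
    simp only [compg_compg, inv_mul_cancel, compg_one]
  · intro g _
    simp [compg_apply]

theorem lift_level {φ : ℍ → ℂ} (h : φ ∈ trRing C.W (M0 * N')) :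
    φ ∈ trRing C.S (M0 * (N' * q)) :=
  mem_trRing_of_level C.hWS (k := q) (mul_assoc M0 N' q) h

/-- The generators. -/
def gens : Set (ℍ → ℂ) :=
  {C.T, (fun τ => (C.dlt τ)⁻¹), C.eta, C.rhoOf C.eta, C.sX, C.sW, C.sV, C.sU, C.rX (some 0),
    C.rW (some 0), C.rV (some 0), C.rU (some 0)}

/-- The ring of functions of the auxiliary cover. -/
def R : Subring (ℍ → ℂ) :=
  Subring.closure (Set.range (fun w : C.W => Function.const ℍ (w : ℂ)) ∪ C.gens)

theorem gens_le {f : ℍ → ℂ} (hf : f ∈ C.gens) : f ∈ C.R := Subring.subset_closure (Or.inr hf)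

theorem R_le : C.R ≤ trRing C.S (M0 * (N' * q)) := by
  rw [R, Subring.closure_le]
  rintro f (⟨w, rfl⟩ | hf)
  · refine mem_trRing.mpr fun σ => ⟨HahnSeries.C (C.inc w), ?_⟩
    exact sPairs_const (n := M0 * (N' * q)) (C.inc w)
  · rcases hf with rfl | rfl | rfl | rfl | rfl | rfl | rfl | rfl | rfl | rfl | rfl | rfl
    · exact C.T_mem
    · exact C.dlt_inv_mem
    · exact C.lift_level (C.node_mem0 C.eta_mem_nodes)
    · exact C.lift_level (C.rhoOf_mem0 C.eta_mem_nodes)
    · exact C.sX_mem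
    · exact C.sW_sV_mem.1
    · exact C.sW_sV_mem.2
    · exact C.sU_mem
    · exact C.rX_mem _
    · exact C.rW_mem _
    · exact C.rV_mem _
    · exact C.rU_mem _

/-- The constants. -/
def cW : C.W →+* C.R :=
  ((Pi.constRingHom ℍ ℂ).comp C.W.subtype).codRestrict C.R fun w =>
    Subring.subset_closure (Or.inl ⟨w, rfl⟩)

/-- The expansion of a translate. -/
def embAt (γ : SL(2, ℤ)) : C.R →+* LaurentSeries C.S :=
  ser.comp ((trComp γ).comp (Subring.inclusion C.R_le))

theorem embAt_injective (γ : SL(2, ℤ)) : Function.Injective (C.embAt γ) := by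
  intro a b h
  have h2 := congrArg (fun x : trRing C.S (M0 * (N' * q)) => (x : ℍ → ℂ)) (ser_injective h)
  exact Subtype.ext (compg_injective γ h2)

/-- The triple of a translate. -/
def triple (γ : SL(2, ℤ)) : (ℍ → ℂ) × (ℍ → ℂ) × (ℍ → ℂ) :=
  (compg γ C.eta, compg γ C.sX, compg γ (C.rX (some 0)))

theorem side_congr {γ γ' : SL(2, ℤ)} (hγ : γ ∈ CongruenceSubgroup.Gamma M0)
    (hγ' : γ' ∈ CongruenceSubgroup.Gamma M0) (h : compg γ C.sX = compg γ' C.sX) :
    compg γ C.sW = compg γ' C.sW ∧ compg γ C.sV = compg γ' C.sV ∧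
      compg γ C.sU = compg γ' C.sU := by
  obtain ⟨r, h1, h2, h3, h4⟩ := C.exists_root hγ
  obtain ⟨r', h1', h2', h3', h4'⟩ := C.exists_root hγ'
  obtain rfl : r = r' := C.rX_injective (h1 ▸ h1' ▸ h)
  exact ⟨h2.trans h2'.symm, h3.trans h3'.symm, h4.trans h4'.symm⟩

/-- A translate only depends on its triple. -/
theorem compg_congr {γ γ' : SL(2, ℤ)} (hγ : γ ∈ CongruenceSubgroup.Gamma M0)
    (hγ' : γ' ∈ CongruenceSubgroup.Gamma M0) (h : C.triple γ = C.triple γ') (a : C.R) :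
    compg γ (a : ℍ → ℂ) = compg γ' (a : ℍ → ℂ) := by
  simp only [triple, Prod.mk.injEq] at h
  obtain ⟨he, hx, hz⟩ := h
  obtain ⟨hw, hv, hu⟩ := C.side_congr hγ hγ' hx
  rw [rX, compg_compg, compg_compg] at hz
  obtain ⟨hw', hv', hu'⟩ := C.side_congr (mul_mem (C.gr_mem0 _) hγ) (mul_mem (C.gr_mem0 _) hγ') hz
  refine RingHom.eqOn_set_closure (f := compg γ) (g := compg γ') ?_ a.2
  rintro f (⟨w, rfl⟩ | hf)
  · rfl
  · rcases hf with rfl | rfl | rfl | rfl | rfl | rfl | rfl | rfl | rfl | rfl | rfl | rfl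
    · funext τ; simp only [compg_apply, C.T_pm (Or.inl hγ), C.T_pm (Or.inl hγ')]
    · funext τ; simp only [compg_apply, dlt, C.T_pm (Or.inl hγ), C.T_pm (Or.inl hγ')]
    · exact he
    · rw [C.compg_rhoOf hγ, C.compg_rhoOf hγ', he]
    · exact hx
    · exact hw
    · exact hv
    · exact hu
    · rw [rX, compg_compg, compg_compg]; exact hz
    · rw [rW, compg_compg, compg_compg]; exact hw'
    · rw [rV, compg_compg, compg_compg]; exact hv'
    · rw [rU, compg_compg, compg_compg]; exact hu'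

theorem tripleSet_finite :
    (Set.range fun γ : CongruenceSubgroup.Gamma M0 => C.triple (γ : SL(2, ℤ))).Finite := by
  refine ((C.nodes.finite_toSet).prod
    ((Set.finite_range C.rX).prod (Set.finite_range C.rX))).subset ?_
  rintro _ ⟨γ, rfl⟩
  refine ⟨C.compg_mem_nodes γ.2 C.eta_mem_nodes, ?_, ?_⟩
  · obtain ⟨r, h, -⟩ := C.exists_root γ.2
    exact ⟨r, h.symm⟩
  · obtain ⟨r, h, -⟩ := C.exists_root (mul_mem (C.gr_mem0 (some 0)) γ.2)
    refine ⟨r, ?_⟩
    show C.rX r = compg (γ : SL(2, ℤ)) (C.rX (some 0))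
    rw [rX, rX, compg_compg]
    exact h.symm

/-- The index set of the embeddings over the line of the coordinate. -/
def Idx : Type := ↥(Set.range fun γ : CongruenceSubgroup.Gamma M0 => C.triple (γ : SL(2, ℤ)))

instance : Fintype C.Idx := C.tripleSet_finite.fintype

/-- The embedding of a translate. -/
def idx {γ : SL(2, ℤ)} (hγ : γ ∈ CongruenceSubgroup.Gamma M0) : C.Idx :=
  ⟨C.triple γ, ⟨γ, hγ⟩, rfl⟩

/-- A matrix realising an embedding. -/
def rep (l : C.Idx) : SL(2, ℤ) := (l.2.choose : CongruenceSubgroup.Gamma M0)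

theorem rep_mem (l : C.Idx) : C.rep l ∈ CongruenceSubgroup.Gamma M0 := (l.2.choose).2

theorem triple_rep (l : C.Idx) : C.triple (C.rep l) = l.1 := l.2.choose_spec

theorem compg_rep_idx {γ : SL(2, ℤ)} (hγ : γ ∈ CongruenceSubgroup.Gamma M0) (a : C.R) :
    compg (C.rep (C.idx hγ)) (a : ℍ → ℂ) = compg γ (a : ℍ → ℂ) :=
  C.compg_congr (C.rep_mem _) hγ (C.triple_rep _) a

theorem idx_eq_iff {γ γ' : SL(2, ℤ)} (hγ : γ ∈ CongruenceSubgroup.Gamma M0)
    (hγ' : γ' ∈ CongruenceSubgroup.Gamma M0) :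
    C.idx hγ = C.idx hγ' ↔ C.triple γ = C.triple γ' := Subtype.ext_iff

/-- Functions whose translates only depend on the triple. -/
def Stab (φ : ℍ → ℂ) : Prop :=
  ∀ γ γ' : SL(2, ℤ), γ ∈ CongruenceSubgroup.Gamma M0 → γ' ∈ CongruenceSubgroup.Gamma M0 →
    C.triple γ = C.triple γ' → compg γ φ = compg γ' φ

theorem stab_R (a : C.R) : C.Stab (a : ℍ → ℂ) := fun _ _ h h' e => C.compg_congr h h' e a

/-- Right translation permutes the embeddings. -/
def perm {γ : SL(2, ℤ)} (hγ : γ ∈ CongruenceSubgroup.Gamma M0) : C.Idx ≃ C.Idx where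
  toFun l := C.idx (mul_mem (C.rep_mem l) hγ)
  invFun l := C.idx (mul_mem (C.rep_mem l) (inv_mem hγ))
  left_inv l := by
    refine Subtype.ext ?_
    show C.triple (C.rep _ * γ⁻¹) = l.1
    have h := C.triple_rep (C.idx (mul_mem (C.rep_mem l) hγ))
    rw [← C.triple_rep l]
    simp only [triple, idx, Prod.mk.injEq] at h ⊢
    obtain ⟨h1, h2, h3⟩ := h
    rw [← compg_compg γ⁻¹, ← compg_compg γ⁻¹, ← compg_compg γ⁻¹, h1, h2, h3]
    simp only [compg_compg, mul_inv_cancel_right, and_self]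
  right_inv l := by
    refine Subtype.ext ?_
    show C.triple (C.rep _ * γ) = l.1
    have h := C.triple_rep (C.idx (mul_mem (C.rep_mem l) (inv_mem hγ)))
    rw [← C.triple_rep l]
    simp only [triple, idx, Prod.mk.injEq] at h ⊢
    obtain ⟨h1, h2, h3⟩ := h
    rw [← compg_compg γ, ← compg_compg γ, ← compg_compg γ, h1, h2, h3]
    simp only [compg_compg, inv_mul_cancel_right, and_self]

theorem compg_rep_perm {γ : SL(2, ℤ)} (hγ : γ ∈ CongruenceSubgroup.Gamma M0) (l : C.Idx)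
    {φ : ℍ → ℂ} (hφ : C.Stab φ) :
    compg (C.rep (C.perm hγ l)) φ = compg γ (compg (C.rep l) φ) := by
  rw [compg_compg]
  exact hφ _ _ (C.rep_mem _) (mul_mem (C.rep_mem l) hγ) (C.triple_rep _)

theorem sum_invariant {φ : ℍ → ℂ} (hφ : C.Stab φ) {γ : SL(2, ℤ)}
    (hγ : γ ∈ CongruenceSubgroup.Gamma M0) :
    compg γ (∑ l, compg (C.rep l) φ) = ∑ l, compg (C.rep l) φ := by
  rw [map_sum]
  simp only [← C.compg_rep_perm hγ _ hφ]
  exact Equiv.sum_comp (C.perm hγ) fun l => compg (C.rep l) φ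

/-- Invariant functions are rational in the coordinate. -/
theorem exists_poly {φ : ℍ → ℂ} (hφ : φ ∈ trRing C.S (M0 * (N' * q)))
    (hinv : ∀ γ ∈ CongruenceSubgroup.Gamma M0, compg γ φ = φ) :
    ∃ (P : Polynomial C.S) (s : ℕ),
      ∀ τ, φ τ * C.dlt τ ^ s = (P.map C.S.subtype).eval (C.T τ) := by
  classical
  obtain ⟨α', hα'⟩ := C.co.isUnit_α.exists_right_inv
  have hαC : (C.co.α : ℂ) * (α' : ℂ) = 1 := by
    have := congrArg (fun z : C.W => (z : ℂ)) hα'
    simpa using this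
  have hαu : IsUnit α' := IsUnit.of_mul_eq_one C.co.α (by rw [mul_comm]; exact hα')
  have hhh : ∀ τ, hh M0 τ = (α' : ℂ) * (C.T τ - (C.co.β : ℂ)) := fun τ => by
    rw [T, C.co.affine τ]
    linear_combination (-hh M0 τ) * hαC
  set Hh : LaurentSeries C.W := HahnSeries.C α' * (C.co.H - HahnSeries.C C.co.β)
  have hHh : (hh M0, Hh) ∈ sPairs C.W M0 := by
    have h := (sPairs C.W M0).mul_mem (sPairs_const (n := M0) α')
      ((sPairs C.W M0).sub_mem C.co.hH (sPairs_const (n := M0) C.co.β))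
    rw [Prod.mk_sub_mk, Prod.mk_mul_mk] at h
    convert h using 2
    funext τ
    simp [hhh]
  have hlead : LeadAt Hh (-1) := by
    have hl : LeadAt (C.co.H - HahnSeries.C C.co.β) (-1) :=
      ⟨fun k hk => by
          rw [HahnSeries.coeff_sub, C.co.leadH.1 k hk, geOrd_C C.co.β k (by omega), sub_zero],
        by rw [HahnSeries.coeff_sub, geOrd_C C.co.β (-1) (by norm_num), sub_zero]
           exact C.co.leadH.2⟩
    have h0 : LeadAt (HahnSeries.C α' : LaurentSeries C.W) 0 :=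
      ⟨geOrd_C α', by simpa [HahnSeries.C_apply] using hαu⟩
    have h2 := LeadAt.mul h0 hl
    simpa only [zero_add] using h2
  have hleadS : LeadAt (coeffMap C.inc Hh) (-1) :=
    ⟨fun k hk => by rw [coeffMap_coeff, hlead.1 k hk, map_zero],
      by rw [coeffMap_coeff]; exact hlead.2.map _⟩
  set ch : Fin M0 → C.S := fun i => C.inc (α' * (C.co.c i - C.co.β))
  have hch : ∀ i τ, hh M0 τ - (ch i : ℂ) = (α' : ℂ) * (C.T τ - (C.co.c i : ℂ)) := fun i τ => by
    simp only [ch, Subring.coe_inclusion, Subring.coe_mul, AddSubgroupClass.coe_sub, hhh]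
    ring
  have hhb : ∀ i, IsBoundedAtImInfty fun τ ↦ hh M0 (cuspRep0 M0 i • τ) := fun i ↦ by
    obtain ⟨G, hG, hG1⟩ := C.co.cusp.2 i
    have h1 : IsBoundedAtImInfty fun τ ↦ C.T (cuspRep0 M0 i • τ) - (C.co.c i : ℂ) :=
      (mem_sPairs.mp hG).2.isBoundedAtImInfty fun k hk ↦ by
        rw [coeffMap_coeff, hG1.1 k (by omega), map_zero]
    refine ((h1.add (Filter.const_boundedAtFilter atImInfty
      ((C.co.c i : ℂ) - C.co.β))).const_mul_left (α' : ℂ)).congr_left fun τ ↦ ?_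
    simp [hhh]
  have hw : ∀ i, ∃ w : ℕ, IsBoundedAtImInfty fun τ ↦
      φ (cuspRep0 M0 i • τ) * (hh M0 (cuspRep0 M0 i • τ) - (ch i : ℂ)) ^ w := by
    intro i
    obtain ⟨G, hG⟩ := mem_trRing.mp hφ (cuspRep0 M0 i)
    obtain ⟨G', hG', hG'1⟩ := C.co.cusp.2 i
    obtain ⟨w, hw⟩ := (meroInf_of_hasExp (mem_sPairs.mp hG).2).exists_pow_bounded
      (mem_sPairs.mp hG').2 fun k hk ↦ by rw [coeffMap_coeff, hG'1.1 k hk, map_zero]
    refine ⟨w, ((hw w le_rfl).const_mul_left ((α' : ℂ) ^ w)).congr_left fun τ ↦ ?_⟩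
    simp only [Pi.mul_apply, Pi.pow_apply, hch, compg_apply, mul_pow]
    ring
  choose w hw using hw
  obtain ⟨G, hG⟩ := mem_trRing.mp hφ 1
  rw [compg_one] at hG
  obtain ⟨d, hd⟩ : ∃ d : ℕ, GeOrd G (-(((N' * q) * d : ℕ) : ℤ)) := by
    refine ⟨(-G.order).toNat, fun k hk => HahnSeries.coeff_eq_zero_of_lt_order ?_⟩
    have hpos : 0 < N' * q := Nat.mul_pos (Nat.pos_of_ne_zero (NeZero.ne N')) (Nat.pos_of_ne_zero (NeZero.ne q))
    have : (-G.order).toNat ≤ (N' * q) * (-G.order).toNat := Nat.le_mul_of_pos_left _ hpos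
    omega
  obtain ⟨P, -, hP⟩ := exists_poly_of_invariant C.hM rfl (sPairs_mono C.hWS hHh) hleadS ch hhb hG
    (fun γ hγ τ ↦ congrFun (hinv γ hγ) τ) w hw hd
  set αS := C.inc C.co.α
  set βS := C.inc C.co.β
  set α'S := C.inc α'
  refine ⟨Polynomial.C (αS ^ ∑ i, w i) * P.comp (Polynomial.C α'S * (Polynomial.X - Polynomial.C βS)) *
      ∏ i, (Polynomial.X - Polynomial.C (C.inc (C.co.c i))) ^ ((∑ j, w j) - w i), ∑ i, w i, fun τ => ?_⟩
  have h1 := congrFun (congrArg Prod.fst hP) τ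
  rw [Prod.fst_mul, Pi.mul_apply, evalP_fst, evalP_fst] at h1
  simp only [Polynomial.map_prod, Polynomial.map_pow, Polynomial.map_sub, Polynomial.map_X,
    Polynomial.map_C, Polynomial.eval_prod, Polynomial.eval_pow, Polynomial.eval_sub,
    Polynomial.eval_X, Polynomial.eval_C, Subring.subtype_apply, hch, mul_pow,
    Finset.prod_mul_distrib, Finset.prod_pow_eq_pow_sum] at h1
  simp only [Polynomial.map_mul, Polynomial.map_C, Polynomial.map_comp, Polynomial.map_sub,
    Polynomial.map_X, Polynomial.map_prod, Polynomial.map_pow, Polynomial.eval_mul,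
    Polynomial.eval_C, Polynomial.eval_comp, Polynomial.eval_sub, Polynomial.eval_X,
    Polynomial.eval_prod, Polynomial.eval_pow, αS, βS, α'S, map_pow, Subring.subtype_apply,
    Subring.coe_inclusion, SubmonoidClass.coe_pow]
  rw [← hhh, h1]
  have hsplit : ∀ i, (C.T τ - (C.co.c i : ℂ)) ^ (∑ j, w j) =
      (C.T τ - (C.co.c i : ℂ)) ^ (w i) * (C.T τ - (C.co.c i : ℂ)) ^ ((∑ j, w j) - w i) := fun i => by
    rw [← pow_add, Nat.add_sub_cancel' (Finset.single_le_sum (fun j _ => Nat.zero_le (w j)) (Finset.mem_univ i))]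
  rw [dlt, ← Finset.prod_pow]
  simp only [hsplit, Finset.prod_mul_distrib]
  have hone : (C.co.α : ℂ) ^ (∑ i, w i) * (α' : ℂ) ^ (∑ i, w i) = 1 := by
    rw [← mul_pow, hαC, one_pow]
  linear_combination (-(φ τ * (∏ i, (C.T τ - (C.co.c i : ℂ)) ^ w i) *
    (∏ i, (C.T τ - (C.co.c i : ℂ)) ^ ((∑ j, w j) - w i)))) * hone

theorem ser_T : ser ⟨C.T, C.T_mem⟩ = C.Ys := sPairs_unique (ser_spec _) C.Ys_spec

theorem Ys_eq : C.Ys = coeffMap C.inc (qExpand C.W (N' * q) C.co.H) := by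
  rw [Ys, coeffMap_qExpand]

theorem leadAt_Ys_W : LeadAt (qExpand C.W (N' * q) C.co.H) (-((N' * q : ℕ) : ℤ)) := by
  refine ⟨fun i hi => geOrd_qExpand C.co.leadH.1 (N' * q) i (by simpa using hi), ?_⟩
  rw [show -((N' * q : ℕ) : ℤ) = ((N' * q : ℕ) : ℤ) * (-1) by ring, qExpand_coeff_mul]
  exact C.co.leadH.2

/-- The constant function. -/
theorem const_mem (x : C.S) : (fun _ : ℍ => (x : ℂ)) ∈ trRing C.S (M0 * (N' * q)) :=
  mem_trRing.mpr fun _ => ⟨HahnSeries.C x, sPairs_const x⟩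

theorem ser_const (x : C.S) : ser ⟨_, C.const_mem x⟩ = HahnSeries.C x :=
  sPairs_unique (ser_spec _) (sPairs_const (n := M0 * (N' * q)) x)

theorem embAt_cW (γ : SL(2, ℤ)) (w : C.W) :
    C.embAt γ (C.cW w) = HahnSeries.C (C.inc w) := by
  have e : (trComp γ) (Subring.inclusion C.R_le (C.cW w)) =
      (⟨_, C.const_mem (C.inc w)⟩ : trRing C.S (M0 * (N' * q))) := Subtype.ext rfl
  rw [embAt, RingHom.comp_apply, RingHom.comp_apply, e, ser_const]

/-- Evaluation at the coordinate of polynomials with constant coefficients. -/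
def evT : Polynomial C.S →+* trRing C.S (M0 * (N' * q)) :=
  Polynomial.eval₂RingHom
    (((Pi.constRingHom ℍ ℂ).comp C.S.subtype).codRestrict _ fun x => C.const_mem x) ⟨C.T, C.T_mem⟩

theorem evT_apply (P : Polynomial C.S) (τ : ℍ) :
    (C.evT P : ℍ → ℂ) τ = (P.map C.S.subtype).eval (C.T τ) := by
  rw [Polynomial.eval_map, evT, Polynomial.coe_eval₂RingHom]
  exact Polynomial.hom_eval₂ P _
    ((Pi.evalRingHom (fun _ : ℍ ↦ ℂ) τ).comp (trRing C.S (M0 * (N' * q))).subtype) _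

theorem ser_evT (P : Polynomial C.S) : ser (C.evT P) = P.eval₂ HahnSeries.C C.Ys := by
  rw [evT, Polynomial.coe_eval₂RingHom, Polynomial.hom_eval₂, ser_T]
  congr 1
  ext x : 1
  exact C.ser_const x

/-- The product of the differences as an element. -/
def dltS : Polynomial C.S := ∏ i, (Polynomial.X - Polynomial.C (C.inc (C.co.c i)))

theorem evT_dltS (τ : ℍ) : (C.evT C.dltS : ℍ → ℂ) τ = C.dlt τ := by
  rw [C.evT_apply]
  simp [dltS, dlt, Polynomial.map_prod, Polynomial.eval_prod]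

theorem exists_poly_el (a : trRing C.S (M0 * (N' * q)))
    (hinv : ∀ γ ∈ CongruenceSubgroup.Gamma M0, compg γ (a : ℍ → ℂ) = a) :
    ∃ (P : Polynomial C.S) (s : ℕ), a * C.evT C.dltS ^ s = C.evT P := by
  obtain ⟨P, s, h⟩ := C.exists_poly a.2 hinv
  refine ⟨P, s, Subtype.ext (funext fun τ => ?_)⟩
  show (a : ℍ → ℂ) τ * ((C.evT C.dltS : ℍ → ℂ) ^ s) τ = _
  rw [Pi.pow_apply, C.evT_dltS, C.evT_apply, h]

/-- Invariant functions with expansion over the small ring of constants. -/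
theorem exists_poly_W (a : trRing C.S (M0 * (N' * q)))
    (hinv : ∀ γ ∈ CongruenceSubgroup.Gamma M0, compg γ (a : ℍ → ℂ) = a)
    (hser : ∀ k, (ser a).coeff k ∈ C.inc.range) :
    ∃ (P : Polynomial C.W) (s : ℕ), a * C.evT C.dltS ^ s = C.evT (P.map C.inc) := by
  obtain ⟨P, s, h⟩ := C.exists_poly_el a hinv
  have h1 := congrArg ser h
  rw [map_mul, map_pow, C.ser_evT, C.ser_evT] at h1
  have hmem : ∀ i, P.coeff i ∈ C.inc.range := by
    refine coeff_mem_of_eval C.inc (Nat.mul_pos (Nat.pos_of_ne_zero (NeZero.ne N'))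
      (Nat.pos_of_ne_zero (NeZero.ne q))) C.leadAt_Ys_W P.natDegree P le_rfl fun k => ?_
    rw [← C.Ys_eq, ← h1]
    obtain ⟨G0, hG0⟩ := coeffMap_range C.inc (Subring.inclusion_injective C.hWS) hser
    rw [← hG0, show C.dltS = (∏ i, (Polynomial.X - Polynomial.C (C.co.c i))).map C.inc by
      simp [dltS, Polynomial.map_prod], Polynomial.eval₂_map, C.Ys_eq]
    have hc : (HahnSeries.C : C.S →+* LaurentSeries C.S).comp C.inc =
        (coeffMap C.inc).comp HahnSeries.C := by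
      ext x : 1
      simp [HahnSeries.C_apply, coeffMap_single]
    rw [hc, ← Polynomial.hom_eval₂, ← map_pow, ← map_mul, coeffMap_coeff]
    exact ⟨_, rfl⟩
  obtain ⟨P0, hP0⟩ := (Polynomial.mem_map_range C.inc).2 hmem
  exact ⟨P0, s, by rw [h]; exact congrArg C.evT hP0.symm⟩

end Ctx

end FLTAgent.Carayol
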