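import Mathlib

/-!
# Integer valuations and powers in factorial rings
-/

set_option autoImplicit false
set_option linter.style.haveILetI false

noncomputable section

namespace FLTAgent.Carayol

/-- An integer valuation of a field which is trivial on constants. -/
structure IsIntVal {W F : Type*} [CommRing W] [Field F] (ι : W →+* F) (v : F → ℤ) : Prop where
  map_mul : ∀ x y, x ≠ 0 → y ≠ 0 → v (x * y) = v x + v y
  map_add : ∀ x y, x ≠ 0 → y ≠ 0 → x + y ≠ 0 → min (v x) (v y) ≤ v (x + y)
  map_const : ∀ c, ι c ≠ 0 → v (ι c) = 0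

section UFD

variable {D : Type*} [CommRing D] [IsDomain D] [UniqueFactorizationMonoid D]

omit [IsDomain D] in
theorem exists_eq_unit_mul_pow (n : ℕ) {P : D} (hP : P ≠ 0)
    (h : ∀ p : D, Prime p → p ∣ P → n ∣ multiplicity p P) :
    ∃ (u : Dˣ) (g : D), P = u * g ^ n := by
  classical
  letI : StrongNormalizationMonoid D := UniqueFactorizationMonoid.strongNormalizationMonoid
  set s := UniqueFactorizationMonoid.normalizedFactors P with hs
  have hdvd : ∀ a ∈ s, n ∣ s.count a := by
    intro a ha
    have hirr := UniqueFactorizationMonoid.irreducible_of_normalized_factor a ha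
    have h1 := UniqueFactorizationMonoid.emultiplicity_eq_count_normalizedFactors hirr hP
    rw [UniqueFactorizationMonoid.normalize_normalized_factor a ha] at h1
    have h2 : multiplicity a P = s.count a := multiplicity_eq_of_emultiplicity_eq_some h1
    rw [← h2]
    exact h a (UniqueFactorizationMonoid.prime_of_normalized_factor a ha)
      (UniqueFactorizationMonoid.dvd_of_mem_normalizedFactors ha)
  obtain ⟨t, ht⟩ := Multiset.exists_smul_of_dvd_count s hdvd
  obtain ⟨u, hu⟩ := UniqueFactorizationMonoid.prod_normalizedFactors hP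
  refine ⟨u, t.prod, ?_⟩
  rw [← Multiset.prod_nsmul, ← ht, mul_comm]
  exact hu.symm

end UFD

section Extend

variable {W R F D : Type*} [CommRing W] [CommRing R] [IsDomain R] [Field F] [Algebra R F]
  [IsFractionRing R F]

/-- An additive ultrametric function on a domain extends to a valuation of its fraction field. -/
theorem exists_isIntVal_extend (c : W →+* R) (m : R → ℤ)
    (hmul : ∀ {a b : R}, a ≠ 0 → b ≠ 0 → m (a * b) = m a + m b)
    (hadd : ∀ {a b : R}, a ≠ 0 → b ≠ 0 → a + b ≠ 0 → min (m a) (m b) ≤ m (a + b))
    (hc : ∀ w, c w ≠ 0 → m (c w) = 0) :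
    ∃ v : F → ℤ, IsIntVal ((algebraMap R F).comp c) v ∧ ∀ r, r ≠ 0 → v (algebraMap R F r) = m r := by
  choose num den hden using fun x : F => IsFractionRing.div_surjective (A := R) x
  have hinj := IsFractionRing.injective R F
  set v : F → ℤ := fun x => m (num x) - m (den x)
  have hden0 : ∀ x, den x ≠ 0 := fun x => nonZeroDivisors.ne_zero (hden x).1
  have hnum0 : ∀ {x}, x ≠ 0 → num x ≠ 0 := fun {x} hx h => hx (by
    rw [← (hden x).2, h, map_zero, zero_div])
  have hspec : ∀ x, x * algebraMap R F (den x) = algebraMap R F (num x) := fun x => by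
    have h1 := (hden x).2
    rw [div_eq_iff ((map_ne_zero_iff _ hinj).2 (hden0 x))] at h1
    exact h1.symm
  have key : ∀ {x : F} {a b : R}, x ≠ 0 → b ≠ 0 → x * algebraMap R F b = algebraMap R F a →
      v x = m a - m b := by
    intro x a b hx hb hab
    have ha : a ≠ 0 := by
      rintro rfl
      rw [map_zero, mul_eq_zero] at hab
      exact hab.elim hx ((map_ne_zero_iff _ hinj).2 hb)
    have e : num x * b = a * den x := hinj (by rw [map_mul, map_mul, ← hspec, ← hab]; ring)
    have e1 := hmul (hnum0 hx) hb
    have e2 := hmul ha (hden0 x)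
    rw [e] at e1
    simp only [v]
    omega
  have hone : ∀ r, r ≠ 0 → v (algebraMap R F r) = m r := fun r hr => by
    have h1 : m 1 = 0 := by
      have := hmul (one_ne_zero (α := R)) one_ne_zero
      rw [mul_one] at this
      omega
    rw [key (a := r) (b := 1) ((map_ne_zero_iff _ hinj).2 hr) one_ne_zero (by rw [map_one, mul_one]),
      h1, sub_zero]
  refine ⟨v, ⟨fun x y hx hy => ?_, fun x y hx hy hxy => ?_, fun w hw => ?_⟩, hone⟩
  · rw [key (a := num x * num y) (b := den x * den y) (mul_ne_zero hx hy)
      (mul_ne_zero (hden0 x) (hden0 y)) (by rw [map_mul, map_mul, ← hspec, ← hspec]; ring),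
      hmul (hnum0 hx) (hnum0 hy), hmul (hden0 x) (hden0 y)]
    simp only [v]; ring
  · have hab : x * algebraMap R F (den x * den y) = algebraMap R F (num x * den y) := by
      rw [map_mul, map_mul, ← hspec]; ring
    have hba : y * algebraMap R F (den x * den y) = algebraMap R F (num y * den x) := by
      rw [map_mul, map_mul, ← hspec]; ring
    have hb := mul_ne_zero (hden0 x) (hden0 y)
    have hsum : num x * den y + num y * den x ≠ 0 := fun h => by
      have := congrArg (algebraMap R F) h
      rw [map_add, map_zero, ← hab, ← hba, ← add_mul, mul_eq_zero] at this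
      exact this.elim hxy ((map_ne_zero_iff _ hinj).2 hb)
    rw [key hx hb hab, key hy hb hba,
      key (a := num x * den y + num y * den x) hxy hb (by rw [map_add, ← hab, ← hba]; ring)]
    have := hadd (mul_ne_zero (hnum0 hx) (hden0 y)) (mul_ne_zero (hnum0 hy) (hden0 x)) hsum
    omega
  · have hw' : c w ≠ 0 := fun h => hw (by simp [h])
    show v (algebraMap R F (c w)) = 0
    rw [hone _ hw', hc w hw']

variable [CommRing D] [IsDomain D] [UniqueFactorizationMonoid D]

/-- If every valuation of `f` trivial on constants is divisible by `n`, then the image of `f` in a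
factorial ring, whose relevant primes avoid the constants, is a unit times an `n`th power. -/
theorem exists_eq_unit_mul_pow_of_val (c : W →+* R) (φ : R →+* D) (hφ : Function.Injective φ)
    {n : ℕ} {f : R} (hf : f ≠ 0)
    (hval : ∀ v : F → ℤ, IsIntVal ((algebraMap R F).comp c) v → (n : ℤ) ∣ v (algebraMap R F f))
    (hc : ∀ p : D, Prime p → p ∣ φ f → ∀ w : W, c w ≠ 0 → ¬ p ∣ φ (c w)) :
    ∃ (u : Dˣ) (g : D), φ f = u * g ^ n := by
  have hφ0 : ∀ {r : R}, r ≠ 0 → φ r ≠ 0 := fun {r} hr h => hr (hφ (h.trans (map_zero φ).symm))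
  refine exists_eq_unit_mul_pow n (hφ0 hf) fun p hp hpf => ?_
  have hfin : ∀ {r : R}, r ≠ 0 → FiniteMultiplicity p (φ r) := fun hr =>
    FiniteMultiplicity.of_prime_left hp (hφ0 hr)
  obtain ⟨v, hv, hv1⟩ := exists_isIntVal_extend (F := F) c (fun r => (multiplicity p (φ r) : ℤ))
    (fun {a b} ha hb => by
      simp only [map_mul]
      rw [multiplicity_mul hp (map_mul φ a b ▸ hfin (mul_ne_zero ha hb))]
      push_cast
      ring)
    (fun {a b} ha hb hab => by
      have := min_le_emultiplicity_add (p := p) (a := φ a) (b := φ b)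
      rw [(hfin ha).emultiplicity_eq_multiplicity, (hfin hb).emultiplicity_eq_multiplicity, ← map_add,
        (hfin hab).emultiplicity_eq_multiplicity, min_le_iff, Nat.cast_le, Nat.cast_le] at this
      omega)
    (fun w hw => by
      simp only [Nat.cast_eq_zero]
      exact multiplicity_eq_zero.2 (hc p hp hpf w hw))
  have := hval v hv
  rw [hv1 f hf] at this
  exact Int.natCast_dvd_natCast.1 this

end Extend

end FLTAgent.Carayol
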