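import Fermat.Agent.ModEq.Basic
import Fermat.Agent.Specialization.Torsion
import Fermat.Agent.Carayol.Regular
import Fermat.Agent.Carayol.Valuation

/-!
# Approximate roots and bounds on their poles
-/

set_option autoImplicit false
set_option linter.style.haveILetI false

noncomputable section

namespace FLTAgent.Carayol

open FLTAgent.ModEq ModularCurve HahnSeries

/-- An `n`th root up to a topologically nilpotent error gives roots of every precision. -/
theorem exists_root_approx {R : Type*} [CommRing R] {n : ℕ} {u : R} (hu : (n : R) * u = 1)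
    {π f a j : R} (ha : a ^ n = f * (1 + j)) {e : ℕ} (hj : π ∣ j ^ e) (k : ℕ) :
    ∃ a' j' : R, a' ^ n = f * (1 + j') ∧ π ^ k ∣ j' := by
  have step : ∀ i : ℕ, ∃ a' j' : R, a' ^ n = f * (1 + j') ∧ j ^ (2 ^ i) ∣ j' := by
    intro i
    induction i with
    | zero => exact ⟨a, j, ha, by simp⟩
    | succ i ih =>
      obtain ⟨a', j', h1, c, rfl⟩ := ih
      set J := j ^ (2 ^ i) * c with hJ
      obtain ⟨z, hz⟩ := Specialization.exists_pow_add (1 : R) (-(J * u)) n
      refine ⟨a' * (1 + -(J * u)), J ^ 2 * (z * u ^ 2 * (1 + J) - 1), ?_, ?_⟩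
      · rw [mul_pow, h1, hz, one_pow, one_pow, mul_one,
          show (n : R) * -(J * u) = -J by linear_combination (-J) * hu]
        ring
      · refine dvd_mul_of_dvd_left ?_ _
        rw [hJ, mul_pow, ← pow_mul, ← pow_succ]
        exact dvd_mul_right _ _
  obtain ⟨a', j', h1, h2⟩ := step (e * k)
  refine ⟨a', j', h1, dvd_trans ?_ h2⟩
  have hle : e * k ≤ 2 ^ (e * k) := (Nat.lt_two_pow_self).le
  exact (pow_dvd_pow_of_dvd hj k).trans (by rw [← pow_mul]; exact pow_dvd_pow j hle)

section Series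

variable {O k : Type*} [CommRing O] [Field k] (φ : O →+* k) (ϖ : O)

/-- A series without poles modulo `ϖ ^ i` and with no poles. -/
theorem exists_eq_add_C_mul (hker : ∀ x, φ x = 0 → ϖ ∣ x) {g : LaurentSeries O}
    (hg : GeOrd (coeffMap φ g) 0) :
    ∃ g₀ g₁ : LaurentSeries O, GeOrd g₀ 0 ∧ g = g₀ + HahnSeries.C ϖ * g₁ := by
  classical
  have hd : ∀ i : ℤ, ∃ c : O, (if i < 0 then g.coeff i else 0) = ϖ * c := fun i => by
    split_ifs with hi
    · exact hker _ (by simpa using hg i hi)
    · exact ⟨0, (mul_zero _).symm⟩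
  choose c hc using hd
  let g₁ : LaurentSeries O :=
    { coeff := fun i => if g.coeff i = 0 then 0 else (if i < 0 then c i else 0)
      isPWO_support' := g.isPWO_support.mono fun i hi => by
        simp only [Function.mem_support, ne_eq, ite_eq_left_iff, not_forall] at hi
        exact hi.1 }
  refine ⟨g - HahnSeries.C ϖ * g₁, g₁, fun i hi => ?_, by ring⟩
  rw [HahnSeries.coeff_sub, HahnSeries.C_mul_eq_smul, HahnSeries.coeff_smul, smul_eq_mul]
  show g.coeff i - ϖ * (if g.coeff i = 0 then 0 else (if i < 0 then c i else 0)) = 0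
  have := hc i
  rw [if_pos hi] at this
  by_cases h0 : g.coeff i = 0
  · simp [h0]
  · rw [if_neg h0, if_pos hi, ← this, sub_self]

theorem isUnit_mod_pow {h : LaurentSeries O} (hker : ∀ x, φ x = 0 → ϖ ∣ x)
    (hsurj : Function.Surjective φ) (hh : coeffMap φ h ≠ 0) (i : ℕ) :
    ∃ g : LaurentSeries O, HahnSeries.C ϖ ^ i ∣ h * g - 1 := by
  classical
  choose s hs using hsurj
  let sect : LaurentSeries k → LaurentSeries O := fun G =>
    { coeff := fun i => if G.coeff i = 0 then 0 else s (G.coeff i)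
      isPWO_support' := G.isPWO_support.mono fun i hi => by
        simp only [Function.mem_support, ne_eq, ite_eq_left_iff, not_forall] at hi
        exact hi.1 }
  have hsect : ∀ G, coeffMap φ (sect G) = G := fun G => by
    ext j
    show φ (if G.coeff j = 0 then 0 else s (G.coeff j)) = G.coeff j
    split_ifs with h0
    · rw [map_zero, h0]
    · exact hs _
  set g₁ := sect (coeffMap φ h)⁻¹
  have h1 : coeffMap φ (h * g₁ - 1) = 0 := by
    rw [map_sub, map_mul, hsect, map_one, mul_inv_cancel₀ hh, sub_self]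
  obtain ⟨d, hd⟩ : HahnSeries.C ϖ ∣ h * g₁ - 1 := by
    have hall : ∀ j, ϖ ∣ (h * g₁ - 1).coeff j := fun j => hker _ (by
      rw [← coeffMap_coeff, h1, HahnSeries.coeff_zero])
    choose c hc using hall
    refine ⟨{ coeff := fun j => if (h * g₁ - 1).coeff j = 0 then 0 else c j
              isPWO_support' := (h * g₁ - 1).isPWO_support.mono fun j hj => by
                simp only [Function.mem_support, ne_eq, ite_eq_left_iff, not_forall] at hj
                exact hj.1 }, ?_⟩
    ext j
    rw [HahnSeries.C_mul_eq_smul, HahnSeries.coeff_smul, smul_eq_mul]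
    show _ = ϖ * (if (h * g₁ - 1).coeff j = 0 then 0 else c j)
    split_ifs with h0
    · rw [h0, mul_zero]
    · exact hc j
  induction i with
  | zero => exact ⟨0, by simp⟩
  | succ i ih =>
    obtain ⟨g, e, he⟩ := ih
    refine ⟨g₁ * (2 - h * g₁) + g * (h * g₁ - 1) ^ 2, ?_⟩
    have : h * (g₁ * (2 - h * g₁) + g * (h * g₁ - 1) ^ 2) - 1 =
        (h * g₁ - 1) ^ 2 * (h * g - 1) := by ring
    rw [this, he, hd]
    exact ⟨d * d * e * HahnSeries.C ϖ, by ring⟩

variable {n : ℕ} (hn : (n : k) ≠ 0)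

include hn in
/-- Roots of units modulo `ϖ ^ (i + 1)` have no poles modulo `ϖ ^ (i + 1)`. -/
theorem exists_geOrd_of_pow_congr (hker : ∀ x, φ x = 0 → ϖ ∣ x) (hϖ : φ ϖ = 0)
    [IsDomain O] (hϖ0 : ϖ ≠ 0) {v : LaurentSeries O} (hv : GeOrd v 0) (hv0 : φ (v.coeff 0) ≠ 0)
    {r : LaurentSeries O} : ∀ i : ℕ, HahnSeries.C ϖ ^ (i + 1) ∣ r ^ n - v →
    ∃ r₀ e : LaurentSeries O, GeOrd r₀ 0 ∧ r = r₀ + HahnSeries.C ϖ ^ (i + 1) * e := by
  have hC : (HahnSeries.C ϖ : LaurentSeries O) ≠ 0 := HahnSeries.C_ne_zero hϖ0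
  have hCk : coeffMap φ (HahnSeries.C ϖ) = 0 := by
    ext j
    rw [coeffMap_coeff, HahnSeries.C_apply]
    by_cases hj : j = 0
    · subst hj; simp [hϖ]
    · simp [HahnSeries.coeff_single_of_ne hj]
  have hvk : GeOrd (coeffMap φ v) 0 := fun j hj => by simp [hv j hj]
  have hn0 : n ≠ 0 := fun h => hn (by simp [h])
  intro i hi
  have h0 : coeffMap φ r ^ n = coeffMap φ v := by
    obtain ⟨d, hd⟩ := hi
    rw [← sub_eq_zero, ← map_pow, ← map_sub, hd, map_mul, map_pow, hCk,
      zero_pow (Nat.succ_ne_zero i), zero_mul]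
  have hr0 : coeffMap φ r ≠ 0 := by
    intro h
    rw [h, zero_pow hn0] at h0
    exact hv0 (by rw [← coeffMap_coeff, ← h0, HahnSeries.coeff_zero])
  have hord : (coeffMap φ r).order = 0 := by
    have h1 : (coeffMap φ v).order = 0 := by
      refine le_antisymm (HahnSeries.order_le_of_coeff_ne_zero (by simpa using hv0)) ?_
      by_contra hlt
      exact HahnSeries.coeff_order_eq_zero.not.2
        (fun h => by rw [h, HahnSeries.order_zero] at hlt; exact hlt le_rfl) (hvk _ (not_le.1 hlt))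
    rw [← h0, HahnSeries.order_pow] at h1
    simpa [hn0] using h1
  have hrk : GeOrd (coeffMap φ r) 0 := fun j hj =>
    HahnSeries.coeff_eq_zero_of_lt_order (by rw [hord]; exact hj)
  induction i with
  | zero =>
    obtain ⟨r₀, e, hr₀, he⟩ := exists_eq_add_C_mul φ ϖ hker hrk
    exact ⟨r₀, e, hr₀, by rw [he, pow_one]⟩
  | succ i ih =>
    obtain ⟨r', e, hr', he⟩ := ih ((pow_dvd_pow _ (Nat.le_succ _)).trans hi)
    set P := (HahnSeries.C ϖ : LaurentSeries O) ^ (i + 1) with hP
    obtain ⟨z, hz⟩ := Specialization.exists_pow_add r' (P * e) n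
    obtain ⟨d, hd⟩ := hi
    rw [he, hz, pow_succ (HahnSeries.C ϖ : LaurentSeries O) (i + 1), ← hP] at hd
    have hPC : GeOrd (r' ^ n - v) 0 := fun j hj => by
      rw [HahnSeries.coeff_sub, (hr'.pow n) j (by simpa using hj), hv j hj, sub_zero]
    -- the leading congruence
    have hq : ∃ q, r' ^ n - v = P * q ∧ GeOrd q 0 := by
      refine ⟨HahnSeries.C ϖ * d - (n : LaurentSeries O) * r' ^ (n - 1) * e - z * e ^ 2 * P, ?_, ?_⟩
      · linear_combination hd
      · intro j hj
        have h1 := hPC j hj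
        rw [show r' ^ n - v = P * (HahnSeries.C ϖ * d - (n : LaurentSeries O) * r' ^ (n - 1) * e - z * e ^ 2 * P) by
          linear_combination hd, hP, ← map_pow, HahnSeries.C_mul_eq_smul, HahnSeries.coeff_smul,
          smul_eq_mul, mul_eq_zero] at h1
        rw [hP, ← map_pow]
        exact h1.resolve_left (pow_ne_zero _ hϖ0)
    obtain ⟨q, hq, hq0⟩ := hq
    have hP0 : P ≠ 0 := pow_ne_zero _ hC
    have hlin : (n : LaurentSeries O) * r' ^ (n - 1) * e = HahnSeries.C ϖ * d - q - z * e ^ 2 * P := by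
      refine mul_left_cancel₀ hP0 ?_
      linear_combination hd - hq
    have hek : GeOrd (coeffMap φ e) 0 := by
      have h1 := congrArg (coeffMap φ) hlin
      have hPk : coeffMap φ P = 0 := by rw [hP, map_pow, hCk, zero_pow (Nat.succ_ne_zero i)]
      have hr'k : coeffMap φ r' = coeffMap φ r := by rw [he, map_add, map_mul, hPk, zero_mul, add_zero]
      simp only [map_mul, map_natCast, map_pow, map_sub, hCk, hPk, hr'k, zero_mul, mul_zero,
        zero_sub, sub_zero] at h1
      by_cases he0 : coeffMap φ e = 0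
      · rw [he0]; exact geOrd_zero 0
      intro j hj
      refine HahnSeries.coeff_eq_zero_of_lt_order (lt_of_lt_of_le hj ?_)
      have hn' : ((n : LaurentSeries k)) ≠ 0 := by
        rw [← map_natCast (HahnSeries.C : k →+* LaurentSeries k)]
        exact HahnSeries.C_ne_zero hn
      have hc0 : ((n : LaurentSeries k) * coeffMap φ r ^ (n - 1)).order = 0 := by
        rw [HahnSeries.order_mul hn' (pow_ne_zero _ hr0), HahnSeries.order_pow, hord,
          ← map_natCast (HahnSeries.C : k →+* LaurentSeries k), HahnSeries.C_apply,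
          HahnSeries.order_single hn]
        simp
      have h2 := congrArg HahnSeries.order h1
      rw [HahnSeries.order_mul (mul_ne_zero hn' (pow_ne_zero _ hr0)) he0, hc0, zero_add,
        HahnSeries.order_neg] at h2
      rw [h2]
      rcases eq_or_ne (coeffMap φ q) 0 with hq' | hq'
      · simp [hq']
      · by_contra hlt
        exact HahnSeries.coeff_order_eq_zero.not.2 hq' (by
          rw [coeffMap_coeff, hq0 _ (not_le.1 hlt), map_zero])
    obtain ⟨e₀, e₁, he₀, he'⟩ := exists_eq_add_C_mul φ ϖ hker hek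
    refine ⟨r' + P * e₀, e₁, hr'.add (fun j hj => ?_), ?_⟩
    · rw [hP, ← map_pow, HahnSeries.C_mul_eq_smul, HahnSeries.coeff_smul, he₀ j hj, smul_zero]
    · rw [he, he', pow_succ _ (i + 1), ← hP]; ring

include hn in
/-- Poles of approximate roots are bounded by those of a fixed factor. -/
theorem pole_bound (hker : ∀ x, φ x = 0 → ϖ ∣ x) (hsurj : Function.Surjective φ)
    (hϖ : φ ϖ = 0) [IsDomain O] (hϖ0 : ϖ ≠ 0) {v h : LaurentSeries O} (hv : GeOrd v 0)
    (hv0 : φ (v.coeff 0) ≠ 0) {m : ℤ} (hh : GeOrd h m) (hh0 : coeffMap φ h ≠ 0)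
    {s : LaurentSeries O} {i : ℕ} (hs : HahnSeries.C ϖ ^ (i + 1) ∣ s ^ n - v * h ^ n)
    (j : ℤ) (hj : j < m) : ϖ ^ (i + 1) ∣ s.coeff j := by
  obtain ⟨g, hg⟩ := isUnit_mod_pow φ ϖ hker hsurj hh0 (i + 1)
  have h1 : HahnSeries.C ϖ ^ (i + 1) ∣ (s * g) ^ n - v := by
    have h2 : HahnSeries.C ϖ ^ (i + 1) ∣ (h * g) ^ n - 1 := by
      simpa using hg.trans (sub_dvd_pow_sub_pow (h * g) 1 n)
    rw [show (s * g) ^ n - v = (s ^ n - v * h ^ n) * g ^ n + v * ((h * g) ^ n - 1) by
      rw [mul_pow, mul_pow]; ring]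
    exact dvd_add (dvd_mul_of_dvd_left hs _) (dvd_mul_of_dvd_right h2 _)
  obtain ⟨r₀, e, hr₀, he⟩ := exists_geOrd_of_pow_congr φ ϖ hn hker hϖ hϖ0 hv hv0 i h1
  obtain ⟨d, hd⟩ := hg
  have hs' : s = h * r₀ + HahnSeries.C ϖ ^ (i + 1) * (h * e - s * d) := by
    linear_combination h * he - s * hd
  rw [hs', HahnSeries.coeff_add, (hh.mul hr₀) j (by simpa using hj), zero_add, ← map_pow,
    HahnSeries.C_mul_eq_smul, HahnSeries.coeff_smul, smul_eq_mul]
  exact dvd_mul_right _ _

end Series

section Zero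

variable {L k : Type*} [Field L] [IsAlgClosed L] [Field k] {A : ValuationSubring L} {π : A →+* k}

/-- A lattice containing approximate roots of every precision contains a root. -/
theorem exists_root_of_lattice (hπ : Function.Surjective π) (hA : Specialization.RankOne π)
    {σ : Type*} [Finite σ] [Fintype σ] (E : σ → LaurentSeries L) (G : LaurentSeries L) (n : ℕ)
    {a : A} (ha : π a = 0) (ha0 : a ≠ 0)
    (happ : ∀ i : ℕ, ∃ c : σ → A, ∀ j : ℤ,
      (((∑ s, HahnSeries.C (c s : L) * E s) ^ n - G).coeff j) / (a : L) ^ i ∈ A) :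
    ∃ c : σ → L, (∑ s, HahnSeries.C (c s) * E s) ^ n = G := by
  classical
  let S : LaurentSeries (MvPolynomial σ L) :=
    (∑ s, HahnSeries.C (MvPolynomial.X s) * coeffMap MvPolynomial.C (E s)) ^ n -
      coeffMap MvPolynomial.C G
  have hev : ∀ (c : σ → L) (j : ℤ), MvPolynomial.eval c (S.coeff j) =
      ((∑ s, HahnSeries.C (c s) * E s) ^ n - G).coeff j := by
    intro c j
    rw [← coeffMap_coeff (MvPolynomial.eval c)]
    congr 1
    have hC : ∀ (f : LaurentSeries L), coeffMap (MvPolynomial.eval c) (coeffMap MvPolynomial.C f) = f :=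
      fun f => by ext i; simp
    have hX : ∀ p : MvPolynomial σ L, coeffMap (MvPolynomial.eval c) (HahnSeries.C p) =
        HahnSeries.C (MvPolynomial.eval c p) := fun p => by
      rw [HahnSeries.C_apply, coeffMap_single, HahnSeries.C_apply]
    simp only [S, map_sub, map_pow, map_sum, map_mul, hC, hX, MvPolynomial.eval_X]
  obtain ⟨T, hTsub, hT⟩ := (Submodule.fg_span_iff_fg_span_finset_subset _).1
    (IsNoetherian.noetherian (Submodule.span (MvPolynomial σ L) (Set.range fun j => S.coeff j)))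
  choose J hJ using fun p : T => hTsub p.2
  obtain ⟨c, hc⟩ := Specialization.exists_common_zero hπ hA (fun p : T => (p : MvPolynomial σ L))
    ha ha0 fun i => by
      obtain ⟨c, hc⟩ := happ i
      refine ⟨c, fun p => ?_⟩
      rw [← hJ p, hev]
      exact hc _
  refine ⟨c, sub_eq_zero.1 (HahnSeries.ext (funext fun j => ?_))⟩
  rw [← hev, HahnSeries.coeff_zero]
  have hmem : S.coeff j ∈ Ideal.span (T : Set (MvPolynomial σ L)) := by
    have h1 : S.coeff j ∈ Submodule.span (MvPolynomial σ L) (Set.range fun j => S.coeff j) :=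
      Submodule.subset_span ⟨j, rfl⟩
    rwa [hT] at h1
  have : Ideal.span (T : Set (MvPolynomial σ L)) ≤ RingHom.ker (MvPolynomial.eval c) :=
    Ideal.span_le.2 fun p hp => hc ⟨p, hp⟩
  exact this hmem

end Zero

end FLTAgent.Carayol
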