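import Fermat.Agent.Carayol.Reduction
import Fermat.Agent.Carayol.Bivar
import Fermat.Agent.Carayol.PartialFraction

/-!
# Equations of the two sides over the line of the coordinate
-/

set_option autoImplicit false
set_option linter.unusedSectionVars false
set_option linter.style.haveILetI false

noncomputable section

open UpperHalfPlane hiding I I_re I_im
open Filter Topology Complex Function FLTAgent.ModEq FLTAgent.GoodModel ModularCurve
open scoped MatrixGroups Manifold Classical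

namespace FLTAgent.Carayol

namespace Ctx

variable {q M0 N' : ℕ} [NeZero M0] [NeZero N'] [NeZero q] [Fact q.Prime] (C : Ctx q M0 N')

/-- Polynomials in the coordinate as functions. -/
def evY : Polynomial C.W →+* trRing C.S (M0 * (N' * q)) :=
  C.evT.comp (Polynomial.mapRingHom C.inc)

theorem evY_apply (P : Polynomial C.W) : C.evY P = C.evT (P.map C.inc) := rfl

theorem evY_eq (P : Polynomial C.W) : C.evY P = Subring.inclusion C.R_le (C.evR P) :=
  (C.incl_evR P).symm

theorem compg_evY {γ : SL(2, ℤ)} (hγ : γ ∈ CongruenceSubgroup.Gamma M0) (P : Polynomial C.W) :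
    trComp γ (C.evY P) = C.evY P := by
  refine Subtype.ext (funext fun τ => ?_)
  show (C.evT (P.map C.inc) : ℍ → ℂ) (γ • τ) = (C.evT (P.map C.inc) : ℍ → ℂ) τ
  rw [C.evT_apply, C.evT_apply, C.T_pm (Or.inl hγ)]

theorem embAt_eq {γ : SL(2, ℤ)} {φ f : ℍ → ℂ} (hφ : φ ∈ C.R)
    (hf : f ∈ trRing C.S (M0 * (N' * q))) (h : compg γ φ = f) :
    C.embAt γ ⟨φ, hφ⟩ = ser ⟨f, hf⟩ := by
  subst h
  rfl

theorem pow_split {A B : Type*} [CommRing A] [CommRing B] (f : A →+* B) {c : B} {d P : A}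
    {t s S0 : ℕ} (hs : s ≤ S0) (ht : S0 ≤ t) (h : c * f d ^ s = f P) :
    f d ^ t * c = f (d ^ (t - S0) * (d ^ (S0 - s) * P)) := by
  obtain ⟨a, rfl⟩ := Nat.exists_eq_add_of_le hs
  obtain ⟨b, rfl⟩ := Nat.exists_eq_add_of_le ht
  rw [map_mul, map_mul, ← h, map_pow, map_pow, Nat.add_sub_cancel_left, Nat.add_sub_cancel_left]
  ring

/-- An invariant polynomial with expansions over the small ring. -/
theorem exists_bivar (hF : C.FixedPart) (p : Polynomial (trRing C.S (M0 * (N' * q))))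
    (hinv : ∀ γ ∈ CongruenceSubgroup.Gamma M0, p.map (trComp γ) = p)
    (hfix : ∀ σ : C.S ≃+* C.S, (∀ w, σ (C.inc w) = C.inc w) →
      (p.map ser).map (coeffMap σ.toRingHom) = p.map ser) :
    ∃ (P : Polynomial (Polynomial C.W)) (s : ℕ), ∀ t, s ≤ t →
      Polynomial.C (C.evY C.dltW ^ t) * p = (Polynomial.C (C.dltW ^ (t - s)) * P).map C.evY := by
  have hk : ∀ i, ∃ P : Polynomial C.W, ∃ s : ℕ, p.coeff i * C.evY C.dltW ^ s = C.evY P := by
    intro i
    have hinv' : ∀ γ ∈ CongruenceSubgroup.Gamma M0,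
        compg γ (p.coeff i : ℍ → ℂ) = (p.coeff i : ℍ → ℂ) := fun γ hγ => by
      have h1 := congrArg (fun r : Polynomial (trRing C.S (M0 * (N' * q))) =>
        ((r.coeff i : trRing C.S (M0 * (N' * q))) : ℍ → ℂ)) (hinv γ hγ)
      simp only [Polynomial.coeff_map] at h1
      exact h1
    have hfix' : ∀ j, (ser (p.coeff i)).coeff j ∈ C.inc.range := fun j => hF _ fun σ hσ => by
      have h1 := congrArg (fun r : Polynomial (LaurentSeries C.S) => (r.coeff i).coeff j) (hfix σ hσ)
      simpa [Polynomial.coeff_map] using h1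
    obtain ⟨P, s, h⟩ := C.exists_poly_W (p.coeff i) hinv' hfix'
    refine ⟨P, s, ?_⟩
    rw [C.evY_apply, C.evY_apply, C.map_dltW]
    exact h
  choose P s hP using hk
  set S0 := (Finset.range (p.natDegree + 1)).sup s
  refine ⟨∑ i ∈ Finset.range (p.natDegree + 1), Polynomial.monomial i (C.dltW ^ (S0 - s i) * P i),
    S0, fun t ht => ?_⟩
  ext1 j
  simp only [Polynomial.coeff_map, Polynomial.coeff_C_mul, Polynomial.finsetSum_coeff,
    Polynomial.coeff_monomial]
  rw [Finset.sum_ite_eq' (Finset.range (p.natDegree + 1)) j]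
  split_ifs with hj
  · have hle : s j ≤ S0 := Finset.le_sup hj
    exact pow_split C.evY hle ht (hP j)
  · rw [mul_zero, map_zero, Polynomial.coeff_eq_zero_of_natDegree_lt, mul_zero]
    simp only [Finset.mem_range] at hj
    omega

/-- The conjugate coordinate as an element. -/
def xEl (r : Option (ZMod q)) : trRing C.S (M0 * (N' * q)) := ⟨C.rX r, C.rX_mem r⟩

/-- The conjugate slope as an element. -/
def wEl (r : Option (ZMod q)) : trRing C.S (M0 * (N' * q)) := ⟨C.rW r, C.rW_mem r⟩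

theorem exists_side_perm {γ : SL(2, ℤ)} (hγ : γ ∈ CongruenceSubgroup.Gamma M0) :
    ∃ e : Option (ZMod q) ≃ Option (ZMod q),
      ∀ r, trComp γ (C.xEl r) = C.xEl (e r) ∧ trComp γ (C.wEl r) = C.wEl (e r) := by
  choose e h1 h2 _ _ using fun r => C.exists_root (mul_mem (C.gr_mem0 r) hγ)
  have hx : ∀ r, compg γ (C.rX r) = C.rX (e r) := fun r => by rw [rX, compg_compg]; exact h1 r
  have hw : ∀ r, compg γ (C.rW r) = C.rW (e r) := fun r => by rw [rW, compg_compg]; exact h2 r
  have hinj : Injective e := fun r r' h => C.rX_injective (compg_injective γ (by rw [hx, hx, h]))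
  exact ⟨Equiv.ofBijective e (Finite.injective_iff_bijective.1 hinj), fun r =>
    ⟨Subtype.ext (hx r), Subtype.ext (hw r)⟩⟩

/-- The slope of the standard side. -/
def wGen : C.R := C.gen C.sW (by simp [gens])

/-- The coordinate of the standard side. -/
def xGen : C.R := C.gen C.sX (by simp [gens])

theorem exists_side_galois {σ : C.S ≃+* C.S} (hσ : ∀ w, σ (C.inc w) = C.inc w) :
    ∃ e : Option (ZMod q) ≃ Option (ZMod q),
      ∀ r, coeffMap σ.toRingHom (ser (C.xEl r)) = ser (C.xEl (e r)) ∧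
        coeffMap σ.toRingHom (ser (C.wEl r)) = ser (C.wEl (e r)) := by
  choose g hg hgs _ using fun r => C.exists_galois_move hσ (C.gr_mem0 r)
  choose e h1 h2 _ _ using fun r => C.exists_root (hg r)
  have hx : ∀ r, coeffMap σ.toRingHom (ser (C.xEl r)) = ser (C.xEl (e r)) := fun r => by
    have e1 : C.embAt (C.gr r) C.xGen = ser (C.xEl r) := C.embAt_eq _ (C.rX_mem r) rfl
    have e2 : C.embAt (g r) C.xGen = ser (C.xEl (e r)) := C.embAt_eq _ (C.rX_mem (e r)) (h1 r)
    rw [← e1, ← e2]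
    exact hgs r C.xGen
  have hw : ∀ r, coeffMap σ.toRingHom (ser (C.wEl r)) = ser (C.wEl (e r)) := fun r => by
    have e1 : C.embAt (C.gr r) C.wGen = ser (C.wEl r) := C.embAt_eq _ (C.rW_mem r) rfl
    have e2 : C.embAt (g r) C.wGen = ser (C.wEl (e r)) := C.embAt_eq _ (C.rW_mem (e r)) (h2 r)
    rw [← e1, ← e2]
    exact hgs r C.wGen
  have hinj : Injective e := fun r r' h => C.rX_injective (congrArg Subtype.val
    (ser_injective (coeffMap_injective σ.toRingHom σ.injective (by rw [hx, hx, h]) :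
      ser (C.xEl r) = ser (C.xEl r'))))
  exact ⟨Equiv.ofBijective e (Finite.injective_iff_bijective.1 hinj), fun r => ⟨hx r, hw r⟩⟩

/-- The polynomial of the slopes. -/
def pG : Polynomial (trRing C.S (M0 * (N' * q))) := ∏ r, (Polynomial.X - Polynomial.C (C.wEl r))

/-- The interpolation of the coordinates at the slopes. -/
def pQ : Polynomial (trRing C.S (M0 * (N' * q))) :=
  ∑ r, Polynomial.C (C.xEl r) * ∏ s ∈ Finset.univ.erase r, (Polynomial.X - Polynomial.C (C.wEl s))

/-- The polynomial of the coordinates. -/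
def pF : Polynomial (trRing C.S (M0 * (N' * q))) := ∏ r, (Polynomial.X - Polynomial.C (C.xEl r))

theorem pG_pQ_pF_map {B : Type*} [CommRing B] (f : trRing C.S (M0 * (N' * q)) →+* B)
    (xb wb : Option (ZMod q) → B) (e : Option (ZMod q) ≃ Option (ZMod q))
    (hx : ∀ r, f (C.xEl r) = xb (e r)) (hw : ∀ r, f (C.wEl r) = wb (e r)) :
    C.pG.map f = ∏ r, (Polynomial.X - Polynomial.C (wb r)) ∧
    C.pQ.map f = ∑ r, Polynomial.C (xb r) * ∏ s ∈ Finset.univ.erase r,
      (Polynomial.X - Polynomial.C (wb s)) ∧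
    C.pF.map f = ∏ r, (Polynomial.X - Polynomial.C (xb r)) := by
  simp only [pG, pQ, pF, Polynomial.map_prod, Polynomial.map_sum, Polynomial.map_mul,
    Polynomial.map_sub, Polynomial.map_X, Polynomial.map_C, hx, hw]
  refine ⟨Equiv.prod_comp e fun r => Polynomial.X - Polynomial.C (wb r), ?_,
    Equiv.prod_comp e fun r => Polynomial.X - Polynomial.C (xb r)⟩
  rw [← Equiv.sum_comp e fun r => Polynomial.C (xb r) * ∏ s ∈ Finset.univ.erase r,
      (Polynomial.X - Polynomial.C (wb s))]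
  refine Finset.sum_congr rfl fun r _ => ?_
  congr 1
  exact Finset.prod_equiv e (fun s => by simp) fun s _ => rfl

theorem exists_three (hF : C.FixedPart) : ∃ (G Q F : Polynomial (Polynomial C.W)) (s : ℕ),
    Polynomial.C (C.evY C.dltW ^ s) * C.pG = G.map C.evY ∧
    Polynomial.C (C.evY C.dltW ^ s) * C.pQ = Q.map C.evY ∧
    Polynomial.C (C.evY C.dltW ^ s) * C.pF = F.map C.evY := by
  have hinv : ∀ γ ∈ CongruenceSubgroup.Gamma M0, C.pG.map (trComp γ) = C.pG ∧
      C.pQ.map (trComp γ) = C.pQ ∧ C.pF.map (trComp γ) = C.pF := fun γ hγ => by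
    obtain ⟨e, he⟩ := C.exists_side_perm hγ
    exact C.pG_pQ_pF_map (trComp γ) C.xEl C.wEl e (fun r => (he r).1) fun r => (he r).2
  have hfix : ∀ σ : C.S ≃+* C.S, (∀ w, σ (C.inc w) = C.inc w) →
      (C.pG.map ser).map (coeffMap σ.toRingHom) = C.pG.map ser ∧
      (C.pQ.map ser).map (coeffMap σ.toRingHom) = C.pQ.map ser ∧
      (C.pF.map ser).map (coeffMap σ.toRingHom) = C.pF.map ser := fun σ hσ => by
    obtain ⟨e, he⟩ := C.exists_side_galois hσ
    obtain ⟨a1, a2, a3⟩ := C.pG_pQ_pF_map ((coeffMap σ.toRingHom).comp ser)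
      (fun r => ser (C.xEl r)) (fun r => ser (C.wEl r)) e (fun r => (he r).1) fun r => (he r).2
    obtain ⟨b1, b2, b3⟩ := C.pG_pQ_pF_map ser (fun r => ser (C.xEl r)) (fun r => ser (C.wEl r))
      (Equiv.refl _) (fun r => rfl) fun r => rfl
    simp only [Polynomial.map_map]
    exact ⟨a1.trans b1.symm, a2.trans b2.symm, a3.trans b3.symm⟩
  obtain ⟨G, sG, hG⟩ := C.exists_bivar hF C.pG (fun γ h => (hinv γ h).1) fun σ h => (hfix σ h).1
  obtain ⟨Q, sQ, hQ⟩ := C.exists_bivar hF C.pQ (fun γ h => (hinv γ h).2.1) fun σ h => (hfix σ h).2.1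
  obtain ⟨F, sF, hFF⟩ := C.exists_bivar hF C.pF (fun γ h => (hinv γ h).2.2) fun σ h => (hfix σ h).2.2
  exact ⟨_, _, _, sG + sQ + sF, hG (sG + sQ + sF) (by omega), hQ (sG + sQ + sF) (by omega),
    hFF (sG + sQ + sF) (by omega)⟩

/-- The conjugate selected by a side. -/
def sb (_C : Ctx q M0 N') : Bool → Option (ZMod q)
  | false => none
  | true => some 0

theorem side_mem (b : Bool) : C.rX (C.sb b) ∈ C.R ∧ C.rW (C.sb b) ∈ C.R ∧
    C.rV (C.sb b) ∈ C.R ∧ C.rU (C.sb b) ∈ C.R := by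
  cases b
  · simp only [sb, rX, rW, rV, rU, gr, compg_one]
    exact ⟨C.gens_le (by simp [gens]), C.gens_le (by simp [gens]), C.gens_le (by simp [gens]),
      C.gens_le (by simp [gens])⟩
  · exact ⟨C.gens_le (by simp [gens, sb]), C.gens_le (by simp [gens, sb]),
      C.gens_le (by simp [gens, sb]), C.gens_le (by simp [gens, sb])⟩

/-- The coordinate of a side. -/
def xR (b : Bool) : C.R := ⟨_, (C.side_mem b).1⟩

/-- The slope of a side. -/
def wR (b : Bool) : C.R := ⟨_, (C.side_mem b).2.1⟩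

/-- The dual slope of a side. -/
def vR (b : Bool) : C.R := ⟨_, (C.side_mem b).2.2.1⟩

/-- The inverse of the differences of a side. -/
def uR (b : Bool) : C.R := ⟨_, (C.side_mem b).2.2.2⟩

theorem incl_xR (b : Bool) : Subring.inclusion C.R_le (C.xR b) = C.xEl (C.sb b) := Subtype.ext rfl

theorem incl_wR (b : Bool) : Subring.inclusion C.R_le (C.wR b) = C.wEl (C.sb b) := Subtype.ext rfl

theorem evR_eval_x (b : Bool) (P : Polynomial C.W) (τ : ℍ) :
    (P.eval₂ C.cW (C.xR b) : C.R).1 τ = (P.map C.W.subtype).eval (C.rX (C.sb b) τ) := by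
  rw [Polynomial.eval_map]
  exact Polynomial.hom_eval₂ P C.cW ((Pi.evalRingHom (fun _ : ℍ ↦ ℂ) τ).comp C.R.subtype) (C.xR b)

theorem dltW_x_mul_uR (b : Bool) : C.dltW.eval₂ C.cW (C.xR b) * C.uR b = 1 := by
  refine Subtype.ext (funext fun τ => ?_)
  show (C.dltW.eval₂ C.cW (C.xR b) : C.R).1 τ * C.rU (C.sb b) τ = 1
  rw [C.evR_eval_x]
  have hne : C.dlt (affPt q 0 1 (C.gr (C.sb b) • τ)) ≠ 0 := C.dlt_ne _
  rw [dlt] at hne
  simp only [rU, rX, compg_apply, sU, sX, dlt, dltW, Polynomial.map_prod, Polynomial.map_sub,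
    Polynomial.map_X, Polynomial.map_C, Polynomial.eval_prod, Polynomial.eval_sub, Polynomial.eval_X,
    Polynomial.eval_C, Subring.subtype_apply]
  exact mul_inv_cancel₀ hne

theorem wR_mul_vR (b : Bool) : C.wR b * C.vR b = (q : C.R) ^ 2 := by
  refine Subtype.ext ?_
  show C.rW (C.sb b) * C.rV (C.sb b) = ((q : C.R) ^ 2 : C.R).1
  rw [C.rW_mul_rV]
  rfl

theorem rX_zero_aff (τ : ℍ) : C.rX (some 0) (affPt q 0 1 τ) = C.T τ ∧
    C.rW (some 0) (affPt q 0 1 τ) = C.sV τ := by
  have e : affPt (C.rA (some 0)) (C.rB (some 0)) (C.rD (some 0)) (affPt q 0 1 τ) = τ := by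
    refine UpperHalfPlane.ext ?_
    have hq : (q : ℂ) ≠ 0 := Nat.cast_ne_zero.mpr (NeZero.ne q)
    simp only [coe_affPt, rA, rB, rD, ZMod.val_zero]
    push_cast
    field_simp
    ring
  refine ⟨?_, ?_⟩
  · rw [C.rX_eq]; exact congrArg C.T e
  · rw [C.rW_eq]
    simp only [sV, rc, Nat.cast_pow]
    rw [e]

theorem bv_apply {A : Type*} [CommRing A] (f : C.W →+* A) (g : A →+* ℂ)
    (hg : g.comp f = C.W.subtype) (Y X : A) (P : Polynomial (Polynomial C.W)) :
    g (bv f Y X P) = bv C.W.subtype (g Y) (g X) P := by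
  rw [map_bv, hg]

theorem cW_eval (τ : ℍ) :
    ((Pi.evalRingHom (fun _ : ℍ ↦ ℂ) τ).comp C.R.subtype).comp C.cW = C.W.subtype :=
  RingHom.ext fun _ => rfl

/-- The equations of the sides. -/
theorem exists_side_eqs (hF : C.FixedPart) : ∃ (G Q F : Polynomial (Polynomial C.W)) (s : ℕ),
    (Polynomial.C (C.evY C.dltW ^ s) * C.pG = G.map C.evY ∧
      Polynomial.C (C.evY C.dltW ^ s) * C.pF = F.map C.evY) ∧
    ∀ b, bv C.cW C.yR (C.wR b) G = 0 ∧
      bv C.cW C.yR (C.wR b) (Polynomial.derivative G) * C.xR b = bv C.cW C.yR (C.wR b) Q ∧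
      bv C.cW (C.xR b) (C.vR b) G = 0 ∧
      bv C.cW (C.xR b) (C.vR b) (Polynomial.derivative G) * C.yR = bv C.cW (C.xR b) (C.vR b) Q ∧
      bv C.cW C.yR (C.xR b) F = 0 := by
  obtain ⟨G, Q, F, s, hG, hQ, hFF⟩ := C.exists_three hF
  refine ⟨G, Q, F, s, ⟨hG, hFF⟩, ?_⟩
  have hinj := Subring.inclusion_injective C.R_le
  have hev : ∀ (P : Polynomial (Polynomial C.W)) (x : C.R),
      Subring.inclusion C.R_le (bv C.cW C.yR x P) = (P.map C.evY).eval (Subring.inclusion C.R_le x) := by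
    intro P x
    rw [bv_eq_eval_map, ← Polynomial.eval₂_at_apply, ← Polynomial.eval_map, Polynomial.map_map]
    congr 2
    refine RingHom.ext fun a => ?_
    rw [RingHom.comp_apply, C.evY_eq]
    rfl
  set D := C.evY C.dltW ^ s
  have hroot : ∀ r, (G.map C.evY).eval (C.wEl r) = 0 ∧
      ((Polynomial.derivative G).map C.evY).eval (C.wEl r) * C.xEl r = (Q.map C.evY).eval (C.wEl r) ∧
      (F.map C.evY).eval (C.xEl r) = 0 := by
    intro r
    have hd : (Polynomial.derivative C.pG).eval (C.wEl r) =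
        ∏ s ∈ Finset.univ.erase r, (C.wEl r - C.wEl s) := by
      rw [pG, Polynomial.derivative_prod_finset, Polynomial.eval_finsetSum, Finset.sum_eq_single r]
      · simp [Polynomial.eval_prod]
      · intro s _ hs
        rw [Polynomial.eval_mul, Polynomial.eval_prod,
          Finset.prod_eq_zero (Finset.mem_erase.2 ⟨Ne.symm hs, Finset.mem_univ r⟩) (by simp), zero_mul]
      · simp
    refine ⟨?_, ?_, ?_⟩
    · rw [← hG, Polynomial.eval_C_mul, pG, Polynomial.eval_prod,
        Finset.prod_eq_zero (Finset.mem_univ r) (by simp), mul_zero]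
    · rw [← Polynomial.derivative_map, ← hG, ← hQ, Polynomial.derivative_C_mul, Polynomial.eval_C_mul,
        Polynomial.eval_C_mul, hd, pQ, Polynomial.eval_finsetSum, Finset.sum_eq_single r]
      · simp only [Polynomial.eval_mul, Polynomial.eval_C, Polynomial.eval_prod, Polynomial.eval_sub,
          Polynomial.eval_X]
        ring
      · intro s _ hs
        rw [Polynomial.eval_mul, Polynomial.eval_prod,
          Finset.prod_eq_zero (Finset.mem_erase.2 ⟨Ne.symm hs, Finset.mem_univ r⟩) (by simp), mul_zero]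
      · simp
    · rw [← hFF, Polynomial.eval_C_mul, pF, Polynomial.eval_prod,
        Finset.prod_eq_zero (Finset.mem_univ r) (by simp), mul_zero]
  have h1 : ∀ b, bv C.cW C.yR (C.wR b) G = 0 ∧
      bv C.cW C.yR (C.wR b) (Polynomial.derivative G) * C.xR b = bv C.cW C.yR (C.wR b) Q ∧
      bv C.cW C.yR (C.xR b) F = 0 := fun b => by
    obtain ⟨a1, a2, a3⟩ := hroot (C.sb b)
    refine ⟨hinj ?_, hinj ?_, hinj ?_⟩
    · rw [hev, map_zero, C.incl_wR, a1]
    · rw [map_mul, hev, hev, C.incl_wR, C.incl_xR, a2]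
    · rw [hev, map_zero, C.incl_xR, a3]
  intro b
  -- the identities at the other end of the isogeny
  have hsub : ∀ τ : ℍ, bv C.W.subtype (C.sX τ) (C.sV τ) G = 0 ∧
      bv C.W.subtype (C.sX τ) (C.sV τ) (Polynomial.derivative G) * C.T τ =
        bv C.W.subtype (C.sX τ) (C.sV τ) Q := by
    intro τ
    obtain ⟨b1, b2, -⟩ := h1 true
    obtain ⟨e1, e2⟩ := C.rX_zero_aff τ
    set g := (Pi.evalRingHom (fun _ : ℍ ↦ ℂ) (affPt q 0 1 τ)).comp C.R.subtype
    have c1 := congrArg g b1
    have c2 := congrArg g b2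
    simp only [map_mul, map_zero, C.bv_apply C.cW g (C.cW_eval _)] at c1 c2
    have hy : g C.yR = C.sX τ := rfl
    have hw : g (C.wR true) = C.sV τ := e2
    have hx : g (C.xR true) = C.T τ := e1
    rw [hy, hw] at c1 c2
    rw [hx] at c2
    exact ⟨c1, c2⟩
  obtain ⟨a1, a2, a3⟩ := h1 b
  refine ⟨a1, a2, ?_, ?_, a3⟩
  · refine Subtype.ext (funext fun τ => ?_)
    have h := C.bv_apply C.cW ((Pi.evalRingHom (fun _ : ℍ ↦ ℂ) τ).comp C.R.subtype) (C.cW_eval τ)
      (C.xR b) (C.vR b) G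
    show ((Pi.evalRingHom (fun _ : ℍ ↦ ℂ) τ).comp C.R.subtype) _ = 0
    rw [h]
    exact (hsub (C.gr (C.sb b) • τ)).1
  · refine Subtype.ext (funext fun τ => ?_)
    set g := (Pi.evalRingHom (fun _ : ℍ ↦ ℂ) τ).comp C.R.subtype
    have hy : g C.yR = C.T (C.gr (C.sb b) • τ) := (C.T_pm (Or.inl (C.gr_mem0 _)) τ).symm
    show ((Pi.evalRingHom (fun _ : ℍ ↦ ℂ) τ).comp C.R.subtype)
        (bv C.cW (C.xR b) (C.vR b) (Polynomial.derivative G) * C.yR) =
      ((Pi.evalRingHom (fun _ : ℍ ↦ ℂ) τ).comp C.R.subtype) (bv C.cW (C.xR b) (C.vR b) Q)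
    rw [map_mul, C.bv_apply C.cW g (C.cW_eval τ), C.bv_apply C.cW g (C.cW_eval τ), hy]
    exact (hsub (C.gr (C.sb b) • τ)).2

theorem isDomain_R : IsDomain C.R := (C.embAt_injective 1).isDomain (C.embAt 1)

instance : IsDomain C.R := C.isDomain_R

end Ctx

namespace Res

variable {q M0 N' : ℕ} [NeZero M0] [NeZero N'] [NeZero q] [Fact q.Prime]
variable {C : Ctx q M0 N'} {k : Type} [Field k] (Ω : Res C k)

/-- The two possible branches of a side. -/
theorem red_cases {γ : SL(2, ℤ)} (hγ : γ ∈ CongruenceSubgroup.Gamma M0) (b : Bool) :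
    ∃ r, compg γ (C.rX (C.sb b)) = C.rX r ∧
      (r = none → Ω.red γ (C.xR b) = Ω.red γ C.yR ^ q ∧ Ω.red γ (C.vR b) = 0 ∧
        Ω.red γ (C.wR b) = Ω.om) ∧
      (r ≠ none → Ω.red γ (C.xR b) ^ q = Ω.red γ C.yR ∧ Ω.red γ (C.wR b) = 0 ∧
        Ω.red γ (C.vR b) ^ q = Ω.om) := by
  obtain ⟨r, h1, h2, h3, -⟩ := C.exists_root (mul_mem (C.gr_mem0 (C.sb b)) hγ)
  refine ⟨r, by rw [Ctx.rX, compg_compg]; exact h1, ?_, ?_⟩ <;>
  · intro hr
    have eX : C.embAt γ (C.xR b) = ser ⟨C.rX r, C.rX_mem r⟩ :=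
      C.embAt_eq _ _ (by rw [Ctx.rX, compg_compg]; exact h1)
    have eW : C.embAt γ (C.wR b) = ser ⟨C.rW r, C.rW_mem r⟩ :=
      C.embAt_eq _ _ (by rw [Ctx.rW, compg_compg]; exact h2)
    have eV : C.embAt γ (C.vR b) = ser ⟨C.rV r, C.rV_mem r⟩ :=
      C.embAt_eq _ _ (by rw [Ctx.rV, compg_compg]; exact h3)
    simp only [red, RingHom.comp_apply, eX, eW, eV]
    have hy : Ω.rd (C.embAt γ C.yR) = Ω.bb ^ q := Ω.red_yR hγ
    rw [hy, Ω.rd_rX r]
    rcases r with _ | i
    · first
        | exact ⟨by rw [rootB, if_pos rfl, ← pow_mul, pow_two], Ω.rd_rV_none, Ω.rd_rW_none⟩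
        | exact absurd rfl hr
    · first
        | exact ⟨by rw [rootB, if_neg hr], Ω.rd_rW_some i, by rw [Ω.rd_rV_some i, Ω.nu_pow]⟩
        | exact absurd hr (by simp)

theorem red_of_evY {γ : SL(2, ℤ)} (hγ : γ ∈ CongruenceSubgroup.Gamma M0) (P : Polynomial C.W) :
    Ω.red γ (C.evR P) = (P.map Ω.φW).eval₂ HahnSeries.C (Ω.bb ^ q) := by
  rw [Ω.red_evR, Ω.red_yR hγ]

theorem leadAt_base : LeadAt (Ω.bb ^ q - HahnSeries.C 0) (-((q * N' : ℕ) : ℤ)) := by
  have h := LeadAt.mul (leadAt_one (Q := k)) (leadAt_pow Ω.leadAt_bb.1 q)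
  rw [one_mul, zero_add] at h
  simpa using h

theorem map_eq_of_ser {P P' : Polynomial (Polynomial C.W)}
    (h : (P.map C.evY).map (Ω.rd.comp ser) = (P'.map C.evY).map (Ω.rd.comp ser)) :
    P.map (Polynomial.mapRingHom Ω.φW) = P'.map (Polynomial.mapRingHom Ω.φW) := by
  have hev : (Ω.rd.comp ser).comp C.evY =
      (Polynomial.eval₂RingHom HahnSeries.C (Ω.bb ^ q)).comp (Polynomial.mapRingHom Ω.φW) := by
    refine RingHom.ext fun p => ?_
    have e : ser (C.evY p) = C.embAt 1 (C.evR p) := by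
      rw [C.evY_eq, C.embAt_apply]
      exact congrArg ser (Subtype.ext (compg_one _).symm)
    simp only [RingHom.comp_apply, e, Polynomial.coe_eval₂RingHom, Polynomial.coe_mapRingHom]
    exact Ω.red_of_evY (one_mem _) p
  rw [Polynomial.map_map, Polynomial.map_map, hev, ← Polynomial.map_map, ← Polynomial.map_map] at h
  refine Polynomial.map_injective _ ?_ h
  rw [injective_iff_map_eq_zero]
  intro p hp
  refine not_eval₂_eq_zero ?_ Ω.leadAt_base hp
  simp [NeZero.ne q, NeZero.ne N']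

theorem dvd_of_map_zero {P : Polynomial (Polynomial C.W)}
    (h : P.map (Polynomial.mapRingHom Ω.φW) = 0) :
    Polynomial.C (Polynomial.C (q : C.W)) ∣ P := by
  refine (Polynomial.C_dvd_iff_dvd_coeff _ _).2 fun i => (Polynomial.C_dvd_iff_dvd_coeff _ _).2
    fun j => Ω.kerW _ ?_
  have := congrArg (fun p : Polynomial (Polynomial k) => (p.coeff i).coeff j) h
  simpa [Polynomial.coeff_map] using this

theorem prod_roots {B : Type*} [CommRing B] (fn : Option (ZMod q) → B) (a b : B)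
    (ha : fn none = a) (hb : ∀ i, fn (some i) = b) : ∏ r, fn r = a * b ^ q := by
  rw [Fintype.prod_option, ha, Finset.prod_congr rfl fun i _ => hb i, Finset.prod_const,
    Finset.card_univ, ZMod.card]

/-- The equation of the slopes modulo `q`. -/
theorem map_pG : C.pG.map (Ω.rd.comp ser) =
    (Polynomial.X - Polynomial.C Ω.om) * Polynomial.X ^ q := by
  rw [Ctx.pG, Polynomial.map_prod]
  simp only [Polynomial.map_sub, Polynomial.map_X, Polynomial.map_C, RingHom.comp_apply, Ctx.wEl]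
  rw [prod_roots (fun r => Polynomial.X - Polynomial.C (Ω.rd (ser ⟨C.rW r, C.rW_mem r⟩))) _ Polynomial.X
    rfl fun i => by rw [Ω.rd_rW_some, map_zero, sub_zero], Ω.rd_rW_none]

/-- The equation of the coordinates modulo `q`. -/
theorem map_pF : C.pF.map (Ω.rd.comp ser) =
    (Polynomial.X - Polynomial.C ((Ω.bb ^ q) ^ q)) *
      (Polynomial.X ^ q - Polynomial.C (Ω.bb ^ q)) := by
  haveI := Ω.charK
  haveI : CharP (LaurentSeries k) q :=
    charP_of_injective_ringHom (f := (HahnSeries.C : k →+* LaurentSeries k)) HahnSeries.C_injective q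
  rw [Ctx.pF, Polynomial.map_prod]
  simp only [Polynomial.map_sub, Polynomial.map_X, Polynomial.map_C, RingHom.comp_apply, Ctx.xEl]
  rw [prod_roots (fun r => Polynomial.X - Polynomial.C (Ω.rd (ser ⟨C.rX r, C.rX_mem r⟩))) _
    (Polynomial.X - Polynomial.C Ω.bb) rfl fun i => by rw [Ω.rd_rX, rootB, if_neg (by simp)],
    Ω.rd_rX, rootB, if_pos rfl, sub_pow_char, ← map_pow Polynomial.C, ← pow_mul, pow_two]

theorem dvd_bv {A : Type*} [CommRing A] (f : C.W →+* A) (Y X : A)
    {P : Polynomial (Polynomial C.W)} (h : P.map (Polynomial.mapRingHom Ω.φW) = 0) :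
    f (q : C.W) ∣ bv f Y X P := by
  have := map_dvd (bv f Y X) (Ω.dvd_of_map_zero h)
  rwa [bv_C, Polynomial.eval₂_C] at this

include Ω in
/-- The derivative of the equation of the slopes modulo `q`. -/
theorem dvd_deriv_G {G : Polynomial (Polynomial C.W)} {s : ℕ}
    (hG : Polynomial.C (C.evY C.dltW ^ s) * C.pG = G.map C.evY) {A : Type*} [CommRing A]
    (f : C.W →+* A) (Y X : A) :
    f (q : C.W) ∣ bv f Y X (Polynomial.derivative G) - C.dltW.eval₂ f Y ^ s * X ^ q := by
  haveI := Ω.charK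
  haveI : CharP (LaurentSeries k) q :=
    charP_of_injective_ringHom (f := (HahnSeries.C : k →+* LaurentSeries k)) HahnSeries.C_injective q
  have h : (Polynomial.derivative G).map (Polynomial.mapRingHom Ω.φW) =
      (Polynomial.C (C.dltW ^ s) * Polynomial.X ^ q).map (Polynomial.mapRingHom Ω.φW) := by
    refine Ω.map_eq_of_ser ?_
    rw [← Polynomial.derivative_map, ← hG, Polynomial.derivative_C_mul, Polynomial.map_mul,
      ← Polynomial.derivative_map, Ω.map_pG, Polynomial.derivative_mul, Polynomial.derivative_X_pow,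
      CharP.cast_eq_zero]
    simp only [Polynomial.map_mul, Polynomial.map_C, Polynomial.map_pow, Polynomial.map_X,
      map_pow, Polynomial.derivative_sub, Polynomial.derivative_X, Polynomial.derivative_C,
      map_zero, zero_mul, mul_zero, add_zero, sub_zero, one_mul]
  have h2 := Ω.dvd_bv f Y X (P := Polynomial.derivative G - Polynomial.C (C.dltW ^ s) * Polynomial.X ^ q)
    (by rw [Polynomial.map_sub, h, sub_self])
  rwa [map_sub, map_mul, map_pow (bv f Y X), bv_C, bv_X, Polynomial.eval₂_pow] at h2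

include Ω in
/-- The Kronecker congruence for the coordinate. -/
theorem exists_kronecker {F : Polynomial (Polynomial C.W)} {s : ℕ}
    (hF : Polynomial.C (C.evY C.dltW ^ s) * C.pF = F.map C.evY) :
    ∃ H : Polynomial (Polynomial C.W), F = Polynomial.C (C.dltW ^ s) *
      ((Polynomial.X - Polynomial.C (Polynomial.X ^ q)) *
        (Polynomial.X ^ q - Polynomial.C Polynomial.X)) + Polynomial.C (Polynomial.C (q : C.W)) * H := by
  set F0 := Polynomial.C (C.dltW ^ s) *
      ((Polynomial.X - Polynomial.C (Polynomial.X ^ q)) * (Polynomial.X ^ q - Polynomial.C Polynomial.X))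
    with hF0
  have hyY : Ω.rd (ser (C.evY Polynomial.X)) = Ω.bb ^ q := by
    rw [Ctx.evY, RingHom.comp_apply, Polynomial.coe_mapRingHom, Polynomial.map_X, C.ser_evT,
      Polynomial.eval₂_X, Ω.rd_Ys]
  have h : F.map (Polynomial.mapRingHom Ω.φW) = F0.map (Polynomial.mapRingHom Ω.φW) := by
    refine Ω.map_eq_of_ser ?_
    rw [← hF, hF0, Polynomial.map_mul, Ω.map_pF]
    simp only [Polynomial.map_mul, Polynomial.map_sub, Polynomial.map_pow, Polynomial.map_X,
      Polynomial.map_C, RingHom.comp_apply, map_pow, hyY]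
  obtain ⟨H, hH⟩ := Ω.dvd_of_map_zero (P := F - F0) (by rw [Polynomial.map_sub, h, sub_self])
  exact ⟨H, by rw [← hH]; ring⟩

/-- The differential equation of a side. -/
theorem euler_side (b : Bool) {F : Polynomial (Polynomial C.W)}
    (h0 : bv C.cW C.yR (C.xR b) F = 0) :
    (q : C.R) * bv C.cW C.yR (C.xR b) (Polynomial.derivative F) +
        C.wR b * bv C.cW C.yR (C.xR b) (dInner F) = 0 ∧
      (q : C.R) * bv C.cW C.yR (C.xR b) (dInner F) +
        C.vR b * bv C.cW C.yR (C.xR b) (Polynomial.derivative F) = 0 := by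
  set E := C.embAt 1
  have hE : E.comp C.cW = (HahnSeries.C : C.S →+* LaurentSeries C.S).comp C.inc :=
    RingHom.ext fun w => C.embAt_cW 1 w
  have hy : E C.yR = C.Ys := by
    rw [← C.ser_T]
    exact C.embAt_eq _ C.T_mem (compg_one _)
  have hx : E (C.xR b) = C.rHom (C.sb b) C.co.H := by
    rw [← C.ser_rX]
    exact C.embAt_eq _ (C.rX_mem _) (compg_one _)
  have hw : E (C.wR b) * eul (C.rHom (C.sb b) C.co.H) = HahnSeries.C (q : C.S) * eul C.Ys := by
    have e : E (C.wR b) = ser ⟨C.rW (C.sb b), C.rW_mem _⟩ := C.embAt_eq _ (C.rW_mem _) (compg_one _)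
    rw [e]; exact C.ser_rW_eul _
  have h1 := congrArg (fun z => eul (E z)) h0
  simp only [map_zero, map_bv, hE, hy, hx] at h1
  rw [eul_bv, ← map_zero (HahnSeries.C : C.S →+* LaurentSeries C.S), eul_C] at h1
  have hY : eul C.Ys ≠ 0 := fun h0 => by
    have := (C.ser_rW_ne none)
    have h3 := C.ser_rW_eul none
    rw [h0, mul_zero] at h3
    exact mul_ne_zero this.1 this.2 h3
  have hq : (q : C.R) ≠ 0 := fun h => NeZero.ne q (by
    have := congrArg (fun z : C.R => (z : ℍ → ℂ) UpperHalfPlane.I) h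
    simpa using this)
  have first : (q : C.R) * bv C.cW C.yR (C.xR b) (Polynomial.derivative F) +
      C.wR b * bv C.cW C.yR (C.xR b) (dInner F) = 0 := by
    refine C.embAt_injective 1 (mul_right_cancel₀ hY ?_)
    rw [map_zero, zero_mul, map_add, map_mul, map_mul, map_natCast, map_bv, map_bv, hE, hy, hx]
    rw [← map_natCast (HahnSeries.C : C.S →+* LaurentSeries C.S)]
    linear_combination (E (C.wR b)) * h1 -
      (bv ((HahnSeries.C : C.S →+* LaurentSeries C.S).comp C.inc) C.Ys (C.rHom (C.sb b) C.co.H)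
        (Polynomial.derivative F)) * hw
  refine ⟨first, mul_left_cancel₀ hq ?_⟩
  rw [mul_zero]
  linear_combination (C.vR b) * first - (bv C.cW C.yR (C.xR b) (dInner F)) * C.wR_mul_vR b

end Res

end FLTAgent.Carayol
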