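import Fermat.Agent.Carayol.Setup

/-!
# The conjugates of the isogenous coordinate
-/

set_option autoImplicit false
set_option linter.unusedSectionVars false
set_option linter.style.haveILetI false

noncomputable section

open UpperHalfPlane hiding I I_re I_im
open Filter Topology Complex Function FLTAgent.ModEq FLTAgent.GoodModel ModularCurve
open scoped MatrixGroups Manifold

namespace FLTAgent.Carayol

/-- The matrix `(1, mk; m, 1 + m²k)`. -/
def gq (m : ℕ) (k : ℤ) : SL(2, ℤ) :=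
  ⟨!![1, m * k; (m : ℤ), 1 + m * (m * k)], by rw [Matrix.det_fin_two_of]; ring⟩

theorem mul_inv_apply10 (γ g : SL(2, ℤ)) :
    (γ * g⁻¹) 1 0 = γ 1 0 * g 1 1 - γ 1 1 * g 1 0 := by
  simp [Matrix.SpecialLinearGroup.coe_mul, Matrix.SpecialLinearGroup.coe_inv, Matrix.adjugate_fin_two,
    Matrix.mul_apply, Fin.sum_univ_two]
  ring

theorem gq_mem (m : ℕ) (k : ℤ) : gq m k ∈ CongruenceSubgroup.Gamma m := by
  rw [CongruenceSubgroup.Gamma_mem]
  simp [gq]

namespace Ctx

variable {q M0 N' : ℕ} [NeZero M0] [NeZero N'] [NeZero q] [Fact q.Prime] (C : Ctx q M0 N')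

include C in
theorem ne_zero_mod : ((M0 * N' : ℕ) : ZMod q) ≠ 0 ∧ ((M0 : ℕ) : ZMod q) ≠ 0 ∧
    IsUnit ((q : ℕ) : ZMod M0) := by
  have _ := C.hq
  refine ⟨fun h => C.hqm ((ZMod.natCast_eq_zero_iff _ _).1 h),
    fun h => C.hqm (dvd_mul_of_dvd_left ((ZMod.natCast_eq_zero_iff _ _).1 h) _), ?_⟩
  rw [ZMod.isUnit_iff_coprime]
  exact (C.hq.coprime_iff_not_dvd.2 fun h => C.hqm (dvd_mul_of_dvd_left h _))

variable (q M0 N') in
/-- The exponent in the representative of a root. -/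
def idxK (i : ZMod q) : ℤ :=
  ((((M0 : ℕ) : ZMod q) * i - ((M0 * N' : ℕ) : ZMod q)⁻¹) * ((M0 * N' : ℕ) : ZMod q)⁻¹).val

/-- The representative of a root. -/
def gr (_C : Ctx q M0 N') : Option (ZMod q) → SL(2, ℤ)
  | none => 1
  | some i => gq (M0 * N') (idxK q M0 N' i)

/-- The numerator of the substitution of a root. -/
def rA (_C : Ctx q M0 N') : Option (ZMod q) → ℕ
  | none => q
  | some _ => 1

/-- The translation of the substitution of a root. -/
def rB (_C : Ctx q M0 N') : Option (ZMod q) → ℤ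
  | none => 0
  | some i => (M0 : ℤ) * i.val

/-- The denominator of the substitution of a root. -/
def rD (_C : Ctx q M0 N') : Option (ZMod q) → ℕ
  | none => 1
  | some _ => q

/-- The cofactor of the denominator. -/
def rk (_C : Ctx q M0 N') : Option (ZMod q) → ℕ
  | none => N' * q
  | some _ => N'

/-- The constant relating the slope and the derivative. -/
def rc (_C : Ctx q M0 N') : Option (ZMod q) → ℕ
  | none => 1
  | some _ => q ^ 2

instance neZero_rA (r : Option (ZMod q)) : NeZero (C.rA r) := by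
  cases r <;> simp only [rA] <;> infer_instance

instance neZero_rD (r : Option (ZMod q)) : NeZero (C.rD r) := by
  cases r <;> simp only [rD] <;> infer_instance

instance neZero_rk (r : Option (ZMod q)) : NeZero (C.rk r) := by
  cases r <;> simp only [rk] <;> infer_instance

theorem gr_mem (r : Option (ZMod q)) : C.gr r ∈ CongruenceSubgroup.Gamma (M0 * N') := by
  cases r
  · exact one_mem _
  · exact gq_mem _ _

theorem mem_M0_of_mem_m {γ : SL(2, ℤ)} (h : γ ∈ CongruenceSubgroup.Gamma (M0 * N')) :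
    γ ∈ CongruenceSubgroup.Gamma M0 := by
  have key : ∀ x y : ℤ, ((x : ℤ) : ZMod (M0 * N')) = (y : ℤ) → ((x : ℤ) : ZMod M0) = (y : ℤ) := by
    intro x y h
    rw [ZMod.intCast_eq_intCast_iff_dvd_sub] at h ⊢
    exact (Int.natCast_dvd_natCast.2 (dvd_mul_right M0 N')).trans h
  obtain ⟨h1, h2, h3, h4⟩ := CongruenceSubgroup.Gamma_mem.mp h
  exact CongruenceSubgroup.Gamma_mem.mpr ⟨by simpa using key _ 1 (by simpa using h1),
    by simpa using key _ 0 (by simpa using h2), by simpa using key _ 0 (by simpa using h3),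
    by simpa using key _ 1 (by simpa using h4)⟩

theorem gr_mem0 (r : Option (ZMod q)) : C.gr r ∈ CongruenceSubgroup.Gamma M0 :=
  mem_M0_of_mem_m (C.gr_mem r)

theorem aff_gr (r : Option (ZMod q)) : ∃ δ : SL(2, ℤ), Pm M0 δ ∧
    ∀ τ : ℍ, affPt q 0 1 (C.gr r • τ) = δ • affPt (C.rA r) (C.rB r) (C.rD r) τ := by
  rcases r with _ | i
  · exact ⟨1, Or.inl (one_mem _), fun τ => by simp [gr, rA, rB, rD]⟩
  obtain ⟨hm, hM0, hqu⟩ := C.ne_zero_mod
  set m : ℕ := M0 * N' with hmdef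
  set k := idxK q M0 N' i with hk
  have hdvd : (q : ℤ) ∣ 1 + (m : ℤ) * ((m : ℤ) * k - (M0 : ℤ) * i.val) := by
    rw [← ZMod.intCast_zmod_eq_zero_iff_dvd]
    rw [hk, idxK, ← hmdef]
    push_cast
    rw [ZMod.natCast_zmod_val, ZMod.natCast_zmod_val]
    field_simp
    ring
  obtain ⟨e, he⟩ := hdvd
  obtain ⟨δ, d00, d01, d10, d11⟩ : ∃ δ : SL(2, ℤ),
      δ 0 0 = q ∧ δ 0 1 = (m : ℤ) * k - (M0 : ℤ) * i.val ∧ δ 1 0 = m ∧ δ 1 1 = e :=
    ⟨⟨!![(q : ℤ), (m : ℤ) * k - (M0 : ℤ) * i.val; (m : ℤ), e], by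
      rw [Matrix.det_fin_two_of]
      linear_combination -he⟩, rfl, rfl, rfl, rfl⟩
  refine ⟨δ, ?_, fun τ => ?_⟩
  · have hm0 : ((m : ℕ) : ZMod M0) = 0 := by simp [hmdef]
    have h1 : ((q : ℕ) : ZMod M0) * (e : ZMod M0) = 1 := by
      have := congrArg (fun z : ℤ => (z : ZMod M0)) he
      push_cast at this
      rw [← this, hm0]
      ring
    have hsign : ∀ a b : ZMod M0, a * b = 1 → (a = 1 ∧ b = 1) ∨ (a = -1 ∧ b = -1) := by
      rcases C.hM with rfl | rfl <;> decide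
    rcases hsign _ _ h1 with ⟨ha, hb⟩ | ⟨ha, hb⟩
    · refine Or.inl (CongruenceSubgroup.Gamma_mem.mpr ⟨?_, ?_, ?_, ?_⟩) <;>
        simp only [d00, d01, d10, d11] <;> push_cast <;> simp [ha, hb, hm0]
    · refine Or.inr (CongruenceSubgroup.Gamma_mem.mpr ⟨?_, ?_, ?_, ?_⟩) <;>
        simp only [Matrix.SpecialLinearGroup.coe_neg, Matrix.neg_apply, d00, d01, d10, d11] <;>
        push_cast <;> simp [ha, hb, hm0]
  · refine UpperHalfPlane.ext ?_
    rw [coe_sl_smul' δ, d00, d01, d10, d11, coe_affPt, coe_affPt, coe_sl_smul' (C.gr (some i))]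
    have hden : (m : ℂ) * τ + (1 + m * (m * k)) ≠ 0 := by
      have := den_ne_zero (gq m k) τ
      simpa [gq] using this
    have hq : (q : ℂ) ≠ 0 := Nat.cast_ne_zero.mpr (NeZero.ne q)
    have he' : (1 : ℂ) + m * (m * k - M0 * i.val) = q * e := by exact_mod_cast he
    have hkey : (m : ℂ) * (((1 : ℕ) : ℂ) * τ + ((M0 : ℤ) * i.val : ℤ)) / q + e =
        ((m : ℂ) * τ + (1 + m * (m * k))) / q := by
      field_simp
      push_cast
      linear_combination -he'
    simp only [gr, rA, rB, rD, gq, Matrix.SpecialLinearGroup.coe_mk, Matrix.of_apply, Matrix.cons_val',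
      Matrix.cons_val_zero, Matrix.cons_val_one, Matrix.empty_val', Matrix.cons_val_fin_one]
    rw [← hmdef, ← hk]
    push_cast at hkey ⊢
    rw [← mul_div_assoc (m : ℂ), hkey]
    field_simp
    ring

/-- The conjugates of the isogenous coordinate. -/
def rX (r : Option (ZMod q)) : ℍ → ℂ := compg (C.gr r) C.sX

/-- The conjugates of the slope. -/
def rW (r : Option (ZMod q)) : ℍ → ℂ := compg (C.gr r) C.sW

/-- The conjugates of the dual slope. -/
def rV (r : Option (ZMod q)) : ℍ → ℂ := compg (C.gr r) C.sV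

/-- The conjugates of the inverse of the product of differences. -/
def rU (r : Option (ZMod q)) : ℍ → ℂ := compg (C.gr r) C.sU

theorem rX_eq (r : Option (ZMod q)) :
    C.rX r = fun τ => C.T (affPt (C.rA r) (C.rB r) (C.rD r) τ) := by
  obtain ⟨δ, hδ, he⟩ := C.aff_gr r
  funext τ
  simp only [rX, compg_apply, sX, he, C.T_pm hδ]

theorem rW_eq (r : Option (ZMod q)) : C.rW r =
    fun τ => (C.rc r : ℂ) * C.co.Θ τ / C.co.Θ (affPt (C.rA r) (C.rB r) (C.rD r) τ) := by
  obtain ⟨δ, hδ, he⟩ := C.aff_gr r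
  funext τ
  simp only [rW, compg_apply, sW, he, C.Θ_pm hδ, C.co.Θ_weight _ (C.gr_mem0 r)]
  have h := den_transport he τ
  have hrel : den (C.gr r) τ ^ 2 =
      (C.rc r : ℂ) * den δ (affPt (C.rA r) (C.rB r) (C.rD r) τ) ^ 2 := by
    rcases r with _ | i
    · simp only [rA, rD, rc] at h ⊢
      have hq : (q : ℂ) ≠ 0 := Nat.cast_ne_zero.mpr (NeZero.ne q)
      push_cast at h ⊢
      refine mul_left_cancel₀ hq ?_
      linear_combination -h
    · simp only [rA, rD, rc] at h ⊢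
      push_cast at h ⊢
      linear_combination -h
  rw [hrel]
  have := den_ne δ (affPt (C.rA r) (C.rB r) (C.rD r) τ)
  have := C.co.Θ_ne (affPt (C.rA r) (C.rB r) (C.rD r) τ)
  field_simp

/-- The substitution of series of a root. -/
def rHom (r : Option (ZMod q)) : LaurentSeries C.W →+* LaurentSeries C.S :=
  (substHom (C.ζ ^ ((C.rk r : ℤ) * C.rB r)) (C.rA r * C.rk r)).comp (coeffMap C.inc)

theorem rD_mul (r : Option (ZMod q)) : C.rD r * M0 * C.rk r = M0 * (N' * q) := by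
  cases r <;> simp only [rD, rk] <;> ring

theorem sPairs_rHom (r : Option (ZMod q)) {φ : ℍ → ℂ} {G : LaurentSeries C.W}
    (hG : (φ, G) ∈ sPairs C.W M0) :
    ((fun τ => φ (affPt (C.rA r) (C.rB r) (C.rD r) τ)), C.rHom r G) ∈
      sPairs C.S (M0 * (N' * q)) :=
  sPairs_comp_affPt C.ζ C.hζ (C.rA r) (C.rB r) (C.rD r) M0 (C.rk r) (C.rD_mul r)
    (sPairs_mono C.hWS hG)

theorem rX_spec (r : Option (ZMod q)) :
    (C.rX r, C.rHom r C.co.H) ∈ sPairs C.S (M0 * (N' * q)) := by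
  rw [C.rX_eq r]; exact C.sPairs_rHom r C.co.hH

theorem rX_mem (r : Option (ZMod q)) : C.rX r ∈ trRing C.S (M0 * (N' * q)) :=
  compg_mem_trRing C.sX_mem _

theorem rW_mem (r : Option (ZMod q)) : C.rW r ∈ trRing C.S (M0 * (N' * q)) :=
  compg_mem_trRing C.sW_sV_mem.1 _

theorem rV_mem (r : Option (ZMod q)) : C.rV r ∈ trRing C.S (M0 * (N' * q)) :=
  compg_mem_trRing C.sW_sV_mem.2 _

theorem rU_mem (r : Option (ZMod q)) : C.rU r ∈ trRing C.S (M0 * (N' * q)) :=
  compg_mem_trRing C.sU_mem _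

theorem ser_rX (r : Option (ZMod q)) : ser ⟨C.rX r, C.rX_mem r⟩ = C.rHom r C.co.H :=
  sPairs_unique (ser_spec _) (C.rX_spec r)

theorem rW_mul_rV (r : Option (ZMod q)) : C.rW r * C.rV r = fun _ => (q : ℂ) ^ 2 := by
  rw [rW, rV, ← map_mul, C.sW_mul_sV]
  rfl

/-- The slope is `q dy/dx` on expansions. -/
theorem ser_rW_eul (r : Option (ZMod q)) :
    ser ⟨C.rW r, C.rW_mem r⟩ * eul (C.rHom r C.co.H) = HahnSeries.C (q : C.S) * eul C.Ys := by
  set GY : LaurentSeries C.S := qExpand C.S (N' * q) (coeffMap C.inc C.co.GΘ)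
  have hGY : (C.co.Θ, GY) ∈ sPairs C.S (M0 * (N' * q)) :=
    sPairs_refine rfl (sPairs_mono C.hWS C.co.hGΘ)
  have h1 : ser ⟨C.rW r, C.rW_mem r⟩ * C.rHom r C.co.GΘ = HahnSeries.C (C.rc r : C.S) * GY := by
    refine sPairs_unique (S := C.S) (n := M0 * (N' * q))
      (φ := C.rW r * fun τ => C.co.Θ (affPt (C.rA r) (C.rB r) (C.rD r) τ)) ?_ ?_
    · have h := (sPairs C.S (M0 * (N' * q))).mul_mem (ser_spec ⟨C.rW r, C.rW_mem r⟩)
        (C.sPairs_rHom r C.co.hGΘ)
      rwa [Prod.mk_mul_mk] at h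
    · have h := (sPairs C.S (M0 * (N' * q))).mul_mem
        (sPairs_const (n := M0 * (N' * q)) (C.rc r : C.S)) hGY
      rw [Prod.mk_mul_mk] at h
      convert h using 2
      funext τ
      simp only [Pi.mul_apply, C.rW_eq r]
      rw [div_mul_cancel₀ _ (C.co.Θ_ne _)]
      simp
  refine sIncl_injective ?_
  set G0 : LaurentSeries ℂ := sIncl C.W C.co.GΘ with hG0
  have hin : ∀ G : LaurentSeries C.W, sIncl C.S (coeffMap C.inc G) = sIncl C.W G := fun G => by
    rw [sIncl, coeffMap_coeffMap]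
    rfl
  have hC : ∀ x : C.S, sIncl C.S (HahnSeries.C x) = HahnSeries.C (x : ℂ) := fun x => by
    rw [HahnSeries.C_apply, sIncl, coeffMap_single]; rfl
  have hsub : ∀ (u : (C.S)ˣ) (m : ℕ) [NeZero m] (G : LaurentSeries C.W),
      sIncl C.S (substHom u m (coeffMap C.inc G)) =
        substHom (Units.map C.S.subtype.toMonoidHom u) m (sIncl C.W G) := fun u m _ G => by
    rw [← hin G]
    exact coeffMap_substHom _ _ _ _
  have heul : ∀ (u : (C.S)ˣ) (m : ℕ) [NeZero m],
      sIncl C.S (eul (substHom u m (coeffMap C.inc C.co.H))) = HahnSeries.C (m : ℂ) *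
        (HahnSeries.C C.co.κ * substHom (Units.map C.S.subtype.toMonoidHom u) m G0) := fun u m _ => by
    rw [sIncl, coeffMap_eul]
    rw [show coeffMap C.S.subtype (substHom u m (coeffMap C.inc C.co.H)) = _ from hsub u m C.co.H,
      eul_substHom, C.co.eul_H, map_mul, ← hG0]
    congr 2
    ext k
    by_cases hd : (m : ℤ) ∣ k
    · obtain ⟨j, rfl⟩ := hd
      rw [substHom_coeff_mul]
      rcases eq_or_ne j 0 with rfl | hj
      · simp
      · have : (m : ℤ) * j ≠ 0 := mul_ne_zero (by exact_mod_cast NeZero.ne m) hj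
        simp [HahnSeries.C_apply, HahnSeries.coeff_single_of_ne hj,
          HahnSeries.coeff_single_of_ne this]
    · rw [substHom_coeff_of_not_dvd _ _ _ hd, HahnSeries.C_apply, HahnSeries.coeff_single_of_ne]
      rintro rfl
      exact hd (dvd_zero _)
  have e2 : sIncl C.S (eul C.Ys) = HahnSeries.C ((N' * q : ℕ) : ℂ) *
      (HahnSeries.C C.co.κ * sIncl C.S GY) := by
    rw [Ys, ← substHom_one, heul 1 (N' * q)]
    simp only [GY, ← substHom_one]
    rw [hsub 1 (N' * q)]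
  have e1 : sIncl C.S (eul (C.rHom r C.co.H)) = HahnSeries.C ((C.rA r * C.rk r : ℕ) : ℂ) *
      (HahnSeries.C C.co.κ * sIncl C.S (C.rHom r C.co.GΘ)) := by
    simp only [rHom, RingHom.comp_apply]
    rw [heul, hsub]
  have h1' := congrArg (sIncl C.S) h1
  rw [map_mul, map_mul, hC] at h1'
  rw [map_mul, map_mul, hC, e1, e2]
  have hfac : ((C.rA r * C.rk r : ℕ) : ℂ) * (C.rc r : ℂ) = (q : ℂ) * ((N' * q : ℕ) : ℂ) := by
    cases r <;> simp only [rA, rk, rc] <;> push_cast <;> ring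
  have hfac' := congrArg (HahnSeries.C : ℂ → LaurentSeries ℂ) hfac
  rw [map_mul, map_mul] at hfac'
  have hcast : ((C.rc r : C.S) : ℂ) = (C.rc r : ℂ) := by simp
  have hcast' : ((q : C.S) : ℂ) = (q : ℂ) := by simp
  rw [hcast] at h1'
  rw [hcast']
  linear_combination (HahnSeries.C ((C.rA r * C.rk r : ℕ) : ℂ) * HahnSeries.C C.co.κ) * h1' +
    (HahnSeries.C C.co.κ * sIncl C.S GY) * hfac'

/-- Every translate of a side is a conjugate. -/
theorem exists_root {γ : SL(2, ℤ)} (hγ : γ ∈ CongruenceSubgroup.Gamma M0) :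
    ∃ r, compg γ C.sX = C.rX r ∧ compg γ C.sW = C.rW r ∧ compg γ C.sV = C.rV r ∧
      compg γ C.sU = C.rU r := by
  obtain ⟨r, hr⟩ : ∃ r, (q : ℤ) ∣ (γ * (C.gr r)⁻¹) 1 0 := by
    by_cases hc : (q : ℤ) ∣ γ 1 0
    · exact ⟨none, by simpa [gr] using hc⟩
    obtain ⟨hm, hM0, -⟩ := C.ne_zero_mod
    have hc' : ((γ 1 0 : ℤ) : ZMod q) ≠ 0 := fun h =>
      hc ((ZMod.intCast_zmod_eq_zero_iff_dvd _ _).1 h)
    set m : ℕ := M0 * N' with hmdef
    set K : ZMod q := (((γ 1 1 : ℤ) : ZMod q) * m - (γ 1 0 : ℤ)) /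
      (((γ 1 0 : ℤ) : ZMod q) * m * m)
    refine ⟨some (((m : ZMod q) * K + (m : ZMod q)⁻¹) / ((M0 : ℕ) : ZMod q)), ?_⟩
    rw [← ZMod.intCast_zmod_eq_zero_iff_dvd]
    rw [mul_inv_apply10]
    simp only [gr, gq, Matrix.SpecialLinearGroup.coe_mk, Matrix.of_apply,
      Matrix.cons_val', Matrix.cons_val_zero, Matrix.cons_val_one, Matrix.empty_val',
      Matrix.cons_val_fin_one]
    rw [idxK, ← hmdef]
    push_cast
    rw [ZMod.natCast_zmod_val]
    simp only [K]
    field_simp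
    ring
  have hmem := mul_mem hγ (inv_mem (C.gr_mem0 r))
  obtain ⟨h1, h2, h3, h4⟩ := C.side_fix hmem hr
  have hcomp : ∀ f : ℍ → ℂ, compg (γ * (C.gr r)⁻¹) f = f → compg γ f = compg (C.gr r) f := by
    intro f hf
    conv_rhs => rw [← hf]
    rw [compg_compg, inv_mul_cancel_right]
  exact ⟨r, hcomp _ h1, hcomp _ h2, hcomp _ h3, hcomp _ h4⟩

theorem rX_injective : Function.Injective C.rX := by
  intro r s h
  have hser : C.rHom r C.co.H = C.rHom s C.co.H :=
    sPairs_unique (C.rX_spec r) (h ▸ C.rX_spec s)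
  have hlead := C.co.leadH.2.map C.inc
  have hc : (coeffMap C.inc C.co.H).coeff (-1) ≠ 0 := by
    rw [coeffMap_coeff]
    haveI : Nontrivial C.S := inferInstance
    exact hlead.ne_zero
  have hnd : ¬ ((q * (N' * q) : ℕ) : ℤ) ∣ ((1 * N' : ℕ) : ℤ) * (-1) := by
    intro hd
    rw [mul_neg, mul_one, dvd_neg, Int.natCast_dvd_natCast, one_mul] at hd
    have h0 := Nat.le_of_dvd (Nat.pos_of_ne_zero (NeZero.ne N')) hd
    have h2 := C.hq.two_le
    have := Nat.pos_of_ne_zero (NeZero.ne N')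
    nlinarith [Nat.mul_le_mul_left N' (Nat.mul_le_mul h2 h2)]
  have hne : ∀ i, C.rHom none C.co.H ≠ C.rHom (some i) C.co.H := by
    intro i h
    have h' := congrArg (fun z : LaurentSeries C.S => z.coeff (((1 * N' : ℕ) : ℤ) * (-1))) h
    simp only [rHom, RingHom.comp_apply, rA, rk] at h'
    rw [substHom_coeff_of_not_dvd _ _ _ hnd, substHom_coeff_mul] at h'
    exact mul_ne_zero (Units.ne_zero _) hc h'.symm
  rcases r with _ | i <;> rcases s with _ | j
  · rfl
  · exact absurd hser (hne j)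
  · exact absurd hser.symm (hne i)
  · have h' := congrArg (fun z : LaurentSeries C.S => z.coeff (((1 * N' : ℕ) : ℤ) * (-1))) hser
    simp only [rHom, RingHom.comp_apply, rA, rk, substHom_coeff_mul, rB] at h'
    have h2 := mul_right_cancel₀ hc h'
    have h3 := congrArg (Units.map C.S.subtype.toMonoidHom) (Units.ext h2)
    simp only [map_zpow] at h3
    rw [show Units.map C.S.subtype.toMonoidHom C.ζ = zetaN (M0 * (N' * q)) from Units.ext C.hζ,
      ← zpow_mul, ← zpow_mul, ← mul_inv_eq_one, ← zpow_neg, ← zpow_add,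
      (zetaN_primitive (N := M0 * (N' * q))).zpow_eq_one_iff_dvd] at h3
    have h4 : ((M0 * N' : ℕ) : ℤ) * (q : ℤ) ∣ ((M0 * N' : ℕ) : ℤ) * ((j.val : ℤ) - i.val) := by
      convert h3 using 1 <;> push_cast <;> ring
    have h5 := Int.dvd_of_mul_dvd_mul_left (by exact_mod_cast NeZero.ne (M0 * N')) h4
    rw [← ZMod.intCast_zmod_eq_zero_iff_dvd] at h5
    push_cast at h5
    rw [ZMod.natCast_zmod_val, ZMod.natCast_zmod_val, sub_eq_zero] at h5
    rw [h5]

/-- Any two distinct conjugates are realised simultaneously fixing the level structure. -/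
theorem exists_move {r s : Option (ZMod q)} (hrs : r ≠ s) :
    ∃ δ ∈ CongruenceSubgroup.Gamma (M0 * N'), compg δ C.sX = C.rX r ∧
      compg δ (C.rX (some 0)) = C.rX s := by
  obtain ⟨hm, -, -⟩ := C.ne_zero_mod
  set h := C.gr r * (C.gr s)⁻¹ with hdef
  have hh : ¬ (q : ℤ) ∣ h 1 0 := by
    intro hd
    obtain ⟨h1, -⟩ := C.side_fix (mul_mem (C.gr_mem0 r) (inv_mem (C.gr_mem0 s))) hd
    refine hrs (C.rX_injective ?_)
    have e : compg (C.gr s) (compg h C.sX) = compg (C.gr s) C.sX := by rw [h1]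
    rwa [compg_compg, hdef, inv_mul_cancel_right] at e
  have hh' : ((h 1 0 : ℤ) : ZMod q) ≠ 0 := fun e => hh ((ZMod.intCast_zmod_eq_zero_iff_dvd _ _).1 e)
  set m : ℕ := M0 * N' with hmdef
  set g0 := C.gr (some 0)
  have g10 : g0 1 0 = (m : ℤ) := rfl
  set j : ℤ := Int.ofNat (-((m : ZMod q) * (h 0 0 : ℤ) + (g0 1 1 : ℤ) * (h 1 0 : ℤ)) /
    ((m : ZMod q) * m * (h 1 0 : ℤ))).val with hj
  set U := ModularGroup.T ^ ((m : ℤ) * j)
  have hU : U ∈ CongruenceSubgroup.Gamma m := by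
    rw [CongruenceSubgroup.Gamma_mem]
    simp only [U, ModularGroup.coe_T_zpow]
    simp
  have hU0 : U 1 0 = 0 ∧ U 0 0 = 1 ∧ U 0 1 = (m : ℤ) * j ∧ U 1 1 = 1 := by
    simp [U, ModularGroup.coe_T_zpow]
  obtain ⟨u1, -⟩ := C.side_fix (mem_M0_of_mem_m hU) (by rw [hU0.1]; exact dvd_zero _)
  refine ⟨U * C.gr r, mul_mem hU (C.gr_mem r), ?_, ?_⟩
  · rw [← compg_compg, u1]; rfl
  · rw [rX, compg_compg]
    have hmem : g0 * U * h ∈ CongruenceSubgroup.Gamma M0 :=
      mul_mem (mul_mem (C.gr_mem0 _) (mem_M0_of_mem_m hU))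
        (mul_mem (C.gr_mem0 r) (inv_mem (C.gr_mem0 s)))
    have hdvd : (q : ℤ) ∣ (g0 * U * h) 1 0 := by
      rw [← ZMod.intCast_zmod_eq_zero_iff_dvd]
      simp only [Matrix.SpecialLinearGroup.coe_mul, Matrix.mul_apply, Fin.sum_univ_two, hU0, g10]
      push_cast
      simp only [j, Int.ofNat_eq_natCast, Int.cast_natCast]
      rw [ZMod.natCast_zmod_val]
      field_simp
      ring
    obtain ⟨f1, -⟩ := C.side_fix hmem hdvd
    have e : g0 * (U * C.gr r) = g0 * U * h * C.gr s := by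
      rw [hdef]; group
    rw [e, ← compg_compg, f1]
    rfl

end Ctx

end FLTAgent.Carayol
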