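import Fermat.Agent.Carayol.Euler

/-!
# The coordinate, its translates under isogenies of degree `q` and their expansions
-/

set_option autoImplicit false
set_option linter.unusedSectionVars false
set_option linter.style.haveILetI false

noncomputable section

open UpperHalfPlane hiding I I_re I_im
open Filter Topology Complex Function FLTAgent.ModEq FLTAgent.GoodModel ModularCurve
open scoped MatrixGroups Manifold

namespace FLTAgent.Carayol

/-- The automorphy factor. -/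
def den (σ : SL(2, ℤ)) (τ : ℍ) : ℂ := ((σ 1 0 : ℤ) : ℂ) * τ + ((σ 1 1 : ℤ) : ℂ)

theorem den_ne (σ : SL(2, ℤ)) (τ : ℍ) : den σ τ ≠ 0 := den_ne_zero σ τ

theorem thetaF_coe (z : ℍ) : thetaF 1 (fun τ : ℍ => (τ : ℂ)) z = 1 / (2 * Real.pi * I) := by
  rw [thetaF]
  have : ((fun τ : ℍ => (τ : ℂ)) ∘ ofComplex) =ᶠ[𝓝 (z : ℂ)] id := by
    filter_upwards [isOpen_upperHalfPlaneSet.mem_nhds z.im_pos] with w hw
    simp [ofComplex_apply_of_im_pos hw]
  rw [this.deriv_eq, deriv_id, Nat.cast_one, mul_one]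

theorem thetaF_comp_affPt {n : ℕ} {f : ℍ → ℂ} (hf : MDiff f) (A : ℕ) (B : ℤ) (D : ℕ) [NeZero A]
    [NeZero D] (τ : ℍ) : thetaF n (fun τ => f (affPt A B D τ)) τ =
      (A : ℂ) / D * thetaF n f (affPt A B D τ) := by
  rw [UpperHalfPlane.mdifferentiable_iff] at hf
  have h1 := (hf.differentiableAt
    (isOpen_upperHalfPlaneSet.mem_nhds (affPt A B D τ).im_pos)).hasDerivAt
  rw [coe_affPt A B D τ] at h1
  have h2 : HasDerivAt (fun z : ℂ => ((A : ℂ) * z + B) / D) ((A : ℂ) / D) (τ : ℂ) := by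
    simpa using (((hasDerivAt_id (τ : ℂ)).const_mul (A : ℂ)).add_const (B : ℂ)).div_const (D : ℂ)
  have h3 := h1.comp (τ : ℂ) h2
  have heq : (fun τ => f (affPt A B D τ)) ∘ ofComplex =ᶠ[𝓝 (τ : ℂ)]
      (f ∘ ofComplex) ∘ fun z : ℂ => ((A : ℂ) * z + B) / D := by
    filter_upwards [isOpen_upperHalfPlaneSet.mem_nhds τ.im_pos] with z hz
    simp only [comp_apply, ofComplex_apply_of_im_pos hz]
    rw [show (((A : ℂ) * z + B) / D) = ((affPt A B D ⟨z, hz⟩ : ℍ) : ℂ) from rfl, ofComplex_apply]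
  rw [thetaF, thetaF, (h3.congr_of_eventuallyEq heq).deriv, coe_affPt]
  ring

theorem mdiff_comp_sl {f : ℍ → ℂ} (hf : MDiff f) (g : SL(2, ℤ)) : MDiff fun τ => f (g • τ) :=
  hf.comp (UpperHalfPlane.mdifferentiable_smul (g := (g : GL (Fin 2) ℝ)) (by simp))

/-- The automorphy factors along an isogeny. -/
theorem den_transport {A₀ D₀ A D : ℕ} {B : ℤ} [NeZero A₀] [NeZero D₀] [NeZero A] [NeZero D]
    {σ δ : SL(2, ℤ)} (h : ∀ τ : ℍ, affPt A₀ 0 D₀ (σ • τ) = δ • affPt A B D τ) (τ : ℍ) :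
    (A₀ : ℂ) * D * den δ (affPt A B D τ) ^ 2 = (A : ℂ) * D₀ * den σ τ ^ 2 := by
  have hco : MDiff (fun τ : ℍ => (τ : ℂ)) := UpperHalfPlane.mdifferentiable_coe
  have h1 := thetaF_comp_smul (n := 1) (mdiff_comp_affPt A₀ 0 D₀ hco) σ τ
  rw [thetaF_comp_affPt hco, thetaF_coe] at h1
  simp only [h] at h1
  have h2 := thetaF_comp_affPt (n := 1) (f := fun z : ℍ => ((δ • z : ℍ) : ℂ))
    (mdiff_comp_sl hco δ) A B D τ
  rw [thetaF_comp_smul hco, thetaF_coe] at h2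
  rw [h2] at h1
  have e1 : den σ τ ≠ 0 := den_ne σ τ
  have e2 : den δ (affPt A B D τ) ≠ 0 := den_ne δ _
  have hD : (D : ℂ) ≠ 0 := Nat.cast_ne_zero.mpr (NeZero.ne D)
  have hD0 : (D₀ : ℂ) ≠ 0 := Nat.cast_ne_zero.mpr (NeZero.ne D₀)
  have : (2 * Real.pi * I : ℂ) ≠ 0 := by simp [Real.pi_ne_zero, I_ne_zero]
  simp only [den] at e1 e2 ⊢
  field_simp at h1
  linear_combination -h1

theorem sPairs_mono {S W : Subring ℂ} (h : W ≤ S) {n : ℕ} {φ : ℍ → ℂ} {G : LaurentSeries W}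
    (hG : (φ, G) ∈ sPairs W n) : (φ, coeffMap (Subring.inclusion h) G) ∈ sPairs S n := by
  refine mem_sPairs.mpr ⟨(mem_sPairs.mp hG).1, ?_⟩
  rw [sIncl, coeffMap_coeffMap]
  exact (mem_sPairs.mp hG).2

/-- Functions with expansions at a level are in the ring of a multiple level. -/
theorem mem_trRing_of_level {S W : Subring ℂ} (h : W ≤ S) {a k n : ℕ} [NeZero a] [NeZero k]
    [NeZero n] (hk : a * k = n) {φ : ℍ → ℂ} (hφ : φ ∈ trRing W a) : φ ∈ trRing S n :=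
  mem_trRing.mpr fun σ => by
    obtain ⟨G, hG⟩ := mem_trRing.mp hφ σ
    exact ⟨_, sPairs_refine hk (sPairs_mono h hG)⟩

variable (W : Subring ℂ) (M0 : ℕ) [NeZero M0]

/-- The coordinate over a ring of constants. -/
structure Coord where
  H : LaurentSeries W
  c : Fin M0 → W
  α : W
  β : W
  isUnit_α : IsUnit α
  hH : (coordT M0, H) ∈ sPairs W M0
  leadH : LeadAt H (-1)
  cusp : CuspData W M0 (coordT M0) c
  avoid : ∀ i τ, coordT M0 τ ≠ (c i : ℂ)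
  rat : ∀ k, ((H.coeff k : W) : ℂ) ∈ ratLoc M0
  affine : ∀ τ, coordT M0 τ = (α : ℂ) * hh M0 τ + (β : ℂ)
  Θ : ℍ → ℂ
  GΘ : LaurentSeries W
  κ : ℂ
  Θ_mdiff : MDiff Θ
  Θ_ne : ∀ τ, Θ τ ≠ 0
  Θ_weight : ∀ γ ∈ CongruenceSubgroup.Gamma M0, ∀ τ : ℍ, Θ (γ • τ) = den γ τ ^ 2 * Θ τ
  Θ_unit : ∀ σ : SL(2, ℤ), ∃ U : (LaurentSeries W)ˣ,
    ((fun τ : ℍ => Θ (σ • τ) / den σ τ ^ 2), (U : LaurentSeries W)) ∈ sPairs W M0
  hGΘ : (Θ, GΘ) ∈ sPairs W M0
  leadΘ : LeadAt GΘ (-1)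
  κ_ne : κ ≠ 0
  eul_H : eul (sIncl W H) = HahnSeries.C κ * sIncl W GΘ

theorem nonempty_coord (hM : M0 = 2 ∨ M0 = 3) (ζ : Wˣ) (hζ : ((ζ : W) : ℂ) = zetaN M0)
    (hu : IsUnit ((M0 : ℕ) : W)) : Nonempty (Coord W M0) := by
  obtain ⟨H, c, α, β, hH, hl, hc, hne, hrat, hα, haff⟩ := exists_coordT_data hM ζ hζ hu
  obtain ⟨Θ, G, κ, h1, h2, h3, h4, h5, h6, h7, h8⟩ := exists_theta hM ζ hζ hu hH hl hc hne
  exact ⟨⟨H, c, α, β, hα, hH, hl, hc, hne, hrat, haff, Θ, G, κ, h1, h2, h3, h4, h5, h6, h7, h8⟩⟩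

variable {W M0}

/-- The data of the auxiliary cover. -/
structure Ctx (q M0 N' : ℕ) [NeZero M0] [NeZero N'] [NeZero q] where
  hq : q.Prime
  hM : M0 = 2 ∨ M0 = 3
  hqm : ¬ q ∣ M0 * N'
  W : Subring ℂ
  S : Subring ℂ
  hWS : W ≤ S
  ζ : Sˣ
  hζ : ((ζ : S) : ℂ) = zetaN (M0 * (N' * q))
  ζm : Wˣ
  hζm : ((ζm : W) : ℂ) = zetaN (M0 * N')
  hu : IsUnit ((M0 * N' : ℕ) : W)
  co : Coord W M0

namespace Ctx

variable {q M0 N' : ℕ} [NeZero M0] [NeZero N'] [NeZero q] (C : Ctx q M0 N')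

/-- The inclusion of the constants. -/
abbrev inc : C.W →+* C.S := Subring.inclusion C.hWS

/-- The coordinate. -/
abbrev T (_C : Ctx q M0 N') : ℍ → ℂ := coordT M0

/-- Elements of `±Γ(M₀)`. -/
def Pm (M0 : ℕ) (γ : SL(2, ℤ)) : Prop :=
  γ ∈ CongruenceSubgroup.Gamma M0 ∨ -γ ∈ CongruenceSubgroup.Gamma M0

theorem T_pm {γ : SL(2, ℤ)} (h : Pm M0 γ) (τ : ℍ) : C.T (γ • τ) = C.T τ := by
  rcases h with h | h
  · exact coordT_invariant h τ
  · rw [← ModularGroup.SL_neg_smul]; exact coordT_invariant h τ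

theorem Θ_pm {γ : SL(2, ℤ)} (h : Pm M0 γ) (τ : ℍ) :
    C.co.Θ (γ • τ) = den γ τ ^ 2 * C.co.Θ τ := by
  rcases h with h | h
  · exact C.co.Θ_weight γ h τ
  · rw [← ModularGroup.SL_neg_smul, C.co.Θ_weight _ h τ]
    congr 1
    simp only [den, Matrix.SpecialLinearGroup.coe_neg, Matrix.neg_apply]
    push_cast
    ring

theorem zeta0 : (((C.ζm ^ N' : C.Wˣ) : C.W) : ℂ) = zetaN M0 := by
  rw [Units.val_pow_eq_pow_val, SubmonoidClass.coe_pow, C.hζm, zetaN, zetaN, Units.val_mk0,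
    Units.val_mk0, ← Complex.exp_nat_mul]
  congr 1
  have : (N' : ℂ) ≠ 0 := Nat.cast_ne_zero.mpr (NeZero.ne N')
  have : (M0 : ℂ) ≠ 0 := Nat.cast_ne_zero.mpr (NeZero.ne M0)
  push_cast
  field_simp

theorem unit_M0 : IsUnit ((M0 : ℕ) : C.W) := by
  have h := C.hu
  rw [Nat.cast_mul] at h
  exact (IsUnit.mul_iff.mp h).1

/-- A function invariant under `±Γ(M₀)` with expansions at the representatives. -/
theorem mem_trRing_of_reps {φ : ℍ → ℂ}
    (hinv : ∀ γ ∈ CongruenceSubgroup.Gamma M0, ∀ τ : ℍ, φ (γ • τ) = φ τ)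
    (hrep : ∀ r : SL(2, ℤ), (r = 1 ∨ ∃ i, r = cuspRep0 M0 i) →
      ∃ G : LaurentSeries C.W, ((fun τ => φ (r • τ)), G) ∈ sPairs C.W M0) :
    φ ∈ trRing C.W M0 := by
  refine mem_trRing.mpr fun σ => ?_
  obtain ⟨γ, hγ, r, hr, k, hσ⟩ := exists_cusp_decomp C.hM σ
  obtain ⟨G, hG⟩ := hrep r hr
  obtain ⟨w, hw⟩ := exists_sPairs_shift (C.ζm ^ N') C.zeta0 k hG
  refine ⟨substHom w 1 G, ?_⟩
  convert hw using 2
  funext τ
  rw [compg_apply, hσ, hinv γ hγ]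

theorem T_mem0 : C.T ∈ trRing C.W M0 := by
  refine C.mem_trRing_of_reps (fun γ hγ => coordT_invariant hγ) ?_
  rintro r (rfl | ⟨i, rfl⟩)
  · exact ⟨C.co.H, by simpa using C.co.hH⟩
  · obtain ⟨G, hG, -⟩ := C.co.cusp.2 i
    refine ⟨G + HahnSeries.C (C.co.c i), ?_⟩
    have h := (sPairs C.W M0).add_mem hG (sPairs_const (n := M0) (C.co.c i))
    convert h using 1
    refine Prod.ext (funext fun τ => ?_) rfl
    simp

/-- The product of the differences with the cusp values. -/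
def dlt : ℍ → ℂ := fun τ => ∏ i, (C.T τ - (C.co.c i : ℂ))

theorem dlt_ne (τ : ℍ) : C.dlt τ ≠ 0 :=
  Finset.prod_ne_zero_iff.2 fun i _ => sub_ne_zero.2 (C.co.avoid i τ)

theorem dlt_inv_mem0 : (fun τ => (C.dlt τ)⁻¹) ∈ trRing C.W M0 := by
  refine C.mem_trRing_of_reps (fun γ hγ τ => by simp only [dlt, T, coordT_invariant hγ]) fun r hr => ?_
  have hunit : ∀ j, ∃ U : (LaurentSeries C.W)ˣ,
      ((fun τ => C.T (r • τ) - (C.co.c j : ℂ)), (U : LaurentSeries C.W)) ∈ sPairs C.W M0 := by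
    intro j
    rcases hr with rfl | ⟨i, rfl⟩
    · have hl : LeadAt (C.co.H - HahnSeries.C (C.co.c j)) (-1) :=
        ⟨fun k hk => by
            rw [HahnSeries.coeff_sub, C.co.leadH.1 k hk, geOrd_C (C.co.c j) k (by omega), sub_zero],
          by rw [HahnSeries.coeff_sub, geOrd_C (C.co.c j) (-1) (by norm_num), sub_zero]
             exact C.co.leadH.2⟩
      obtain ⟨u, hu, -⟩ := hl.exists_inv
      refine ⟨u, ?_⟩
      rw [hu]
      have h := (sPairs C.W M0).sub_mem C.co.hH (sPairs_const (n := M0) (C.co.c j))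
      convert h using 1
      refine Prod.ext (funext fun τ => ?_) rfl
      simp
    · obtain ⟨G, hG, hl⟩ := C.co.cusp.2 i
      have hl' : ∃ a, LeadAt (G + HahnSeries.C (C.co.c i - C.co.c j)) a := by
        rcases eq_or_ne i j with rfl | hij
        · exact ⟨1, by simpa using hl⟩
        · refine ⟨0, fun k hk => ?_, ?_⟩
          · rw [HahnSeries.coeff_add, hl.1 k (by omega), geOrd_C _ k hk, add_zero]
          · rw [HahnSeries.coeff_add, hl.1 0 (by omega), zero_add]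
            simpa using C.co.cusp.1 i j hij
      obtain ⟨a, ha⟩ := hl'
      obtain ⟨u, hu, -⟩ := ha.exists_inv
      refine ⟨u, ?_⟩
      rw [hu]
      have h := (sPairs C.W M0).add_mem hG (sPairs_const (n := M0) (C.co.c i - C.co.c j))
      convert h using 1
      refine Prod.ext (funext fun τ => ?_) rfl
      simp
  choose U hU using hunit
  refine ⟨(((∏ j, U j)⁻¹ : (LaurentSeries C.W)ˣ) : LaurentSeries C.W), ?_⟩
  have hp := sPairs_inv (S := C.W) (n := M0) (∏ j, U j) (φ := fun τ => C.dlt (r • τ)) ?_ fun τ => C.dlt_ne _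
  · exact hp
  · have h := Subring.prod_mem (sPairs C.W M0) (t := Finset.univ) fun j _ => hU j
    convert h using 1
    refine Prod.ext (funext fun τ => ?_) ?_
    · simp [dlt, Prod.fst_prod]
    · simp [Prod.snd_prod]

theorem T_mem : C.T ∈ trRing C.S (M0 * (N' * q)) :=
  mem_trRing_of_level C.hWS (k := N' * q) rfl C.T_mem0

theorem dlt_inv_mem : (fun τ => (C.dlt τ)⁻¹) ∈ trRing C.S (M0 * (N' * q)) :=
  mem_trRing_of_level C.hWS (k := N' * q) rfl C.dlt_inv_mem0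

/-- The expansion of the coordinate. -/
def Ys : LaurentSeries C.S := qExpand C.S (N' * q) (coeffMap C.inc C.co.H)

theorem Ys_spec : (C.T, C.Ys) ∈ sPairs C.S (M0 * (N' * q)) :=
  sPairs_refine rfl (sPairs_mono C.hWS C.co.hH)

/-- Translates under the isogenies of degree `q` of functions of level `M₀`. -/
theorem comp_aff_mem {φ : ℍ → ℂ} (hφ : φ ∈ trRing C.W M0) (A₀ D₀ : ℕ) [NeZero A₀] [NeZero D₀]
    (h : A₀ * D₀ = q) : (fun τ => φ (affPt A₀ 0 D₀ τ)) ∈ trRing C.S (M0 * (N' * q)) := by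
  refine mem_trRing.mpr fun σ => ?_
  obtain ⟨A, D, B, δ, _, _, hAD, he⟩ := exists_affPt_smul A₀ D₀ σ
  obtain ⟨G, hG⟩ := mem_trRing.mp hφ δ
  haveI : NeZero (A * (N' * A)) := ⟨by simp [NeZero.ne A, NeZero.ne N']⟩
  have h1 := sPairs_comp_affPt C.ζ C.hζ A B D M0 (N' * A)
    (by rw [← h, ← hAD]; ring) (sPairs_mono C.hWS hG)
  refine ⟨substHom (C.ζ ^ (((N' * A : ℕ) : ℤ) * B)) (A * (N' * A)) (coeffMap C.inc G), ?_⟩
  convert h1 using 2
  funext τ
  simp only [compg_apply, he]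

section Side

/-- The isogenous coordinate. -/
def sX : ℍ → ℂ := fun τ => C.T (affPt q 0 1 τ)

/-- The slope of the isogeny. -/
def sW : ℍ → ℂ := fun τ => C.co.Θ τ / C.co.Θ (affPt q 0 1 τ)

/-- The dual slope. -/
def sV : ℍ → ℂ := fun τ => (q : ℂ) ^ 2 * C.co.Θ (affPt q 0 1 τ) / C.co.Θ τ

/-- The inverse of the product of differences at the isogenous point. -/
def sU : ℍ → ℂ := fun τ => (C.dlt (affPt q 0 1 τ))⁻¹

theorem sW_mul_sV : C.sW * C.sV = fun _ => (q : ℂ) ^ 2 := by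
  funext τ
  have h1 := C.co.Θ_ne τ
  have h2 := C.co.Θ_ne (affPt q 0 1 τ)
  simp only [Pi.mul_apply, sW, sV]
  field_simp

theorem sX_mem : C.sX ∈ trRing C.S (M0 * (N' * q)) := C.comp_aff_mem C.T_mem0 q 1 (mul_one q)

theorem sU_mem : C.sU ∈ trRing C.S (M0 * (N' * q)) := C.comp_aff_mem C.dlt_inv_mem0 q 1 (mul_one q)

theorem sW_sV_mem : C.sW ∈ trRing C.S (M0 * (N' * q)) ∧ C.sV ∈ trRing C.S (M0 * (N' * q)) := by
  have key : ∀ σ, (∃ G, (compg σ C.sW, G) ∈ sPairs C.S (M0 * (N' * q))) ∧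
      ∃ G, (compg σ C.sV, G) ∈ sPairs C.S (M0 * (N' * q)) := by
    intro σ
    obtain ⟨A, D, B, δ, _, _, hAD, he⟩ := exists_affPt_smul q 1 σ
    rw [mul_one] at hAD
    obtain ⟨U1, hU1⟩ := C.co.Θ_unit σ
    obtain ⟨U2, hU2⟩ := C.co.Θ_unit δ
    haveI : NeZero (A * (N' * A)) := ⟨by simp [NeZero.ne A, NeZero.ne N']⟩
    set U1' := U1.map ((qExpand C.S (N' * q)).comp (coeffMap C.inc)).toMonoidHom
    set U2' := U2.map ((substHom (C.ζ ^ (((N' * A : ℕ) : ℤ) * B)) (A * (N' * A))).comp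
      (coeffMap C.inc)).toMonoidHom
    have p1 : ((fun τ => C.co.Θ (σ • τ) / den σ τ ^ 2), (U1' : LaurentSeries C.S)) ∈
        sPairs C.S (M0 * (N' * q)) := sPairs_refine rfl (sPairs_mono C.hWS hU1)
    have p2 : ((fun τ => C.co.Θ (δ • affPt A B D τ) / den δ (affPt A B D τ) ^ 2),
        (U2' : LaurentSeries C.S)) ∈ sPairs C.S (M0 * (N' * q)) :=
      sPairs_comp_affPt C.ζ C.hζ A B D M0 (N' * A) (by rw [← hAD]; ring) (sPairs_mono C.hWS hU2)
    have n1 : ∀ τ, C.co.Θ (σ • τ) / den σ τ ^ 2 ≠ 0 := fun τ =>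
      div_ne_zero (C.co.Θ_ne _) (pow_ne_zero 2 (den_ne σ τ))
    have n2 : ∀ τ, C.co.Θ (δ • affPt A B D τ) / den δ (affPt A B D τ) ^ 2 ≠ 0 := fun τ =>
      div_ne_zero (C.co.Θ_ne _) (pow_ne_zero 2 (den_ne δ _))
    have hA : (A : ℂ) ≠ 0 := Nat.cast_ne_zero.mpr (NeZero.ne A)
    have hq' : (q : ℂ) = A * D := by rw [← hAD]; push_cast; ring
    have rel : ∀ τ, den σ τ ^ 2 = (D : ℂ) ^ 2 * den δ (affPt A B D τ) ^ 2 := fun τ => by
      have := den_transport he τ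
      rw [hq', Nat.cast_one, mul_one] at this
      refine mul_left_cancel₀ hA ?_
      linear_combination -this
    refine ⟨⟨HahnSeries.C ((D : C.S) ^ 2) * ((U1' : LaurentSeries C.S) *
        ((U2'⁻¹ : (LaurentSeries C.S)ˣ) : LaurentSeries C.S)), ?_⟩,
      ⟨HahnSeries.C ((A : C.S) ^ 2) * ((U2' : LaurentSeries C.S) *
        ((U1'⁻¹ : (LaurentSeries C.S)ˣ) : LaurentSeries C.S)), ?_⟩⟩
    · have h := (sPairs C.S (M0 * (N' * q))).mul_mem (sPairs_const ((D : C.S) ^ 2))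
        ((sPairs C.S (M0 * (N' * q))).mul_mem p1 (sPairs_inv U2' p2 n2))
      convert h using 1
      refine Prod.ext (funext fun τ => ?_) rfl
      have e1 := den_ne δ (affPt A B D τ)
      have e3 := C.co.Θ_ne (δ • affPt A B D τ)
      have e4 : (D : ℂ) ≠ 0 := Nat.cast_ne_zero.mpr (NeZero.ne D)
      simp only [compg_apply, sW, he, Prod.fst_mul, Pi.mul_apply, rel τ]
      push_cast
      field_simp
    · have h := (sPairs C.S (M0 * (N' * q))).mul_mem (sPairs_const ((A : C.S) ^ 2))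
        ((sPairs C.S (M0 * (N' * q))).mul_mem p2 (sPairs_inv U1' p1 n1))
      convert h using 1
      refine Prod.ext (funext fun τ => ?_) rfl
      have e1 := den_ne δ (affPt A B D τ)
      have e3 := C.co.Θ_ne (σ • τ)
      have e4 : (D : ℂ) ≠ 0 := Nat.cast_ne_zero.mpr (NeZero.ne D)
      simp only [compg_apply, sV, he, Prod.fst_mul, Pi.mul_apply, rel τ]
      push_cast
      rw [hq']
      field_simp
  exact ⟨mem_trRing.mpr fun σ => (key σ).1, mem_trRing.mpr fun σ => (key σ).2⟩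

/-- Invariance of the functions of one side under `Γ₀(q)`. -/
theorem side_fix {γ : SL(2, ℤ)} (hγ : γ ∈ CongruenceSubgroup.Gamma M0) (hc : (q : ℤ) ∣ γ 1 0) :
    compg γ C.sX = C.sX ∧ compg γ C.sW = C.sW ∧ compg γ C.sV = C.sV ∧ compg γ C.sU = C.sU := by
  obtain ⟨c', hc'⟩ := hc
  obtain ⟨h00, h01, h10, h11⟩ := CongruenceSubgroup.Gamma_mem.mp hγ
  have hqu : IsUnit ((q : ℕ) : ZMod M0) := by
    rw [ZMod.isUnit_iff_coprime]
    exact (C.hq.coprime_iff_not_dvd.2 fun h => C.hqm (dvd_mul_of_dvd_left h _))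
  obtain ⟨δ, d00, d01, d10, d11⟩ : ∃ δ : SL(2, ℤ),
      δ 0 0 = γ 0 0 ∧ δ 0 1 = q * γ 0 1 ∧ δ 1 0 = c' ∧ δ 1 1 = γ 1 1 :=
    ⟨⟨!![γ 0 0, q * γ 0 1; c', γ 1 1], by
      rw [Matrix.det_fin_two_of]
      linear_combination (det_eq γ) + γ 0 1 * hc'⟩, rfl, rfl, rfl, rfl⟩
  have hδ : δ ∈ CongruenceSubgroup.Gamma M0 := by
    rw [CongruenceSubgroup.Gamma_mem, d00, d01, d10, d11]
    refine ⟨h00, by push_cast; rw [h01, mul_zero], ?_, h11⟩
    have : ((q : ℕ) : ZMod M0) * (c' : ZMod M0) = 0 := by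
      have := congrArg (fun z : ℤ => (z : ZMod M0)) hc'
      push_cast at this
      rw [← this, h10]
    exact hqu.mul_right_eq_zero.1 this
  have he : ∀ τ : ℍ, affPt q 0 1 (γ • τ) = δ • affPt q 0 1 τ := fun τ => by
    refine UpperHalfPlane.ext ?_
    rw [coe_sl_smul' δ, d00, d01, d10, d11, coe_affPt, coe_affPt, coe_sl_smul' γ]
    have hden : ((γ 1 0 : ℤ) : ℂ) * τ + (γ 1 1 : ℤ) ≠ 0 := den_ne_zero γ τ
    have hc'' : ((γ 1 0 : ℤ) : ℂ) = q * c' := by exact_mod_cast hc'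
    rw [hc''] at hden ⊢
    have : (c' : ℂ) * ((q : ℂ) * τ) + (γ 1 1 : ℤ) ≠ 0 := by convert hden using 1; ring
    push_cast
    simp only [add_zero, div_one]
    field_simp
  have hden : ∀ τ, den δ (affPt q 0 1 τ) = den γ τ := fun τ => by
    simp only [den, d10, d11, coe_affPt]
    rw [show ((γ 1 0 : ℤ) : ℂ) = q * c' by exact_mod_cast hc']
    push_cast
    ring
  refine ⟨?_, ?_, ?_, ?_⟩ <;> funext τ <;> rw [compg_apply]
  · simp only [sX, he, C.T_pm (Or.inl hδ)]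
  · simp only [sW, he, C.co.Θ_weight _ hγ, C.co.Θ_weight _ hδ, hden]
    exact mul_div_mul_left _ _ (pow_ne_zero 2 (den_ne γ τ))
  · simp only [sV, he, C.co.Θ_weight _ hγ, C.co.Θ_weight _ hδ, hden]
    rw [mul_left_comm, mul_div_mul_left _ _ (pow_ne_zero 2 (den_ne γ τ))]
  · simp only [sU, dlt, he, C.T_pm (Or.inl hδ)]

end Side

end Ctx

end FLTAgent.Carayol
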