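import Fermat.Agent.Carayol.Frac

/-!
# The branches over `q`, sorted by sheet and kind
-/

set_option autoImplicit false
set_option linter.unusedSectionVars false
set_option linter.style.haveILetI false

noncomputable section

open UpperHalfPlane hiding I I_re I_im
open Filter Topology Complex Function FLTAgent.ModEq FLTAgent.GoodModel ModularCurve
open scoped MatrixGroups Manifold Classical

namespace FLTAgent.Carayol

namespace Ctx

variable {q M0 N' : ℕ} [NeZero M0] [NeZero N'] [NeZero q] [Fact q.Prime] (C : Ctx q M0 N')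

/-- The sheets. -/
abbrev Sheet : Type := {g : ℍ → ℂ // g ∈ C.nodes}

theorem exists_rep_pair (g : C.Sheet) {r s : Option (ZMod q)} (hrs : r ≠ s) :
    ∃ γ ∈ CongruenceSubgroup.Gamma M0, compg γ C.eta = g.1 ∧ compg γ C.sX = C.rX r ∧
      compg γ (C.rX (some 0)) = C.rX s := by
  obtain ⟨γ, hγ, he⟩ := C.mem_nodes.1 g.2
  have hback : ∀ t : Option (ZMod q), ∃ t', compg γ⁻¹ (C.rX t) = C.rX t' := fun t => by
    obtain ⟨t', ht', -⟩ := C.exists_root (mul_mem (C.gr_mem0 t) (inv_mem hγ))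
    exact ⟨t', by rw [rX, compg_compg]; exact ht'⟩
  obtain ⟨r', hr'⟩ := hback r
  obtain ⟨s', hs'⟩ := hback s
  have hrs' : r' ≠ s' := fun h =>
    hrs (C.rX_injective (compg_injective γ⁻¹ (by rw [hr', hs', h])))
  obtain ⟨δ, hδ, hd1, hd2⟩ := C.exists_move hrs'
  refine ⟨δ * γ, mul_mem (mem_M0_of_mem_m hδ) hγ, ?_, ?_, ?_⟩
  · rw [← compg_compg, C.eta_fix hδ, he]
  · rw [← compg_compg, hd1, ← hr', compg_compg, inv_mul_cancel, compg_one]
  · rw [← compg_compg, hd2, ← hs', compg_compg, inv_mul_cancel, compg_one]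

/-- The kind of a pair of roots. -/
def kindOf (_C : Ctx q M0 N') (r s : Option (ZMod q)) : Fin 3 :=
  if r = none then 0 else if s = none then 2 else 1

/-- Standard roots of a kind. -/
def kroot (_C : Ctx q M0 N') : Fin 3 → Bool → Option (ZMod q)
  | 0, false => none
  | 0, true => some 0
  | 1, false => some 0
  | 1, true => some 1
  | 2, false => some 0
  | 2, true => none

theorem kroot_ne (j : Fin 3) : C.kroot j false ≠ C.kroot j true := by
  fin_cases j <;> simp [kroot]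

theorem kindOf_kroot (j : Fin 3) : C.kindOf (C.kroot j false) (C.kroot j true) = j := by
  fin_cases j <;> simp [kroot, kindOf]

/-- A representative of a branch. -/
def gm (g : C.Sheet) (j : Fin 3) : SL(2, ℤ) := (C.exists_rep_pair g (C.kroot_ne j)).choose

theorem gm_mem (g : C.Sheet) (j : Fin 3) : C.gm g j ∈ CongruenceSubgroup.Gamma M0 :=
  (C.exists_rep_pair g (C.kroot_ne j)).choose_spec.1

theorem gm_eta (g : C.Sheet) (j : Fin 3) : compg (C.gm g j) C.eta = g.1 :=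
  (C.exists_rep_pair g (C.kroot_ne j)).choose_spec.2.1

theorem gm_root (g : C.Sheet) (j : Fin 3) (b : Bool) :
    compg (C.gm g j) (C.rX (C.sb b)) = C.rX (C.kroot j b) := by
  cases b
  · have h := (C.exists_rep_pair g (C.kroot_ne j)).choose_spec.2.2.1
    simpa [sb, rX, gr, compg_one, gm] using h
  · exact (C.exists_rep_pair g (C.kroot_ne j)).choose_spec.2.2.2

/-- The sheet of an index. -/
def sheet (l : C.Idx) : C.Sheet :=
  ⟨compg (C.rep l) C.eta, C.compg_mem_nodes (C.rep_mem l) C.eta_mem_nodes⟩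

theorem exists_rt (l : C.Idx) (b : Bool) : ∃ r, compg (C.rep l) (C.rX (C.sb b)) = C.rX r := by
  obtain ⟨r, hr, -⟩ := C.exists_root (mul_mem (C.gr_mem0 (C.sb b)) (C.rep_mem l))
  exact ⟨r, by rw [rX, compg_compg]; exact hr⟩

/-- The roots of an index. -/
def rt (l : C.Idx) (b : Bool) : Option (ZMod q) := (C.exists_rt l b).choose

theorem rt_spec (l : C.Idx) (b : Bool) : compg (C.rep l) (C.rX (C.sb b)) = C.rX (C.rt l b) :=
  (C.exists_rt l b).choose_spec

theorem rt_ne (l : C.Idx) (b : Bool) : C.rt l b ≠ C.rt l !b := fun h => by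
  have h1 := C.rX_injective (compg_injective (C.rep l) (by rw [C.rt_spec, C.rt_spec, h]) :
    C.rX (C.sb b) = C.rX (C.sb !b))
  cases b <;> simp [sb] at h1

/-- The kind of an index. -/
def kind (l : C.Idx) : Fin 3 := C.kindOf (C.rt l false) (C.rt l true)

theorem triple_eq {γ : SL(2, ℤ)} {g : ℍ → ℂ} {r s : Option (ZMod q)} (he : compg γ C.eta = g)
    (hr : compg γ C.sX = C.rX r) (hs : compg γ (C.rX (some 0)) = C.rX s) :
    C.triple γ = (g, C.rX r, C.rX s) := by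
  rw [triple, he, hr, hs]

theorem idx_data {γ : SL(2, ℤ)} (hγ : γ ∈ CongruenceSubgroup.Gamma M0) :
    compg (C.rep (C.idx hγ)) C.eta = compg γ C.eta ∧
      ∀ b r, compg γ (C.rX (C.sb b)) = C.rX r → C.rt (C.idx hγ) b = r := by
  have h := C.triple_rep (C.idx hγ)
  simp only [triple, idx, Prod.mk.injEq] at h
  refine ⟨h.1, fun b r hr => C.rX_injective ?_⟩
  rw [← C.rt_spec, ← hr]
  cases b
  · show compg _ (compg (C.gr none) C.sX) = compg _ (compg (C.gr none) C.sX)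
    simp only [gr, compg_one]
    exact h.2.1
  · exact h.2.2

/-- The index of a sheet and two roots. -/
def mkIdx (g : C.Sheet) {r s : Option (ZMod q)} (h : r ≠ s) : C.Idx :=
  C.idx (C.exists_rep_pair g h).choose_spec.1

theorem mkIdx_data (g : C.Sheet) {r s : Option (ZMod q)} (h : r ≠ s) :
    C.sheet (C.mkIdx g h) = g ∧ C.rt (C.mkIdx g h) false = r ∧ C.rt (C.mkIdx g h) true = s := by
  obtain ⟨he, hr, hs⟩ := (C.exists_rep_pair g h).choose_spec.2
  obtain ⟨h1, h2⟩ := C.idx_data (C.exists_rep_pair g h).choose_spec.1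
  exact ⟨Subtype.ext (h1.trans he), h2 false r (by simpa [sb, rX, gr, compg_one] using hr), h2 true s hs⟩

theorem idx_ext {l l' : C.Idx} (he : C.sheet l = C.sheet l') (h0 : C.rt l false = C.rt l' false)
    (h1 : C.rt l true = C.rt l' true) : l = l' := by
  refine Subtype.ext ?_
  rw [← C.triple_rep l, ← C.triple_rep l']
  have a := C.rt_spec l false
  have a' := C.rt_spec l' false
  simp only [sb, rX, gr, compg_one] at a a'
  simp only [triple, Prod.mk.injEq]
  refine ⟨congrArg Subtype.val he, ?_, ?_⟩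
  · rw [a, a', h0]
  · exact (C.rt_spec l true).trans ((congrArg C.rX h1).trans (C.rt_spec l' true).symm)

theorem emb_eq_iff {l l' : C.Idx} (a : C.R) :
    C.emb l a = C.emb l' a ↔ compg (C.rep l) (a : ℍ → ℂ) = compg (C.rep l') (a : ℍ → ℂ) := by
  rw [← C.ser_trEl, ← C.ser_trEl, ser_injective.eq_iff, Subtype.ext_iff]
  rfl

theorem emb_etaR_iff {l l' : C.Idx} : C.emb l C.etaR = C.emb l' C.etaR ↔ C.sheet l = C.sheet l' := by
  rw [C.emb_eq_iff, Subtype.ext_iff]
  rfl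

theorem emb_xR_iff {l l' : C.Idx} (b : Bool) :
    C.emb l (C.xR b) = C.emb l' (C.xR b) ↔ C.rt l b = C.rt l' b := by
  rw [C.emb_eq_iff, show ((C.xR b : C.R) : ℍ → ℂ) = C.rX (C.sb b) from rfl, C.rt_spec, C.rt_spec,
    C.rX_injective.eq_iff]

theorem mem_fib' {b : Bool} {l l' : C.Idx} :
    l' ∈ C.fib b l ↔ C.sheet l' = C.sheet l ∧ C.rt l' b = C.rt l b := by
  rw [C.mem_fib, C.emb_etaR_iff, C.emb_xR_iff]

theorem prod_fib_roots {β : Type*} [CommMonoid β] (l : C.Idx) (G : Option (ZMod q) → β) (b : Bool)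
    (F : C.Idx → β) (hF : ∀ l' ∈ C.fib b l, F l' = G (C.rt l' !b)) :
    ∏ l' ∈ C.fib b l, F l' = ∏ s ∈ Finset.univ.erase (C.rt l b), G s := by
  refine Finset.prod_bij (fun l' _ => C.rt l' !b) (fun l' hl' => ?_) (fun x hx y hy hxy => ?_)
    (fun s hs => ?_) fun l' hl' => hF l' hl'
  · obtain ⟨-, h⟩ := C.mem_fib'.1 hl'
    exact Finset.mem_erase.2 ⟨fun he => C.rt_ne l' b (h.trans he.symm), Finset.mem_univ _⟩
  · obtain ⟨x1, x2⟩ := C.mem_fib'.1 hx
    obtain ⟨y1, y2⟩ := C.mem_fib'.1 hy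
    cases b
    · exact C.idx_ext (x1.trans y1.symm) (x2.trans y2.symm) hxy
    · exact C.idx_ext (x1.trans y1.symm) hxy (x2.trans y2.symm)
  · have hne := (Finset.mem_erase.1 hs).1
    cases b
    · obtain ⟨e1, e2, e3⟩ := C.mkIdx_data (C.sheet l) hne.symm
      exact ⟨_, C.mem_fib'.2 ⟨e1, e2⟩, e3⟩
    · obtain ⟨e1, e2, e3⟩ := C.mkIdx_data (C.sheet l) hne
      exact ⟨_, C.mem_fib'.2 ⟨e1, e3⟩, e2⟩

theorem prod_erase_none {β : Type*} [CommMonoid β] (G : Option (ZMod q) → β) (y : β)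
    (h : ∀ i, G (some i) = y) : ∏ s ∈ Finset.univ.erase none, G s = y ^ q := by
  have e : (Finset.univ : Finset (Option (ZMod q))).erase none =
      (Finset.univ : Finset (ZMod q)).map Embedding.some := by
    ext x; cases x <;> simp
  rw [e, Finset.prod_map, Finset.prod_congr rfl fun i _ => (show G (Embedding.some i) = y from h i),
    Finset.prod_const, Finset.card_univ, ZMod.card]

theorem prod_erase_some {β : Type*} [CommMonoid β] (G : Option (ZMod q) → β) (i : ZMod q) (x y : β)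
    (h0 : G none = x) (h : ∀ j, j ≠ i → G (some j) = y) :
    ∏ s ∈ Finset.univ.erase (some i), G s = x * y ^ (q - 1) := by
  have e : (Finset.univ : Finset (Option (ZMod q))).erase (some i) =
      Finset.insertNone ((Finset.univ : Finset (ZMod q)).erase i) := by
    ext x; cases x <;> simp
  rw [e, Finset.prod_insertNone, h0, Finset.prod_congr rfl fun j hj => h j (Finset.mem_erase.1 hj).1,
    Finset.prod_const, Finset.card_erase_of_mem (Finset.mem_univ i), Finset.card_univ, ZMod.card]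

/-- The index of a branch. -/
def lg (g : C.Sheet) (j : Fin 3) : C.Idx := C.idx (C.gm_mem g j)

theorem lg_data (g : C.Sheet) (j : Fin 3) :
    C.sheet (C.lg g j) = g ∧ ∀ b, C.rt (C.lg g j) b = C.kroot j b := by
  obtain ⟨h1, h2⟩ := C.idx_data (C.gm_mem g j)
  exact ⟨Subtype.ext (h1.trans (C.gm_eta g j)), fun b => h2 b _ (C.gm_root g j b)⟩

/-- Products over the fibres of functions of the kind. -/
theorem prod_fib_kind {β : Type*} [CommMonoid β] (g : C.Sheet) (F : C.Idx → β) (v : Fin 3 → β)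
    (h : ∀ l, C.sheet l = g → F l = v (C.kind l)) :
    (∏ l ∈ C.fib false (C.lg g 0), F l = v 0 ^ q) ∧
    (∏ l ∈ C.fib false (C.lg g 1), F l = v 2 * v 1 ^ (q - 1)) ∧
    (∏ l ∈ C.fib true (C.lg g 2), F l = v 2 ^ q) ∧
    (∏ l ∈ C.fib true (C.lg g 1), F l = v 0 * v 1 ^ (q - 1)) := by
  have hG : ∀ (j : Fin 3) (b : Bool), ∀ l ∈ C.fib b (C.lg g j), F l =
      v (if b then C.kindOf (C.rt l !b) (C.kroot j b) else C.kindOf (C.kroot j b) (C.rt l !b)) := by
    intro j b l hl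
    obtain ⟨e1, e2⟩ := C.mem_fib'.1 hl
    rw [h l (e1.trans (C.lg_data g j).1), ← (C.lg_data g j).2 b, ← e2]
    cases b <;> rfl
  refine ⟨?_, ?_, ?_, ?_⟩
  · rw [C.prod_fib_roots _ (fun s => v (C.kindOf none s)) false F
      (fun l hl => by simpa [kroot] using hG 0 false l hl), (C.lg_data g 0).2]
    exact prod_erase_none _ _ fun i => by simp [kindOf]
  · rw [C.prod_fib_roots _ (fun s => v (C.kindOf (some 0) s)) false F
      (fun l hl => by simpa [kroot] using hG 1 false l hl), (C.lg_data g 1).2]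
    exact prod_erase_some _ 0 _ _ (by simp [kindOf]) fun i _ => by simp [kindOf]
  · rw [C.prod_fib_roots _ (fun s => v (C.kindOf s none)) true F
      (fun l hl => by simpa [kroot] using hG 2 true l hl), (C.lg_data g 2).2]
    exact prod_erase_none _ _ fun i => by simp [kindOf]
  · rw [C.prod_fib_roots _ (fun s => v (C.kindOf s (some 1))) true F
      (fun l hl => by simpa [kroot] using hG 1 true l hl), (C.lg_data g 1).2]
    exact prod_erase_some _ 1 _ _ (by simp [kindOf]) fun i _ => by simp [kindOf]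

/-- The cover is generated by the coordinates, the level structure and inverses. -/
theorem mem_subring_of (T : Subring C.R) (hW : ∀ w, C.cW w ∈ T) (hy : C.yR ∈ T) (hd : C.dR ∈ T)
    (he : C.etaR ∈ T) (hr : C.rhoR ∈ T)
    (hb : ∀ b, C.xR b ∈ T ∧ C.wR b ∈ T ∧ C.vR b ∈ T ∧ C.uR b ∈ T) (a : C.R) : a ∈ T := by
  have hs : ∀ {f : ℍ → ℂ} (hf : f ∈ C.R) (z : C.R), (z : ℍ → ℂ) = f → z ∈ T →
      (⟨f, hf⟩ : C.R) ∈ T := by
    rintro f hf z rfl h
    exact h
  have hgr : C.gr none = 1 := rfl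
  obtain ⟨φ, hφ⟩ := a
  induction hφ using Subring.closure_induction with
  | mem f hf =>
    rcases hf with ⟨w, rfl⟩ | hf
    · exact hW w
    · rcases hf with rfl | rfl | rfl | rfl | rfl | rfl | rfl | rfl | rfl | rfl | rfl | rfl
      · exact hs _ C.yR rfl hy
      · exact hs _ C.dR rfl hd
      · exact hs _ C.etaR rfl he
      · exact hs _ C.rhoR rfl hr
      · exact hs _ (C.xR false) (by simp [xR, sb, rX, hgr, compg_one]) (hb false).1
      · exact hs _ (C.wR false) (by simp [wR, sb, rW, hgr, compg_one]) (hb false).2.1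
      · exact hs _ (C.vR false) (by simp [vR, sb, rV, hgr, compg_one]) (hb false).2.2.1
      · exact hs _ (C.uR false) (by simp [uR, sb, rU, hgr, compg_one]) (hb false).2.2.2
      · exact hs _ (C.xR true) rfl (hb true).1
      · exact hs _ (C.wR true) rfl (hb true).2.1
      · exact hs _ (C.vR true) rfl (hb true).2.2.1
      · exact hs _ (C.uR true) rfl (hb true).2.2.2
  | zero => exact T.zero_mem
  | one => exact T.one_mem
  | add x y hx hy ihx ihy => exact T.add_mem ihx ihy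
  | neg x hx ihx => exact T.neg_mem ihx
  | mul x y hx hy ihx ihy => exact T.mul_mem ihx ihy

end Ctx

namespace Res

variable {q M0 N' : ℕ} [NeZero M0] [NeZero N'] [NeZero q] [Fact q.Prime]
variable {C : Ctx q M0 N'} {k : Type} [Field k] (Ω : Res C k)

/-- The reduction on a branch. -/
def rs (g : C.Sheet) (j : Fin 3) : C.R →+* LaurentSeries k := Ω.red (C.gm g j)

theorem red_rep (l : C.Idx) : Ω.red (C.rep l) = Ω.rs (C.sheet l) (C.kind l) := by
  have a := C.rt_spec l false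
  have b := C.gm_root (C.sheet l) (C.kind l) false
  simp only [Ctx.sb, Ctx.rX, Ctx.gr, compg_one] at a b
  refine Ω.red_congr (C.rep_mem l) (C.gm_mem _ _) (C.gm_eta (C.sheet l) (C.kind l)).symm a b
    (C.rt_spec l true) (C.gm_root _ _ true) ?_ ?_ <;>
  · unfold Ctx.kind Ctx.kindOf
    have hne := C.rt_ne l false
    simp only [Bool.not_false] at hne
    rcases hr : C.rt l false with _ | x <;> rcases hs : C.rt l true with _ | y <;>
      simp_all [Ctx.kroot]

theorem rs_lg (g : C.Sheet) (j : Fin 3) (a : C.R) : Ω.rd (C.emb (C.lg g j) a) = Ω.rs g j a :=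
  congrArg Ω.rd (C.embAt_congr a (C.compg_rep_idx (C.gm_mem g j) a))

theorem rs_side (g : C.Sheet) (j : Fin 3) (b : Bool) :
    (C.kroot j b = none → Ω.rs g j (C.xR b) = Ω.bb ^ (q ^ 2) ∧ Ω.rs g j (C.vR b) = 0 ∧
      Ω.rs g j (C.wR b) = Ω.om) ∧
    (C.kroot j b ≠ none → Ω.rs g j (C.xR b) = Ω.bb ∧ Ω.rs g j (C.wR b) = 0 ∧
      Ω.rs g j (C.vR b) = Ω.nu) := by
  obtain ⟨r, h1, h2, h3, -⟩ := C.exists_root (mul_mem (C.gr_mem0 (C.sb b)) (C.gm_mem g j))
  have hr : r = C.kroot j b := C.rX_injective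
    (h1.symm.trans ((compg_compg _ _ _).symm.trans (C.gm_root g j b)))
  subst r
  have eX : C.embAt (C.gm g j) (C.xR b) = ser ⟨C.rX (C.kroot j b), C.rX_mem _⟩ :=
    C.embAt_eq _ _ (by rw [Ctx.rX, compg_compg]; exact h1)
  have eW : C.embAt (C.gm g j) (C.wR b) = ser ⟨C.rW (C.kroot j b), C.rW_mem _⟩ :=
    C.embAt_eq _ _ (by rw [Ctx.rW, compg_compg]; exact h2)
  have eV : C.embAt (C.gm g j) (C.vR b) = ser ⟨C.rV (C.kroot j b), C.rV_mem _⟩ :=
    C.embAt_eq _ _ (by rw [Ctx.rV, compg_compg]; exact h3)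
  simp only [rs, red, RingHom.comp_apply, eX, eW, eV, Ω.rd_rX]
  rcases C.kroot j b with _ | i
  · exact ⟨fun _ => ⟨if_pos rfl, Ω.rd_rV_none, Ω.rd_rW_none⟩, fun h => absurd rfl h⟩
  · exact ⟨fun h => absurd h (by simp), fun h => ⟨if_neg h, Ω.rd_rW_some i, Ω.rd_rV_some i⟩⟩

theorem rs_common (g : C.Sheet) (j j' : Fin 3) :
    Ω.rs g j C.yR = Ω.rs g j' C.yR ∧ Ω.rs g j C.etaR = Ω.rs g j' C.etaR ∧
      Ω.rs g j C.rhoR = Ω.rs g j' C.rhoR ∧ ∀ w, Ω.rs g j (C.cW w) = Ω.rs g j' (C.cW w) := by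
  refine ⟨?_, ?_, ?_, fun w => ?_⟩
  · rw [rs, rs, Ω.red_yR (C.gm_mem g j), Ω.red_yR (C.gm_mem g j')]
  · refine congrArg Ω.rd (C.embAt_congr _ ?_)
    show compg (C.gm g j) C.eta = compg (C.gm g j') C.eta
    rw [C.gm_eta, C.gm_eta]
  · refine congrArg Ω.rd (C.embAt_congr _ ?_)
    show compg (C.gm g j) (C.rhoOf C.eta) = compg (C.gm g j') (C.rhoOf C.eta)
    rw [C.compg_rhoOf (C.gm_mem g j), C.compg_rhoOf (C.gm_mem g j'), C.gm_eta, C.gm_eta]
  · rw [rs, rs, Ω.red_cW, Ω.red_cW]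

/-- The side carrying a coordinate on a kind. -/
def sd (_Ω : Res C k) (j : Fin 3) : Bool := if j = 0 then true else false

theorem kroot_sd (j : Fin 3) : C.kroot j (Ω.sd j) ≠ none := by
  fin_cases j <;> simp [sd, Ctx.kroot]

/-- Functions on another kind of branch lie in every field-like ring containing those of the given
one. -/
theorem transfer_aux {B : Type*} [CommRing B] (S : Subring B) (Φ Ψ : C.R →+* B)
    (hΨ : ∀ a, Ψ a ∈ S) (hinv : ∀ X Y, X ∈ S → X * Y = 1 → Y ∈ S)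
    (hcom : Φ C.yR = Ψ C.yR ∧ Φ C.etaR = Ψ C.etaR ∧ Φ C.rhoR = Ψ C.rhoR ∧
      ∀ w, Φ (C.cW w) = Ψ (C.cW w))
    (hb : ∀ b, Φ (C.xR b) ∈ S ∧ Φ (C.wR b) ∈ S ∧ Φ (C.vR b) ∈ S) (a : C.R) : Φ a ∈ S := by
  refine C.mem_subring_of (S.comap Φ) (fun w => ?_) ?_ ?_ ?_ ?_ (fun b => ?_) a
  · show Φ _ ∈ S; rw [hcom.2.2.2]; exact hΨ _
  · show Φ _ ∈ S; rw [hcom.1]; exact hΨ _
  · refine hinv (Φ (C.evR C.dltW)) _ ?_ (by rw [← map_mul, C.evR_dltW_mul_dR, map_one])
    rw [Ctx.evR, Polynomial.coe_eval₂RingHom, Polynomial.hom_eval₂, hcom.1,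
      show Φ.comp C.cW = Ψ.comp C.cW from RingHom.ext hcom.2.2.2, ← Polynomial.hom_eval₂]
    exact hΨ _
  · show Φ _ ∈ S; rw [hcom.2.1]; exact hΨ _
  · show Φ _ ∈ S; rw [hcom.2.2.1]; exact hΨ _
  · refine ⟨(hb b).1, (hb b).2.1, (hb b).2.2,
      hinv (Φ (C.dltW.eval₂ C.cW (C.xR b))) _ ?_ (by rw [← map_mul, C.dltW_x_mul_uR, map_one])⟩
    rw [Polynomial.eval₂_eq_sum_range, map_sum]
    exact S.sum_mem fun i _ => by
      rw [map_mul, map_pow, hcom.2.2.2]
      exact S.mul_mem (hΨ _) (S.pow_mem (hb b).1 i)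

/-- Functions on all sheets which are uniformly rational on one kind of branch. -/
def UF (j : Fin 3) : Subring (C.Sheet → LaurentSeries k) where
  carrier := {X | ∃ a d : C.R, ∀ g, Ω.rs g j d ≠ 0 ∧ Ω.rs g j d * X g = Ω.rs g j a}
  mul_mem' := by
    rintro X Y ⟨a, d, h⟩ ⟨a', d', h'⟩
    refine ⟨a * a', d * d', fun g => ⟨by rw [map_mul]; exact mul_ne_zero (h g).1 (h' g).1, ?_⟩⟩
    rw [Pi.mul_apply, map_mul, map_mul, ← (h g).2, ← (h' g).2]; ring
  one_mem' := ⟨1, 1, fun g => ⟨by simp, by simp⟩⟩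
  add_mem' := by
    rintro X Y ⟨a, d, h⟩ ⟨a', d', h'⟩
    refine ⟨a * d' + a' * d, d * d', fun g => ⟨by rw [map_mul]; exact mul_ne_zero (h g).1 (h' g).1, ?_⟩⟩
    rw [Pi.add_apply, map_mul, map_add, map_mul, map_mul, ← (h g).2, ← (h' g).2]; ring
  zero_mem' := ⟨0, 1, fun g => ⟨by simp, by simp⟩⟩
  neg_mem' := by
    rintro X ⟨a, d, h⟩
    exact ⟨-a, d, fun g => ⟨(h g).1, by rw [Pi.neg_apply, map_neg, ← (h g).2]; ring⟩⟩

theorem mem_UF {j : Fin 3} {X : C.Sheet → LaurentSeries k} :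
    X ∈ Ω.UF j ↔ ∃ a d : C.R, ∀ g, Ω.rs g j d ≠ 0 ∧ Ω.rs g j d * X g = Ω.rs g j a := Iff.rfl

theorem UF_inv {j : Fin 3} {X : C.Sheet → LaurentSeries k} (h : X ∈ Ω.UF j) (hX : ∀ g, X g ≠ 0) :
    (fun g => (X g)⁻¹) ∈ Ω.UF j := by
  obtain ⟨a, d, h⟩ := h
  refine ⟨d, a, fun g => ?_⟩
  obtain ⟨h1, h2⟩ := h g
  refine ⟨h2 ▸ mul_ne_zero h1 (hX g), ?_⟩
  rw [← h2, mul_assoc, mul_inv_cancel₀ (hX g), mul_one]

theorem rs_mem_UF (j : Fin 3) (a : C.R) : (fun g => Ω.rs g j a) ∈ Ω.UF j :=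
  ⟨a, 1, fun g => ⟨by simp, by simp⟩⟩

/-- Rationality on another kind of branch. -/
theorem UF_transfer (j j' : Fin 3) (a : C.R) : (fun g => Ω.rs g j' a) ∈ Ω.UF j := by
  refine transfer_aux (Ω.UF j) (RingHom.pi fun g => Ω.rs g j') (RingHom.pi fun g => Ω.rs g j)
    (Ω.rs_mem_UF j) (fun X Y hX hXY => ?_)
    ⟨funext fun g => (Ω.rs_common g j' j).1, funext fun g => (Ω.rs_common g j' j).2.1,
      funext fun g => (Ω.rs_common g j' j).2.2.1, fun w => funext fun g => (Ω.rs_common g j' j).2.2.2 w⟩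
    (fun b => ?_) a
  · have h1 : ∀ g, X g * Y g = 1 := fun g => congrFun hXY g
    convert Ω.UF_inv hX (fun g => left_ne_zero_of_mul_eq_one (h1 g)) using 1
    exact funext fun g => eq_inv_of_mul_eq_one_right (h1 g)
  · have hbb : (fun _ : C.Sheet => Ω.bb) ∈ Ω.UF j := by
      convert Ω.rs_mem_UF j (C.xR (Ω.sd j)) using 1
      exact funext fun g => (((Ω.rs_side g j (Ω.sd j)).2 (Ω.kroot_sd j)).1).symm
    have hnu : (fun _ : C.Sheet => Ω.nu) ∈ Ω.UF j := by
      convert Ω.rs_mem_UF j (C.vR (Ω.sd j)) using 1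
      exact funext fun g => (((Ω.rs_side g j (Ω.sd j)).2 (Ω.kroot_sd j)).2.2).symm
    by_cases hr : C.kroot j' b = none
    · refine ⟨?_, ?_, ?_⟩
      · convert (Ω.UF j).pow_mem hbb (q ^ 2) using 1
        exact funext fun g => ((Ω.rs_side g j' b).1 hr).1
      · convert (Ω.UF j).pow_mem hnu q using 1
        funext g
        rw [Pi.pow_apply, Ω.nu_pow]
        exact ((Ω.rs_side g j' b).1 hr).2.2
      · convert (Ω.UF j).zero_mem using 1
        exact funext fun g => ((Ω.rs_side g j' b).1 hr).2.1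
    · refine ⟨?_, ?_, ?_⟩
      · convert hbb using 1
        exact funext fun g => ((Ω.rs_side g j' b).2 hr).1
      · convert (Ω.UF j).zero_mem using 1
        exact funext fun g => ((Ω.rs_side g j' b).2 hr).2.1
      · convert hnu using 1
        exact funext fun g => ((Ω.rs_side g j' b).2 hr).2.2

end Res

namespace Pt

variable {q M0 N' : ℕ} [NeZero M0] [NeZero N'] [NeZero q] [Fact q.Prime]
variable {C : Ctx q M0 N'} {k : Type} [Field k] {Ω : Res C k} (p : Pt Ω)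

/-- Series with a value at a point along a branch. -/
def EV (g : C.Sheet) (j : Fin 3) : Subring (LaurentSeries k × k) where
  carrier := {X | ∃ a d : C.R, p.π d ≠ 0 ∧ Ω.rs g j d * X.1 = Ω.rs g j a ∧ p.π d * X.2 = p.π a}
  mul_mem' := by
    rintro X Y ⟨a, d, h0, h1, h2⟩ ⟨a', d', h0', h1', h2'⟩
    refine ⟨a * a', d * d', by rw [map_mul]; exact mul_ne_zero h0 h0', ?_, ?_⟩
    · rw [Prod.fst_mul, map_mul, map_mul, ← h1, ← h1']; ring
    · rw [Prod.snd_mul, map_mul, map_mul, ← h2, ← h2']; ring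
  one_mem' := ⟨1, 1, by simp, by simp, by simp⟩
  add_mem' := by
    rintro X Y ⟨a, d, h0, h1, h2⟩ ⟨a', d', h0', h1', h2'⟩
    refine ⟨a * d' + a' * d, d * d', by rw [map_mul]; exact mul_ne_zero h0 h0', ?_, ?_⟩
    · rw [Prod.fst_add, map_mul, map_add, map_mul, map_mul, ← h1, ← h1']; ring
    · rw [Prod.snd_add, map_mul, map_add, map_mul, map_mul, ← h2, ← h2']; ring
  zero_mem' := ⟨0, 1, by simp, by simp, by simp⟩
  neg_mem' := by
    rintro X ⟨a, d, h0, h1, h2⟩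
    exact ⟨-a, d, h0, by rw [Prod.fst_neg, map_neg, ← h1]; ring, by rw [Prod.snd_neg, map_neg, ← h2]; ring⟩

theorem mem_EV {g : C.Sheet} {j : Fin 3} {X : LaurentSeries k × k} :
    X ∈ p.EV g j ↔ ∃ a d : C.R, p.π d ≠ 0 ∧ Ω.rs g j d * X.1 = Ω.rs g j a ∧ p.π d * X.2 = p.π a :=
  Iff.rfl

theorem ev_self (g : C.Sheet) (j : Fin 3) (a : C.R) : (Ω.rs g j a, p.π a) ∈ p.EV g j :=
  ⟨a, 1, by simp, by simp, by simp⟩

variable {g : C.Sheet} {j : Fin 3} (hle : RingHom.ker (Ω.rs g j) ≤ p.ideal)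
include hle

theorem rs_ne {a : C.R} (h : p.π a ≠ 0) : Ω.rs g j a ≠ 0 := fun h0 =>
  h (p.mem_ideal.1 (hle h0))

theorem ev_unique {x : LaurentSeries k} {e e' : k} (h : (x, e) ∈ p.EV g j)
    (h' : (x, e') ∈ p.EV g j) : e = e' := by
  obtain ⟨a, d, h0, h1, h2⟩ := h
  obtain ⟨a', d', h0', h1', h2'⟩ := h'
  have h3 : p.π (a * d' - a' * d) = 0 := p.mem_ideal.1 (hle (by
    rw [RingHom.mem_ker, map_sub, map_mul, map_mul, ← h1, ← h1']; ring))
  rw [map_sub, map_mul, map_mul, ← h2, ← h2', sub_eq_zero] at h3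
  exact mul_left_cancel₀ (mul_ne_zero h0 h0') (by linear_combination h3)

theorem ev_ne {X : LaurentSeries k × k} (h : X ∈ p.EV g j) (he : X.2 ≠ 0) : X.1 ≠ 0 := by
  obtain ⟨a, d, h0, h1, h2⟩ := h
  intro hx
  rw [hx, mul_zero] at h1
  exact p.rs_ne hle (h2 ▸ mul_ne_zero h0 he) h1.symm

theorem ev_inv {X : LaurentSeries k × k} (h : X ∈ p.EV g j) (he : X.2 ≠ 0) :
    (X.1⁻¹, X.2⁻¹) ∈ p.EV g j := by
  have hx := p.ev_ne hle h he
  obtain ⟨a, d, h0, h1, h2⟩ := h
  refine ⟨d, a, h2 ▸ mul_ne_zero h0 he, ?_, ?_⟩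
  · rw [← h1, mul_assoc, mul_inv_cancel₀ hx, mul_one]
  · rw [← h2, mul_assoc, mul_inv_cancel₀ he, mul_one]

/-- Evaluation on the other kinds of branches at a supersingular point. -/
theorem ev_transfer (E : Eqs Ω) (hss : p.π E.OmR = 0) (j' : Fin 3) (a : C.R) :
    (Ω.rs g j' a, p.π a) ∈ p.EV g j := by
  refine Res.transfer_aux (p.EV g j) ((Ω.rs g j').prod p.π) ((Ω.rs g j).prod p.π) (p.ev_self g j)
    (fun X Y hX hXY => ?_) ?_ (fun b => ?_) a
  · obtain ⟨e1, e2⟩ := Prod.ext_iff.1 hXY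
    convert p.ev_inv hle hX (left_ne_zero_of_mul_eq_one e2) using 1
    exact Prod.ext (eq_inv_of_mul_eq_one_right e1) (eq_inv_of_mul_eq_one_right e2)
  · obtain ⟨c1, c2, c3, c4⟩ := Ω.rs_common g j' j
    exact ⟨Prod.ext c1 rfl, Prod.ext c2 rfl, Prod.ext c3 rfl, fun w => Prod.ext (c4 w) rfl⟩
  · set s := Ω.sd j
    obtain ⟨hx, hw0, hv⟩ := (Ω.rs_side g j s).2 (Ω.kroot_sd j)
    obtain ⟨a1, a2⟩ := E.π_L p hss s
    obtain ⟨b1, b2⟩ := E.π_L p hss b
    obtain ⟨sw, sv⟩ := p.side_zero E hss s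
    obtain ⟨tw, tv⟩ := p.side_zero E hss b
    have hbb : (Ω.bb, p.π (C.xR s)) ∈ p.EV g j := hx ▸ p.ev_self g j _
    have hnu : (Ω.nu, (0 : k)) ∈ p.EV g j := sv ▸ hv ▸ p.ev_self g j _
    by_cases hr : C.kroot j' b = none
    · obtain ⟨t1, t2, t3⟩ := (Ω.rs_side g j' b).1 hr
      refine ⟨?_, ?_, ?_⟩
      · convert (p.EV g j).pow_mem hbb (q ^ 2) using 1
        refine Prod.ext t1 ?_
        show p.π (C.xR b) = p.π (C.xR s) ^ (q ^ 2)
        rw [pow_two, pow_mul, a1, b2]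
      · convert (p.EV g j).pow_mem hnu q using 1
        exact Prod.ext (t3.trans Ω.nu_pow.symm) (tw.trans (zero_pow (NeZero.ne q)).symm)
      · convert (p.EV g j).zero_mem using 1
        exact Prod.ext t2 tv
    · obtain ⟨t1, t2, t3⟩ := (Ω.rs_side g j' b).2 hr
      refine ⟨?_, ?_, ?_⟩
      · convert hbb using 1
        exact Prod.ext t1 (b2.trans a2.symm)
      · convert (p.EV g j).zero_mem using 1
        exact Prod.ext t2 tw
      · convert hnu using 1
        exact Prod.ext t3 tv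

end Pt

end FLTAgent.Carayol
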