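import Fermat.Agent.Carayol.Jet

/-!
# Supersingular points
-/

set_option autoImplicit false
set_option linter.unusedSectionVars false
set_option linter.style.haveILetI false

noncomputable section

open UpperHalfPlane hiding I I_re I_im
open Filter Topology Complex Function FLTAgent.ModEq FLTAgent.GoodModel ModularCurve
open scoped MatrixGroups Manifold Classical

namespace FLTAgent.Carayol

variable {q M0 N' : ℕ} [NeZero M0] [NeZero N'] [NeZero q] [Fact q.Prime]
variable {C : Ctx q M0 N'} {k : Type} [Field k]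

namespace Eqs

variable {Ω : Res C k} (E : Eqs Ω)

/-- The power of the discriminant in the equations. -/
def Dv : C.R := C.evR C.dltW ^ E.s

/-- Its derivative. -/
def Dd : C.R := C.evR (Polynomial.derivative (C.dltW ^ E.s))

/-- The value of the error term. -/
def Hv (b : Bool) : C.R := bv C.cW C.yR (C.xR b) E.H

/-- Its derivatives. -/
def HX (b : Bool) : C.R := bv C.cW C.yR (C.xR b) (Polynomial.derivative E.H)

/-- Its derivatives. -/
def HY (b : Bool) : C.R := bv C.cW C.yR (C.xR b) (dInner E.H)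

theorem natCast_q_ne : (q : C.R) ≠ 0 := fun h => NeZero.ne q (by
  have := congrArg (fun z : C.R => (z : ℍ → ℂ) UpperHalfPlane.I) h
  simpa using this)

theorem kron' (b : Bool) :
    E.Dv * ((C.xR b ^ q - C.yR) * (C.xR b - C.yR ^ q)) + (q : C.R) * E.Hv b = 0 := E.kron b

theorem first' (b : Bool) :
    (q : C.R) * (E.Dv * ((q : C.R) * C.xR b ^ (q - 1) * (C.xR b - C.yR ^ q) + (C.xR b ^ q - C.yR)) +
        (q : C.R) * E.HX b) +
      C.wR b * (E.Dd * ((C.xR b ^ q - C.yR) * (C.xR b - C.yR ^ q)) +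
        E.Dv * (-((C.xR b - C.yR ^ q)) - (q : C.R) * C.yR ^ (q - 1) * (C.xR b ^ q - C.yR)) +
        (q : C.R) * E.HY b) = 0 ∧
    (q : C.R) * (E.Dd * ((C.xR b ^ q - C.yR) * (C.xR b - C.yR ^ q)) +
        E.Dv * (-((C.xR b - C.yR ^ q)) - (q : C.R) * C.yR ^ (q - 1) * (C.xR b ^ q - C.yR)) +
        (q : C.R) * E.HY b) +
      C.vR b * (E.Dv * ((q : C.R) * C.xR b ^ (q - 1) * (C.xR b - C.yR ^ q) + (C.xR b ^ q - C.yR)) +
        (q : C.R) * E.HX b) = 0 := by
  have h := E.first b
  rw [E.derX b, Res.dInner_kron, map_pow C.evR] at h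
  exact h

/-- The relation for the slope near a supersingular point. -/
theorem eq_w (b : Bool) :
    E.Dv ^ 2 * (C.xR b ^ q - C.yR) ^ 2 + (q : C.R) * (C.xR b ^ q - C.yR) * E.Dv *
        (E.Dv * C.xR b ^ (q - 1) * (C.xR b - C.yR ^ q) + E.HX b) +
      C.wR b * (E.Hv b * E.Dv + (C.xR b ^ q - C.yR) * (E.HY b * E.Dv - E.Hv b * E.Dd) -
        E.Dv ^ 2 * C.yR ^ (q - 1) * (C.xR b ^ q - C.yR) ^ 2) = 0 := by
  refine mul_left_cancel₀ (natCast_q_ne (C := C)) ?_
  rw [mul_zero]
  linear_combination (E.Dv * (C.xR b ^ q - C.yR)) * (E.first' b).1 +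
    (C.wR b * (E.Dv - (C.xR b ^ q - C.yR) * E.Dd)) * E.kron' b

/-- The relation for the dual slope near a supersingular point. -/
theorem eq_v (b : Bool) :
    -((q : C.R) * E.Hv b * (C.xR b - C.yR ^ q) * E.Dd) - E.Dv ^ 2 * (C.xR b - C.yR ^ q) ^ 2 +
        (q : C.R) ^ 2 * E.Dv * E.Hv b * C.yR ^ (q - 1) +
        (q : C.R) * E.Dv * E.HY b * (C.xR b - C.yR ^ q) +
      C.vR b * (E.Dv * (E.Dv * C.xR b ^ (q - 1) * (C.xR b - C.yR ^ q) ^ 2 - E.Hv b +
        E.HX b * (C.xR b - C.yR ^ q))) = 0 := by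
  refine mul_left_cancel₀ (natCast_q_ne (C := C)) ?_
  rw [mul_zero]
  linear_combination (E.Dv * (C.xR b - C.yR ^ q)) * (E.first' b).2 +
    (-((q : C.R) * (C.xR b - C.yR ^ q) * E.Dd) + (q : C.R) ^ 2 * E.Dv * C.yR ^ (q - 1) -
      C.vR b * E.Dv) * E.kron' b

theorem π_Dv (p : Pt Ω) : p.π E.Dv ≠ 0 := by
  rw [Dv, map_pow]; exact pow_ne_zero _ p.π_dlt

theorem π_L (p : Pt Ω) (h : p.π E.OmR = 0) (b : Bool) :
    p.π (C.xR b) ^ q = p.π C.yR ∧ p.π (C.xR b) = p.π C.yR ^ q := by
  obtain ⟨hw, hv⟩ := p.side_zero E h b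
  have h1 := congrArg p.π (E.eq_w b)
  have h2 := congrArg p.π (E.eq_v b)
  simp only [map_add, map_sub, map_neg, map_mul, map_pow, map_zero, p.π_q, hw, hv, zero_mul,
    zero_pow two_ne_zero, neg_zero, add_zero, zero_sub, neg_eq_zero] at h1 h2
  exact ⟨sub_eq_zero.1 (eq_zero_of_pow_eq_zero ((mul_eq_zero.1 h1).resolve_left
      (pow_ne_zero 2 (E.π_Dv p)))),
    sub_eq_zero.1 (eq_zero_of_pow_eq_zero ((mul_eq_zero.1 h2).resolve_left
      (pow_ne_zero 2 (E.π_Dv p))))⟩

/-- The error term does not vanish at supersingular points. -/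
theorem π_Hv_ne (p : Pt Ω) (h : p.π E.OmR = 0) (b : Bool) : p.π (E.Hv b) ≠ 0 := by
  haveI := Ω.charK
  intro hH
  obtain ⟨hL, hL'⟩ := E.π_L p h b
  set a := p.π C.yR
  set φ := Ω.φW
  set ev : Polynomial k →+* LaurentSeries k := Polynomial.eval₂RingHom HahnSeries.C (Ω.bb ^ q)
  set d : Polynomial k := (C.dltW ^ E.s).map φ with hd
  set g : Polynomial k := (E.G.coeff q).map φ with hg
  set P1 : Polynomial (Polynomial C.W) → Polynomial k := fun P =>
    bv (Polynomial.C.comp φ) Polynomial.X (Polynomial.X ^ q) P with hP1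
  set H1 := P1 E.H with hH1
  set ell : Polynomial k := Polynomial.X ^ (q ^ 2) - Polynomial.X with hell
  -- the branch of Frobenius
  obtain ⟨r, hr, hnone, -⟩ := Ω.red_cases (one_mem (CongruenceSubgroup.Gamma M0)) false
  obtain rfl : r = none := by
    rw [compg_one] at hr
    exact (C.rX_injective hr).symm
  obtain ⟨hx, hv, hw⟩ := hnone rfl
  have hy : Ω.red 1 C.yR = Ω.bb ^ q := Ω.red_yR (one_mem _)
  have hev : ∀ P, Ω.red 1 (C.evR P) = ev (P.map φ) := fun P => Ω.red_of_evY (one_mem _) P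
  have hbv : ∀ P, Ω.red 1 (bv C.cW C.yR (C.xR false) P) = ev (P1 P) := by
    intro P
    have hcomp : (Ω.red 1).comp C.cW = ev.comp (Polynomial.C.comp φ) := RingHom.ext fun w => by
      simp only [RingHom.comp_apply, Ω.red_cW, ev, Polynomial.coe_eval₂RingHom, Polynomial.eval₂_C]
      rfl
    rw [hP1, map_bv, map_bv, hy, hx, hy, hcomp]
    simp only [ev, map_pow, Polynomial.coe_eval₂RingHom, Polynomial.eval₂_X]
  have hDv : Ω.red 1 E.Dv = ev d := by rw [Dv, ← map_pow C.evR, hev, hd]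
  have hDd : Ω.red 1 E.Dd = ev (Polynomial.derivative d) := by
    rw [Dd, hev, hd, Polynomial.derivative_map]
  have hom : ev d * Ω.om = -(ev g) := by
    rw [hg, ← hev (E.G.coeff q), E.G_top 1 (one_mem _), hd, ← hev (C.dltW ^ E.s), map_pow, map_pow, neg_neg]
  have hY1 : Polynomial.derivative H1 = P1 (dInner E.H) := by
    rw [hH1, hP1, derivative_bv, Polynomial.derivative_X_pow, Polynomial.derivative_X,
      CharP.cast_eq_zero, map_zero, zero_mul, mul_zero, zero_add, mul_one]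
  -- the identity of polynomials
  have key := congrArg (Ω.red 1) (E.eq_w false)
  simp only [map_add, map_sub, map_mul, map_pow, map_zero, Ω.red_natCast, zero_mul, add_zero,
    hx, hw, hy, hDv, hDd, Eqs.Hv, Eqs.HY, hbv, ← hY1, ← hH1] at key
  have hpow : ((Ω.bb ^ q) ^ q) ^ q - Ω.bb ^ q = ev ell := by
    simp only [hell, ev, map_sub, map_pow, Polynomial.coe_eval₂RingHom, Polynomial.eval₂_sub,
      Polynomial.eval₂_pow, Polynomial.eval₂_X]
    rw [← pow_mul, ← pow_two]
  have hYq : (Ω.bb ^ q) ^ (q - 1) = ev (Polynomial.X ^ (q - 1)) := by simp [ev]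
  rw [hpow, hYq] at key
  have hinj : Injective ev := by
    rw [injective_iff_map_eq_zero]
    intro P hP
    refine not_eval₂_eq_zero ?_ Ω.leadAt_base hP
    simp [NeZero.ne q, NeZero.ne N']
  have hpoly : d ^ 3 * ell ^ 2 - g * (H1 * d + ell * (Polynomial.derivative H1 * d -
      H1 * Polynomial.derivative d) - d ^ 2 * Polynomial.X ^ (q - 1) * ell ^ 2) = 0 := by
    refine hinj ?_
    simp only [map_pow] at key
    simp only [map_sub, map_add, map_mul, map_pow, map_zero]
    linear_combination (ev d) * key - (ev H1 * ev d + ev ell * (ev (Polynomial.derivative H1) * ev d -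
      ev H1 * ev (Polynomial.derivative d)) - ev d ^ 2 * ev Polynomial.X ^ (q - 1) * ev ell ^ 2) * hom
  -- orders of vanishing at the point
  have hda : d.eval a ≠ 0 := by
    rw [hd, ← p.π_evR, map_pow C.evR]; exact E.π_Dv p
  have hga : g.IsRoot a := by
    have h1 : p.π (C.evR (E.G.coeff q)) * p.π C.dR ^ E.s = 0 := by
      rw [← map_pow, ← map_mul, ← neg_eq_zero, ← map_neg]; exact h
    have hdR : p.π C.dR ≠ 0 := fun h0 => by
      have := congrArg p.π C.evR_dltW_mul_dR
      rw [map_mul, h0, mul_zero, map_one] at this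
      exact zero_ne_one this
    rw [Polynomial.IsRoot, hg, ← p.π_evR]
    exact (mul_eq_zero.1 h1).resolve_right (pow_ne_zero _ hdR)
  have hHa : H1.IsRoot a := by
    rw [Polynomial.IsRoot, ← Polynomial.coe_evalRingHom, hH1, hP1, map_bv]
    rw [Eqs.Hv, map_bv, hL'] at hH
    simp only [Polynomial.coe_evalRingHom, Polynomial.eval_X, Polynomial.eval_pow]
    rw [← hH, p.comp]
    rw [show (Polynomial.evalRingHom a).comp (Polynomial.C.comp φ) = φ from
      RingHom.ext fun w => by simp]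
  have hla : ell.IsRoot a := by
    rw [Polynomial.IsRoot, hell]
    simp only [Polynomial.eval_sub, Polynomial.eval_pow, Polynomial.eval_X]
    rw [pow_two, pow_mul, ← hL', hL, sub_self]
  obtain ⟨g1, hg1⟩ := Polynomial.dvd_iff_isRoot.2 hga
  obtain ⟨h1, hh1⟩ := Polynomial.dvd_iff_isRoot.2 hHa
  obtain ⟨l1, hl1⟩ := Polynomial.dvd_iff_isRoot.2 hla
  have hh1a : (Polynomial.derivative H1).eval a = h1.eval a := by simp [hh1]
  have hl1a : l1.eval a = -1 := by
    have e1 : (Polynomial.derivative ell).eval a = l1.eval a := by simp [hl1]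
    rw [← e1, hell]
    simp [Polynomial.derivative_X_pow, CharP.cast_eq_zero, NeZero.ne q, zero_pow]
  set Br := h1 * d + l1 * (Polynomial.derivative H1 * d - H1 * Polynomial.derivative d) -
    d ^ 2 * Polynomial.X ^ (q - 1) * ell * l1 with hBr
  have hBra : Br.IsRoot a := by
    rw [Polynomial.IsRoot, hBr]
    simp only [Polynomial.eval_add, Polynomial.eval_sub, Polynomial.eval_mul, Polynomial.eval_pow,
      Polynomial.eval_X, hHa.eq_zero, hla.eq_zero, hh1a, hl1a]
    ring
  obtain ⟨br, hbr⟩ := Polynomial.dvd_iff_isRoot.2 hBra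
  set t := Polynomial.X - Polynomial.C a
  have h3 : t ^ 2 * (d ^ 3 * l1 ^ 2) = t ^ 2 * (t * (g1 * br)) := by
    linear_combination hpoly + (d ^ 3 * (-(ell + t * l1)) + g * (Polynomial.derivative H1 * d -
      H1 * Polynomial.derivative d) - g * d ^ 2 * Polynomial.X ^ (q - 1) * ell) * hl1 +
      (g * d) * hh1 + (t * Br) * hg1 + (t ^ 2 * g1) * hbr +
      (g * t) * hBr
  have h4 := congrArg (Polynomial.eval a) (mul_left_cancel₀
    (pow_ne_zero 2 (Polynomial.X_sub_C_ne_zero a)) h3)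
  simp [t, hl1a, hda] at h4

end Eqs

end FLTAgent.Carayol
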